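import Mathlib
import Fermat.Prelude.Def_FLTPrelim_Modularity
import Fermat.Prelude.Def_ModularCurve_ModularUnit
import Fermat.Prelude.Def_ModularForm_HeckeOperator

/-!
# S16: common definitions

* `phiZ = Σ σ₁(n) qⁿ`, `e2Z = 1 - 24 φ = E₂`, `deltaZ = Δ`, `sigmaP p n = Σ_{d ∣ n, p ∤ d} d`
* `HasQ f A` : the `q`-expansion of `f : ℍ → ℂ` is the integral power series `A`
* operators on integral power series: `vOp m` (`q ↦ q^m`), `uOp m` (`a_n ↦ a_{nm}`), `thetaOp`.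
-/

set_option autoImplicit false

open UpperHalfPlane MatrixGroups

open scoped ModularForm

noncomputable section

namespace Fermat.Agent.Eis

/-- `σ'(n)` = sum of the divisors of `n` prime to `p` (zero for `n = 0`). -/
def sigmaP (p n : ℕ) : ℤ := ∑ d ∈ n.divisors with ¬ p ∣ d, (d : ℤ)

/-- `φ = Σ_{n ≥ 1} σ₁(n) qⁿ`. -/
def phiZ : PowerSeries ℤ := PowerSeries.mk fun n => ∑ d ∈ n.divisors, (d : ℤ)

/-- `δ̃ = Σ_{n ≥ 1} σ'(n) qⁿ`. -/
def sigmaPZ (p : ℕ) : PowerSeries ℤ := PowerSeries.mk fun n => sigmaP p n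

/-- `E₂ = 1 - 24 φ`. -/
def e2Z : PowerSeries ℤ := 1 - 24 * phiZ

/-- `Δ = q ∏ (1 - qⁿ)^24`. -/
def deltaZ : PowerSeries ℤ := PowerSeries.X * ModularCurve.dedekindEtaUnit

/-- `q ↦ q^m`. -/
def vOp (m : ℕ) (A : PowerSeries ℤ) : PowerSeries ℤ :=
  PowerSeries.mk fun n => if m ∣ n then A.coeff (n / m) else 0

/-- `a_n ↦ a_{nm}`. -/
def uOp (m : ℕ) (A : PowerSeries ℤ) : PowerSeries ℤ := PowerSeries.mk fun n => A.coeff (n * m)

/-- `θ = q d/dq`. -/
def thetaOp (A : PowerSeries ℤ) : PowerSeries ℤ := PowerSeries.mk fun n => (n : ℤ) * A.coeff n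

/-- The `q`-expansion of `f` is the integral power series `A`. -/
def HasQ (f : ℍ → ℂ) (A : PowerSeries ℤ) : Prop :=
  ∀ n : ℕ, ModularFormClass.qCoeff f n = ((A.coeff n : ℤ) : ℂ)

/-- A pair `(A, B)` of integral power series is an *integral pair* of weight `2j` at level `p` if
there is `f ∈ M_{2j}(Γ₀(p))` with `q`-expansion `A` whose Atkin–Lehner transform
`f♭(τ) = p^j (f|S)(pτ)` (also in `M_{2j}(Γ₀(p))`) has `q`-expansion `B`. -/
def IsPair (p j : ℕ) (A B : PowerSeries ℤ) : Prop :=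
  ∃ f g : ModularForm (CongruenceSubgroup.Gamma0 p) (2 * (j : ℤ)), HasQ f A ∧ HasQ g B ∧
    ∀ τ : ℍ, g τ = (p : ℂ) ^ j * ((f : ℍ → ℂ) ∣[(2 * (j : ℤ))] ModularGroup.S)
      (ModularForm.heckeDiagMatrix p • τ)

end Fermat.Agent.Eis
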