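import Mathlib

set_option autoImplicit false

open Complex
open scoped Real

noncomputable section

namespace Fermat.Agent.Eis.ThetaK

section Gauss

variable {F : Type} [Field F] [Fintype F] [DecidableEq F]

/-- the complex-valued quadratic character. -/
def chiC (F : Type) [Field F] [Fintype F] [DecidableEq F] : MulChar F ℂ :=
  (quadraticChar F).ringHomComp (Int.castRingHom ℂ)

lemma chiC_apply (a : F) : chiC F a = ((quadraticChar F a : ℤ) : ℂ) := rfl

lemma sum_sq (hF : ringChar F ≠ 2) {ψ : AddChar F ℂ} (hψ : ψ ≠ 0) :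
    ∑ x : F, ψ (x ^ 2) = gaussSum (chiC F) ψ := by
  have h1 : ∑ x : F, ψ (x ^ 2) = ∑ t : F, ∑ x ∈ Finset.univ.filter (fun x : F => x ^ 2 = t), ψ t := by
    rw [← Finset.sum_fiberwise (s := Finset.univ) (g := fun x : F => x ^ 2)]
    refine Finset.sum_congr rfl fun t _ => Finset.sum_congr rfl fun x hx => ?_
    rw [(Finset.mem_filter.1 hx).2]
  have h2 : ∀ t : F, ∑ x ∈ Finset.univ.filter (fun x : F => x ^ 2 = t), ψ t =
      chiC F t * ψ t + ψ t := by
    intro t
    rw [Finset.sum_const, nsmul_eq_mul]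
    have := quadraticChar_card_sqrts hF t
    have h3 : ((Finset.univ.filter (fun x : F => x ^ 2 = t)).card : ℤ) = quadraticChar F t + 1 := by
      rw [← this]
      congr 2
      ext x
      simp
    have h4 : ((Finset.univ.filter (fun x : F => x ^ 2 = t)).card : ℂ) = chiC F t + 1 := by
      rw [chiC_apply]
      exact_mod_cast h3
    rw [h4]
    ring
  rw [h1]
  simp_rw [h2]
  rw [Finset.sum_add_distrib, AddChar.sum_eq_zero_of_ne_one hψ, add_zero, gaussSum]

omit [Fintype F] [DecidableEq F] in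
lemma mulShift_ne {ψ : AddChar F ℂ} (hψ : ψ ≠ 1) {a : F} (ha : a ≠ 0) :
    AddChar.mulShift ψ a ≠ 1 := (AddChar.IsPrimitive.of_ne_one hψ) ha

lemma chiC_mul_sum (hF : ringChar F ≠ 2) {ψ : AddChar F ℂ} (hψ : ψ ≠ 1) {a : F} (ha : a ≠ 0) :
    chiC F a * ∑ x : F, ψ (a * x ^ 2) = gaussSum (chiC F) ψ := by
  have h := sum_sq hF (mulShift_ne hψ ha)
  simp only [AddChar.mulShift_apply] at h
  rw [h]
  exact gaussSum_mulShift (chiC F) ψ (Units.mk0 a ha)

lemma chiC_sq {a : F} (ha : a ≠ 0) : chiC F a * chiC F a = 1 := by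
  rw [chiC_apply, ← Int.cast_mul, ← sq, quadraticChar_sq_one ha]
  simp

lemma gauss_sq (hF : ringChar F ≠ 2) {ψ : AddChar F ℂ} (hψ : ψ ≠ 1) :
    gaussSum (chiC F) ψ * gaussSum (chiC F) ψ = chiC F (-1) * Fintype.card F := by
  rw [← sq]
  refine gaussSum_sq ?_ ?_ (AddChar.IsPrimitive.of_ne_one hψ)
  · intro h
    apply quadraticChar_ne_one hF
    ext a
    have := congrArg (fun χ : MulChar F ℂ => χ a) h
    simp only [chiC_apply] at this
    have h1 : (1 : MulChar F ℂ) a = ((1 : MulChar F ℤ) a : ℤ) := by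
      simp [MulChar.one_apply_coe]
    rw [h1] at this
    exact_mod_cast this
  · exact (quadraticChar_isQuadratic F).comp _

/-- the two-dimensional Gauss sum. -/
lemma gauss_two (hF : ringChar F ≠ 2) {ψ : AddChar F ℂ} (hψ : ψ ≠ 1) {b q k : F} (hb : b ≠ 0)
    (hq : q ≠ 0) (hk : 4 * k = q + 1) :
    ∑ u : F × F, ψ (b * (u.1 ^ 2 + u.1 * u.2 + k * u.2 ^ 2)) =
      chiC F (-q) * Fintype.card F := by
  have h2 : (2 : F) ≠ 0 := Ring.two_ne_zero hF
  have h4 : (4 : F) ≠ 0 := by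
    have : (4 : F) = 2 * 2 := by norm_num
    rw [this]; exact mul_ne_zero h2 h2
  -- substitution `x ↦ x - y/2`
  let e : F × F ≃ F × F :=
    { toFun := fun u => (u.1 - u.2 / 2, u.2)
      invFun := fun u => (u.1 + u.2 / 2, u.2)
      left_inv := fun u => by ext <;> simp
      right_inv := fun u => by ext <;> simp }
  rw [← e.sum_comp]
  have h3 : ∀ u : F × F, ψ (b * ((e u).1 ^ 2 + (e u).1 * (e u).2 + k * (e u).2 ^ 2)) =
      ψ (b * u.1 ^ 2) * ψ (b * (q / 4) * u.2 ^ 2) := by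
    intro u
    rw [← AddChar.map_add_eq_mul]
    congr 1
    simp only [e, Equiv.coe_fn_mk]
    field_simp
    linear_combination (4 * u.2 ^ 2) * hk
  simp_rw [h3]
  rw [Fintype.sum_prod_type]
  simp_rw [← Finset.mul_sum]
  rw [← Finset.sum_mul]
  have hbq : b * (q / 4) ≠ 0 := mul_ne_zero hb (div_ne_zero hq h4)
  have g1 := chiC_mul_sum hF hψ hb
  have g2 := chiC_mul_sum hF hψ hbq
  have g3 := gauss_sq hF hψ
  have c1 := chiC_sq hb
  have c4 : chiC F 4 = 1 := by
    rw [chiC_apply, show (4 : F) = 2 * 2 by norm_num, map_mul, ← sq, quadraticChar_sq_one h2]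
    simp
  have cq : chiC F (b * (q / 4)) = chiC F b * chiC F q := by
    have h5 : chiC F q = chiC F (q / 4) * chiC F 4 := by
      rw [← map_mul]; congr 1; field_simp
    rw [map_mul, h5, c4, mul_one]
  have cqq := chiC_sq hq
  have cneg : chiC F (-q) = chiC F (-1) * chiC F q := by rw [← map_mul]; congr 1; ring
  rw [cq] at g2
  rw [cneg]
  set A := ∑ x : F, ψ (b * x ^ 2)
  set B := ∑ x : F, ψ (b * (q / 4) * x ^ 2)
  calc A * B = (chiC F b * chiC F b) * (chiC F q * chiC F q) * (A * B) := by rw [c1, cqq]; ring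
    _ = (chiC F b * A) * (chiC F b * chiC F q * B) * chiC F q := by ring
    _ = chiC F (-1) * chiC F q * Fintype.card F := by rw [g1, g2, g3]; ring

/-- the two-dimensional Gauss sum with a linear term. -/
lemma gauss_two_lin (hF : ringChar F ≠ 2) {ψ : AddChar F ℂ} (hψ : ψ ≠ 1) {b q k c v w : F}
    (hk : 4 * k = q + 1) (hc : b * q * c = -1) :
    ∑ u : F × F, ψ (b * (u.1 ^ 2 + u.1 * u.2 + k * u.2 ^ 2) + (v * u.2 - w * u.1)) =
      chiC F (-q) * Fintype.card F * ψ (c * (v ^ 2 + v * w + k * w ^ 2)) := by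
  have hb : b ≠ 0 := by rintro rfl; simp at hc
  have hq : q ≠ 0 := by rintro rfl; simp at hc
  -- `h₀ = b⁻¹ q⁻¹ (-(v + 2kw), 2v + w) = -c (-(v+2kw), 2v+w)`
  let e : F × F ≃ F × F := Equiv.addRight (c * (v + 2 * k * w), -c * (2 * v + w))
  rw [← gauss_two hF hψ hb hq hk,
    ← e.sum_comp (fun u : F × F => ψ (b * (u.1 ^ 2 + u.1 * u.2 + k * u.2 ^ 2))), Finset.sum_mul]
  refine Finset.sum_congr rfl fun u _ => ?_
  rw [← AddChar.map_add_eq_mul]
  congr 1
  simp only [e, Equiv.coe_addRight, Prod.fst_add, Prod.snd_add]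
  linear_combination (-(w * u.1 - v * u.2) - c * (v ^ 2 + v * w + k * w ^ 2)) * hc +
    ((-(w * u.1 - v * u.2) - c * (v ^ 2 + v * w + k * w ^ 2)) * (b * c)) * hk

end Gauss

end Fermat.Agent.Eis.ThetaK
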