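import Mathlib
import Fermat.Agent.S16.Defs
import Fermat.Agent.S16.ThetaKGauss

/-!
# S16 [B1]: the binary theta series of `ℚ(√-q)`

`q ≡ 3 mod 4` prime, `N(x,y) = x² + xy + ((q+1)/4) y²`,
`thetaK q τ = ∑_{u ∈ ℤ²} exp(2πi N(u) τ)`.
-/

set_option autoImplicit false

open UpperHalfPlane hiding I
open MatrixGroups Complex

open scoped Real

noncomputable section

namespace Fermat.Agent.Eis

/-- The norm form of the ring of integers of `ℚ(√-q)` (`q ≡ 3 mod 4`). -/
def normK (q : ℕ) (u : ℤ × ℤ) : ℤ := u.1 ^ 2 + u.1 * u.2 + ((q + 1) / 4 : ℕ) * u.2 ^ 2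

/-- The theta series of the norm form. -/
def thetaK (q : ℕ) (τ : ℍ) : ℂ := ∑' u : ℤ × ℤ, cexp (2 * π * I * (normK q u) * τ)

/-- The number of representations of `n` by the norm form. -/
def rK (q : ℕ) (n : ℤ) : ℕ := Nat.card {u : ℤ × ℤ // normK q u = n}

namespace ThetaK

/-! ### Gaussian summability -/

lemma summable_gauss {c : ℝ} (hc : 0 < c) (α : ℝ) :
    Summable fun n : ℤ => Real.exp (-π * c * (n - α) ^ 2) := by
  have h := ((summable_jacobiTheta₂_term_iff (-(I * α * c)) (I * c)).2 (by simpa using hc)).norm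
  have h2 := h.mul_left (Real.exp (-π * c * α ^ 2))
  refine h2.congr fun n => ?_
  rw [norm_jacobiTheta₂_term, ← Real.exp_add]
  congr 1
  simp
  ring

lemma summable_gauss₂ {c d : ℝ} (hc : 0 < c) (hd : 0 < d) (α β : ℝ) :
    Summable fun u : ℤ × ℤ =>
      Real.exp (-π * c * (u.1 - α) ^ 2) * Real.exp (-π * d * (u.2 - β) ^ 2) :=
  (summable_gauss hc α).mul_of_nonneg (summable_gauss hd β) (fun _ => (Real.exp_pos _).le)
    (fun _ => (Real.exp_pos _).le)

/-- Real norm form. -/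
def nR (q : ℕ) (x y : ℝ) : ℝ := x ^ 2 + x * y + ((q : ℝ) + 1) / 4 * y ^ 2

lemma normK_cast {q : ℕ} (hq : q % 4 = 3) (u : ℤ × ℤ) : ((normK q u : ℤ) : ℝ) = nR q u.1 u.2 := by
  have h : (((q + 1) / 4 : ℕ) : ℝ) = ((q : ℝ) + 1) / 4 := by
    rw [Nat.cast_div (by omega) (by norm_num)]; push_cast; ring
  unfold normK nR
  rw [← h]
  simp only [Int.cast_add, Int.cast_mul, Int.cast_pow, Int.cast_natCast]

lemma nR_ge {q : ℕ} (hq : 3 ≤ q) (x y : ℝ) : (x ^ 2 + y ^ 2) / 2 ≤ nR q x y := by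
  unfold nR
  have h3 : (3 : ℝ) ≤ q := by exact_mod_cast hq
  nlinarith [sq_nonneg (x + y), mul_nonneg (sub_nonneg.2 h3) (sq_nonneg y)]

/-- The Gaussian in the form `nR` is summable over all translates. -/
lemma summable_exp_nR {q : ℕ} (hq : 3 ≤ q) {c : ℝ} (hc : 0 < c) (α β : ℝ) :
    Summable fun u : ℤ × ℤ => Real.exp (-2 * π * c * nR q (u.1 - α) (u.2 - β)) := by
  refine Summable.of_nonneg_of_le (fun _ => (Real.exp_pos _).le) (fun u => ?_)
    (summable_gauss₂ hc hc α β)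
  rw [← Real.exp_add]
  refine Real.exp_le_exp.2 ?_
  have := nR_ge hq (u.1 - α) (u.2 - β)
  have h : 0 < π * c := mul_pos Real.pi_pos hc
  nlinarith

lemma norm_cexp_nR (q : ℕ) (w : ℂ) (x y : ℝ) (t : ℝ) :
    ‖cexp (-2 * π * w * (nR q x y : ℝ) + 2 * π * I * t)‖ =
      Real.exp (-2 * π * w.re * nR q x y) := by
  rw [Complex.norm_exp]
  congr 1
  simp

lemma summable_cexp_nR {q : ℕ} (hq : 3 ≤ q) {w : ℂ} (hw : 0 < w.re) (α β : ℝ) (t : ℤ × ℤ → ℝ) :
    Summable fun u : ℤ × ℤ =>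
      cexp (-2 * π * w * (nR q (u.1 - α) (u.2 - β) : ℝ) + 2 * π * I * (t u : ℝ)) := by
  refine Summable.of_norm ?_
  simp_rw [norm_cexp_nR]
  exact summable_exp_nR hq hw α β

lemma const_eq {q : ℝ} (hq : 0 < q) {w : ℂ} (hw : w ≠ 0) :
    (2 * w) ^ (1 / 2 : ℂ) * (w * q / 2) ^ (1 / 2 : ℂ) = Real.sqrt q * w := by
  have h1 : (2 * w) ≠ 0 := by simpa using hw
  have hqC : (q : ℂ) ≠ 0 := by exact_mod_cast hq.ne'
  have h2 : (w * q / 2) ≠ 0 := by
    simp [hw, hqC]
  rw [Complex.cpow_def_of_ne_zero h1, Complex.cpow_def_of_ne_zero h2, ← Complex.exp_add]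
  have e1 : Complex.log (2 * w) = Real.log 2 + Complex.log w := by
    have := Complex.log_ofReal_mul (r := 2) (by norm_num) hw
    simpa using this
  have e2 : Complex.log (w * q / 2) = Real.log (q / 2) + Complex.log w := by
    have := Complex.log_ofReal_mul (r := q / 2) (by positivity) hw
    rw [← this]
    congr 1
    push_cast
    ring
  rw [e1, e2]
  have e3 : ((Real.log 2 : ℝ) + Complex.log w) * (1 / 2 : ℂ) +
      ((Real.log (q / 2) : ℝ) + Complex.log w) * (1 / 2 : ℂ) =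
      ((Real.log q / 2 : ℝ) : ℂ) + Complex.log w := by
    rw [Real.log_div hq.ne' (by norm_num)]
    push_cast
    ring
  rw [e3, Complex.exp_add, Complex.exp_log hw, ← Complex.ofReal_exp]
  congr 2
  rw [Real.sqrt_eq_rpow, Real.rpow_def_of_pos hq]
  congr 1
  ring

/-- Two-dimensional Poisson summation for the norm form. -/
theorem poisson_nR {q : ℕ} (hq : 3 ≤ q) {w : ℂ} (hw : 0 < w.re) (α β : ℝ) :
    ∑' u : ℤ × ℤ, cexp (-2 * π * w * (nR q u.1 u.2 : ℝ) + 2 * π * I * (α * u.1 + β * u.2 : ℝ)) =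
      1 / (Real.sqrt q * w) *
        ∑' v : ℤ × ℤ, cexp (-2 * π * (1 / (q * w)) * (nR q (v.1 - β) (-(v.2 - α)) : ℝ)) := by
  have hq0 : (0 : ℝ) < q := by exact_mod_cast (by omega : 0 < q)
  have hw0 : w ≠ 0 := by rintro rfl; simp at hw
  have hqC : (q : ℂ) ≠ 0 := by exact_mod_cast hq0.ne'
  -- first step: sum over `x`
  have step1 : ∀ y : ℤ, ∑' x : ℤ,
      cexp (-2 * π * w * (nR q x y : ℝ) + 2 * π * I * (α * x + β * y : ℝ)) =
      1 / (2 * w) ^ (1 / 2 : ℂ) * ∑' m : ℤ,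
        cexp (-π * (m - α) ^ 2 / (2 * w) + π * I * (m - α) * y - π * (w * q / 2) * y ^ 2
          + 2 * π * I * β * y) := by
    intro y
    have h2w : 0 < (2 * w).re := by simpa using hw
    have := Complex.tsum_exp_neg_quadratic h2w (-w * y + I * α)
    have e1 : ∀ x : ℤ, cexp (-2 * π * w * (nR q x y : ℝ) + 2 * π * I * (α * x + β * y : ℝ)) =
        cexp (-2 * π * w * ((q + 1) / 4) * y ^ 2 + 2 * π * I * β * y) *
        cexp (-π * (2 * w) * (x : ℂ) ^ 2 + 2 * π * (-w * y + I * α) * x) := by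
      intro x
      rw [← Complex.exp_add]
      congr 1
      simp only [nR]
      push_cast
      ring
    simp_rw [e1]
    rw [tsum_mul_left, this, mul_left_comm, ← tsum_mul_left]
    congr 1
    refine tsum_congr fun m => ?_
    rw [← Complex.exp_add]
    congr 1
    have e2 : (m : ℂ) + I * (-w * y + I * α) = m - α - I * (w * y) := by
      linear_combination (α : ℂ) * I_sq
    rw [e2]
    field_simp
    ring_nf
    simp only [I_sq]
    ring
  have step2 : ∀ m : ℤ, ∑' y : ℤ,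
      cexp (-π * (m - α) ^ 2 / (2 * w) + π * I * (m - α) * y - π * (w * q / 2) * y ^ 2
          + 2 * π * I * β * y) =
      1 / (w * q / 2) ^ (1 / 2 : ℂ) * ∑' n : ℤ,
        cexp (-2 * π * (1 / (q * w)) * (nR q (n - β) (-(m - α)) : ℝ)) := by
    intro m
    have h2w : 0 < (w * q / 2).re := by
      rw [show w * q / 2 = w * ((q / 2 : ℝ) : ℂ) by push_cast; ring, re_mul_ofReal]
      positivity
    have := Complex.tsum_exp_neg_quadratic h2w (I * ((m - α) / 2 + β))
    have e1 : ∀ y : ℤ, cexp (-π * (m - α) ^ 2 / (2 * w) + π * I * (m - α) * y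
        - π * (w * q / 2) * y ^ 2 + 2 * π * I * β * y) =
        cexp (-π * (m - α) ^ 2 / (2 * w)) *
        cexp (-π * (w * q / 2) * (y : ℂ) ^ 2 + 2 * π * (I * ((m - α) / 2 + β)) * y) := by
      intro y
      rw [← Complex.exp_add]
      congr 1
      ring
    simp_rw [e1]
    rw [tsum_mul_left, this, mul_left_comm, ← tsum_mul_left]
    congr 1
    refine tsum_congr fun n => ?_
    rw [← Complex.exp_add]
    congr 1
    have e2 : (n : ℂ) + I * (I * ((m - α) / 2 + β)) = n - β - (m - α) / 2 := by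
      linear_combination ((m - α) / 2 + β : ℂ) * I_sq
    rw [e2]
    simp only [nR]
    push_cast
    field_simp
    ring
  -- summability
  have s1 : Summable fun u : ℤ × ℤ =>
      cexp (-2 * π * w * (nR q u.1 u.2 : ℝ) + 2 * π * I * (α * u.1 + β * u.2 : ℝ)) := by
    have := summable_cexp_nR hq hw 0 0 (fun u => α * u.1 + β * u.2)
    simpa using this
  have hiw : 0 < (1 / w).re := by
    rw [one_div, Complex.inv_re]
    exact div_pos hw (Complex.normSq_pos.2 hw0)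
  have s2 : Summable fun u : ℤ × ℤ => cexp (-π * (u.2 - α) ^ 2 / (2 * w)
      + π * I * (u.2 - α) * u.1 - π * (w * q / 2) * u.1 ^ 2 + 2 * π * I * β * u.1) := by
    refine Summable.of_norm ?_
    have hc : 0 < w.re * q / 2 := by positivity
    have hd : 0 < (1 / w).re / 2 := by positivity
    refine (summable_gauss₂ hc hd 0 α).congr fun u => ?_
    rw [Complex.norm_exp, ← Real.exp_add]
    congr 1
    have : (-π * (u.2 - α) ^ 2 / (2 * w)
      + π * I * (u.2 - α) * u.1 - π * (w * q / 2) * u.1 ^ 2 + 2 * π * I * β * u.1 : ℂ) =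
      (1 / w) * ((-π * (u.2 - α) ^ 2 / 2 : ℝ) : ℂ) + w * ((-π * q / 2 * u.1 ^ 2 : ℝ) : ℂ) +
      ((π * (u.2 - α) * u.1 + 2 * π * β * u.1 : ℝ) : ℂ) * I := by
      push_cast
      field_simp
      ring
    rw [this]
    simp only [add_re, re_mul_ofReal, mul_I_re, ofReal_im, neg_zero, add_zero]
    ring
  have s3 : Summable fun u : ℤ × ℤ =>
      cexp (-2 * π * (1 / (q * w)) * (nR q (u.1 - β) (-(u.2 - α)) : ℝ)) := by
    have h1 : 0 < (1 / (q * w)).re := by
      rw [one_div, mul_inv, ← one_div w, ← ofReal_natCast, ← ofReal_inv, re_ofReal_mul]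
      positivity
    have h2 := summable_cexp_nR hq h1 β (-α) (fun _ => 0)
    have h3 := (Equiv.prodCongr (Equiv.refl ℤ) (Equiv.neg ℤ)).summable_iff.2 h2
    refine h3.congr fun u => ?_
    simp only [Function.comp, Equiv.prodCongr_apply, Prod.map, Equiv.refl_apply, Equiv.neg_apply]
    congr 1
    have : ((-u.2 : ℤ) : ℝ) - -α = -((u.2 : ℝ) - α) := by push_cast; ring
    rw [this]
    simp
  -- assembly
  have c1 : ∀ f : ℤ × ℤ → ℂ, Summable f → ∑' x : ℤ, ∑' y : ℤ, f (x, y) =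
      ∑' y : ℤ, ∑' x : ℤ, f (x, y) := by
    intro f hf
    exact Summable.tsum_comm (f := fun y x => f (x, y))
      ((Equiv.prodComm ℤ ℤ).summable_iff.2 hf)
  rw [s1.tsum_prod, c1 _ s1]
  simp only
  simp_rw [step1]
  rw [tsum_mul_left]
  have c2 := c1 _ s2
  simp only at c2
  rw [c2]
  simp_rw [step2]
  rw [tsum_mul_left, ← mul_assoc]
  congr 1
  · have := const_eq hq0 hw0
    rw [ofReal_natCast] at this
    rw [one_div_mul_one_div, this]
  · rw [s3.tsum_prod, c1 _ s3]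


/-! ### Summability and the characteristic form of the inversion formula -/

lemma re_neg_I_mul_pos (τ : ℍ) : 0 < (-I * (τ : ℂ)).re := by
  simpa using τ.im_pos

lemma three_le {q : ℕ} (hq : q % 4 = 3) : 3 ≤ q := by omega

/-- the norm form at an integral point, as a complex number. -/
lemma normK_castC {q : ℕ} (hq : q % 4 = 3) (u : ℤ × ℤ) :
    ((normK q u : ℤ) : ℂ) = ((nR q u.1 u.2 : ℝ) : ℂ) := by
  rw [← normK_cast hq]; simp

lemma summable_thetaK {q : ℕ} (hq : q % 4 = 3) (τ : ℍ) :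
    Summable fun u : ℤ × ℤ => cexp (2 * π * I * (normK q u) * τ) := by
  have := summable_cexp_nR (three_le hq) (re_neg_I_mul_pos τ) 0 0 (fun _ => 0)
  refine this.congr fun u => ?_
  rw [normK_castC hq]
  congr 1
  simp only [sub_zero]
  push_cast
  ring

/-- Inversion formula with characteristic `h/d`. -/
theorem sum_char {q : ℕ} (hq : q % 4 = 3) (w : ℍ) {d : ℕ} (hd : 0 < d) (h : ℤ × ℤ) :
    ∑' u : ℤ × ℤ, cexp (2 * π * I * (normK q (h.1 + d * u.1, h.2 + d * u.2)) * (-1 / (w : ℂ))) =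
      (-I * w) / (Real.sqrt q * d ^ 2) *
        ∑' v : ℤ × ℤ, cexp (2 * π * I * (normK q v) * (w / (q * d ^ 2))) *
          cexp (2 * π * I * ((v.1 * h.2 - v.2 * h.1 : ℤ) / d)) := by
  have hq3 := three_le hq
  have hq0 : (0 : ℝ) < q := by exact_mod_cast (by omega : 0 < q)
  have hd0 : (0 : ℝ) < d := by exact_mod_cast hd
  have hdC : (d : ℂ) ≠ 0 := by exact_mod_cast hd0.ne'
  have hqC : (q : ℂ) ≠ 0 := by exact_mod_cast hq0.ne'
  have hsq : (Real.sqrt q : ℂ) ≠ 0 := by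
    exact_mod_cast (Real.sqrt_pos.2 hq0).ne'
  have hsq2 : (Real.sqrt q : ℂ) * (Real.sqrt q : ℂ) = q := by
    rw [← ofReal_mul, Real.mul_self_sqrt hq0.le]; simp
  have hw0 : (w : ℂ) ≠ 0 := w.ne_zero
  set w' : ℂ := (1 / (q * d ^ 2 : ℝ) : ℝ) * (-I * w) with hw'
  have hw'pos : 0 < w'.re := by
    rw [hw', re_ofReal_mul]
    exact mul_pos (by positivity) (re_neg_I_mul_pos w)
  have key := poisson_nR hq3 hw'pos ((h.2 : ℝ) / d) (-(h.1 : ℝ) / d)
  have e1 : ∀ v : ℤ × ℤ, cexp (2 * π * I * (normK q v) * (w / (q * d ^ 2))) *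
          cexp (2 * π * I * ((v.1 * h.2 - v.2 * h.1 : ℤ) / d)) =
      cexp (-2 * π * w' * (nR q v.1 v.2 : ℝ) +
        2 * π * I * ((h.2 : ℝ) / d * v.1 + -(h.1 : ℝ) / d * v.2 : ℝ)) := by
    intro v
    rw [← Complex.exp_add, normK_castC hq, hw']
    congr 1
    push_cast
    field_simp
    ring
  simp_rw [e1]
  rw [key]
  have e2 : ∀ v : ℤ × ℤ, cexp (-2 * π * (1 / (q * w')) *
        (nR q (v.1 - -(h.1 : ℝ) / d) (-(v.2 - (h.2 : ℝ) / d)) : ℝ)) =
      cexp (2 * π * I * (normK q (h.1 + d * v.1, h.2 + d * -v.2)) * (-1 / (w : ℂ))) := by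
    intro v
    rw [normK_castC hq, hw']
    congr 1
    simp only [nR]
    push_cast
    field_simp
    ring_nf
    simp only [I_sq]
    ring
  simp_rw [e2]
  have e3 := (Equiv.prodCongr (Equiv.refl ℤ) (Equiv.neg ℤ)).tsum_eq (fun u : ℤ × ℤ =>
    cexp (2 * π * I * (normK q (h.1 + d * u.1, h.2 + d * u.2)) * (-1 / (w : ℂ))))
  simp only [Equiv.prodCongr_apply, Prod.map, Equiv.refl_apply, Equiv.neg_apply] at e3
  rw [← e3, ← mul_assoc]
  conv_lhs => rw [← one_mul (∑' u : ℤ × ℤ, _)]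
  congr 1
  rw [hw']
  push_cast
  field_simp
  linear_combination hsq2

/-- (3) the inversion formula. -/
theorem thetaK_inv {q : ℕ} (hq : q % 4 = 3) (τ τ' : ℍ) (hτ' : (τ' : ℂ) = τ / q) :
    thetaK q (ModularGroup.S • τ) = (-I * τ) / Real.sqrt q * thetaK q τ' := by
  have := sum_char hq τ one_pos (0, 0)
  have hS : ((ModularGroup.S • τ : ℍ) : ℂ) = -1 / (τ : ℂ) := by
    rw [UpperHalfPlane.modular_S_smul]
    simp [neg_div]
  unfold thetaK
  rw [hS, hτ']
  simpa using this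

/-! ### The transformation under matrices with `d` an odd prime -/

lemma legendre_neg {q d : ℕ} [Fact q.Prime] [Fact d.Prime] (hq : q % 4 = 3) (hd2 : d ≠ 2) :
    legendreSym d (-q) = legendreSym q d := by
  have hq2 : q ≠ 2 := by rintro rfl; omega
  have hd : d % 2 = 1 := (Fact.out : d.Prime).eq_two_or_odd.resolve_left hd2
  have h1 : legendreSym d (-q) = legendreSym d (-1) * legendreSym d q := by
    rw [← legendreSym.mul]; congr 1; ring
  rw [h1, legendreSym.at_neg_one hd2]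
  rcases Nat.odd_mod_four_iff.mp hd with h | h
  · rw [ZMod.χ₄_nat_one_mod_four h, one_mul]
    exact (legendreSym.quadratic_reciprocity_one_mod_four h hq2).symm
  · rw [ZMod.χ₄_nat_three_mod_four h]
    have := legendreSym.quadratic_reciprocity_three_mod_four hq h
    rw [this]
    ring

/-- residue classes modulo `d`. -/
def resEquiv (d : ℕ) [NeZero d] : ZMod d × ℤ ≃ ℤ where
  toFun u := (u.1.val : ℤ) + d * u.2
  invFun n := ((n : ZMod d), n / d)
  left_inv u := by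
    have hd : (0 : ℤ) < d := by exact_mod_cast NeZero.pos d
    ext
    · simp
    · simp only
      rw [Int.add_mul_ediv_left _ _ hd.ne', Int.ediv_eq_zero_of_lt (by positivity)
        (by exact_mod_cast ZMod.val_lt u.1), zero_add]
  right_inv n := by
    simp only
    rw [ZMod.val_intCast, Int.emod_add_mul_ediv]

/-- residue classes modulo `d` in `ℤ²`. -/
def resEquiv₂ (d : ℕ) [NeZero d] : (ZMod d × ZMod d) × (ℤ × ℤ) ≃ ℤ × ℤ :=
  (Equiv.prodProdProdComm _ _ _ _).trans (Equiv.prodCongr (resEquiv d) (resEquiv d))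

/-- splitting a sum over `ℤ²` into residue classes modulo `d`. -/
lemma tsum_residue {d : ℕ} [NeZero d] (f : ℤ × ℤ → ℂ) (hf : Summable f) :
    ∑' u : ℤ × ℤ, f u =
      ∑ h : ZMod d × ZMod d, ∑' u : ℤ × ℤ, f ((h.1.val : ℤ) + d * u.1, (h.2.val : ℤ) + d * u.2) := by
  have h1 : Summable fun p : (ZMod d × ZMod d) × (ℤ × ℤ) => f (resEquiv₂ d p) :=
    (resEquiv₂ d).summable_iff.2 hf
  rw [← (resEquiv₂ d).tsum_eq, h1.tsum_prod, tsum_fintype]
  rfl

lemma stdAddChar_ne_one {d : ℕ} [Fact d.Prime] : (ZMod.stdAddChar : AddChar (ZMod d) ℂ) ≠ 1 := by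
  have h := ZMod.isPrimitive_stdAddChar d
  have := h (one_ne_zero)
  rwa [AddChar.mulShift_one] at this

/-- the transformation law under matrices in `Γ₀(q)` whose lower right entry is an odd prime. -/
theorem thetaK_smul_of_prime {q : ℕ} [Fact q.Prime] (hq : q % 4 = 3) (γ : SL(2, ℤ))
    (hγ : (q : ℤ) ∣ γ 1 0) {d : ℕ} [Fact d.Prime] (hd2 : d ≠ 2) (hdγ : γ 1 1 = d) (τ : ℍ) :
    thetaK q (γ • τ) =
      (legendreSym q d : ℤ) * ((γ 1 0 : ℤ) * (τ : ℂ) + (γ 1 1 : ℤ)) * thetaK q τ := by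
  obtain ⟨c', hc'⟩ := hγ
  have hdet := Matrix.det_fin_two (γ : Matrix (Fin 2) (Fin 2) ℤ)
  rw [γ.det_coe] at hdet
  set a := γ 0 0 with ha
  set b := γ 0 1 with hb
  set c := γ 1 0 with hc
  rw [hdγ] at hdet
  have hd : d.Prime := Fact.out
  have hd0 : (0 : ℝ) < d := by exact_mod_cast hd.pos
  have hdC : (d : ℂ) ≠ 0 := by exact_mod_cast hd0.ne'
  have hq0 : (0 : ℝ) < q := by exact_mod_cast (Fact.out : q.Prime).pos
  have hqC : (q : ℂ) ≠ 0 := by exact_mod_cast hq0.ne'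
  have hτ0 : (τ : ℂ) ≠ 0 := τ.ne_zero
  -- the point `w' = -d²/τ - cd`
  have hS : ((ModularGroup.S • τ : ℍ) : ℂ) = -1 / (τ : ℂ) := by
    rw [UpperHalfPlane.modular_S_smul]
    simp [neg_div]
  have hw_im : 0 < ((d : ℂ) ^ 2 * (-1 / (τ : ℂ)) - c * d).im := by
    rw [← hS]
    have h1 : ((d : ℂ) ^ 2 * ((ModularGroup.S • τ : ℍ) : ℂ) - c * d).im =
        (d : ℝ) ^ 2 * (ModularGroup.S • τ : ℍ).im := by
      rw [show (d : ℂ) ^ 2 = (((d : ℝ) ^ 2 : ℝ) : ℂ) by push_cast; ring,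
        show (c : ℂ) * d = (((c : ℝ) * d : ℝ) : ℂ) by push_cast; ring]
      simp only [sub_im, ofReal_im, sub_zero, im_ofReal_mul]
      rfl
    rw [h1]
    have := (ModularGroup.S • τ : ℍ).im_pos
    positivity
  let w : ℍ := ⟨(d : ℂ) ^ 2 * (-1 / (τ : ℂ)) - c * d, hw_im⟩
  have hw : (w : ℂ) = (d : ℂ) ^ 2 * (-1 / (τ : ℂ)) - c * d := rfl
  have hw0 : (w : ℂ) ≠ 0 := w.ne_zero
  have hden : (c : ℂ) * τ + d ≠ 0 := by
    intro h
    apply hw0
    rw [hw]
    field_simp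
    linear_combination (-(d : ℂ)) * h
  have hdetC : (1 : ℂ) = a * d - b * c := by exact_mod_cast hdet
  have hγτ : ((γ • τ : ℍ) : ℂ) = b / d + -1 / (w : ℂ) := by
    rw [UpperHalfPlane.coe_specialLinearGroup_apply]
    simp only [algebraMap_int_eq, eq_intCast, ofReal_intCast]
    rw [← ha, ← hb, ← hc, hdγ]
    have hw1 : (w : ℂ) = -(d * (c * τ + d)) / τ := by
      rw [hw]; field_simp; ring
    rw [hw1]
    simp only [Int.cast_natCast]
    generalize hD : (c : ℂ) * τ + d = D at hden ⊢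
    field_simp
    subst hD
    linear_combination (-(τ : ℂ)) * hdetC
  have hk : 4 * (((q + 1) / 4 : ℕ) : ZMod d) = (q : ZMod d) + 1 := by
    have : 4 * ((q + 1) / 4) = q + 1 := by omega
    exact_mod_cast congrArg (Nat.cast : ℕ → ZMod d) this
  have hbc : (b : ZMod d) * q * c' = -1 := by
    have := congrArg (Int.cast : ℤ → ZMod d) hdet
    rw [hc'] at this
    push_cast at this
    rw [ZMod.natCast_self] at this
    linear_combination this
  have hF : ringChar (ZMod d) ≠ 2 := by rwa [ZMod.ringChar_zmod_n]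
  set ψ : AddChar (ZMod d) ℂ := ZMod.stdAddChar with hψ
  have hψc : ∀ j : ℤ, ψ (j : ZMod d) = cexp (2 * π * I * j / d) := fun j =>
    ZMod.stdAddChar_coe j
  -- step 1
  have step1 : ∀ (h : ZMod d × ZMod d) (u : ℤ × ℤ),
      cexp (2 * π * I * (normK q ((h.1.val : ℤ) + d * u.1, (h.2.val : ℤ) + d * u.2)) *
        ((γ • τ : ℍ) : ℂ)) =
      ψ (b * (h.1 ^ 2 + h.1 * h.2 + (((q + 1) / 4 : ℕ) : ZMod d) * h.2 ^ 2)) *
      cexp (2 * π * I * (normK q ((h.1.val : ℤ) + d * u.1, (h.2.val : ℤ) + d * u.2)) *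
        (-1 / (w : ℂ))) := by
    intro h u
    set x : ℤ := (h.1.val : ℤ) with hx
    set y : ℤ := (h.2.val : ℤ) with hy
    have e1 : normK q (x + d * u.1, y + d * u.2) = normK q (x, y) +
        d * (2 * x * u.1 + d * u.1 ^ 2 + x * u.2 + y * u.1 + d * u.1 * u.2 +
          ((q + 1) / 4 : ℕ) * (2 * y * u.2 + d * u.2 ^ 2)) := by
      simp only [normK]; ring
    have e2 : (b : ZMod d) * (h.1 ^ 2 + h.1 * h.2 + (((q + 1) / 4 : ℕ) : ZMod d) * h.2 ^ 2) =
        ((b * normK q (x, y) : ℤ) : ZMod d) := by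
      simp only [normK, hx, hy]
      generalize (q + 1) / 4 = k
      push_cast
      simp only [ZMod.natCast_zmod_val]
    rw [e2, hψc, ← Complex.exp_add, hγτ, e1]
    generalize (2 * x * u.1 + d * u.1 ^ 2 + x * u.2 + y * u.1 + d * u.1 * u.2 +
          ((q + 1) / 4 : ℕ) * (2 * y * u.2 + d * u.2 ^ 2)) = m
    generalize normK q (x, y) = n
    rw [show 2 * π * I * ((n + d * m : ℤ) : ℂ) * (b / d + -1 / (w : ℂ)) =
      (2 * π * I * ((b * n : ℤ) : ℂ) / d + 2 * π * I * ((n + d * m : ℤ) : ℂ) * (-1 / (w : ℂ))) +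
        ((m * b : ℤ) : ℂ) * (2 * π * I) by push_cast; field_simp; ring,
      Complex.exp_add, Complex.exp_int_mul_two_pi_mul_I, mul_one]
  -- step 2: the finite sum
  have step2 : ∀ v : ℤ × ℤ, ∑ h : ZMod d × ZMod d,
      ψ (b * (h.1 ^ 2 + h.1 * h.2 + (((q + 1) / 4 : ℕ) : ZMod d) * h.2 ^ 2)) *
        cexp (2 * π * I * ((v.1 * (h.2.val : ℤ) - v.2 * (h.1.val : ℤ) : ℤ) / d)) =
      (legendreSym q d : ℤ) * d * cexp (2 * π * I * (c' * normK q v) / d) := by
    intro v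
    have e1 := gauss_two_lin hF stdAddChar_ne_one (b := (b : ZMod d)) (q := (q : ZMod d))
      (k := (((q + 1) / 4 : ℕ) : ZMod d)) (c := (c' : ZMod d)) (v := (v.1 : ZMod d))
      (w := (v.2 : ZMod d)) hk hbc
    have e2 : chiC (ZMod d) (-(q : ZMod d)) = ((legendreSym q d : ℤ) : ℂ) := by
      rw [← legendre_neg hq hd2, chiC_apply, legendreSym]
      push_cast
      rfl
    rw [e2, ZMod.card, ← hψ] at e1
    have e3 : ψ ((c' : ZMod d) * ((v.1 : ZMod d) ^ 2 + v.1 * v.2 +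
        (((q + 1) / 4 : ℕ) : ZMod d) * (v.2 : ZMod d) ^ 2)) =
        cexp (2 * π * I * (c' * normK q v) / d) := by
      have : (c' : ZMod d) * ((v.1 : ZMod d) ^ 2 + v.1 * v.2 +
        (((q + 1) / 4 : ℕ) : ZMod d) * (v.2 : ZMod d) ^ 2) = ((c' * normK q v : ℤ) : ZMod d) := by
        simp only [normK]
        generalize (q + 1) / 4 = k
        push_cast
        ring
      rw [this, hψc]
      push_cast
      rfl
    rw [← e3, ← e1]
    refine Finset.sum_congr rfl fun h _ => ?_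
    rw [AddChar.map_add_eq_mul]
    congr 1
    have : (v.1 : ZMod d) * h.2 - v.2 * h.1 =
        ((v.1 * (h.2.val : ℤ) - v.2 * (h.1.val : ℤ) : ℤ) : ZMod d) := by
      push_cast
      simp only [ZMod.natCast_zmod_val]
    rw [this, hψc]
    congr 1
    ring
  -- summability
  have hsA : Summable fun v : ℤ × ℤ => cexp (2 * π * I * (normK q v) * (w / (q * d ^ 2))) := by
    have hw'pos : 0 < (((1 / (q * d ^ 2 : ℝ) : ℝ) : ℂ) * (-I * w)).re := by
      rw [re_ofReal_mul]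
      exact mul_pos (by positivity) (re_neg_I_mul_pos w)
    refine (summable_cexp_nR (three_le hq) hw'pos 0 0 (fun _ => 0)).congr fun v => ?_
    rw [normK_castC hq]
    congr 1
    simp only [sub_zero]
    push_cast
    ring
  have hsAB : ∀ h : ZMod d × ZMod d, Summable fun v : ℤ × ℤ =>
      cexp (2 * π * I * (normK q v) * (w / (q * d ^ 2))) *
      (ψ (b * (h.1 ^ 2 + h.1 * h.2 + (((q + 1) / 4 : ℕ) : ZMod d) * h.2 ^ 2)) *
        cexp (2 * π * I * ((v.1 * (h.2.val : ℤ) - v.2 * (h.1.val : ℤ) : ℤ) / d))) := by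
    intro h
    refine Summable.of_norm ?_
    refine (hsA.norm.mul_right
      ‖ψ (b * (h.1 ^ 2 + h.1 * h.2 + (((q + 1) / 4 : ℕ) : ZMod d) * h.2 ^ 2))‖).congr fun v => ?_
    rw [norm_mul, norm_mul]
    have : ‖cexp (2 * π * I * ((v.1 * (h.2.val : ℤ) - v.2 * (h.1.val : ℤ) : ℤ) / d))‖ = 1 := by
      rw [show 2 * π * I * (((v.1 * (h.2.val : ℤ) - v.2 * (h.1.val : ℤ) : ℤ) : ℂ) / d) =
        ((2 * π * ((v.1 * (h.2.val : ℤ) - v.2 * (h.1.val : ℤ) : ℤ) / d) : ℝ) : ℂ) * I by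
          push_cast; ring]
      exact Complex.norm_exp_ofReal_mul_I _
    rw [this, mul_one]
  -- assembly
  set C : ℂ := (-I * w) / (Real.sqrt q * d ^ 2) with hC
  have main : thetaK q (γ • τ) = C * ((legendreSym q d : ℤ) * d) *
      ∑' v : ℤ × ℤ, cexp (2 * π * I * (normK q v) * (-1 / (q * τ))) := by
    unfold thetaK
    rw [tsum_residue (d := d) _ (summable_thetaK hq (γ • τ))]
    have e1 : ∀ h : ZMod d × ZMod d, ∑' u : ℤ × ℤ,
        cexp (2 * π * I * (normK q ((h.1.val : ℤ) + d * u.1, (h.2.val : ℤ) + d * u.2)) *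
        ((γ • τ : ℍ) : ℂ)) = C * ∑' v : ℤ × ℤ,
        cexp (2 * π * I * (normK q v) * (w / (q * d ^ 2))) *
        (ψ (b * (h.1 ^ 2 + h.1 * h.2 + (((q + 1) / 4 : ℕ) : ZMod d) * h.2 ^ 2)) *
        cexp (2 * π * I * ((v.1 * (h.2.val : ℤ) - v.2 * (h.1.val : ℤ) : ℤ) / d))) := by
      intro h
      simp_rw [step1 h]
      rw [tsum_mul_left, sum_char hq w hd.pos ((h.1.val : ℤ), (h.2.val : ℤ)), mul_left_comm,
        ← tsum_mul_left]
      congr 1
      refine tsum_congr fun v => ?_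
      ring
    simp_rw [e1]
    rw [← Finset.mul_sum, ← Summable.tsum_finsetSum (fun h _ => hsAB h),
      mul_assoc C (_ * _), ← tsum_mul_left (a := ((legendreSym q d : ℤ) : ℂ) * d)]
    congr 1
    refine tsum_congr fun v => ?_
    rw [← Finset.mul_sum, step2 v, mul_left_comm, ← Complex.exp_add]
    congr 2
    rw [hw, hc']
    push_cast
    field_simp
    ring
  let τq : ℍ := ⟨q * τ, by
    rw [← ofReal_natCast, im_ofReal_mul]
    exact mul_pos hq0 τ.im_pos⟩
  have hτq : (τq : ℂ) = q * τ := rfl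
  have hSq : ((ModularGroup.S • τq : ℍ) : ℂ) = -1 / (q * (τ : ℂ)) := by
    rw [UpperHalfPlane.modular_S_smul]
    simp [neg_div, hτq]
  have hinv := thetaK_inv hq τq τ (by rw [hτq]; field_simp)
  have main2 : ∑' v : ℤ × ℤ, cexp (2 * π * I * (normK q v) * (-1 / (q * τ))) =
      (-I * τq) / Real.sqrt q * thetaK q τ := by
    rw [← hinv]
    unfold thetaK
    rw [hSq]
  have hsq2 : (Real.sqrt q : ℂ) * (Real.sqrt q : ℂ) = q := by
    rw [← ofReal_mul, Real.mul_self_sqrt hq0.le]; simp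
  have hsq : (Real.sqrt q : ℂ) ≠ 0 := by
    exact_mod_cast (Real.sqrt_pos.2 hq0).ne'
  rw [main, main2, hC, hτq, hw, hdγ]
  push_cast
  have e5 : -I * ((d : ℂ) ^ 2 * (-1 / (τ : ℂ)) - c * d) / (Real.sqrt q * d ^ 2) *
      ((legendreSym q d : ℤ) * d) * (-I * (q * τ) / Real.sqrt q * thetaK q τ) =
      (I * I) * (((d : ℂ) ^ 2 * (-1 / (τ : ℂ)) - c * d) * τ) / d *
      (q / (Real.sqrt q * Real.sqrt q)) * ((legendreSym q d : ℤ) * thetaK q τ) := by
    field_simp
  rw [e5, hsq2, I_mul_I, div_self hqC]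
  field_simp
  ring

/-! ### The transformation law for `Γ₀(q)` -/

/-- translation invariance. -/
lemma thetaK_add_int (q : ℕ) (τ τ' : ℍ) (n : ℤ) (h : (τ' : ℂ) = τ + n) :
    thetaK q τ' = thetaK q τ := by
  unfold thetaK
  refine tsum_congr fun u => ?_
  rw [h, show 2 * π * I * (normK q u : ℂ) * ((τ : ℂ) + n) =
    2 * π * I * (normK q u : ℂ) * τ + ((normK q u * n : ℤ) : ℂ) * (2 * π * I) by push_cast; ring,
    Complex.exp_add, Complex.exp_int_mul_two_pi_mul_I, mul_one]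

lemma legendreSym_eq_of_dvd {q : ℕ} [Fact q.Prime] {x y : ℤ} (h : (q : ℤ) ∣ x - y) :
    legendreSym q x = legendreSym q y := by
  rw [legendreSym.mod q x, legendreSym.mod q y]
  congr 1
  exact (Int.modEq_iff_dvd.2 h).symm

lemma legendreSym_neg_one {q : ℕ} [Fact q.Prime] (hq : q % 4 = 3) : legendreSym q (-1) = -1 := by
  rw [legendreSym.at_neg_one (by omega), ZMod.χ₄_nat_three_mod_four hq]

end ThetaK

open ThetaK

/-- (4) `θ_K` is modular of weight one on `Γ₀(q)` with character `(·/q)`. -/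
theorem thetaK_smul {q : ℕ} [Fact q.Prime] (hq : q % 4 = 3) (γ : SL(2, ℤ))
    (hγ : γ ∈ CongruenceSubgroup.Gamma0 q) (τ : ℍ) :
    thetaK q (γ • τ) =
      (legendreSym q (γ 1 1) : ℤ) * ((γ 1 0 : ℤ) * (τ : ℂ) + (γ 1 1 : ℤ)) * thetaK q τ := by
  have hdvd : (q : ℤ) ∣ γ 1 0 := by
    rw [CongruenceSubgroup.Gamma0_mem] at hγ
    exact (ZMod.intCast_zmod_eq_zero_iff_dvd _ _).1 hγ
  have hdet := Matrix.det_fin_two (γ : Matrix (Fin 2) (Fin 2) ℤ)
  rw [γ.det_coe] at hdet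
  by_cases hc : γ 1 0 = 0
  · -- upper triangular
    rw [hc, mul_zero, sub_zero] at hdet
    have hd : γ 1 1 = 1 ∨ γ 1 1 = -1 := Int.isUnit_iff.1
      (IsUnit.of_mul_eq_one (γ 0 0) (by rw [mul_comm]; exact hdet.symm))
    have hcoe := UpperHalfPlane.coe_specialLinearGroup_apply γ τ
    simp only [algebraMap_int_eq, eq_intCast, ofReal_intCast, hc, Int.cast_zero, zero_mul,
      zero_add] at hcoe
    rcases hd with hd | hd
    · have ha : γ 0 0 = 1 := by rw [hd, mul_one] at hdet; exact hdet.symm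
      rw [ha, hd] at hcoe
      rw [thetaK_add_int q τ (γ • τ) (γ 0 1) (by rw [hcoe]; simp), hc, hd, legendreSym.at_one]
      simp
    · have ha : γ 0 0 = -1 := by rw [hd] at hdet; linarith
      rw [ha, hd] at hcoe
      rw [thetaK_add_int q τ (γ • τ) (-γ 0 1) (by rw [hcoe]; push_cast; ring), hc, hd,
        legendreSym_neg_one hq]
      simp
  · -- reduce to prime lower right entry
    have hcop : IsCoprime (γ 1 1) (γ 1 0) := ⟨γ 0 0, -γ 0 1, by linarith⟩
    have : NeZero (γ 1 0).natAbs := ⟨Int.natAbs_ne_zero.2 hc⟩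
    have hunit : IsUnit ((γ 1 1 : ℤ) : ZMod (γ 1 0).natAbs) := by
      have h1 := hcop.map (Int.castRingHom (ZMod (γ 1 0).natAbs))
      have h2 : (Int.castRingHom (ZMod (γ 1 0).natAbs)) (γ 1 0) = 0 := by
        rw [eq_intCast, ZMod.intCast_zmod_eq_zero_iff_dvd]
        exact Int.natAbs_dvd.2 dvd_rfl
      rw [h2, isCoprime_zero_right] at h1
      simpa using h1
    obtain ⟨ℓ, hℓ2, hℓ, hℓd⟩ := Nat.forall_exists_prime_gt_and_eq_mod hunit 2
    have : Fact ℓ.Prime := ⟨hℓ⟩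
    have hdvd2 : γ 1 0 ∣ (ℓ : ℤ) - γ 1 1 := by
      have : (((ℓ : ℤ) - γ 1 1 : ℤ) : ZMod (γ 1 0).natAbs) = 0 := by
        push_cast
        rw [hℓd, sub_self]
      rw [ZMod.intCast_zmod_eq_zero_iff_dvd] at this
      exact Int.natAbs_dvd.1 this
    obtain ⟨m, hm⟩ := hdvd2
    have hγ' : ∀ i, (γ * ModularGroup.T ^ m) 1 i = γ 1 0 * (!![1, m; 0, 1] : Matrix _ _ ℤ) 0 i +
        γ 1 1 * (!![1, m; 0, 1] : Matrix _ _ ℤ) 1 i := by
      intro i
      rw [Matrix.SpecialLinearGroup.coe_mul, ModularGroup.coe_T_zpow, Matrix.mul_apply,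
        Fin.sum_univ_two]
    have h10 : (γ * ModularGroup.T ^ m) 1 0 = γ 1 0 := by
      rw [hγ']; simp
    have h11 : (γ * ModularGroup.T ^ m) 1 1 = ℓ := by
      rw [hγ']; simp; linarith
    have key := thetaK_smul_of_prime hq (γ * ModularGroup.T ^ m) (by rw [h10]; exact hdvd)
      (by omega) h11 (ModularGroup.T ^ (-m) • τ)
    have e1 : (γ * ModularGroup.T ^ m) • (ModularGroup.T ^ (-m) • τ) = γ • τ := by
      rw [smul_smul, mul_assoc, ← zpow_add]; simp
    have e2 : ((ModularGroup.T ^ (-m) • τ : ℍ) : ℂ) = τ + ((-m : ℤ) : ℂ) := by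
      rw [UpperHalfPlane.modular_T_zpow_smul]
      simp [add_comm]
    rw [e1, h10, h11, e2, thetaK_add_int q τ (ModularGroup.T ^ (-m) • τ) (-m) e2] at key
    rw [key]
    have e3 : legendreSym q ℓ = legendreSym q (γ 1 1) :=
      legendreSym_eq_of_dvd (hdvd.trans ⟨m, hm⟩)
    have e4 : (ℓ : ℂ) = γ 1 1 + γ 1 0 * m := by
      have : (ℓ : ℤ) = γ 1 1 + γ 1 0 * m := by linarith
      exact_mod_cast this
    rw [e3]
    push_cast
    rw [e4]
    ring

/-! ### Holomorphy and `q`-expansion -/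

lemma normK_nonneg (q : ℕ) (hq : q % 4 = 3) (u : ℤ × ℤ) : 0 ≤ normK q u := by
  have h := normK_cast hq u
  have h2 := nR_ge (three_le hq) u.1 u.2
  have : (0 : ℝ) ≤ (normK q u : ℤ) := by rw [h]; nlinarith [sq_nonneg (u.1 : ℝ), sq_nonneg (u.2 : ℝ)]
  exact_mod_cast this

/-- `2 N(x,y) ≥ x² + y²`. -/
lemma normK_ge {q : ℕ} (hq : q % 4 = 3) (u : ℤ × ℤ) : u.1 ^ 2 + u.2 ^ 2 ≤ 2 * normK q u := by
  have h := normK_cast hq u
  have h2 := nR_ge (three_le hq) u.1 u.2
  have : ((u.1 : ℝ)) ^ 2 + (u.2 : ℝ) ^ 2 ≤ 2 * (normK q u : ℤ) := by rw [h]; linarith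
  exact_mod_cast this

lemma normK_eq_zero {q : ℕ} (hq : q % 4 = 3) {u : ℤ × ℤ} (h : normK q u = 0) : u = 0 := by
  have := normK_ge hq u
  rw [h] at this
  have h1 : u.1 = 0 := by nlinarith [sq_nonneg u.1, sq_nonneg u.2]
  have h2 : u.2 = 0 := by nlinarith [sq_nonneg u.1, sq_nonneg u.2]
  exact Prod.ext h1 h2

lemma finite_fiber {q : ℕ} (hq : q % 4 = 3) (n : ℤ) : Finite {u : ℤ × ℤ // normK q u = n} := by
  have : {u : ℤ × ℤ | normK q u = n} ⊆ (Set.Icc (-(2 * n)) (2 * n)) ×ˢ (Set.Icc (-(2 * n)) (2 * n)) := by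
    intro u hu
    have h := normK_ge hq u
    rw [hu] at h
    have hx : u.1 ^ 2 ≤ 2 * n := by nlinarith [sq_nonneg u.2]
    have hy : u.2 ^ 2 ≤ 2 * n := by nlinarith [sq_nonneg u.1]
    refine ⟨⟨?_, ?_⟩, ⟨?_, ?_⟩⟩ <;> nlinarith [Int.le_self_sq u.1, Int.le_self_sq (-u.1),
      Int.le_self_sq u.2, Int.le_self_sq (-u.2)]
  exact Set.Finite.subset ((Set.finite_Icc _ _).prod (Set.finite_Icc _ _)) this

open scoped Manifold in
/-- (1) `θ_K` is holomorphic. -/
theorem mdiff_thetaK {q : ℕ} (hq : q % 4 = 3) : MDiff (thetaK q) := by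
  rw [UpperHalfPlane.mdifferentiable_iff]
  intro z hz
  have hz' : 0 < z.im := hz
  have hopen : IsOpen {w : ℂ | z.im / 2 < w.im} := isOpen_lt continuous_const Complex.continuous_im
  have hmem : z ∈ {w : ℂ | z.im / 2 < w.im} := by simp only [Set.mem_ofPred_eq]; linarith
  have hd : DifferentiableOn ℂ (fun w : ℂ => ∑' u : ℤ × ℤ, cexp (2 * π * I * (normK q u) * w))
      {w : ℂ | z.im / 2 < w.im} := by
    refine Complex.differentiableOn_tsum_of_summable_norm
      (u := fun u : ℤ × ℤ => Real.exp (-2 * π * (z.im / 2) * nR q u.1 u.2)) ?_ ?_ hopen ?_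
    · have := summable_exp_nR (three_le hq) (half_pos hz') 0 0
      simpa using this
    · intro u
      exact (((differentiable_id.const_mul _)).cexp).differentiableOn
    · intro u w hw
      rw [Complex.norm_exp]
      refine Real.exp_le_exp.2 ?_
      have h1 : (2 * π * I * (normK q u : ℂ) * w).re = -(2 * π * (normK q u : ℤ) * w.im) := by
        simp [mul_assoc]
      rw [h1, normK_cast hq]
      have h2 : 0 ≤ nR q u.1 u.2 := by
        rw [← normK_cast hq]; exact_mod_cast normK_nonneg q hq u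
      have h3 : z.im / 2 ≤ w.im := le_of_lt hw
      have h4 : 0 ≤ 2 * π * nR q u.1 u.2 := by positivity
      nlinarith
  refine ((hd.differentiableAt (hopen.mem_nhds hmem)).congr_of_eventuallyEq ?_).differentiableWithinAt
  filter_upwards [(isOpen_lt continuous_const Complex.continuous_im).mem_nhds hz'] with w hw
  simp only [Function.comp]
  unfold thetaK
  rw [UpperHalfPlane.ofComplex_apply_of_im_pos hw]

lemma rK_zero {q : ℕ} (hq : q % 4 = 3) : rK q 0 = 1 := by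
  unfold rK
  rw [Nat.card_eq_one_iff_unique]
  refine ⟨⟨fun a b => Subtype.ext ?_⟩, ⟨⟨0, by simp [normK]⟩⟩⟩
  rw [normK_eq_zero hq a.2, normK_eq_zero hq b.2]

/-- (2) the `q`-expansion of `θ_K`. -/
theorem hasSum_thetaK {q : ℕ} (hq : q % 4 = 3) (τ : ℍ) :
    HasSum (fun n : ℕ => (rK q n : ℂ) * cexp (2 * π * I * n * τ)) (thetaK q τ) := by
  have h := (summable_thetaK hq τ).hasSum.tsum_fiberwise (fun u => (normK q u).toNat)
  have key : ∀ n : ℕ, ∑' u : ((fun u : ℤ × ℤ => (normK q u).toNat) ⁻¹' {n} : Set (ℤ × ℤ)),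
      cexp (2 * π * I * (normK q u) * τ) = (rK q n : ℂ) * cexp (2 * π * I * n * τ) := by
    intro n
    have hmem : ∀ u : ℤ × ℤ, u ∈ ((fun u : ℤ × ℤ => (normK q u).toNat) ⁻¹' {n} : Set (ℤ × ℤ)) ↔
        normK q u = n := by
      intro u
      have := normK_nonneg q hq u
      simp only [Set.mem_preimage, Set.mem_singleton_iff]
      omega
    have h1 : ∀ u : ((fun u : ℤ × ℤ => (normK q u).toNat) ⁻¹' {n} : Set (ℤ × ℤ)),
        cexp (2 * π * I * (normK q u) * τ) = cexp (2 * π * I * n * τ) := by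
      intro u
      rw [(hmem u).1 u.2]
      simp
    simp_rw [h1]
    rw [tsum_const, nsmul_eq_mul]
    congr 2
    exact Nat.card_congr (Equiv.subtypeEquivRight hmem)
  simp_rw [key] at h
  exact h

end Fermat.Agent.Eis
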