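import Fermat.Agent.S16.Defs
import Fermat.Agent.IntStr.Theta

/-!
# Tools for `Γ₀(p)`, `p` prime

* coset decomposition `SL₂(ℤ) = Γ₀(p) ⊔ ⨆_j Γ₀(p) S T^j`
* constructors for modular forms on `Γ₀(p)` / level one
* the trace to level one
-/

set_option autoImplicit false
set_option linter.unusedSimpArgs false
set_option linter.unusedVariables false

open UpperHalfPlane MatrixGroups CongruenceSubgroup ModularGroup
  Matrix.SpecialLinearGroup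

open scoped ModularForm Manifold

noncomputable section

namespace Fermat.Agent.Eis

/-! ### Entries in `SL₂(ℤ)` -/

theorem sl_mul (X Y : SL(2, ℤ)) (i j : Fin 2) :
    (X * Y) i j = X i 0 * Y 0 j + X i 1 * Y 1 j := by
  rw [Matrix.SpecialLinearGroup.coe_mul, Matrix.mul_apply, Fin.sum_univ_two]

theorem sl_inv00 (X : SL(2, ℤ)) : X⁻¹ 0 0 = X 1 1 := by
  rw [Matrix.SpecialLinearGroup.coe_inv, Matrix.adjugate_fin_two]; rfl
theorem sl_inv01 (X : SL(2, ℤ)) : X⁻¹ 0 1 = -X 0 1 := by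
  rw [Matrix.SpecialLinearGroup.coe_inv, Matrix.adjugate_fin_two]; rfl
theorem sl_inv10 (X : SL(2, ℤ)) : X⁻¹ 1 0 = -X 1 0 := by
  rw [Matrix.SpecialLinearGroup.coe_inv, Matrix.adjugate_fin_two]; rfl
theorem sl_inv11 (X : SL(2, ℤ)) : X⁻¹ 1 1 = X 0 0 := by
  rw [Matrix.SpecialLinearGroup.coe_inv, Matrix.adjugate_fin_two]; rfl

theorem sl_T00 (j : ℤ) : (T ^ j : SL(2, ℤ)) 0 0 = 1 := by simp [coe_T_zpow]
theorem sl_T01 (j : ℤ) : (T ^ j : SL(2, ℤ)) 0 1 = j := by simp [coe_T_zpow]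
theorem sl_T10 (j : ℤ) : (T ^ j : SL(2, ℤ)) 1 0 = 0 := by simp [coe_T_zpow]
theorem sl_T11 (j : ℤ) : (T ^ j : SL(2, ℤ)) 1 1 = 1 := by simp [coe_T_zpow]

theorem sl_S00 : (S : SL(2, ℤ)) 0 0 = 0 := by simp [S]
theorem sl_S01 : (S : SL(2, ℤ)) 0 1 = -1 := by simp [S]
theorem sl_S10 : (S : SL(2, ℤ)) 1 0 = 1 := by simp [S]
theorem sl_S11 : (S : SL(2, ℤ)) 1 1 = 0 := by simp [S]

variable {p : ℕ}

theorem gamma0_coset [Fact p.Prime] (γ : SL(2, ℤ)) :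
    γ ∈ Gamma0 p ∨ ∃ γ' ∈ Gamma0 p, ∃ j : ℤ, γ = γ' * (S * T ^ j) := by
  by_cases h : (γ 1 0 : ZMod p) = 0
  · exact Or.inl h
  · right
    obtain ⟨j, hj⟩ : ∃ j : ℤ, (j : ZMod p) = (γ 1 1 : ZMod p) / (γ 1 0 : ZMod p) :=
      ⟨_, ZMod.intCast_zmod_cast _⟩
    refine ⟨γ * (S * T ^ j)⁻¹, ?_, j, by group⟩
    rw [Gamma0_mem, mul_inv_rev, ← zpow_neg]
    have e : ((γ * (T ^ (-j) * S⁻¹) : SL(2, ℤ)) 1 0 : ℤ) = γ 1 0 * j - γ 1 1 := by
      simp only [sl_mul, sl_inv00, sl_inv01, sl_inv10, sl_inv11, sl_T00, sl_T01, sl_T10, sl_T11,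
        sl_S00, sl_S01, sl_S10, sl_S11]
      ring
    rw [e]
    push_cast
    rw [hj]
    field_simp
    ring

theorem slash_eq_of_mem {k : ℤ} {f : ℍ → ℂ} (hf : ∀ γ ∈ Gamma0 p, f ∣[k] γ = f)
    {γ₁ γ₂ : SL(2, ℤ)} (h : γ₁ * γ₂⁻¹ ∈ Gamma0 p) : f ∣[k] γ₁ = f ∣[k] γ₂ := by
  have : γ₁ = (γ₁ * γ₂⁻¹) * γ₂ := by group
  rw [this, SlashAction.slash_mul, hf _ h]

theorem slash_ST_congr {k : ℤ} {f : ℍ → ℂ} (hf : ∀ γ ∈ Gamma0 p, f ∣[k] γ = f)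
    {i j : ℤ} (h : (i : ZMod p) = (j : ZMod p)) :
    f ∣[k] (S * T ^ i) = f ∣[k] (S * T ^ j) := by
  refine slash_eq_of_mem hf ?_
  rw [Gamma0_mem, mul_inv_rev, ← zpow_neg]
  have e : ((S * T ^ i * (T ^ (-j) * S⁻¹) : SL(2, ℤ)) 1 0 : ℤ) = j - i := by
    simp only [sl_mul, sl_inv00, sl_inv01, sl_inv10, sl_inv11, sl_T00, sl_T01, sl_T10, sl_T11,
      sl_S00, sl_S01, sl_S10, sl_S11]
    ring
  rw [e]
  push_cast
  rw [h, sub_self]

theorem slash_STS {k : ℤ} {f : ℍ → ℂ} (hf : ∀ γ ∈ Gamma0 p, f ∣[k] γ = f)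
    {i j : ℤ} (h : (i : ZMod p) * (j : ZMod p) = -1) :
    f ∣[k] (S * T ^ i * S) = f ∣[k] (S * T ^ j) := by
  refine slash_eq_of_mem hf ?_
  rw [Gamma0_mem, mul_inv_rev, ← zpow_neg]
  have e : ((S * T ^ i * S * (T ^ (-j) * S⁻¹) : SL(2, ℤ)) 1 0 : ℤ) = i * j + 1 := by
    simp only [sl_mul, sl_inv00, sl_inv01, sl_inv10, sl_inv11, sl_T00, sl_T01, sl_T10, sl_T11,
      sl_S00, sl_S01, sl_S10, sl_S11]
    ring
  rw [e]
  push_cast
  rw [h]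
  ring

theorem slash_SS {k : ℤ} {f : ℍ → ℂ} (hf : ∀ γ ∈ Gamma0 p, f ∣[k] γ = f) :
    f ∣[k] (S * S) = f := by
  refine hf _ ?_
  rw [Gamma0_mem]
  have e : ((S * S : SL(2, ℤ)) 1 0 : ℤ) = 0 := by
    simp only [sl_mul, sl_S00, sl_S01, sl_S10, sl_S11]
    ring
  rw [e]
  simp

theorem T_mem_Gamma0 (N : ℕ) : (T : SL(2, ℤ)) ∈ Gamma0 N := by
  have := sl_T10 1
  rw [zpow_one] at this
  rw [Gamma0_mem, this]
  simp

/-- The trace from `Γ₀(p)` to level one, as a function. -/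
def trFun (p : ℕ) (k : ℤ) (f : ℍ → ℂ) : ℍ → ℂ :=
  f + ∑ j ∈ Finset.range p, f ∣[k] (S * T ^ (j : ℤ))

theorem sum_range_eq_sum_zmod [Fact p.Prime] {M : Type*} [AddCommMonoid M] (g : ℤ → M)
    (hg : ∀ i j : ℤ, (i : ZMod p) = (j : ZMod p) → g i = g j) :
    ∑ j ∈ Finset.range p, g (j : ℤ) = ∑ x : ZMod p, g (x.val : ℤ) := by
  symm
  refine Finset.sum_bij (fun x _ => x.val) (fun x _ => Finset.mem_range.mpr (ZMod.val_lt x))
    (fun x _ y _ h => ZMod.val_injective p h) (fun j hj => ⟨(j : ZMod p), Finset.mem_univ _,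
      ZMod.val_natCast_of_lt (Finset.mem_range.mp hj)⟩) (fun x _ => rfl)

theorem trFun_slash_T [Fact p.Prime] {k : ℤ} {f : ℍ → ℂ} (hf : ∀ γ ∈ Gamma0 p, f ∣[k] γ = f) :
    trFun p k f ∣[k] T = trFun p k f := by
  rw [trFun, SlashAction.add_slash, hf _ (T_mem_Gamma0 p), SlashAction.sum_slash]
  congr 1
  rw [sum_range_eq_sum_zmod (fun j : ℤ => f ∣[k] (S * T ^ j))
    (fun i j h => slash_ST_congr hf h)]
  have h1 : ∀ j ∈ Finset.range p, (f ∣[k] (S * T ^ (j : ℤ))) ∣[k] T =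
      f ∣[k] (S * T ^ ((j : ℤ) + 1)) := by
    intro j _
    rw [← SlashAction.slash_mul, mul_assoc, zpow_add_one]
  rw [Finset.sum_congr rfl h1, sum_range_eq_sum_zmod (fun j : ℤ => f ∣[k] (S * T ^ (j + 1)))
    (fun i j h => slash_ST_congr hf (by push_cast; rw [h]))]
  rw [← Equiv.sum_comp (Equiv.addRight (1 : ZMod p))
    (fun x : ZMod p => f ∣[k] (S * T ^ (x.val : ℤ)))]
  refine Finset.sum_congr rfl fun x _ => slash_ST_congr hf ?_
  simp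

theorem trFun_slash_S [Fact p.Prime] {k : ℤ} {f : ℍ → ℂ} (hf : ∀ γ ∈ Gamma0 p, f ∣[k] γ = f) :
    trFun p k f ∣[k] S = trFun p k f := by
  have h0 : f ∣[k] S = f ∣[k] (S * T ^ (0 : ℤ)) := by simp
  rw [trFun, SlashAction.add_slash, SlashAction.sum_slash]
  have h1 : ∀ j ∈ Finset.range p, (f ∣[k] (S * T ^ (j : ℤ))) ∣[k] S =
      f ∣[k] (S * T ^ (j : ℤ) * S) := by
    intro j _
    rw [← SlashAction.slash_mul]
  have hc : ∀ i j : ℤ, (i : ZMod p) = (j : ZMod p) →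
      f ∣[k] (S * T ^ i * S) = f ∣[k] (S * T ^ j * S) := by
    intro i j h
    rw [SlashAction.slash_mul, slash_ST_congr hf h, ← SlashAction.slash_mul]
  rw [Finset.sum_congr rfl h1, sum_range_eq_sum_zmod (fun j : ℤ => f ∣[k] (S * T ^ j * S)) hc,
    sum_range_eq_sum_zmod (fun j : ℤ => f ∣[k] (S * T ^ j)) (fun i j h => slash_ST_congr hf h)]
  set h : ZMod p → (ℍ → ℂ) := fun x => f ∣[k] (S * T ^ (x.val : ℤ)) with hh
  have hne : ∀ x : ZMod p, x ≠ 0 → f ∣[k] (S * T ^ (x.val : ℤ) * S) = h (-x⁻¹) := by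
    intro x hx
    rw [hh]
    refine slash_STS hf ?_
    push_cast
    rw [ZMod.natCast_zmod_val, ZMod.natCast_zmod_val]
    field_simp
  have h00 : f ∣[k] (S * T ^ ((0 : ZMod p).val : ℤ) * S) = f := by
    rw [ZMod.val_zero]
    simpa using slash_SS hf
  have hinvol : Function.Involutive (fun x : ZMod p => -x⁻¹) := fun x => by simp
  have hinv : ∑ x : ZMod p, h (-x⁻¹) = ∑ x : ZMod p, h x :=
    Equiv.sum_comp hinvol.toPerm h
  rw [← Finset.add_sum_erase _ _ (Finset.mem_univ (0 : ZMod p)), h00,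
    Finset.sum_congr rfl (fun x hx => hne x (Finset.ne_of_mem_erase hx))]
  have h2 : f ∣[k] S = h 0 := by
    rw [hh]
    simp
  rw [h2]
  have h3 : h 0 + ∑ x ∈ Finset.univ.erase (0 : ZMod p), h (-x⁻¹) = ∑ x : ZMod p, h x := by
    rw [← hinv, ← Finset.add_sum_erase _ _ (Finset.mem_univ (0 : ZMod p))]
    simp
  rw [← h3]
  abel

theorem slash_T_aux (j : ℤ) :
    ((((T ^ j : SL(2, ℤ)) : GL (Fin 2) ℝ) : Matrix (Fin 2) (Fin 2) ℝ)) 1 0 = 0 := by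
  change ((((T ^ j : SL(2, ℤ)) 1 0 : ℤ)) : ℝ) = 0
  rw [sl_T10 j, Int.cast_zero]

theorem isBoundedAtImInfty_slash_T {k : ℤ} {f : ℍ → ℂ} (hf : IsBoundedAtImInfty f) (j : ℤ) :
    IsBoundedAtImInfty (f ∣[k] (T ^ j : SL(2, ℤ))) := by
  rw [ModularForm.SL_slash]
  exact hf.slash k (slash_T_aux j)

theorem isZeroAtImInfty_slash_T {k : ℤ} {f : ℍ → ℂ} (hf : IsZeroAtImInfty f) (j : ℤ) :
    IsZeroAtImInfty (f ∣[k] (T ^ j : SL(2, ℤ))) := by
  rw [ModularForm.SL_slash]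
  exact hf.slash k (slash_T_aux j)

theorem isBoundedAtImInfty_slash_of_gamma0 [Fact p.Prime] {k : ℤ} {f : ℍ → ℂ}
    (hf : ∀ γ ∈ Gamma0 p, f ∣[k] γ = f) (b0 : IsBoundedAtImInfty f)
    (b1 : IsBoundedAtImInfty (f ∣[k] S)) (γ : SL(2, ℤ)) : IsBoundedAtImInfty (f ∣[k] γ) := by
  rcases gamma0_coset (p := p) γ with h | ⟨γ', h, j, rfl⟩
  · rwa [hf γ h]
  · rw [SlashAction.slash_mul, hf γ' h, SlashAction.slash_mul]
    exact isBoundedAtImInfty_slash_T b1 j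

theorem isZeroAtImInfty_slash_of_gamma0 [Fact p.Prime] {k : ℤ} {f : ℍ → ℂ}
    (hf : ∀ γ ∈ Gamma0 p, f ∣[k] γ = f) (b0 : IsZeroAtImInfty f)
    (b1 : IsZeroAtImInfty (f ∣[k] S)) (γ : SL(2, ℤ)) : IsZeroAtImInfty (f ∣[k] γ) := by
  rcases gamma0_coset (p := p) γ with h | ⟨γ', h, j, rfl⟩
  · rwa [hf γ h]
  · rw [SlashAction.slash_mul, hf γ' h, SlashAction.slash_mul]
    exact isZeroAtImInfty_slash_T b1 j

/-- Constructor for modular forms on `Γ₀(p)`. -/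
def mkGamma0 [Fact p.Prime] (k : ℤ) (f : ℍ → ℂ) (hf : ∀ γ ∈ Gamma0 p, f ∣[k] γ = f)
    (hol : MDiff f) (b0 : IsBoundedAtImInfty f) (b1 : IsBoundedAtImInfty (f ∣[k] S)) :
    ModularForm (Gamma0 p) k where
  toFun := f
  slash_action_eq' γ hγ := by
    obtain ⟨g, hg, rfl⟩ := hγ
    exact hf g hg
  holo' := hol
  bdd_at_cusps' hc := by
    have : NeZero p := ⟨(Fact.out : p.Prime).ne_zero⟩
    rw [Subgroup.IsArithmetic.isCusp_iff_isCusp_SL2Z] at hc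
    rw [OnePoint.isBoundedAt_iff_forall_SL2Z hc]
    exact fun γ _ => isBoundedAtImInfty_slash_of_gamma0 hf b0 b1 γ

@[simp] theorem coe_mkGamma0 [Fact p.Prime] (k : ℤ) (f : ℍ → ℂ)
    (hf : ∀ γ ∈ Gamma0 p, f ∣[k] γ = f)
    (hol : MDiff f) (b0 : IsBoundedAtImInfty f) (b1 : IsBoundedAtImInfty (f ∣[k] S)) :
    (⇑(mkGamma0 k f hf hol b0 b1) : ℍ → ℂ) = f := rfl

/-- Constructor for cusp forms on `Γ₀(p)`. -/
def mkGamma0Cusp [Fact p.Prime] (k : ℤ) (f : ℍ → ℂ) (hf : ∀ γ ∈ Gamma0 p, f ∣[k] γ = f)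
    (hol : MDiff f) (b0 : IsZeroAtImInfty f) (b1 : IsZeroAtImInfty (f ∣[k] S)) :
    CuspForm (Gamma0 p) k where
  toFun := f
  slash_action_eq' γ hγ := by
    obtain ⟨g, hg, rfl⟩ := hγ
    exact hf g hg
  holo' := hol
  zero_at_cusps' hc := by
    have : NeZero p := ⟨(Fact.out : p.Prime).ne_zero⟩
    rw [Subgroup.IsArithmetic.isCusp_iff_isCusp_SL2Z] at hc
    rw [OnePoint.isZeroAt_iff_forall_SL2Z hc]
    exact fun γ _ => isZeroAtImInfty_slash_of_gamma0 hf b0 b1 γ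

@[simp] theorem coe_mkGamma0Cusp [Fact p.Prime] (k : ℤ) (f : ℍ → ℂ)
    (hf : ∀ γ ∈ Gamma0 p, f ∣[k] γ = f)
    (hol : MDiff f) (b0 : IsZeroAtImInfty f) (b1 : IsZeroAtImInfty (f ∣[k] S)) :
    (⇑(mkGamma0Cusp k f hf hol b0 b1) : ℍ → ℂ) = f := rfl

/-- Constructor for modular forms of level one. -/
def mkL1 (k : ℤ) (f : ℍ → ℂ) (hS : f ∣[k] S = f) (hT : f ∣[k] T = f)
    (hol : MDiff f) (b0 : IsBoundedAtImInfty f) : ModularForm 𝒮ℒ k where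
  toFun := f
  slash_action_eq' γ hγ := by
    obtain ⟨g, rfl⟩ := hγ
    exact SlashInvariantForm.slash_action_generators_SL2Z hS hT g
  holo' := hol
  bdd_at_cusps' hc := by
    rw [OnePoint.isBoundedAt_iff_forall_SL2Z hc]
    intro γ _
    rwa [SlashInvariantForm.slash_action_generators_SL2Z hS hT γ]

@[simp] theorem coe_mkL1 (k : ℤ) (f : ℍ → ℂ) (hS : f ∣[k] S = f) (hT : f ∣[k] T = f)
    (hol : MDiff f) (b0 : IsBoundedAtImInfty f) : (⇑(mkL1 k f hS hT hol b0) : ℍ → ℂ) = f := rfl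

theorem slash_eq_of_mem_gamma0 {N : ℕ} {k : ℤ} {F : Type*} [FunLike F ℍ ℂ]
    [SlashInvariantFormClass F (Gamma0 N) k] (f : F) (γ : SL(2, ℤ)) (hγ : γ ∈ Gamma0 N) :
    (f : ℍ → ℂ) ∣[k] γ = f := by
  rw [ModularForm.SL_slash]
  exact SlashInvariantFormClass.slash_action_eq f _ ⟨γ, hγ, rfl⟩

theorem mdiff_slash_SL {k : ℤ} {f : ℍ → ℂ} (hf : MDiff f) (γ : SL(2, ℤ)) :
    MDiff (f ∣[k] γ) := by
  rw [ModularForm.SL_slash]
  exact hf.slash k _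

theorem mdiff_sum {ι : Type*} (s : Finset ι) (f : ι → ℍ → ℂ) (hf : ∀ i ∈ s, MDiff (f i)) :
    MDiff (∑ i ∈ s, f i) := by
  classical
  induction s using Finset.induction_on with
  | empty => exact (mdifferentiable_const : MDiff (fun _ : ℍ => (0 : ℂ)))
  | insert i s hi ih =>
    rw [Finset.sum_insert hi]
    exact (hf i (by simp)).add (ih fun j hj => hf j (by simp [hj]))

theorem isBoundedAtImInfty_sum {ι : Type*} (s : Finset ι) (f : ι → ℍ → ℂ)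
    (hf : ∀ i ∈ s, IsBoundedAtImInfty (f i)) : IsBoundedAtImInfty (∑ i ∈ s, f i) := by
  classical
  induction s using Finset.induction_on with
  | empty => exact Filter.zero_zeroAtFilter _ |>.boundedAtFilter
  | insert i s hi ih =>
    rw [Finset.sum_insert hi]
    exact (hf i (by simp)).add (ih fun j hj => hf j (by simp [hj]))

/-- The trace from `Γ₀(p)` to level one. -/
def tr [Fact p.Prime] {k : ℤ} (f : ModularForm (Gamma0 p) k) : ModularForm 𝒮ℒ k :=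
  have : NeZero p := ⟨(Fact.out : p.Prime).ne_zero⟩
  mkL1 k (trFun p k f) (trFun_slash_S fun γ hγ => slash_eq_of_mem_gamma0 f γ hγ)
    (trFun_slash_T fun γ hγ => slash_eq_of_mem_gamma0 f γ hγ)
    (f.holo'.add (mdiff_sum _ _ fun _ _ => mdiff_slash_SL f.holo' _))
    ((ModularFormClass.bdd_at_infty f).add (isBoundedAtImInfty_sum _ _ fun _ _ =>
      ModularFormClass.bdd_at_infty_slash f _))

@[simp] theorem coe_tr [Fact p.Prime] {k : ℤ} (f : ModularForm (Gamma0 p) k) :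
    (⇑(tr f) : ℍ → ℂ) = trFun p k f := rfl

end Fermat.Agent.Eis
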