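import Fermat.Agent.S16.QSum

/-!
# The Atkin–Lehner transform and integral pairs
-/

set_option autoImplicit false
set_option linter.unusedSimpArgs false
set_option linter.unusedVariables false

open UpperHalfPlane MatrixGroups CongruenceSubgroup ModularGroup
  Matrix.SpecialLinearGroup

open scoped ModularForm Manifold

noncomputable section

namespace Fermat.Agent.Eis

local notation "𝕢" => Function.Periodic.qParam

/-- the integral power series seen over `ℂ` -/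
def toC : PowerSeries ℤ →+* PowerSeries ℂ := PowerSeries.map (Int.castRingHom ℂ)

@[simp] theorem coeff_toC (A : PowerSeries ℤ) (n : ℕ) : (toC A).coeff n = ((A.coeff n : ℤ) : ℂ) := by
  simp [toC]

theorem toC_injective : Function.Injective toC := fun A B h => by
  ext n
  have := congrArg (PowerSeries.coeff n) h
  simpa using this

theorem toC_vOp (m : ℕ) (A : PowerSeries ℤ) : toC (vOp m A) = vOpC m (toC A) := by
  ext n
  simp only [coeff_toC, vOp, vOpC, PowerSeries.coeff_mk]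
  split_ifs <;> simp

theorem toC_uOp (m : ℕ) (A : PowerSeries ℤ) : toC (uOp m A) = uOpC m (toC A) := by
  ext n
  simp [uOp, uOpC]

theorem toC_thetaOp (A : PowerSeries ℤ) : toC (thetaOp A) = thetaOpC (toC A) := by
  ext n
  simp [thetaOp, thetaOpC]

/-- `f` is a modular form of weight `k` on `Γ₀(p)`. -/
def IsG0 (p : ℕ) (k : ℤ) (f : ℍ → ℂ) : Prop := ∃ F : ModularForm (Gamma0 p) k, ⇑F = f

variable {p : ℕ}

namespace IsG0

variable {k l : ℤ} {f g : ℍ → ℂ}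

theorem cast (hf : IsG0 p k f) (h : k = l) : IsG0 p l f := h ▸ hf

theorem add (hf : IsG0 p k f) (hg : IsG0 p k g) : IsG0 p k (f + g) := by
  obtain ⟨F, rfl⟩ := hf
  obtain ⟨G, rfl⟩ := hg
  exact ⟨F + G, rfl⟩

theorem smul (c : ℂ) (hf : IsG0 p k f) : IsG0 p k (c • f) := by
  obtain ⟨F, rfl⟩ := hf
  exact ⟨c • F, rfl⟩

theorem neg (hf : IsG0 p k f) : IsG0 p k (-f) := by
  simpa using hf.smul (-1)

theorem sub (hf : IsG0 p k f) (hg : IsG0 p k g) : IsG0 p k (f - g) := by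
  rw [sub_eq_add_neg]
  exact hf.add hg.neg

theorem mul (hf : IsG0 p k f) (hg : IsG0 p l g) : IsG0 p (k + l) (f * g) := by
  obtain ⟨F, rfl⟩ := hf
  obtain ⟨G, rfl⟩ := hg
  exact ⟨F.mul G, rfl⟩

theorem const (c : ℂ) : IsG0 p 0 (fun _ => c) := ⟨ModularForm.const c, rfl⟩

theorem slash (hf : IsG0 p k f) (γ : SL(2, ℤ)) (hγ : γ ∈ Gamma0 p) : f ∣[k] γ = f := by
  obtain ⟨F, rfl⟩ := hf
  exact slash_eq_of_mem_gamma0 F γ hγ

theorem mdiff (hf : IsG0 p k f) : MDiff f := by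
  obtain ⟨F, rfl⟩ := hf
  exact F.holo'

theorem bdd [NeZero p] (hf : IsG0 p k f) (γ : SL(2, ℤ)) : IsBoundedAtImInfty (f ∣[k] γ) := by
  obtain ⟨F, rfl⟩ := hf
  exact ModularFormClass.bdd_at_infty_slash F γ

theorem qs [NeZero p] (hf : IsG0 p k f) : QS f (qExpansion 1 f) := by
  obtain ⟨F, rfl⟩ := hf
  exact qs_of_modularForm F (CongruenceSubgroup.one_mem_strictPeriods_Gamma0 p)

theorem qExpansion_eq [NeZero p] (hf : IsG0 p k f) {P : PowerSeries ℂ} (h : QS f P) :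
    qExpansion 1 f = P := by
  obtain ⟨F, rfl⟩ := hf
  exact h.qExpansion_eq (CongruenceSubgroup.one_mem_strictPeriods_Gamma0 p)

theorem hasQ_iff [NeZero p] (hf : IsG0 p k f) {A : PowerSeries ℤ} :
    HasQ f A ↔ QS f (toC A) := by
  constructor
  · intro h
    have : qExpansion 1 f = toC A := by
      ext n
      rw [coeff_toC]
      exact h n
    rw [← this]
    exact hf.qs
  · intro h n
    rw [ModularFormClass.qCoeff, hf.qExpansion_eq h, coeff_toC]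

end IsG0

/-! ### The transform `♭` -/

/-- The point `-1/(pτ)`. -/
def wPt (p : ℕ) (τ : ℍ) : ℍ := S • (ModularForm.heckeDiagMatrix p • τ)

theorem coe_wPt [NeZero p] (τ : ℍ) : ((wPt p τ : ℍ) : ℂ) = -1 / ((p : ℂ) * τ) := by
  rw [wPt, UpperHalfPlane.modular_S_smul, UpperHalfPlane.coe_mk,
    ModularForm.coe_heckeDiagMatrix_smul (NeZero.ne p)]
  ring

theorem wPt_wPt [NeZero p] (τ : ℍ) : wPt p (wPt p τ) = τ := by
  have hp : (p : ℂ) ≠ 0 := by exact_mod_cast NeZero.ne p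
  have hτ : (τ : ℂ) ≠ 0 := ne_zero τ
  apply UpperHalfPlane.ext
  rw [coe_wPt, coe_wPt]
  field_simp

/-- `f♭(τ) = p^j (f|_{2j} S)(pτ)`. -/
def flatFun (p j : ℕ) (f : ℍ → ℂ) : ℍ → ℂ := fun τ =>
  (p : ℂ) ^ j * (f ∣[(2 * (j : ℤ))] S) (ModularForm.heckeDiagMatrix p • τ)

theorem slash_S_apply (k : ℤ) (f : ℍ → ℂ) (τ : ℍ) :
    (f ∣[k] S) τ = f (S • τ) * (τ : ℂ) ^ (-k) := by
  rw [ModularForm.SL_slash_apply, ModularGroup.denom_S]

theorem flatFun_apply [NeZero p] (j : ℕ) (f : ℍ → ℂ) (τ : ℍ) :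
    flatFun p j f τ = (p : ℂ) ^ j * (f (wPt p τ) * ((p : ℂ) * τ) ^ (-(2 * (j : ℤ)))) := by
  rw [flatFun, slash_S_apply, ModularForm.coe_heckeDiagMatrix_smul (NeZero.ne p)]
  rfl

theorem flatFun_flatFun [NeZero p] (j : ℕ) (f : ℍ → ℂ) :
    flatFun p j (flatFun p j f) = f := by
  ext τ
  have hp : (p : ℂ) ≠ 0 := by exact_mod_cast NeZero.ne p
  have hτ : (τ : ℂ) ≠ 0 := ne_zero τ
  rw [flatFun_apply, flatFun_apply, wPt_wPt, coe_wPt]
  have h1 : ((p : ℂ) * (-1 / ((p : ℂ) * τ))) = -1 / τ := by field_simp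
  rw [h1]
  have h2 : ∀ x : ℂ, x ^ (-(2 * (j : ℤ))) = ((x ^ j) ^ 2)⁻¹ := by
    intro x
    rw [zpow_neg, ← pow_mul, mul_comm j 2]
    norm_cast
  rw [h2, h2]
  have h3 : ((-1 / (τ : ℂ)) ^ j) ^ 2 = (((τ : ℂ) ^ j) ^ 2)⁻¹ := by
    rw [div_pow, div_pow, ← pow_mul, mul_comm j 2, pow_mul]
    simp
  rw [h3, mul_pow]
  have h4 : (p : ℂ) ^ j ≠ 0 := pow_ne_zero _ hp
  have h5 : (τ : ℂ) ^ j ≠ 0 := pow_ne_zero _ hτ
  field_simp

theorem flatFun_add (j : ℕ) (f g : ℍ → ℂ) :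
    flatFun p j (f + g) = flatFun p j f + flatFun p j g := by
  ext τ
  simp only [flatFun, SlashAction.add_slash, Pi.add_apply]
  ring

theorem flatFun_smul (j : ℕ) (c : ℂ) (f : ℍ → ℂ) :
    flatFun p j (c • f) = c • flatFun p j f := by
  ext τ
  simp only [flatFun, ModularForm.SL_smul_slash, Pi.smul_apply, smul_eq_mul]
  ring

theorem flatFun_neg (j : ℕ) (f : ℍ → ℂ) : flatFun p j (-f) = -flatFun p j f := by
  have := flatFun_smul (p := p) j (-1) f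
  simpa using this

theorem flatFun_sub (j : ℕ) (f g : ℍ → ℂ) :
    flatFun p j (f - g) = flatFun p j f - flatFun p j g := by
  rw [sub_eq_add_neg, flatFun_add, flatFun_neg, ← sub_eq_add_neg]

theorem flatFun_mul (i j : ℕ) (f g : ℍ → ℂ) :
    flatFun p (i + j) (f * g) = flatFun p i f * flatFun p j g := by
  ext τ
  have h := ModularForm.mul_slash_SL2 (2 * (i : ℤ)) (2 * (j : ℤ)) S f g
  have h2 : (2 * ((i + j : ℕ) : ℤ)) = 2 * (i : ℤ) + 2 * (j : ℤ) := by push_cast; ring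
  simp only [flatFun, Pi.mul_apply]
  rw [h2, h, Pi.mul_apply, pow_add]
  ring

theorem flatFun_const (c : ℂ) : flatFun p 0 (fun _ => c) = fun _ => c := by
  ext τ
  rw [flatFun, slash_S_apply]
  simp

/-- `♭` as a slash operator -/
theorem flatFun_eq_slash [NeZero p] (j : ℕ) (f : ℍ → ℂ) :
    flatFun p j f = ((p : ℂ) ^ (1 - (j : ℤ))) •
      ((f ∣[(2 * (j : ℤ))] S) ∣[(2 * (j : ℤ))] (ModularForm.heckeDiagMatrix p)) := by
  ext τ
  have hp : (p : ℂ) ≠ 0 := by exact_mod_cast NeZero.ne p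
  rw [Pi.smul_apply, ModularForm.slash_heckeDiagMatrix_apply _ (NeZero.ne p), smul_eq_mul,
    ← mul_assoc, ← zpow_add₀ hp, flatFun]
  congr 1
  rw [← zpow_natCast]
  congr 1
  ring

theorem heckeDiag_mul_mem [NeZero p] (γ : SL(2, ℤ)) (hγ : γ ∈ Gamma0 p) :
    ∃ γ' ∈ Gamma0 p, (ModularGroup.S : GL (Fin 2) ℝ) * ModularForm.heckeDiagMatrix p *
      (γ : GL (Fin 2) ℝ) =
      (γ' : GL (Fin 2) ℝ) * ((ModularGroup.S : GL (Fin 2) ℝ) * ModularForm.heckeDiagMatrix p) := by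
  rw [Gamma0_mem] at hγ
  obtain ⟨c, hc⟩ := (ZMod.intCast_zmod_eq_zero_iff_dvd _ p).mp hγ
  refine ⟨S * IntStr.conjSL p γ c hc * S⁻¹, ?_, ?_⟩
  · rw [Gamma0_mem]
    have e : ((S * IntStr.conjSL p γ c hc * S⁻¹ : SL(2, ℤ)) 1 0 : ℤ) = -(p * γ 0 1) := by
      simp only [sl_mul, sl_inv00, sl_inv01, sl_inv10, sl_inv11, sl_S00, sl_S01, sl_S10, sl_S11]
      simp [IntStr.conjSL]
    rw [e]
    simp
  · have h := IntStr.heckeDiag_mul p γ c hc
    have h' : ModularForm.heckeDiagMatrix p * (γ : GL (Fin 2) ℝ) =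
      ((IntStr.conjSL p γ c hc : SL(2, ℤ)) : GL (Fin 2) ℝ) * ModularForm.heckeDiagMatrix p := h
    rw [mul_assoc, h', ← mul_assoc, ← mul_assoc]
    congr 1
    rw [← map_mul, ← map_mul, ← map_mul, ← map_mul]
    congr 2
    group

theorem bdd_const_smul {f : ℍ → ℂ} (c : ℂ) (hf : IsBoundedAtImInfty f) :
    IsBoundedAtImInfty (c • f) := hf.const_smul_left c

theorem IsG0.flat [Fact p.Prime] {j : ℕ} {f : ℍ → ℂ} (hf : IsG0 p (2 * (j : ℤ)) f) :
    IsG0 p (2 * (j : ℤ)) (flatFun p j f) := by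
  have : NeZero p := ⟨(Fact.out : p.Prime).ne_zero⟩
  set SG : GL (Fin 2) ℝ := ((S : SL(2, ℤ)) : GL (Fin 2) ℝ) with hSG
  set D : GL (Fin 2) ℝ := ModularForm.heckeDiagMatrix p with hD
  have e : flatFun p j f = ((p : ℂ) ^ (1 - (j : ℤ))) • (f ∣[(2 * (j : ℤ))] (SG * D)) := by
    rw [flatFun_eq_slash, SlashAction.slash_mul]
    rfl
  have hD10 : (D : Matrix (Fin 2) (Fin 2) ℝ) 1 0 = 0 := by
    rw [hD, ModularForm.val_heckeDiagMatrix (NeZero.ne p)]; simp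
  refine ⟨mkGamma0 (2 * (j : ℤ)) (flatFun p j f) ?_ ?_ ?_ ?_, rfl⟩
  · intro γ hγ
    rw [e, ModularForm.SL_smul_slash]
    congr 1
    obtain ⟨γ', hγ', h⟩ := heckeDiag_mul_mem γ hγ
    rw [ModularForm.SL_slash, ← SlashAction.slash_mul]
    rw [show SG * D * (γ : GL (Fin 2) ℝ) = (γ' : GL (Fin 2) ℝ) * (SG * D) from h,
      SlashAction.slash_mul, ← ModularForm.SL_slash, hf.slash γ' hγ']
  · rw [e]
    exact (hf.mdiff.slash _ _).const_smul _
  · rw [flatFun_eq_slash]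
    exact bdd_const_smul _ (((hf.bdd S)).slash _ hD10)
  · rw [e, ModularForm.SL_smul_slash]
    refine bdd_const_smul _ ?_
    rw [ModularForm.SL_slash, ← SlashAction.slash_mul]
    have hb : IsBoundedAtImInfty f := by simpa using hf.bdd 1
    refine hb.slash _ ?_
    simp only [Units.val_mul, Matrix.mul_apply, Fin.sum_univ_two]
    rw [hD, ModularForm.val_heckeDiagMatrix (NeZero.ne p), hSG]
    have h00 : ((((S : SL(2, ℤ)) : GL (Fin 2) ℝ) : Matrix (Fin 2) (Fin 2) ℝ)) 0 0 = 0 := by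
      change (((S : SL(2, ℤ)) 0 0 : ℤ) : ℝ) = 0
      rw [sl_S00]; simp
    have h11 : ((((S : SL(2, ℤ)) : GL (Fin 2) ℝ) : Matrix (Fin 2) (Fin 2) ℝ)) 1 1 = 0 := by
      change (((S : SL(2, ℤ)) 1 1 : ℤ) : ℝ) = 0
      rw [sl_S11]; simp
    rw [h00, h11]
    simp

/-! ### Integral pairs -/

theorem isPair_iff [Fact p.Prime] {j : ℕ} {A B : PowerSeries ℤ} :
    IsPair p j A B ↔ ∃ f : ℍ → ℂ, IsG0 p (2 * (j : ℤ)) f ∧ QS f (toC A) ∧
      QS (flatFun p j f) (toC B) := by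
  have : NeZero p := ⟨(Fact.out : p.Prime).ne_zero⟩
  constructor
  · rintro ⟨f, g, hf, hg, h⟩
    have hg' : (g : ℍ → ℂ) = flatFun p j f := funext h
    refine ⟨f, ⟨f, rfl⟩, (IsG0.hasQ_iff ⟨f, rfl⟩).mp hf, ?_⟩
    rw [← hg']
    exact (IsG0.hasQ_iff ⟨g, rfl⟩).mp hg
  · rintro ⟨_, ⟨f, rfl⟩, hA, hB⟩
    obtain ⟨g, hg⟩ := IsG0.flat (p := p) (j := j) ⟨f, rfl⟩
    refine ⟨f, g, (IsG0.hasQ_iff ⟨f, rfl⟩).mpr hA, ?_, fun τ => ?_⟩
    · refine (IsG0.hasQ_iff ⟨g, rfl⟩).mpr ?_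
      rw [hg]
      exact hB
    · rw [hg]
      rfl

namespace IsPair

variable [Fact p.Prime] {j j' : ℕ} {A B A' B' : PowerSeries ℤ}

theorem swap (h : IsPair p j A B) : IsPair p j B A := by
  have : NeZero p := ⟨(Fact.out : p.Prime).ne_zero⟩
  obtain ⟨f, hf, hA, hB⟩ := isPair_iff.mp h
  exact isPair_iff.mpr ⟨flatFun p j f, hf.flat, hB, by rwa [flatFun_flatFun]⟩

theorem add (h : IsPair p j A B) (h' : IsPair p j A' B') : IsPair p j (A + A') (B + B') := by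
  obtain ⟨f, hf, hA, hB⟩ := isPair_iff.mp h
  obtain ⟨g, hg, hA', hB'⟩ := isPair_iff.mp h'
  refine isPair_iff.mpr ⟨f + g, hf.add hg, ?_, ?_⟩
  · rw [map_add]; exact hA.add hA'
  · rw [map_add, flatFun_add]; exact hB.add hB'

theorem neg (h : IsPair p j A B) : IsPair p j (-A) (-B) := by
  obtain ⟨f, hf, hA, hB⟩ := isPair_iff.mp h
  refine isPair_iff.mpr ⟨-f, hf.neg, ?_, ?_⟩
  · rw [map_neg]; exact hA.neg
  · rw [map_neg, flatFun_neg]; exact hB.neg

theorem sub (h : IsPair p j A B) (h' : IsPair p j A' B') : IsPair p j (A - A') (B - B') := by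
  rw [sub_eq_add_neg, sub_eq_add_neg]
  exact h.add h'.neg

theorem mul (h : IsPair p j A B) (h' : IsPair p j' A' B') :
    IsPair p (j + j') (A * A') (B * B') := by
  obtain ⟨f, hf, hA, hB⟩ := isPair_iff.mp h
  obtain ⟨g, hg, hA', hB'⟩ := isPair_iff.mp h'
  refine isPair_iff.mpr ⟨f * g, (hf.mul hg).cast (by push_cast; ring), ?_, ?_⟩
  · rw [map_mul]; exact hA.mul hA'
  · rw [map_mul, flatFun_mul]; exact hB.mul hB'

theorem cast (h : IsPair p j A B) (e : j = j') : IsPair p j' A B := e ▸ h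

theorem congr (h : IsPair p j A B) (e : A = A') (e' : B = B') : IsPair p j A' B' := e ▸ e' ▸ h

theorem toC_C (c : ℤ) : toC (PowerSeries.C c) = PowerSeries.C (c : ℂ) := by
  simp [toC]

theorem const (c : ℤ) : IsPair p 0 (PowerSeries.C c) (PowerSeries.C c) := by
  refine isPair_iff.mpr ⟨fun _ => (c : ℂ), by simpa using IsG0.const (p := p) (c : ℂ), ?_, ?_⟩
  · rw [toC_C]; exact QS.C _
  · rw [toC_C, flatFun_const]; exact QS.C _

theorem smul (c : ℤ) (h : IsPair p j A B) :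
    IsPair p j (PowerSeries.C c * A) (PowerSeries.C c * B) :=
  ((const c).mul h).cast (zero_add j)

theorem one : IsPair p 0 1 1 := by
  have := const (p := p) 1
  rwa [map_one] at this

theorem pow (h : IsPair p j A B) (n : ℕ) : IsPair p (n * j) (A ^ n) (B ^ n) := by
  induction n with
  | zero => simpa using one
  | succ n ih =>
    rw [pow_succ, pow_succ]
    exact (ih.mul h).cast (by ring)

/-- Division by a nonzero constant. -/
theorem of_smul {c : ℤ} (hc : c ≠ 0)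
    (h : IsPair p j (PowerSeries.C c * A) (PowerSeries.C c * B)) : IsPair p j A B := by
  have hc' : (c : ℂ) ≠ 0 := by exact_mod_cast hc
  obtain ⟨f, hf, hA, hB⟩ := isPair_iff.mp h
  have key : ∀ X : PowerSeries ℤ, ((c : ℂ)⁻¹) • toC (PowerSeries.C c * X) = toC X := by
    intro X
    ext n
    rw [map_mul, toC_C, PowerSeries.coeff_smul, PowerSeries.coeff_C_mul, smul_eq_mul,
      inv_mul_cancel_left₀ hc']
  refine isPair_iff.mpr ⟨(c : ℂ)⁻¹ • f, hf.smul _, ?_, ?_⟩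
  · have := hA.smul (c : ℂ)⁻¹
    rwa [key] at this
  · rw [flatFun_smul]
    have := hB.smul (c : ℂ)⁻¹
    rwa [key] at this

end IsPair

/-! ### Level one forms -/

theorem IsL1.isG0 {k : ℤ} {f : ℍ → ℂ} (hf : IntStr.IsL1 k f) : IsG0 p k f := by
  obtain ⟨F, rfl⟩ := hf
  exact ⟨IntStr.restrictMod (IntStr.Gamma0_le_SL p) F, rfl⟩

theorem flatFun_of_isL1 {j : ℕ} {f : ℍ → ℂ} (hf : IntStr.IsL1 (2 * (j : ℤ)) f) :
    flatFun p j f = ((p : ℂ) ^ j) • (fun τ => f (ModularForm.heckeDiagMatrix p • τ)) := by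
  obtain ⟨F, rfl⟩ := hf
  have h : (F : ℍ → ℂ) ∣[(2 * (j : ℤ))] S = F := by
    rw [ModularForm.SL_slash]
    exact SlashInvariantFormClass.slash_action_eq F _ ⟨S, rfl⟩
  ext τ
  simp only [flatFun, h, Pi.smul_apply, smul_eq_mul]

theorem isPair_of_isL1 [Fact p.Prime] {j : ℕ} {f : ℍ → ℂ} (hf : IntStr.IsL1 (2 * (j : ℤ)) f)
    {A : PowerSeries ℤ} (hA : QS f (toC A)) :
    IsPair p j A (PowerSeries.C ((p : ℤ) ^ j) * vOp p A) := by
  refine isPair_iff.mpr ⟨f, IsL1.isG0 hf, hA, ?_⟩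
  rw [flatFun_of_isL1 hf]
  have h := (hA.comp_mul (Fact.out : p.Prime).ne_zero).smul ((p : ℂ) ^ j)
  refine h.congr ?_
  ext n
  rw [map_mul, IsPair.toC_C, toC_vOp, PowerSeries.coeff_smul, PowerSeries.coeff_C_mul, smul_eq_mul]
  push_cast
  rfl

end Fermat.Agent.Eis
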