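import Fermat.Agent.S16.ThetaForm
import Fermat.Agent.S16.Pair

/-!
# S16 (B): lower bound, assembled from the even form

`lower_of`: there is a cusp form with integral `q`-expansion congruent to `Σ σ'(n) qⁿ` modulo the
Eisenstein numerator, given the weight two Eisenstein series and the cuspidality criterion.
-/

set_option autoImplicit false

open UpperHalfPlane MatrixGroups CongruenceSubgroup ModularGroup
  Matrix.SpecialLinearGroup

open scoped ModularForm Manifold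

noncomputable section

namespace Fermat.Agent.Eis

theorem exists_lower_unit (m : ℕ) : ∃ u w : ℤ,
    u * m = 12 * (w * (m / Nat.gcd m 12 : ℕ)) ∧ ((m / Nat.gcd m 12 : ℕ) : ℤ) ∣ u - 1 := by
  have hg : 0 < Nat.gcd m 12 := Nat.gcd_pos_of_pos_right _ (by norm_num)
  have hco : Nat.Coprime (m / Nat.gcd m 12) (12 / Nat.gcd m 12) :=
    Nat.coprime_div_gcd_div_gcd hg
  set G := Nat.gcd m 12 with hG
  obtain ⟨N, hN⟩ : G ∣ m := Nat.gcd_dvd_left _ _
  obtain ⟨G', hG'⟩ : G ∣ 12 := Nat.gcd_dvd_right _ _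
  have e1 : m / G = N := by rw [hN]; exact Nat.mul_div_cancel_left _ hg
  have e2 : 12 / G = G' := by rw [hG']; exact Nat.mul_div_cancel_left _ hg
  rw [e1, e2] at hco
  rw [e1]
  obtain ⟨a, b, hab⟩ := Int.isCoprime_iff_gcd_eq_one.mpr (by exact_mod_cast hco :
    Int.gcd (N : ℤ) (G' : ℤ) = 1)
  refine ⟨b * G', b, ?_, ⟨-a, ?_⟩⟩
  · have h12 : (12 : ℤ) = G * G' := by exact_mod_cast hG'
    rw [hN, h12]
    push_cast
    ring
  · linear_combination hab

theorem lower_of (p : ℕ) [Fact p.Prime] (E : ℍ → ℂ) (hE : IsG0 p 2 E)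
    (hEq : QS E (PowerSeries.C (((p : ℂ) - 1) / 24) + toC (sigmaPZ p)))
    (hcusp : ∀ f : ℍ → ℂ, IsG0 p 2 f → ModularFormClass.qCoeff f 0 = 0 →
      ∃ g : CuspForm (Gamma0 p) 2, ⇑g = f) :
    ∃ (f : CuspForm (Gamma0 p) 2) (A : PowerSeries ℤ), HasQ f A ∧
      ∀ n, 0 < n → (ModularCurve.eisensteinNumerator p : ℤ) ∣ A.coeff n - sigmaP p n := by
  have : NeZero p := ⟨(Fact.out : p.Prime).ne_zero⟩
  obtain ⟨g, B, hB, hB0, hB2⟩ := S16.Theta.exists_even_form p
  have hg : IsG0 p 2 g := ⟨g, rfl⟩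
  have hgq : QS g (toC B) := hg.hasQ_iff.mp hB
  obtain ⟨u, w, huw, hu1⟩ := exists_lower_unit (p - 1)
  have hpm : (((p - 1 : ℕ) : ℤ) : ℂ) = (p : ℂ) - 1 := by
    have := (Fact.out : p.Prime).one_lt
    push_cast [Nat.cast_sub this.le]
    ring
  change ((ModularCurve.eisensteinNumerator p : ℕ) : ℤ) ∣ u - 1 at hu1
  set N := ModularCurve.eisensteinNumerator p with hN
  change u * ((p - 1 : ℕ) : ℤ) = 12 * (w * (N : ℕ)) at huw
  choose! b hb using hB2
  set A : PowerSeries ℤ := PowerSeries.mk fun n =>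
    if n = 0 then 0 else u * sigmaP p n - w * N * b n with hA
  have hf : IsG0 p 2 ((u : ℂ) • E - ((u : ℂ) * (((p : ℂ) - 1) / 24)) • (g : ℍ → ℂ)) :=
    (hE.smul _).sub (hg.smul _)
  have hfq : QS ((u : ℂ) • E - ((u : ℂ) * (((p : ℂ) - 1) / 24)) • (g : ℍ → ℂ)) (toC A) := by
    refine ((hEq.smul _).sub (hgq.smul _)).congr ?_
    ext n
    simp only [map_sub, PowerSeries.coeff_smul, map_add, coeff_toC, smul_eq_mul, hA,
      PowerSeries.coeff_mk, PowerSeries.coeff_C]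
    by_cases hn : n = 0
    · subst hn
      rw [if_pos rfl, if_pos rfl, hB0, sigmaPZ, PowerSeries.coeff_mk, sigmaP]
      simp
    · rw [if_neg hn, if_neg hn, hb n (Nat.pos_of_ne_zero hn), sigmaPZ, PowerSeries.coeff_mk]
      have h1 := congrArg (fun t : ℤ => (t : ℂ)) huw
      simp only [Int.cast_mul] at h1
      rw [hpm] at h1
      push_cast at h1 ⊢
      linear_combination (-(b n : ℂ) / 12) * h1
  have hfQ : HasQ ((u : ℂ) • E - ((u : ℂ) * (((p : ℂ) - 1) / 24)) • (g : ℍ → ℂ)) A :=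
    hf.hasQ_iff.mpr hfq
  obtain ⟨f, hff⟩ := hcusp _ hf (by rw [hfQ 0, hA, PowerSeries.coeff_mk]; simp)
  refine ⟨f, A, by rw [hff]; exact hfQ, fun n hn => ?_⟩
  rw [hA, PowerSeries.coeff_mk, if_neg hn.ne']
  obtain ⟨c, hc⟩ := hu1
  exact ⟨c * sigmaP p n - w * b n, by linear_combination (sigmaP p n) * hc⟩

end Fermat.Agent.Eis
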