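import Fermat.Agent.S16.Assembly
import Fermat.Agent.S16.Lower
import Fermat.Prelude.Def_CuspForm_HeckeLocal
import Fermat.Prelude.Def_CuspForm_HeckeEvalForms
import Fermat.Prelude.Def_HeckeGalois_EichlerShimura
import Fermat.Prelude.Def_ModularCurve_ModularUnit

/-!
# S16: reduction to (E), (cusp criterion) and the upper bound

`S16_of_upper`.
-/

set_option autoImplicit false

open ModularCurve CuspForm

namespace Fermat.Agent.Eis

/-- there is an integral cusp form on `Γ₀(p)` of weight two which is `Σ σ'(n) qⁿ` modulo `r`. -/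
def EisCongr (p : ℕ) (r : ℤ) : Prop :=
  ∃ (f : CuspForm (CongruenceSubgroup.Gamma0 p) 2) (A : PowerSeries ℤ), HasQ f A ∧
    ∀ n, 0 < n → r ∣ A.coeff n - sigmaP p n

theorem eisCongr_iff (p : ℕ) [NeZero p] (r : ℤ) :
    EisCongr p r ↔ ∃ x : LL p, ∀ n, n ≠ 0 → r ∣ HeckeDuality.intCoeff x n - sigmaP p n := by
  constructor
  · rintro ⟨f, A, hA, h⟩
    have hf : f ∈ intLattice p 2 := (HeckeDuality.mem_intLattice_iff f).mpr fun n => ⟨_, hA n⟩
    refine ⟨⟨f, hf⟩, fun n hn => ?_⟩
    have h1 : HeckeDuality.intCoeff (⟨f, hf⟩ : LL p) n = A.coeff n := by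
      have h2 := HeckeDuality.coe_intCoeff (⟨f, hf⟩ : LL p) n
      have h3 := hA n
      have h4 : ((HeckeDuality.intCoeff (⟨f, hf⟩ : LL p) n : ℤ) : ℂ) = ((A.coeff n : ℤ) : ℂ) :=
        h2.trans h3
      exact_mod_cast h4
    rw [h1]
    exact h n (Nat.pos_of_ne_zero hn)
  · rintro ⟨x, hx⟩
    refine ⟨x.1, PowerSeries.mk fun n => HeckeDuality.intCoeff x n, fun n => ?_, fun n hn => ?_⟩
    · rw [PowerSeries.coeff_mk, HeckeDuality.coe_intCoeff]
    · rw [PowerSeries.coeff_mk]
      exact hx n hn.ne'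

theorem S16_of_congr (p : ℕ) [Fact p.Prime]
    (hlow : EisCongr p (eisensteinNumerator p))
    (hup : ∀ r : ℕ, r ≠ 0 → EisCongr p r → r ∣ eisensteinNumerator p) :
    Nat.card (↥(heckeLatticeAlgebra p ∅) ⧸
        Ideal.map ((latticeRestrictHom p ∅).toRingHom.comp (heckeEvalForms p 2))
          (eisensteinIdeal p)) =
      eisensteinNumerator p := by
  have h0 : eisensteinNumerator p ≠ 0 := by
    have hp : 2 ≤ p := (Fact.out : p.Prime).two_le
    rw [eisensteinNumerator]
    exact (Nat.div_pos (Nat.le_of_dvd (by omega) (Nat.gcd_dvd_left _ _))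
      (Nat.gcd_pos_of_pos_left _ (by omega))).ne'
  exact natCard_quotient_of (p := p) _ h0 ((eisCongr_iff p _).mp hlow)
    fun r hr h => hup r hr ((eisCongr_iff p _).mpr h)

end Fermat.Agent.Eis
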