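import Fermat.Agent.S16.EisTwo
import Fermat.Agent.S16.Reduce

/-!
# S16: weight two cuspidality criterion; the lower bound

* `cusp_of_coeff_zero`: `f ∈ M₂(Γ₀(p))` with `a₀(f) = 0` is a cusp form.
* `eisCongr_numerator`: the lower bound `EisCongr p (eisensteinNumerator p)`.
* `S16_of_upper`: S16 from the upper bound only.
-/

set_option autoImplicit false

open UpperHalfPlane MatrixGroups CongruenceSubgroup ModularGroup Filter Topology
  Matrix.SpecialLinearGroup

open scoped ModularForm Manifold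

noncomputable section

namespace Fermat.Agent.Eis

variable {p : ℕ}

theorem IsG0.tendsto [NeZero p] {k : ℤ} {f : ℍ → ℂ} (hf : IsG0 p k f) :
    Tendsto f atImInfty (𝓝 ((qExpansion 1 f).coeff 0)) := by
  obtain ⟨F, rfl⟩ := hf
  have hΓ := CongruenceSubgroup.one_mem_strictPeriods_Gamma0 p
  have hanal := ModularFormClass.analyticAt_cuspFunction_zero F one_pos hΓ
  have hper := SlashInvariantFormClass.periodic_comp_ofComplex F hΓ
  rw [qExpansion_coeff_zero one_pos hanal hper, ← cuspFunction_apply_zero one_pos hanal hper]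
  exact (hanal.continuousAt.tendsto.comp (qParam_tendsto_atImInfty one_pos)).congr
    (fun τ ↦ SlashInvariantFormClass.eq_cuspFunction F τ hΓ one_ne_zero)

theorem trFun_two_eq_zero [Fact p.Prime] {f : ℍ → ℂ} (hf : IsG0 p 2 f) : trFun p 2 f = 0 := by
  obtain ⟨F, rfl⟩ := hf
  have h1 : (tr F : ModularForm 𝒮ℒ 2) = 0 := by
    have := rank_zero_iff.mp ModularForm.levelOne_weight_two_rank_zero
    exact Subsingleton.elim _ _
  rw [← coe_tr, h1]
  rfl

theorem im_T_zpow_smul (j : ℤ) (τ : ℍ) : ((T ^ j : SL(2, ℤ)) • τ).im = τ.im := by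
  rw [UpperHalfPlane.modular_T_zpow_smul]
  exact UpperHalfPlane.vadd_im _ _

theorem slash_T_zpow_apply (k : ℤ) (f : ℍ → ℂ) (j : ℤ) (τ : ℍ) :
    (f ∣[k] (T ^ j : SL(2, ℤ))) τ = f ((T ^ j : SL(2, ℤ)) • τ) := by
  rw [ModularForm.SL_slash_apply]
  have : denom ((T ^ j : SL(2, ℤ)) : GL (Fin 2) ℝ) τ = 1 := by
    rw [ModularGroup.denom_apply, sl_T10, sl_T11]
    simp
  rw [this]
  simp

/-- the limit of `f|S` at `i∞`. -/
theorem tendsto_slash_S [Fact p.Prime] {f : ℍ → ℂ} (hf : IsG0 p 2 f) :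
    ∃ c : ℂ, Tendsto (f ∣[(2 : ℤ)] S) atImInfty (𝓝 c) := by
  have : NeZero p := ⟨(Fact.out : p.Prime).ne_zero⟩
  have hp : (p : ℂ) ≠ 0 := by exact_mod_cast NeZero.ne p
  have hp0 : (0 : ℝ) < p := by exact_mod_cast (Fact.out : p.Prime).pos
  have hg : IsG0 p 2 (flatFun p 1 f) := by
    have := (IsG0.flat (p := p) (j := 1) (f := f) (by simpa using hf))
    simpa using this
  refine ⟨(p : ℂ)⁻¹ * (qExpansion 1 (flatFun p 1 f)).coeff 0, ?_⟩
  have key : ∀ τ : ℍ, ∃ τ' : ℍ, τ'.im = τ.im / p ∧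
      (f ∣[(2 : ℤ)] S) τ = (p : ℂ)⁻¹ * flatFun p 1 f τ' := by
    intro τ
    let τ' : ℍ := ⟨(τ : ℂ) / p, by
      rw [← Complex.ofReal_natCast, Complex.div_ofReal_im]
      exact div_pos τ.im_pos hp0⟩
    refine ⟨τ', ?_, ?_⟩
    · change ((τ : ℂ) / p).im = _
      rw [← Complex.ofReal_natCast, Complex.div_ofReal_im]
      rfl
    · have h1 : ModularForm.heckeDiagMatrix p • τ' = τ := by
        apply UpperHalfPlane.ext
        rw [ModularForm.coe_heckeDiagMatrix_smul (NeZero.ne p)]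
        change (p : ℂ) * ((τ : ℂ) / p) = τ
        field_simp
      rw [flatFun, h1, pow_one]
      have h2 : (2 * ((1 : ℕ) : ℤ)) = 2 := by norm_num
      rw [h2]
      field_simp
  choose w hw1 hw2 using key
  have h3 : Tendsto w atImInfty atImInfty := by
    rw [atImInfty, tendsto_comap_iff]
    have h4 : (UpperHalfPlane.im ∘ w) = fun τ : ℍ => τ.im / p := funext hw1
    rw [h4]
    exact tendsto_comap.atTop_div_const hp0
  have h4 := ((hg.tendsto.comp h3).const_mul (p : ℂ)⁻¹)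
  refine h4.congr fun τ => ?_
  rw [hw2, Function.comp_apply]

theorem isZeroAtImInfty_slash_S [Fact p.Prime] {f : ℍ → ℂ} (hf : IsG0 p 2 f)
    (h0 : ModularFormClass.qCoeff f 0 = 0) : IsZeroAtImInfty (f ∣[(2 : ℤ)] S) := by
  have : NeZero p := ⟨(Fact.out : p.Prime).ne_zero⟩
  have hp : (p : ℂ) ≠ 0 := by exact_mod_cast NeZero.ne p
  obtain ⟨c, hc⟩ := tendsto_slash_S hf
  have hT : ∀ j : ℤ, Tendsto (f ∣[(2 : ℤ)] (S * T ^ j)) atImInfty (𝓝 c) := by
    intro j
    have h1 : Tendsto (fun τ : ℍ => (T ^ j : SL(2, ℤ)) • τ) atImInfty atImInfty := by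
      rw [atImInfty, tendsto_comap_iff]
      have h4 : (UpperHalfPlane.im ∘ fun τ : ℍ => (T ^ j : SL(2, ℤ)) • τ) =
        fun τ : ℍ => τ.im := funext fun τ => im_T_zpow_smul j τ
      rw [h4]
      exact tendsto_comap
    refine (hc.comp h1).congr fun τ => ?_
    rw [SlashAction.slash_mul, slash_T_zpow_apply, Function.comp_apply]
  have h1 : Tendsto (trFun p 2 f) atImInfty
      (𝓝 ((qExpansion 1 f).coeff 0 + ∑ _j ∈ Finset.range p, c)) := by
    have h2 : trFun p 2 f = fun τ => f τ + ∑ j ∈ Finset.range p,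
        (f ∣[(2 : ℤ)] (S * T ^ (j : ℤ))) τ := by
      ext τ
      rw [trFun, Pi.add_apply, Finset.sum_apply]
    rw [h2]
    exact hf.tendsto.add (tendsto_finsetSum _ fun j _ => hT j)
  rw [trFun_two_eq_zero hf] at h1
  have h2 : ((qExpansion 1 f).coeff 0 + ∑ _j ∈ Finset.range p, c) = 0 :=
    tendsto_nhds_unique h1 tendsto_const_nhds
  have h3 : c = 0 := by
    change ModularFormClass.qCoeff f 0 + _ = 0 at h2
    rw [h0, zero_add, Finset.sum_const, Finset.card_range, nsmul_eq_mul] at h2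
    exact (mul_eq_zero.mp h2).resolve_left hp
  rw [IsZeroAtImInfty, ZeroAtFilter]
  rwa [h3] at hc

theorem cusp_of_coeff_zero [Fact p.Prime] {f : ℍ → ℂ} (hf : IsG0 p 2 f)
    (h0 : ModularFormClass.qCoeff f 0 = 0) : ∃ g : CuspForm (Gamma0 p) 2, ⇑g = f := by
  have : NeZero p := ⟨(Fact.out : p.Prime).ne_zero⟩
  refine ⟨mkGamma0Cusp 2 f (fun γ hγ => hf.slash γ hγ) hf.mdiff ?_
    (isZeroAtImInfty_slash_S hf h0), rfl⟩
  have h1 := hf.tendsto
  change Tendsto f atImInfty (𝓝 (ModularFormClass.qCoeff f 0)) at h1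
  rw [h0] at h1
  exact h1

/-- The lower bound. -/
theorem eisCongr_numerator (p : ℕ) [Fact p.Prime] :
    EisCongr p (ModularCurve.eisensteinNumerator p) := by
  have : NeZero p := ⟨(Fact.out : p.Prime).ne_zero⟩
  exact lower_of p (eisTwo p) isG0_eisTwo (qs_eisTwo Fact.out) fun f hf h0 =>
    cusp_of_coeff_zero hf h0

open ModularCurve CuspForm in
/-- S16 from the upper bound. -/
theorem S16_of_upper (p : ℕ) [Fact p.Prime]
    (hup : ∀ r : ℕ, r ≠ 0 → EisCongr p r → r ∣ eisensteinNumerator p) :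
    Nat.card (↥(heckeLatticeAlgebra p ∅) ⧸
        Ideal.map ((latticeRestrictHom p ∅).toRingHom.comp (heckeEvalForms p 2))
          (eisensteinIdeal p)) =
      eisensteinNumerator p :=
  S16_of_congr p (eisCongr_numerator p) hup

end Fermat.Agent.Eis
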