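import Fermat.Agent.S16.Upper4
import Fermat.Agent.S16.CuspCrit

/-!
# The upper bound and the final statement
-/

set_option autoImplicit false
set_option linter.unusedSimpArgs false
set_option linter.unusedVariables false

open CongruenceSubgroup ModularCurve CuspForm

noncomputable section

namespace Fermat.Agent.Eis

theorem upper_two {p : ℕ} [Fact p.Prime] (hℓ : 2 ≠ p) {e : ℕ}
    (h : Cong p (((2 : ℕ) : ℤ) ^ e)) : 2 ^ e ∣ eisensteinNumerator p := by
  by_cases h78 : p % 8 = 7
  · rcases Nat.eq_zero_or_pos e with he | he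
    · rw [he, pow_zero]
      exact one_dvd _
    · exact (not_cong_two h78 (h.mono (by
        push_cast
        exact dvd_pow_self _ he.ne'))).elim
  · exact upper_two_aux hℓ h78 h

theorem dvd_numerator_of_prime_pow {p : ℕ} [Fact p.Prime] {ℓ : ℕ} (hl : ℓ.Prime) {e : ℕ}
    (h : Cong p ((ℓ : ℤ) ^ e)) : ℓ ^ e ∣ eisensteinNumerator p := by
  have hp := (Fact.out : p.Prime)
  rcases lt_or_ge p 5 with h5 | h5
  · have h1 := upper_small (by omega) h
    have h2 : ℓ ^ e ∣ 1 := by exact_mod_cast h1
    exact h2.trans (one_dvd _)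
  have : Fact ℓ.Prime := ⟨hl⟩
  by_cases hlp : ℓ = p
  · subst hlp
    exact upper_self h5 h
  rcases lt_or_ge ℓ 5 with hl5 | hl5
  · interval_cases ℓ
    · exact absurd hl (by norm_num)
    · exact absurd hl (by norm_num)
    · exact upper_two hlp h
    · exact upper_three hlp h
    · exact absurd hl (by norm_num)
  · exact upper_five hl5 hlp h

theorem dvd_numerator_of_eisCongr (p : ℕ) [Fact p.Prime] (r : ℕ) (hr : r ≠ 0) (h : EisCongr p r) :
    r ∣ eisensteinNumerator p := by
  rw [Nat.dvd_iff_prime_pow_dvd_dvd]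
  intro ℓ e hl hd
  have h1 : Cong p (r : ℤ) := h
  exact dvd_numerator_of_prime_pow hl (h1.mono (by exact_mod_cast hd))

end Fermat.Agent.Eis
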