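import Fermat.Agent.S16.Defs

/-!
# S16: the Hecke recursion of `σ'`
-/

set_option autoImplicit false

noncomputable section

namespace Fermat.Agent.Eis

theorem sigmaP_one_eq (p : ℕ) (hp : p.Prime) : sigmaP p 1 = 1 := by
  have h : ¬ p ∣ 1 := fun h => hp.one_lt.ne' (Nat.dvd_one.mp h)
  rw [sigmaP, Nat.divisors_one, Finset.filter_singleton, if_pos h, Finset.sum_singleton]
  rfl

theorem sigmaP_mul_self (p : ℕ) (hp : p.Prime) {k : ℕ} (hk : k ≠ 0) :
    sigmaP p (k * p) = sigmaP p k := by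
  rw [sigmaP, sigmaP]
  refine Finset.sum_congr ?_ fun _ _ => rfl
  ext d
  simp only [Finset.mem_filter, Nat.mem_divisors]
  constructor
  · rintro ⟨⟨h1, -⟩, h2⟩
    refine ⟨⟨?_, hk⟩, h2⟩
    exact ((Nat.Prime.coprime_iff_not_dvd hp).mpr h2).symm.dvd_of_dvd_mul_right h1
  · rintro ⟨⟨h1, -⟩, h2⟩
    exact ⟨⟨h1.mul_right _, mul_ne_zero hk hp.ne_zero⟩, h2⟩

theorem sigmaP_mul (p : ℕ) (hp : p.Prime) {l k : ℕ} (hl : l.Prime) (hlp : l ≠ p) (hk : k ≠ 0) :
    sigmaP p (k * l) = (1 + l) * sigmaP p k - if l ∣ k then l * sigmaP p (k / l) else 0 := by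
  have hpl : ¬ p ∣ l := fun h => hlp ((Nat.prime_dvd_prime_iff_eq hp hl).mp h).symm
  have hkl : k * l ≠ 0 := mul_ne_zero hk hl.ne_zero
  have h1 : sigmaP p (k * l) = (∑ d ∈ (k * l).divisors.filter (fun d => ¬ p ∣ d) with d ∣ k,
      (d : ℤ)) + ∑ d ∈ (k * l).divisors.filter (fun d => ¬ p ∣ d) with ¬ d ∣ k, (d : ℤ) := by
    rw [Finset.sum_filter_add_sum_filter_not]
    rfl
  have h2 : (∑ d ∈ (k * l).divisors.filter (fun d => ¬ p ∣ d) with d ∣ k, (d : ℤ)) =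
      sigmaP p k := by
    rw [sigmaP]
    refine Finset.sum_congr ?_ fun _ _ => rfl
    ext d
    simp only [Finset.mem_filter, Nat.mem_divisors]
    constructor
    · rintro ⟨⟨⟨-, -⟩, h⟩, h'⟩
      exact ⟨⟨h', hk⟩, h⟩
    · rintro ⟨⟨h', -⟩, h⟩
      exact ⟨⟨⟨h'.mul_right _, hkl⟩, h⟩, h'⟩
  have h3 : (∑ d ∈ (k * l).divisors.filter (fun d => ¬ p ∣ d) with ¬ d ∣ k, (d : ℤ)) =
      ∑ e ∈ k.divisors.filter (fun d => ¬ p ∣ d) with ¬ l * e ∣ k, (l : ℤ) * e := by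
    symm
    refine Finset.sum_bij (fun e _ => l * e) ?_ ?_ ?_ ?_
    · intro e he
      simp only [Finset.mem_filter, Nat.mem_divisors] at he ⊢
      obtain ⟨⟨⟨h4, -⟩, h5⟩, h6⟩ := he
      refine ⟨⟨⟨?_, hkl⟩, ?_⟩, h6⟩
      · rw [mul_comm k l]
        exact Nat.mul_dvd_mul_left l h4
      · intro h7
        rcases hp.dvd_mul.mp h7 with h8 | h8
        · exact hpl h8
        · exact h5 h8
    · intro a _ b _ h
      exact Nat.eq_of_mul_eq_mul_left hl.pos h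
    · intro d hd
      simp only [Finset.mem_filter, Nat.mem_divisors] at hd
      obtain ⟨⟨⟨h4, -⟩, h5⟩, h6⟩ := hd
      have h7 : l ∣ d := by
        by_contra h7
        exact h6 (((Nat.Prime.coprime_iff_not_dvd hl).mpr h7).symm.dvd_of_dvd_mul_right h4)
      obtain ⟨e, rfl⟩ := h7
      refine ⟨e, ?_, rfl⟩
      simp only [Finset.mem_filter, Nat.mem_divisors]
      refine ⟨⟨⟨?_, hk⟩, fun h => h5 (h.mul_left _)⟩, h6⟩
      rw [mul_comm k l] at h4
      exact Nat.dvd_of_mul_dvd_mul_left hl.pos h4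
    · intro e _
      push_cast
      rfl
  have h4 : (∑ e ∈ k.divisors.filter (fun d => ¬ p ∣ d) with ¬ l * e ∣ k, (l : ℤ) * e) =
      l * sigmaP p k - ∑ e ∈ k.divisors.filter (fun d => ¬ p ∣ d) with l * e ∣ k, (l : ℤ) * e := by
    rw [eq_sub_iff_add_eq, add_comm, Finset.sum_filter_add_sum_filter_not, sigmaP, Finset.mul_sum]
  have h5 : (∑ e ∈ k.divisors.filter (fun d => ¬ p ∣ d) with l * e ∣ k, (l : ℤ) * e) =
      if l ∣ k then l * sigmaP p (k / l) else 0 := by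
    split_ifs with h
    · obtain ⟨m, rfl⟩ := h
      have hm : m ≠ 0 := right_ne_zero_of_mul hk
      rw [Nat.mul_div_cancel_left _ hl.pos, sigmaP, Finset.mul_sum]
      refine Finset.sum_congr ?_ fun _ _ => rfl
      ext d
      simp only [Finset.mem_filter, Nat.mem_divisors]
      constructor
      · rintro ⟨⟨⟨h6, -⟩, h7⟩, h8⟩
        exact ⟨⟨Nat.dvd_of_mul_dvd_mul_left hl.pos h8, hm⟩, h7⟩
      · rintro ⟨⟨h6, -⟩, h7⟩
        exact ⟨⟨⟨h6.mul_left _, hk⟩, h7⟩, Nat.mul_dvd_mul_left l h6⟩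
    · refine Finset.sum_eq_zero fun e he => ?_
      simp only [Finset.mem_filter, Nat.mem_divisors] at he
      exact absurd ((Dvd.intro _ rfl).trans he.2) h
  rw [h1, h2, h3, h4, h5]
  ring

end Fermat.Agent.Eis
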