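import Fermat.Agent.S16.Duality
import Fermat.Agent.S16.SigmaRec
import Fermat.Prelude.Def_ModularCurve_ModularUnit

/-!
# S16: the quotient of the Hecke algebra by the Eisenstein ideal, from congruences of forms

`natCard_quotient_of`: S16 follows from
* `hlow`: an integral form congruent to `Σ σ'(n) qⁿ` modulo `n₀`,
* `hup`: if there is an integral form congruent to `Σ σ'(n) qⁿ` modulo `r` then `r ∣ n₀`.
-/

set_option autoImplicit false

open UpperHalfPlane ModularForm ModularFormClass CongruenceSubgroup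

noncomputable section

namespace Fermat.Agent.Eis

open Fermat.Agent.HeckeDuality

variable {p : ℕ} [Fact p.Prime]


/-- The Eisenstein character of the abstract Hecke algebra -/
def epsH (p : ℕ) : ModularCurve.HeckeAlg →ₐ[ℤ] ℤ :=
  MvPolynomial.aeval (ModularCurve.eisensteinSystem p)

omit [Fact p.Prime] in
theorem mem_eisensteinIdeal_iff (x : ModularCurve.HeckeAlg) :
    x ∈ ModularCurve.eisensteinIdeal p ↔ epsH p x = 0 :=
  ModularCurve.mem_eigenIdeal_iff _ _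

theorem epsH_gen (ℓ : Nat.Primes) :
    epsH p (ModularCurve.heckeGen ℓ) = if (ℓ : ℕ) = p then 1 else 1 + (ℓ : ℤ) := by
  rw [epsH, ModularCurve.aeval_heckeGen, ModularCurve.eisensteinSystem]
  have : ((ℓ : ℕ) ∣ p) ↔ (ℓ : ℕ) = p := Nat.prime_dvd_prime_iff_eq ℓ.2 (Fact.out : p.Prime)
  simp only [this]

/-- the ideal in the statement of S16. -/
abbrev JJ (p : ℕ) [NeZero p] : Ideal (TT p) :=
  Ideal.map (phiH p) (ModularCurve.eisensteinIdeal p)

theorem sigmaP_rec (ℓ : Nat.Primes) {k : ℕ} (hk : k ≠ 0) :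
    sigmaP p (k * ℓ) = epsH p (ModularCurve.heckeGen ℓ) * sigmaP p k -
      if (ℓ : ℕ) ∣ k ∧ ¬ (ℓ : ℕ) ∣ p then (ℓ : ℤ) * sigmaP p (k / ℓ) else 0 := by
  have hp : p.Prime := Fact.out
  rw [epsH_gen]
  have hdvd : ((ℓ : ℕ) ∣ p) ↔ (ℓ : ℕ) = p := Nat.prime_dvd_prime_iff_eq ℓ.2 hp
  by_cases h : (ℓ : ℕ) = p
  · rw [if_pos h, if_neg (fun h' => h'.2 (hdvd.mpr h)), h, sigmaP_mul_self p hp hk]
    ring
  · rw [if_neg h, sigmaP_mul p hp ℓ.2 h hk]
    by_cases h2 : (ℓ : ℕ) ∣ k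
    · rw [if_pos h2, if_pos ⟨h2, fun h' => h (hdvd.mp h')⟩]
    · rw [if_neg h2, if_neg (fun h' => h2 h'.1)]

/-- Step 1: an integral form congruent to `σ'` modulo `m` is an Eisenstein eigenform modulo
`m`. -/
theorem phiH_act_of_congr (m : ℤ) (hm : m ≠ 0) (x : LL p)
    (hx : ∀ n, n ≠ 0 → m ∣ intCoeff x n - sigmaP p n) (y : ModularCurve.HeckeAlg) :
    ∃ g : LL p, tact p (phiH p y) x = epsH p y • x + m • g := by
  induction y using MvPolynomial.induction_on with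
  | C a =>
    refine ⟨0, ?_⟩
    have h1 : phiH p (MvPolynomial.C a) = algebraMap ℤ (TT p) a := by
      rw [show (MvPolynomial.C a : ModularCurve.HeckeAlg) = ((a : ℤ) : ModularCurve.HeckeAlg) from
        (eq_intCast (MvPolynomial.C : ℤ →+* _) a), map_intCast, eq_intCast (algebraMap ℤ (TT p))]
    have h2 : epsH p (MvPolynomial.C a) = a := by
      rw [epsH, MvPolynomial.aeval_C]
      rfl
    rw [h1, h2, smul_zero, add_zero]
    rfl
  | add y z hy hz =>
    obtain ⟨g, hg⟩ := hy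
    obtain ⟨g', hg'⟩ := hz
    refine ⟨g + g', ?_⟩
    have h1 : tact p (phiH p (y + z)) x = tact p (phiH p y) x + tact p (phiH p z) x := by
      rw [map_add]; rfl
    rw [h1, hg, hg', map_add, add_smul, smul_add]
    abel
  | mul_X y ℓ hy =>
    obtain ⟨g, hg⟩ := hy
    obtain ⟨g', hg'⟩ : ∃ g' : LL p, tact p (phiH p (ModularCurve.heckeGen ℓ)) x =
        epsH p (ModularCurve.heckeGen ℓ) • x + m • g' := by
      obtain ⟨g', hg'⟩ := exists_eq_smul_of_dvd m hm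
        (tact p (phiH p (ModularCurve.heckeGen ℓ)) x - epsH p (ModularCurve.heckeGen ℓ) • x)
        (fun n hn => by
          have h1 : intCoeff (tact p (phiH p (ModularCurve.heckeGen ℓ)) x -
              epsH p (ModularCurve.heckeGen ℓ) • x) n =
              intCoeff (tact p (phiH p (ModularCurve.heckeGen ℓ)) x) n -
                epsH p (ModularCurve.heckeGen ℓ) * intCoeff x n := by
            have := map_sub (intCoeffLin p 2 n) (tact p (phiH p (ModularCurve.heckeGen ℓ)) x)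
              (epsH p (ModularCurve.heckeGen ℓ) • x)
            rw [intCoeffLin_apply, intCoeffLin_apply, intCoeffLin_apply, intCoeff_zsmul] at this
            exact this
          rw [h1, intCoeff_heckeGen]
          have h2 := sigmaP_rec (p := p) ℓ hn
          obtain ⟨a, ha⟩ := hx n hn
          obtain ⟨b, hb⟩ := hx (n * ℓ) (mul_ne_zero hn ℓ.2.ne_zero)
          by_cases hc : (ℓ : ℕ) ∣ n ∧ ¬ (ℓ : ℕ) ∣ p
          · rw [if_pos hc] at h2 ⊢
            have hn' : n / (ℓ : ℕ) ≠ 0 :=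
              (Nat.div_pos (Nat.le_of_dvd (Nat.pos_of_ne_zero hn) hc.1) ℓ.2.pos).ne'
            obtain ⟨c, hc'⟩ := hx (n / (ℓ : ℕ)) hn'
            refine ⟨b + ℓ * c - epsH p (ModularCurve.heckeGen ℓ) * a, ?_⟩
            linear_combination hb + (ℓ : ℤ) * hc' - epsH p (ModularCurve.heckeGen ℓ) * ha + h2
          · rw [if_neg hc] at h2 ⊢
            refine ⟨b - epsH p (ModularCurve.heckeGen ℓ) * a, ?_⟩
            linear_combination hb - epsH p (ModularCurve.heckeGen ℓ) * ha + h2)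
      exact ⟨g', by rw [← hg', add_sub_cancel]⟩
    refine ⟨epsH p (ModularCurve.heckeGen ℓ) • g + tact p (phiH p y) g', ?_⟩
    have h1 : tact p (phiH p (y * MvPolynomial.X ℓ)) x =
        tact p (phiH p y) (tact p (phiH p (ModularCurve.heckeGen ℓ)) x) := by
      rw [map_mul]; rfl
    have h2 : epsH p (y * MvPolynomial.X ℓ) = epsH p y * epsH p (ModularCurve.heckeGen ℓ) := by
      rw [map_mul]; rfl
    rw [h1, h2, hg', map_add, map_smul, map_smul, hg, smul_add, smul_add, smul_smul, mul_comm,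
      add_assoc, smul_comm (epsH p (ModularCurve.heckeGen ℓ)) m g]

theorem dvd_of_mem_JJ (m : ℤ) (hm : m ≠ 0) (x : LL p)
    (hx : ∀ n, n ≠ 0 → m ∣ intCoeff x n - sigmaP p n) (r : ℤ)
    (hr : algebraMap ℤ (TT p) r ∈ JJ p) : m ∣ r := by
  rw [JJ, Ideal.mem_map_iff_of_surjective _ phiH_surjective] at hr
  obtain ⟨y, hy, hyr⟩ := hr
  obtain ⟨g, hg⟩ := phiH_act_of_congr m hm x hx y
  rw [(mem_eisensteinIdeal_iff y).mp hy, zero_smul, zero_add, hyr] at hg
  have h1 : tact p (algebraMap ℤ (TT p) r) x = r • x := rfl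
  rw [h1] at hg
  have h2 : r * intCoeff x 1 = m * intCoeff g 1 := by
    rw [← intCoeff_zsmul, ← intCoeff_zsmul, hg]
  obtain ⟨c, hc⟩ := hx 1 one_ne_zero
  rw [sigmaP_one_eq p Fact.out] at hc
  exact ⟨intCoeff g 1 - r * c, by linear_combination h2 - r * hc⟩

/-- Step 2: the integers surject onto `T/J`. -/
theorem intCast_surjective_JJ :
    Function.Surjective (algebraMap ℤ (TT p ⧸ JJ p)) := by
  intro t
  obtain ⟨t, rfl⟩ := Ideal.Quotient.mk_surjective t
  obtain ⟨y, rfl⟩ := phiH_surjective (N := p) t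
  refine ⟨epsH p y, ?_⟩
  have h1 : algebraMap ℤ (TT p ⧸ JJ p) (epsH p y) =
      Ideal.Quotient.mk (JJ p) (phiH p (MvPolynomial.C (epsH p y))) := by
    rw [show (MvPolynomial.C (epsH p y) : ModularCurve.HeckeAlg) =
      ((epsH p y : ℤ) : ModularCurve.HeckeAlg) from (eq_intCast (MvPolynomial.C : ℤ →+* _) _),
      map_intCast, map_intCast, eq_intCast]
  rw [h1, Ideal.Quotient.eq, ← map_sub]
  refine Ideal.mem_map_of_mem _ ?_
  rw [mem_eisensteinIdeal_iff, map_sub, epsH, MvPolynomial.aeval_C, eq_intCast, Int.cast_id,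
    sub_self]

/-- the image of an element of the abstract Hecke algebra in `T/J` is the integer `ε(y)`. -/
theorem mk_phiH (y : ModularCurve.HeckeAlg) :
    Ideal.Quotient.mk (JJ p) (phiH p y) = algebraMap ℤ (TT p ⧸ JJ p) (epsH p y) := by
  have h1 : algebraMap ℤ (TT p ⧸ JJ p) (epsH p y) =
      Ideal.Quotient.mk (JJ p) (phiH p (MvPolynomial.C (epsH p y))) := by
    rw [show (MvPolynomial.C (epsH p y) : ModularCurve.HeckeAlg) =
      ((epsH p y : ℤ) : ModularCurve.HeckeAlg) from (eq_intCast (MvPolynomial.C : ℤ →+* _) _),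
      map_intCast, map_intCast, eq_intCast]
  rw [h1, Ideal.Quotient.eq, ← map_sub]
  refine Ideal.mem_map_of_mem _ ?_
  rw [mem_eisensteinIdeal_iff, map_sub, epsH, MvPolynomial.aeval_C, eq_intCast, Int.cast_id,
    sub_self]

theorem exists_lam : ∃ lam : Module.Dual ℤ (TT p),
    ∀ t : TT p, algebraMap ℤ (TT p ⧸ JJ p) (lam t) = Ideal.Quotient.mk (JJ p) t := by
  have : Module.Finite ℤ (TT p) := CuspForm.heckeLatticeAlgebra.instModuleFinite p ∅
  have : Module.Free ℤ (TT p) := CuspForm.heckeLatticeAlgebra.instModuleFree p ∅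
  obtain ⟨lam, hlam⟩ := Module.projective_lifting_property
    ((Algebra.linearMap ℤ (TT p ⧸ JJ p))) ((Ideal.Quotient.mkₐ ℤ (JJ p)).toLinearMap)
    intCast_surjective_JJ
  exact ⟨lam, fun t => LinearMap.congr_fun hlam t⟩

theorem lam_mul (lam : Module.Dual ℤ (TT p))
    (hl : ∀ t : TT p, algebraMap ℤ (TT p ⧸ JJ p) (lam t) = Ideal.Quotient.mk (JJ p) t)
    (y : ModularCurve.HeckeAlg) (t : TT p) :
    algebraMap ℤ (TT p ⧸ JJ p) (lam (t * phiH p y)) =
      algebraMap ℤ (TT p ⧸ JJ p) (epsH p y * lam t) := by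
  rw [hl, RingHom.map_mul, RingHom.map_mul, hl, mk_phiH, mul_comm]

theorem dvd_of_algebraMap_eq (m : ℤ)
    (hm : RingHom.ker (algebraMap ℤ (TT p ⧸ JJ p)) = Ideal.span {m}) (a b : ℤ)
    (hab : algebraMap ℤ (TT p ⧸ JJ p) a = algebraMap ℤ (TT p ⧸ JJ p) b) : m ∣ a - b := by
  rw [← Ideal.mem_span_singleton, ← hm, RingHom.mem_ker, RingHom.map_sub, hab, sub_self]

/-- a solution of the Hecke recursion modulo `m` is `σ'` modulo `m` -/
theorem congr_sigmaP_of_rec (m : ℤ) (c : ℕ → ℤ) (h1 : m ∣ c 1 - 1)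
    (hrec : ∀ (ℓ : Nat.Primes) (n : ℕ), n ≠ 0 →
      m ∣ c (n * ℓ) + (if (ℓ : ℕ) ∣ n ∧ ¬ (ℓ : ℕ) ∣ p then (ℓ : ℤ) * c (n / ℓ)
        else 0) - epsH p (ModularCurve.heckeGen ℓ) * c n) (n : ℕ) (hn : n ≠ 0) :
    m ∣ c n - sigmaP p n := by
  induction n using Nat.strong_induction_on with
  | _ n ih =>
    rcases eq_or_ne n 1 with rfl | hn1
    · rwa [sigmaP_one_eq p Fact.out]
    · obtain ⟨ℓ, hℓ, k, rfl⟩ : ∃ ℓ : ℕ, ℓ.Prime ∧ ∃ m, n = m * ℓ := by
        obtain ⟨ℓ, hℓ, hd⟩ := Nat.exists_prime_and_dvd hn1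
        obtain ⟨m, hm⟩ := hd
        exact ⟨ℓ, hℓ, m, by rw [hm, mul_comm]⟩
      have hk0 : k ≠ 0 := fun h => hn (by rw [h, zero_mul])
      have hlt : k < k * ℓ := lt_mul_of_one_lt_right (Nat.pos_of_ne_zero hk0) hℓ.one_lt
      obtain ⟨a, ha⟩ := ih k hlt hk0
      obtain ⟨b, hb⟩ := hrec ⟨ℓ, hℓ⟩ k hk0
      have h2 := sigmaP_rec (p := p) ⟨ℓ, hℓ⟩ hk0
      change sigmaP p (k * ℓ) = _ * _ - (if ℓ ∣ k ∧ ¬ ℓ ∣ p then (ℓ : ℤ) * sigmaP p (k / ℓ)
        else 0) at h2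
      change c (k * ℓ) + (if ℓ ∣ k ∧ ¬ ℓ ∣ p then (ℓ : ℤ) * c (k / ℓ)
        else 0) - _ * _ = m * b at hb
      by_cases hc : ℓ ∣ k ∧ ¬ ℓ ∣ p
      · rw [if_pos hc] at h2 hb
        have hk' : k / ℓ ≠ 0 :=
          (Nat.div_pos (Nat.le_of_dvd (Nat.pos_of_ne_zero hk0) hc.1) hℓ.pos).ne'
        obtain ⟨d, hd'⟩ := ih (k / ℓ) (lt_of_le_of_lt (Nat.div_le_self _ _) hlt) hk'
        refine ⟨b + epsH p (ModularCurve.heckeGen ⟨ℓ, hℓ⟩) * a - ℓ * d, ?_⟩
        linear_combination hb + epsH p (ModularCurve.heckeGen ⟨ℓ, hℓ⟩) * ha - (ℓ : ℤ) * hd' - h2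
      · rw [if_neg hc] at h2 hb
        refine ⟨b + epsH p (ModularCurve.heckeGen ⟨ℓ, hℓ⟩) * a, ?_⟩
        linear_combination hb + epsH p (ModularCurve.heckeGen ⟨ℓ, hℓ⟩) * ha - h2

/-- Step 3: for the generator `m` of the kernel of `ℤ → T/J` there is an integral form congruent
to `σ'` modulo `m`. -/
theorem exists_form_of_ker (m : ℤ)
    (hm : RingHom.ker (algebraMap ℤ (TT p ⧸ JJ p)) = Ideal.span {m}) :
    ∃ x : LL p, ∀ n, n ≠ 0 → m ∣ intCoeff x n - sigmaP p n := by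
  obtain ⟨lam, hl⟩ := exists_lam (p := p)
  obtain ⟨x, hx⟩ := exists_form_of_dual lam
  have hcoeff : ∀ t : TT p, intCoeff (tact p t x) 1 = lam t := fun t => by
    rw [← pairL_apply, hx]
  refine ⟨x, fun n hn => congr_sigmaP_of_rec m (fun n => intCoeff x n) ?_ ?_ n hn⟩
  · have h1 : intCoeff x 1 = lam 1 := hcoeff 1
    have h2 : algebraMap ℤ (TT p ⧸ JJ p) (lam 1) = algebraMap ℤ (TT p ⧸ JJ p) 1 := by
      rw [hl, RingHom.map_one, RingHom.map_one]
    have h3 := dvd_of_algebraMap_eq m hm _ _ h2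
    rw [← h1] at h3
    exact h3
  · intro ℓ n hn
    have h4 := intCoeff_heckeGen ℓ x n
    obtain ⟨t, ht⟩ := exists_latOp (N := p) n hn
    have e1 : intCoeff (tact p (phiH p (ModularCurve.heckeGen ℓ)) x) n =
        lam (t * phiH p (ModularCurve.heckeGen ℓ)) := by
      rw [← ht, ← tact_mul, hcoeff]
    have e2 : intCoeff x n = lam t := by rw [← ht x, hcoeff]
    have h3 := dvd_of_algebraMap_eq m hm _ _ (lam_mul lam hl (ModularCurve.heckeGen ℓ) t)
    rw [← e1, ← e2, h4] at h3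
    exact h3

theorem natCard_quotient_of (n₀ : ℕ) (hn₀ : n₀ ≠ 0)
    (hlow : ∃ x : LL p, ∀ n, n ≠ 0 → (n₀ : ℤ) ∣ intCoeff x n - sigmaP p n)
    (hup : ∀ r : ℕ, r ≠ 0 → (∃ x : LL p, ∀ n, n ≠ 0 → (r : ℤ) ∣ intCoeff x n - sigmaP p n) →
      r ∣ n₀) :
    Nat.card (TT p ⧸ JJ p) = n₀ := by
  obtain ⟨m, hm⟩ : ∃ m : ℤ, RingHom.ker (algebraMap ℤ (TT p ⧸ JJ p)) = Ideal.span {m} :=
    (IsPrincipalIdealRing.principal _).principal
  obtain ⟨x, hx⟩ := exists_form_of_ker m hm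
  -- m ≠ 0
  have hm0 : m ≠ 0 := by
    rintro rfl
    have h1 := hup (n₀ + 1) (Nat.succ_ne_zero _) ⟨x, fun n hn => by
      have := hx n hn
      rw [zero_dvd_iff] at this
      rw [this]
      exact dvd_zero _⟩
    have := Nat.le_of_dvd (Nat.pos_of_ne_zero hn₀) h1
    omega
  have h1 : m.natAbs ∣ n₀ := hup m.natAbs (Int.natAbs_ne_zero.mpr hm0) ⟨x, fun n hn =>
    Int.natAbs_dvd.mpr (hx n hn)⟩
  have h2 : n₀ ∣ m.natAbs := by
    obtain ⟨y, hy⟩ := hlow
    have h3 : (n₀ : ℤ) ∣ m := by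
      refine dvd_of_mem_JJ (n₀ : ℤ) (by exact_mod_cast hn₀) y hy m ?_
      have h4 : m ∈ RingHom.ker (algebraMap ℤ (TT p ⧸ JJ p)) := by
        rw [hm]
        exact Ideal.mem_span_singleton_self m
      rw [RingHom.mem_ker] at h4
      rw [← Ideal.Quotient.eq_zero_iff_mem]
      exact h4
    exact Int.natCast_dvd.mp h3
  have h3 : m.natAbs = n₀ := Nat.dvd_antisymm h1 h2
  have e : (ℤ ⧸ Ideal.span {m}) ≃+* (TT p ⧸ JJ p) :=
    (Ideal.quotEquivOfEq hm.symm).trans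
      (RingHom.quotientKerEquivOfSurjective intCast_surjective_JJ)
  rw [← Nat.card_congr e.toEquiv, Nat.card_congr (Int.quotientSpanEquivZMod m).toEquiv,
    Nat.card_zmod, h3]

end Fermat.Agent.Eis
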