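import Fermat.Agent.HeckeDualityA
import Fermat.Prelude.Def_CuspForm_HeckeLocal
import Fermat.Prelude.Def_CuspForm_HeckeEvalForms

/-!
# S16 (A): integral duality between `𝕋` and `S₂(Γ₀(N); ℤ)`

`exists_form_of_dual`: every `ℤ`-linear functional on the Hecke algebra `𝕋` (acting on the integral
lattice) is `t ↦ a₁(t f)` for an integral form `f`.
-/

set_option autoImplicit false

open UpperHalfPlane ModularForm ModularFormClass CongruenceSubgroup

noncomputable section

namespace Fermat.Agent.Eis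

open Fermat.Agent.HeckeDuality

variable (N : ℕ) [NeZero N]

/-- the Hecke algebra acting on the integral lattice -/
abbrev TT : Type := ↥(CuspForm.heckeLatticeAlgebra N ∅)

/-- the integral lattice -/
abbrev LL : Type := ↥(CuspForm.intLattice N 2)

/-- action of the Hecke algebra on the lattice -/
def tact (t : TT N) : Module.End ℤ (LL N) := t.1

variable {N}

theorem tact_mul (s t : TT N) (x : LL N) : tact N (s * t) x = tact N s (tact N t x) := rfl

theorem tact_comm (s t : TT N) (x : LL N) : tact N s (tact N t x) = tact N t (tact N s x) := by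
  rw [← tact_mul, mul_comm, tact_mul]

theorem LL_ext {x y : LL N} (h : ∀ n, n ≠ 0 → intCoeff x n = intCoeff y n) : x = y := by
  refine Subtype.ext (ext_of_qc fun n => ?_)
  rcases eq_or_ne n 0 with rfl | hn
  · rw [qc_apply_zero, qc_apply_zero]
  · rw [← coe_intCoeff, ← coe_intCoeff, h n hn]

theorem coe_tact_latticeRestrictHom (t : CuspForm.heckeAlgebra N 2 ∅) (x : LL N) :
    ((tact N (CuspForm.latticeRestrictHom N ∅ t) x : LL N) : CuspForm (Gamma0 N) 2) =
      (t : Module.End ℂ (CuspForm (Gamma0 N) 2)) x.1 := rfl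

theorem exists_latOp (n : ℕ) (hn : n ≠ 0) :
    ∃ t : TT N, ∀ x : LL N, intCoeff (tact N t x) 1 = intCoeff x n := by
  obtain ⟨t, ht⟩ := exists_heckeOp (N := N) (k := 2) one_le_two n hn
  refine ⟨CuspForm.latticeRestrictHom N ∅ t, fun x => ?_⟩
  have h := ht x.1
  rw [← coe_tact_latticeRestrictHom t x, ← coe_intCoeff, ← coe_intCoeff] at h
  exact_mod_cast h

/-- the pairing `L → Hom(T, ℤ)`, `x ↦ (t ↦ a₁(t x))`. -/
def pairL (N : ℕ) [NeZero N] : LL N →ₗ[ℤ] Module.Dual ℤ (TT N) where
  toFun x :=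
    { toFun := fun t => intCoeff (tact N t x) 1
      map_add' := fun s t => by
        rw [← intCoeff_add]; rfl
      map_smul' := fun c t => by
        rw [eq_intCast, Int.cast_id, smul_eq_mul, ← intCoeff_zsmul]; rfl }
  map_add' x y := by
    refine LinearMap.ext fun t => ?_
    change intCoeff (tact N t (x + y)) 1 = intCoeff (tact N t x) 1 + intCoeff (tact N t y) 1
    rw [map_add, intCoeff_add]
  map_smul' c x := by
    refine LinearMap.ext fun t => ?_
    change intCoeff (tact N t (c • x)) 1 = c * intCoeff (tact N t x) 1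
    rw [map_smul, intCoeff_zsmul]

theorem pairL_apply (x : LL N) (t : TT N) : pairL N x t = intCoeff (tact N t x) 1 := rfl

/-- the pairing `T → Hom(L, ℤ)`. -/
def pairT (N : ℕ) [NeZero N] : TT N →ₗ[ℤ] Module.Dual ℤ (LL N) := (pairL N).flip

theorem pairT_apply (x : LL N) (t : TT N) : pairT N t x = intCoeff (tact N t x) 1 := rfl

theorem pairL_injective : Function.Injective (pairL N) := by
  refine (injective_iff_map_eq_zero _).mpr fun x hx => LL_ext fun n hn => ?_
  obtain ⟨t, ht⟩ := exists_latOp (N := N) n hn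
  have h1 : intCoeff x n = 0 := by
    rw [← ht x, ← pairL_apply, hx, LinearMap.zero_apply]
  have h2 : intCoeff (0 : LL N) n = 0 := map_zero (intCoeffLin N 2 n)
  rw [h1, h2]

theorem pairT_injective : Function.Injective (pairT N) := by
  refine (injective_iff_map_eq_zero _).mpr fun t ht => ?_
  refine Subtype.ext (LinearMap.ext fun x => LL_ext fun n hn => ?_)
  obtain ⟨s, hs⟩ := exists_latOp (N := N) n hn
  have h1 : intCoeff (tact N t x) n = 0 := by
    rw [← hs, tact_comm, ← pairT_apply, ht, LinearMap.zero_apply]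
  have h2 : intCoeff (0 : LL N) n = 0 := map_zero (intCoeffLin N 2 n)
  change intCoeff (tact N t x) n = intCoeff (0 : LL N) n
  rw [h1, h2]

/-- an integral form all of whose coefficients are divisible by `d` is `d` times an integral
form. -/
theorem exists_eq_smul_of_dvd (d : ℤ) (hd : d ≠ 0) (x : LL N)
    (h : ∀ n, n ≠ 0 → d ∣ intCoeff x n) : ∃ y : LL N, x = d • y := by
  have hdc : (d : ℂ) ≠ 0 := by exact_mod_cast hd
  have hy : ((d : ℂ)⁻¹ • x.1) ∈ CuspForm.intLattice N 2 := by
    rw [mem_intLattice_iff]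
    intro n
    rcases eq_or_ne n 0 with rfl | hn
    · exact ⟨0, by rw [qc_apply_zero]; simp⟩
    · obtain ⟨c, hc⟩ := h n hn
      refine ⟨c, ?_⟩
      rw [qc_smul, ← coe_intCoeff, hc]
      push_cast
      field_simp
  refine ⟨⟨_, hy⟩, Subtype.ext ?_⟩
  change x.1 = d • ((d : ℂ)⁻¹ • x.1)
  rw [← Int.cast_smul_eq_zsmul ℂ, smul_smul, mul_inv_cancel₀ hdc, one_smul]

theorem exists_form_of_dual (lam : Module.Dual ℤ (TT N)) : ∃ x : LL N, pairL N x = lam := by
  have : Module.Finite ℤ (LL N) := CuspForm.intLattice.moduleFinite N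
  have : Module.Free ℤ (LL N) := CuspForm.intLattice.moduleFree N
  have : Module.Finite ℤ (TT N) := CuspForm.heckeLatticeAlgebra.instModuleFinite N ∅
  have : Module.Free ℤ (TT N) := CuspForm.heckeLatticeAlgebra.instModuleFree N ∅
  have h1 : Module.finrank ℤ (TT N) ≤ Module.finrank ℤ (LL N) := by
    have h := LinearMap.finrank_le_finrank_of_injective (pairT_injective (N := N))
    rwa [Module.finrank_linearMap_self] at h
  have h2 : Module.finrank ℤ (Module.Dual ℤ (TT N)) ≤
      Module.finrank ℤ (LinearMap.range (pairL N)) := by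
    rw [LinearMap.finrank_range_of_inj pairL_injective, Module.finrank_linearMap_self]
    exact h1
  have h3 : Module.finrank ℤ (Module.Dual ℤ (TT N) ⧸ LinearMap.range (pairL N)) = 0 := by
    have := (LinearMap.range (pairL N)).finrank_quotient_add_finrank
    omega
  have h4 : Module.rank ℤ (Module.Dual ℤ (TT N) ⧸ LinearMap.range (pairL N)) = 0 := by
    rw [← Module.finrank_eq_rank, h3, Nat.cast_zero]
  obtain ⟨d, hd, hdl⟩ := (rank_eq_zero_iff.mp h4) (Submodule.Quotient.mk lam)
  rw [← Submodule.Quotient.mk_smul, Submodule.Quotient.mk_eq_zero] at hdl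
  obtain ⟨x, hx⟩ := hdl
  obtain ⟨y, rfl⟩ := exists_eq_smul_of_dvd d hd x fun n hn => by
    obtain ⟨t, ht⟩ := exists_latOp (N := N) n hn
    rw [← ht, ← pairL_apply, hx]
    exact ⟨lam t, rfl⟩
  refine ⟨y, ?_⟩
  rw [map_smul] at hx
  exact smul_right_injective _ hd hx

/-! ### The Hecke action of the polynomial ring -/

/-- The map from the abstract Hecke algebra. -/
def phiH (N : ℕ) [NeZero N] : ModularCurve.HeckeAlg →+* TT N :=
  (CuspForm.latticeRestrictHom N ∅).toRingHom.comp (CuspForm.heckeEvalForms N 2)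

theorem phiH_surjective : Function.Surjective (phiH N) := by
  intro t
  obtain ⟨s, hs⟩ : ∃ s, CuspForm.latticeRestrictHom N ∅ s = t :=
    ((CuspForm.latticeActionHom N ∅).toIntAlgHom).rangeRestrict_surjective t
  suffices h : ∃ x, CuspForm.heckeEvalForms N 2 x = s by
    obtain ⟨x, hx⟩ := h
    exact ⟨x, by rw [phiH, RingHom.comp_apply, hx]; exact hs⟩
  obtain ⟨s, hs'⟩ := s
  have key : ∀ s ∈ CuspForm.heckeAlgebra N 2 ∅, ∃ x : ModularCurve.HeckeAlg,
      ((CuspForm.heckeEvalForms N 2 x : CuspForm.heckeAlgebra N 2 ∅) :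
        Module.End ℂ (CuspForm (Gamma0 N) 2)) = s := by
    intro s hs
    rw [CuspForm.heckeAlgebra] at hs
    induction hs using Algebra.adjoin_induction with
    | mem x hx =>
      rcases hx with ⟨ℓ, hℓ, hℓN, -, rfl⟩ | ⟨q, hqN, hq, -, rfl⟩
      · refine ⟨ModularCurve.heckeGen ⟨ℓ, hℓ⟩, ?_⟩
        rw [CuspForm.heckeEvalForms_heckeGen_of_not_dvd (ℓ := ⟨ℓ, hℓ⟩) hℓN]
        rfl
      · refine ⟨ModularCurve.heckeGen ⟨q, hq⟩, ?_⟩
        rw [CuspForm.heckeEvalForms_heckeGen_of_dvd (q := ⟨q, hq⟩) hqN]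
        rfl
    | algebraMap r =>
      refine ⟨MvPolynomial.C r, ?_⟩
      rw [CuspForm.heckeEvalForms_C]
      rfl
    | add x y _ _ hx hy =>
      obtain ⟨a, ha⟩ := hx
      obtain ⟨b, hb⟩ := hy
      exact ⟨a + b, by rw [map_add, ← ha, ← hb]; rfl⟩
    | mul x y _ _ hx hy =>
      obtain ⟨a, ha⟩ := hx
      obtain ⟨b, hb⟩ := hy
      exact ⟨a * b, by rw [map_mul, ← ha, ← hb]; rfl⟩
  obtain ⟨x, hx⟩ := key s hs'
  exact ⟨x, Subtype.ext hx⟩

theorem intCoeff_heckeGen (ℓ : Nat.Primes) (x : LL N) (n : ℕ) :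
    intCoeff (tact N (phiH N (ModularCurve.heckeGen ℓ)) x) n =
      intCoeff x (n * ℓ) + if (ℓ : ℕ) ∣ n ∧ ¬ (ℓ : ℕ) ∣ N then (ℓ : ℤ) * intCoeff x (n / ℓ)
        else 0 := by
  have h1 : ((tact N (phiH N (ModularCurve.heckeGen ℓ)) x : LL N) : CuspForm (Gamma0 N) 2) =
      (gen N 2 ℓ.2 : Module.End ℂ (CuspForm (Gamma0 N) 2)) x.1 := by
    rw [phiH, RingHom.comp_apply, CuspForm.heckeEvalForms_heckeGen]
    rfl
  have h2 := qc_gen (N := N) (k := 2) ℓ.2 x.1 n
  rw [← h1, ← coe_intCoeff, ← coe_intCoeff] at h2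
  split_ifs with hc
  · rw [if_pos hc, ← coe_intCoeff, show (2 : ℤ) - 1 = 1 by norm_num, zpow_one] at h2
    exact_mod_cast h2
  · rw [if_neg hc] at h2
    exact_mod_cast h2

end Fermat.Agent.Eis
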