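import Fermat.Agent.S16.ThetaWeil
import Fermat.Agent.S16.Gamma0Tools

/-!
# Modularity of the quaternary theta function on `Γ₀(p)`

(helper85, S16 part (B)).
-/

set_option autoImplicit false

open Complex Real Filter Topology ModularGroup MatrixGroups CongruenceSubgroup

open UpperHalfPlane hiding I

open scoped ModularForm Manifold

noncomputable section

namespace Fermat.Agent.S16.Theta

variable {q : ℕ} [Fact q.Prime]

/-- The kernel identity behind the `Γ₀(p)`-invariance. -/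
theorem kF_conv (hq : q % 2 = 1) {a b c d s P : ZMod q} (hP : P ≠ 0) (hs : s ^ 2 = -P)
    (hchi : chiQ q P = -1) (hdet : a * d - b * (P * c) = 1) (y w : ZMod q) :
    ∑ h : ZMod q, kF q a b (P * c) d (s * h) y * kF q a (P * b) c d h w =
      if y = s * w then 1 else 0 := by
  have h2 : (2 : ZMod q) ≠ 0 := two_ne_zero_zmod q hq
  have hs0 : s ≠ 0 := by
    rintro rfl
    apply hP
    have : (0 : ZMod q) = -P := by rw [← hs]; ring
    exact (neg_eq_zero.mp this.symm)
  by_cases hc : c = 0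
  · subst hc
    rw [mul_zero, mul_zero, sub_zero] at hdet
    have ha : a ≠ 0 := left_ne_zero_of_mul_eq_one hdet
    simp only [kF, mul_zero, if_true]
    have h3 : ∀ h : ZMod q, (if y = a * (s * h) then
        chiQ q a * (ZMod.stdAddChar (a * b * (s * h) ^ 2) : ℂ) else 0) *
        (if w = a * h then chiQ q a * (ZMod.stdAddChar (a * (P * b) * h ^ 2) : ℂ) else 0) =
        if h = w / a then (if y = s * w then 1 else 0) else 0 := by
      intro h
      by_cases hw : w = a * h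
      · have h4 : h = w / a := by rw [hw]; field_simp
        rw [if_pos hw, if_pos h4]
        have h5 : (y = a * (s * h)) ↔ (y = s * w) := by
          rw [hw, show a * (s * h) = s * (a * h) by ring]
        by_cases hy : y = s * w
        · rw [if_pos (h5.2 hy), if_pos hy]
          have h6 : (ZMod.stdAddChar (a * b * (s * h) ^ 2) : ℂ) *
              ZMod.stdAddChar (a * (P * b) * h ^ 2) = 1 := by
            rw [← AddChar.map_add_eq_mul]
            rw [show a * b * (s * h) ^ 2 + a * (P * b) * h ^ 2 =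
              a * b * h ^ 2 * (s ^ 2 + P) by ring, hs, neg_add_cancel, mul_zero,
              AddChar.map_zero_eq_one]
          linear_combination (chiQ q a * chiQ q a) * h6 + chiQ_sq q ha
        · rw [if_neg (fun h => hy (h5.1 h)), if_neg hy, zero_mul]
      · have h4 : h ≠ w / a := by
          intro h4
          apply hw
          rw [h4]
          field_simp
        rw [if_neg hw, if_neg h4, mul_zero]
    simp_rw [h3]
    rw [Finset.sum_ite_eq' Finset.univ, if_pos (Finset.mem_univ _)]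
  · have hPc : P * c ≠ 0 := mul_ne_zero hP hc
    simp only [kF, hc, hPc, if_false]
    have h3 : ∀ h : ZMod q, cS q * chiQ q (P * c) *
        (ZMod.stdAddChar ((a * (s * h) ^ 2 - 2 * (s * h) * y + d * y ^ 2) / (P * c)) : ℂ) *
        (cS q * chiQ q c *
          (ZMod.stdAddChar ((a * h ^ 2 - 2 * h * w + d * w ^ 2) / c) : ℂ)) =
        cS q * cS q * chiQ q P * ZMod.stdAddChar (d * (y ^ 2 / P + w ^ 2) / c) *
          ZMod.stdAddChar (h * (-(2 * (s * y / P + w) / c))) := by
      intro h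
      have h4 : (ZMod.stdAddChar
          ((a * (s * h) ^ 2 - 2 * (s * h) * y + d * y ^ 2) / (P * c)) : ℂ) *
          ZMod.stdAddChar ((a * h ^ 2 - 2 * h * w + d * w ^ 2) / c) =
          ZMod.stdAddChar (d * (y ^ 2 / P + w ^ 2) / c) *
          ZMod.stdAddChar (h * (-(2 * (s * y / P + w) / c))) := by
        rw [← AddChar.map_add_eq_mul, ← AddChar.map_add_eq_mul]
        congr 1
        field_simp
        linear_combination (a * h ^ 2) * hs
      rw [chiQ_mul]
      linear_combination (cS q * chiQ q P * chiQ q c * cS q * chiQ q c) * h4 +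
        (cS q * cS q * chiQ q P * (ZMod.stdAddChar (d * (y ^ 2 / P + w ^ 2) / c) *
          ZMod.stdAddChar (h * (-(2 * (s * y / P + w) / c))))) * chiQ_sq q hc
    simp_rw [h3]
    rw [← Finset.mul_sum, sum_std_mul]
    have h5 : -(2 * (s * y / P + w) / c) = 0 ↔ y = s * w := by
      rw [neg_eq_zero, div_eq_zero_iff, or_iff_left hc, mul_eq_zero, or_iff_right h2]
      constructor
      · intro h6
        have h7 : s * y = -(P * w) := by
          field_simp at h6
          linear_combination h6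
        apply mul_left_cancel₀ hs0
        rw [h7]
        linear_combination (-w) * hs
      · rintro rfl
        field_simp
        linear_combination w * hs
    simp only [h5]
    split_ifs with hy
    · have h6 : d * (y ^ 2 / P + w ^ 2) / c = 0 := by
        rw [hy]
        field_simp
        linear_combination (d * w ^ 2) * hs
      rw [h6, AddChar.map_zero_eq_one, hchi]
      linear_combination (-1 : ℂ) * cS_mul_cS q
    · rw [mul_zero]

open ModularForm in
theorem comp_diag_slash (p : ℕ) [NeZero p] (γ : SL(2, ℤ)) (c : ℤ) (hc : γ 1 0 = p * c)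
    (f : ℍ → ℂ) (k : ℤ) (τ : ℍ) :
    ((fun τ => f (heckeDiagMatrix p • τ)) ∣[k] γ) τ =
      (f ∣[k] (Fermat.Agent.IntStr.conjSL p γ c hc)) (heckeDiagMatrix p • τ) := by
  rw [SL_slash_apply, SL_slash_apply]
  have h1 : heckeDiagMatrix p • (γ • τ) =
      (Fermat.Agent.IntStr.conjSL p γ c hc) • (heckeDiagMatrix p • τ) := by
    have := Fermat.Agent.IntStr.heckeDiag_mul p γ c hc
    change heckeDiagMatrix p • ((Matrix.SpecialLinearGroup.mapGL ℝ γ : GL (Fin 2) ℝ) • τ) =
      (Matrix.SpecialLinearGroup.mapGL ℝ (Fermat.Agent.IntStr.conjSL p γ c hc) :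
        GL (Fin 2) ℝ) • (heckeDiagMatrix p • τ)
    rw [← mul_smul, ← mul_smul, this]
  rw [h1, ModularGroup.denom_apply, ModularGroup.denom_apply,
    coe_heckeDiagMatrix_smul (NeZero.ne p)]
  have h2 : (((γ 1 0 : ℤ) : ℂ) * (τ : ℂ) + ((γ 1 1 : ℤ) : ℂ)) =
      (((Fermat.Agent.IntStr.conjSL p γ c hc) 1 0 : ℤ) : ℂ) * ((p : ℂ) * (τ : ℂ)) +
        (((Fermat.Agent.IntStr.conjSL p γ c hc) 1 1 : ℤ) : ℂ) := by
    have e1 : (Fermat.Agent.IntStr.conjSL p γ c hc) 1 0 = c := rfl
    have e2 : (Fermat.Agent.IntStr.conjSL p γ c hc) 1 1 = γ 1 1 := rfl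
    rw [e1, e2, hc]
    push_cast
    ring
  rw [h2]

open ModularForm in
/-- `θ_h(pτ)` -/
def psi (q p : ℕ) [NeZero q] (h : ZMod q) : ℍ → ℂ := fun τ => thH q h (heckeDiagMatrix p • τ)

theorem psi_slash (hq : q % 4 = 3) (p : ℕ) [NeZero p] (γ : SL(2, ℤ)) (c : ℤ)
    (hc : γ 1 0 = p * c) (h : ZMod q) :
    psi q p h ∣[(1 : ℤ)] γ = ∑ w : ZMod q,
      kF q ((γ 0 0 : ℤ) : ZMod q) ((p : ZMod q) * ((γ 0 1 : ℤ) : ZMod q)) ((c : ℤ) : ZMod q)
        ((γ 1 1 : ℤ) : ZMod q) h w • psi q p w := by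
  ext τ
  rw [show psi q p h = (fun τ => thH q h (ModularForm.heckeDiagMatrix p • τ)) from rfl,
    comp_diag_slash p γ c hc, thH_slash q hq, Finset.sum_apply, Finset.sum_apply]
  refine Finset.sum_congr rfl fun w _ => ?_
  have e0 : (Fermat.Agent.IntStr.conjSL p γ c hc) 0 0 = γ 0 0 := rfl
  have e1 : (Fermat.Agent.IntStr.conjSL p γ c hc) 0 1 = p * γ 0 1 := rfl
  have e2 : (Fermat.Agent.IntStr.conjSL p γ c hc) 1 0 = c := rfl
  have e3 : (Fermat.Agent.IntStr.conjSL p γ c hc) 1 1 = γ 1 1 := rfl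
  rw [e0, e1, e2, e3, Pi.smul_apply, Pi.smul_apply, psi, Int.cast_mul, Int.cast_natCast]

/-- the quaternary theta function on `ℍ` -/
def ThetaH (q p : ℕ) [NeZero q] (s : ZMod q) : ℍ → ℂ := ∑ h : ZMod q, thH q (s * h) * psi q p h

theorem ThetaH_apply (q p : ℕ) [NeZero q] [NeZero p] (s : ZMod q) (τ : ℍ) :
    ThetaH q p s τ = Theta4 q p s τ := by
  rw [ThetaH, Finset.sum_apply, Theta4]
  refine Finset.sum_congr rfl fun h _ => ?_
  rw [Pi.mul_apply, thH, psi, thH, ModularForm.coe_heckeDiagMatrix_smul (NeZero.ne p)]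

theorem ThetaH_slash (hq : q % 4 = 3) (p : ℕ) [NeZero p] (s : ZMod q)
    (hs : s ^ 2 = -(p : ZMod q)) (hp : (p : ZMod q) ≠ 0) (hchi : chiQ q (p : ZMod q) = -1)
    (γ : SL(2, ℤ)) (hγ : γ ∈ Gamma0 p) : ThetaH q p s ∣[(2 : ℤ)] γ = ThetaH q p s := by
  rw [Gamma0_mem] at hγ
  obtain ⟨c, hc⟩ := (ZMod.intCast_zmod_eq_zero_iff_dvd _ p).mp hγ
  have hdet : ((γ 0 0 : ℤ) : ZMod q) * ((γ 1 1 : ℤ) : ZMod q) -
      ((γ 0 1 : ℤ) : ZMod q) * ((p : ZMod q) * ((c : ℤ) : ZMod q)) = 1 := by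
    have h1 := γ.det_coe
    rw [Matrix.det_fin_two, hc] at h1
    have h2 := congrArg (fun t : ℤ => (t : ZMod q)) h1
    push_cast at h2
    exact h2
  rw [ThetaH, SlashAction.sum_slash]
  have h1 : ∀ h : ZMod q, (thH q (s * h) * psi q p h) ∣[(2 : ℤ)] γ =
      ∑ y : ZMod q, ∑ w : ZMod q,
        (kF q ((γ 0 0 : ℤ) : ZMod q) ((γ 0 1 : ℤ) : ZMod q) ((p : ZMod q) * ((c : ℤ) : ZMod q))
          ((γ 1 1 : ℤ) : ZMod q) (s * h) y *
        kF q ((γ 0 0 : ℤ) : ZMod q) ((p : ZMod q) * ((γ 0 1 : ℤ) : ZMod q)) ((c : ℤ) : ZMod q)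
          ((γ 1 1 : ℤ) : ZMod q) h w) • (thH q y * psi q p w) := by
    intro h
    rw [show (2 : ℤ) = 1 + 1 by norm_num, ModularForm.mul_slash_SL2, thH_slash q hq,
      psi_slash hq p γ c hc, Finset.sum_mul_sum]
    refine Finset.sum_congr rfl fun y _ => Finset.sum_congr rfl fun w _ => ?_
    rw [smul_mul_smul_comm, hc, Int.cast_mul, Int.cast_natCast]
  simp_rw [h1]
  rw [Finset.sum_comm]
  have h2 : ∀ y : ZMod q, ∑ h : ZMod q, ∑ w : ZMod q,
        (kF q ((γ 0 0 : ℤ) : ZMod q) ((γ 0 1 : ℤ) : ZMod q) ((p : ZMod q) * ((c : ℤ) : ZMod q))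
          ((γ 1 1 : ℤ) : ZMod q) (s * h) y *
        kF q ((γ 0 0 : ℤ) : ZMod q) ((p : ZMod q) * ((γ 0 1 : ℤ) : ZMod q)) ((c : ℤ) : ZMod q)
          ((γ 1 1 : ℤ) : ZMod q) h w) • (thH q y * psi q p w) =
      ∑ w : ZMod q, (if y = s * w then (1 : ℂ) else 0) • (thH q y * psi q p w) := by
    intro y
    rw [Finset.sum_comm]
    refine Finset.sum_congr rfl fun w _ => ?_
    rw [← Finset.sum_smul, kF_conv (by omega) hp hs hchi hdet]
  simp_rw [h2]
  rw [Finset.sum_comm]
  refine Finset.sum_congr rfl fun w _ => ?_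
  simp only [ite_smul, one_smul, zero_smul]
  rw [Finset.sum_ite_eq' Finset.univ, if_pos (Finset.mem_univ _)]

end Fermat.Agent.S16.Theta
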