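import Fermat.Agent.S16.Ramanujan
import Fermat.Agent.S16.ThetaMod

/-!
# S16: the weight two Eisenstein series on `Γ₀(p)` and the weight two cuspidality criterion

* `eisTwo p = (p E₂(pτ) - E₂(τ)) / 24 = (p-1)/24 + Σ σ'(n) qⁿ`
* `cusp_of_coeff_zero`: `f ∈ M₂(Γ₀(p))` with `a₀(f) = 0` is a cusp form.
-/

set_option autoImplicit false

open UpperHalfPlane MatrixGroups CongruenceSubgroup ModularGroup EisensteinSeries
  Matrix.SpecialLinearGroup

open scoped ModularForm Manifold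

noncomputable section

namespace Fermat.Agent.Eis

/-- `(p E₂(pτ) - E₂(τ)) / 24`. -/
def eisTwo (p : ℕ) : ℍ → ℂ :=
  (24 : ℂ)⁻¹ • ((p : ℂ) • (fun τ => E2 (ModularForm.heckeDiagMatrix p • τ)) - E2)

variable {p : ℕ}

theorem e2Diag_slash [NeZero p] (γ : SL(2, ℤ)) (hγ : γ ∈ Gamma0 p) :
    (fun τ : ℍ => E2 (ModularForm.heckeDiagMatrix p • τ)) ∣[(2 : ℤ)] γ =
      (fun τ : ℍ => E2 (ModularForm.heckeDiagMatrix p • τ)) -
        ((p : ℂ)⁻¹ * (1 / (2 * riemannZeta 2))) • D2 γ := by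
  rw [Gamma0_mem] at hγ
  obtain ⟨c, hc⟩ := (ZMod.intCast_zmod_eq_zero_iff_dvd _ p).mp hγ
  have hp : (p : ℂ) ≠ 0 := by exact_mod_cast NeZero.ne p
  ext τ
  rw [S16.Theta.comp_diag_slash p γ c hc, E2_slash_action]
  simp only [Pi.sub_apply, Pi.smul_apply, smul_eq_mul, D2]
  congr 1
  have e1 : (IntStr.conjSL p γ c hc) 1 0 = c := rfl
  have e2 : (IntStr.conjSL p γ c hc) 1 1 = γ 1 1 := rfl
  rw [ModularGroup.denom_apply, ModularGroup.denom_apply, e1, e2,
    ModularForm.coe_heckeDiagMatrix_smul (NeZero.ne p), hc]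
  push_cast
  have h1 : ((c : ℂ) * ((p : ℂ) * (τ : ℂ)) + ((γ 1 1 : ℤ) : ℂ)) =
    (p : ℂ) * c * τ + ((γ 1 1 : ℤ) : ℂ) := by ring
  rw [h1]
  field_simp

theorem eisTwo_slash [NeZero p] (γ : SL(2, ℤ)) (hγ : γ ∈ Gamma0 p) :
    eisTwo p ∣[(2 : ℤ)] γ = eisTwo p := by
  have hp : (p : ℂ) ≠ 0 := by exact_mod_cast NeZero.ne p
  rw [eisTwo, ModularForm.SL_smul_slash, sub_eq_add_neg, SlashAction.add_slash,
    SlashAction.neg_slash, ModularForm.SL_smul_slash, e2Diag_slash γ hγ, E2_slash_action]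
  congr 1
  ext τ
  simp only [Pi.add_apply, Pi.neg_apply, Pi.smul_apply, Pi.sub_apply, smul_eq_mul]
  field_simp
  ring

theorem qs_eisTwo [NeZero p] (hp : p.Prime) :
    QS (eisTwo p) (PowerSeries.C (((p : ℂ) - 1) / 24) + toC (sigmaPZ p)) := by
  refine ((((qs_E2.comp_mul (NeZero.ne p)).smul (p : ℂ)).sub qs_E2).smul (24 : ℂ)⁻¹).congr ?_
  ext n
  simp only [PowerSeries.coeff_smul, map_sub, map_add, coeff_toC, smul_eq_mul, vOpC,
    PowerSeries.coeff_mk, PowerSeries.coeff_C, sigmaPZ]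
  have he : ∀ m, (e2Z.coeff m : ℤ) = if m = 0 then 1 else -24 * ∑ d ∈ m.divisors, (d : ℤ) := by
    intro m
    rw [e2Z, map_sub, PowerSeries.coeff_one,
      show (24 : PowerSeries ℤ) = PowerSeries.C 24 from (map_ofNat _ 24).symm,
      PowerSeries.coeff_C_mul, phiZ, PowerSeries.coeff_mk]
    split_ifs with h0
    · subst h0; simp
    · ring
  rcases eq_or_ne n 0 with rfl | hn
  · rw [if_pos (dvd_zero p), Nat.zero_div, he, if_pos rfl, if_pos rfl, sigmaP]
    simp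
    ring
  · rw [he n, if_neg hn, if_neg hn]
    have hsum : sigmaP p n = (∑ d ∈ n.divisors, (d : ℤ)) -
        if p ∣ n then (p : ℤ) * ∑ d ∈ (n / p).divisors, (d : ℤ) else 0 := by
      have h1 : (∑ d ∈ n.divisors, (d : ℤ)) = sigmaP p n + ∑ d ∈ n.divisors with p ∣ d, (d : ℤ) := by
        rw [sigmaP, add_comm, Finset.sum_filter_add_sum_filter_not]
      have h2 : (∑ d ∈ n.divisors with p ∣ d, (d : ℤ)) =
          if p ∣ n then (p : ℤ) * ∑ d ∈ (n / p).divisors, (d : ℤ) else 0 := by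
        split_ifs with h
        · obtain ⟨m, rfl⟩ := h
          have hm : m ≠ 0 := right_ne_zero_of_mul hn
          rw [Nat.mul_div_cancel_left _ hp.pos, Finset.mul_sum]
          symm
          refine Finset.sum_bij (fun e _ => p * e) ?_ ?_ ?_ ?_
          · intro e he
            simp only [Finset.mem_filter, Nat.mem_divisors] at he ⊢
            exact ⟨⟨Nat.mul_dvd_mul_left p he.1, hn⟩, dvd_mul_right _ _⟩
          · intro a _ b _ h
            exact Nat.eq_of_mul_eq_mul_left hp.pos h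
          · intro d hd
            simp only [Finset.mem_filter, Nat.mem_divisors] at hd
            obtain ⟨⟨h4, -⟩, e, rfl⟩ := hd
            refine ⟨e, ?_, rfl⟩
            rw [Nat.mem_divisors]
            exact ⟨Nat.dvd_of_mul_dvd_mul_left hp.pos h4, hm⟩
          · intro e _
            push_cast
            rfl
        · refine Finset.sum_eq_zero fun e he => ?_
          simp only [Finset.mem_filter, Nat.mem_divisors] at he
          exact absurd (he.2.trans he.1.1) h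
      rw [h1, h2]
      ring
    rw [hsum]
    by_cases h : p ∣ n
    · have hn' : n / p ≠ 0 := (Nat.div_pos (Nat.le_of_dvd (Nat.pos_of_ne_zero hn) h) hp.pos).ne'
      rw [if_pos h, if_pos h, he, if_neg hn']
      push_cast
      ring
    · rw [if_neg h, if_neg h]
      push_cast
      ring

theorem mdiff_eisTwo [NeZero p] : MDiff (eisTwo p) := by
  have h1 : MDiff (fun τ : ℍ => E2 (ModularForm.heckeDiagMatrix p • τ)) := by
    have hp : (0 : ℝ) < p := by exact_mod_cast Nat.pos_of_ne_zero (NeZero.ne p)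
    rw [UpperHalfPlane.mdifferentiable_iff]
    intro z hz
    refine DifferentiableAt.differentiableWithinAt ?_
    have hz' : 0 < ((p : ℂ) * z).im := by
      rw [← Complex.ofReal_natCast, Complex.im_ofReal_mul]
      exact mul_pos hp hz
    have h2 : DifferentiableAt ℂ (E2 ∘ ofComplex) ((p : ℂ) * z) :=
      (UpperHalfPlane.mdifferentiable_iff.mp E2_mdifferentiable).differentiableAt
        (isOpen_upperHalfPlaneSet.mem_nhds hz')
    have h1 : DifferentiableAt ℂ (fun z => (E2 ∘ ofComplex) ((p : ℂ) * z)) z :=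
      DifferentiableAt.comp z (f := fun z => (p : ℂ) * z) h2 (by fun_prop)
    refine h1.congr_of_eventuallyEq ?_
    filter_upwards [isOpen_upperHalfPlaneSet.mem_nhds hz] with w hw
    have hw' : 0 < ((p : ℂ) * w).im := by
      rw [← Complex.ofReal_natCast, Complex.im_ofReal_mul]
      exact mul_pos hp hw
    rw [Function.comp_apply, Function.comp_apply, ofComplex_apply_of_im_pos hw,
      ofComplex_apply_of_im_pos hw']
    congr 1
    apply UpperHalfPlane.ext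
    rw [ModularForm.coe_heckeDiagMatrix_smul (NeZero.ne p)]
  exact ((h1.const_smul _).sub E2_mdifferentiable).const_smul _

theorem eisTwo_slash_S [NeZero p] (τ τ' : ℍ) (h : (τ : ℂ) = p * τ') :
    (eisTwo p ∣[(2 : ℤ)] S) τ = -(p : ℂ)⁻¹ * eisTwo p τ' := by
  have hp : (p : ℂ) ≠ 0 := by exact_mod_cast NeZero.ne p
  have hτ' : (τ' : ℂ) ≠ 0 := ne_zero τ'
  have hττ : ModularForm.heckeDiagMatrix p • τ' = τ := by
    apply UpperHalfPlane.ext
    rw [ModularForm.coe_heckeDiagMatrix_smul (NeZero.ne p), h]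
  have hS : ModularForm.heckeDiagMatrix p • (S • τ) = S • τ' := by
    apply UpperHalfPlane.ext
    rw [ModularForm.coe_heckeDiagMatrix_smul (NeZero.ne p), modular_S_smul, modular_S_smul,
      coe_mk, coe_mk, h]
    field_simp
  have h1 : E2 (S • τ') = (τ' : ℂ) ^ 2 * (E2 τ' - (1 / (2 * riemannZeta 2)) *
      (2 * Real.pi * Complex.I / τ')) := by
    have := congrFun (E2_slash_action S) τ'
    rw [slash_S_apply, Pi.sub_apply, Pi.smul_apply, D2_S, smul_eq_mul] at this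
    rw [← this, zpow_neg]
    norm_cast
    field_simp
  have h2 : (E2 ∣[(2 : ℤ)] S) τ = E2 τ - (1 / (2 * riemannZeta 2)) *
      (2 * Real.pi * Complex.I / τ) := by
    rw [E2_slash_action, Pi.sub_apply, Pi.smul_apply, D2_S, smul_eq_mul]
  have h3 : (E2 ∣[(2 : ℤ)] S) τ = E2 (S • τ) * (τ : ℂ) ^ (-2 : ℤ) := slash_S_apply _ _ _
  rw [slash_S_apply, eisTwo]
  simp only [Pi.smul_apply, Pi.sub_apply, smul_eq_mul]
  rw [hS, hττ, h1]
  have h4 : (24 : ℂ)⁻¹ * ((p : ℂ) * ((τ' : ℂ) ^ 2 * (E2 τ' - 1 / (2 * riemannZeta 2) *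
      (2 * Real.pi * Complex.I / τ'))) - E2 (S • τ)) * (τ : ℂ) ^ (-2 : ℤ) =
      (24 : ℂ)⁻¹ * ((p : ℂ) * ((τ' : ℂ) ^ 2 * (E2 τ' - 1 / (2 * riemannZeta 2) *
      (2 * Real.pi * Complex.I / τ'))) * (τ : ℂ) ^ (-2 : ℤ) -
        E2 (S • τ) * (τ : ℂ) ^ (-2 : ℤ)) := by ring
  rw [h4, ← h3, h2, h]
  have h5 : ((p : ℂ) * (τ' : ℂ)) ^ (-2 : ℤ) = ((p : ℂ) * (τ' : ℂ))⁻¹ ^ 2 := by
    rw [zpow_neg, inv_pow]
    norm_cast
  rw [h5]
  field_simp
  ring

theorem isBoundedAtImInfty_eisTwo_S [NeZero p] (hp : p.Prime) :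
    IsBoundedAtImInfty (eisTwo p ∣[(2 : ℤ)] S) := by
  have hb := (qs_eisTwo hp).isBoundedAtImInfty
  rw [isBoundedAtImInfty_iff] at hb ⊢
  obtain ⟨M, A, h⟩ := hb
  have hp0 : (0 : ℝ) < p := by exact_mod_cast hp.pos
  refine ⟨‖-(p : ℂ)⁻¹‖ * M, p * A, fun τ hτ => ?_⟩
  let τ' : ℍ := ⟨(τ : ℂ) / p, by
    rw [← Complex.ofReal_natCast, Complex.div_ofReal_im]
    exact div_pos τ.im_pos hp0⟩
  have h1 : (τ : ℂ) = p * τ' := by
    have : (p : ℂ) ≠ 0 := by exact_mod_cast hp.ne_zero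
    change (τ : ℂ) = p * ((τ : ℂ) / p)
    field_simp
  rw [eisTwo_slash_S τ τ' h1, norm_mul]
  refine mul_le_mul_of_nonneg_left (h τ' ?_) (norm_nonneg _)
  change A ≤ ((τ : ℂ) / p).im
  rw [← Complex.ofReal_natCast, Complex.div_ofReal_im, le_div_iff₀ hp0, mul_comm]
  exact hτ

theorem isG0_eisTwo [Fact p.Prime] : IsG0 p 2 (eisTwo p) := by
  have hp : p.Prime := Fact.out
  have : NeZero p := ⟨hp.ne_zero⟩
  exact ⟨mkGamma0 2 (eisTwo p) (fun γ hγ => eisTwo_slash γ hγ) mdiff_eisTwo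
    (qs_eisTwo hp).isBoundedAtImInfty (isBoundedAtImInfty_eisTwo_S hp), rfl⟩

end Fermat.Agent.Eis
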