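import Mathlib
import Fermat.Agent.S16.Defs
import Fermat.Agent.FunField.JExp

/-!
# S16: level one forms with integral `q`-expansions, and their reduction modulo a prime

* `IsZ k A` : `A` is the (integral) `q`-expansion of a level one form of weight `k`.
* `sturm_mod` : Sturm's theorem mod `ℓ` in level one.
* `no_delta_mod` : for a prime `p ≥ 5` no integral form of weight `12 p + 2` is `≡ c Δ mod p`
  with `p ∤ c`.
-/

set_option autoImplicit false

open UpperHalfPlane ModularForm MatrixGroups EisensteinSeries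

noncomputable section

namespace Fermat.Agent.Eis

theorem hasQ_iff {f : ℍ → ℂ} {A : PowerSeries ℤ} :
    HasQ f A ↔ qExpansion 1 f = A.map (Int.castRingHom ℂ) := by
  constructor
  · intro h
    ext n
    rw [PowerSeries.coeff_map]
    exact h n
  · intro h n
    rw [ModularFormClass.qCoeff, h, PowerSeries.coeff_map]
    rfl

theorem map_intCast_injective :
    Function.Injective (PowerSeries.map (Int.castRingHom ℂ)) := by
  intro A B h
  ext n
  have := congrArg (fun C => PowerSeries.coeff n C) h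
  simpa using this

theorem HasQ.unique {f : ℍ → ℂ} {A B : PowerSeries ℤ} (hA : HasQ f A) (hB : HasQ f B) : A = B :=
  map_intCast_injective ((hasQ_iff.mp hA).symm.trans (hasQ_iff.mp hB))

theorem hasQ_discriminant : HasQ (CuspForm.discriminant : CuspForm 𝒮ℒ 12) deltaZ := by
  rw [hasQ_iff, CuspForm.coe_discriminant, FunField.qExpansion_discriminant, deltaZ, map_mul,
    PowerSeries.map_X]

/-- `E₄`. -/
def e4Z : PowerSeries ℤ := ModularCurve.eisenstein4

/-- `E₆`. -/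
def e6Z : PowerSeries ℤ :=
  PowerSeries.mk fun n => if n = 0 then 1 else -504 * ∑ d ∈ n.divisors, (d : ℤ) ^ 5

theorem coeff_zero_e4Z : e4Z.coeff 0 = 1 := by
  rw [PowerSeries.coeff_zero_eq_constantCoeff, e4Z, ModularCurve.constantCoeff_eisenstein4]

theorem coeff_zero_e6Z : e6Z.coeff 0 = 1 := by
  simp [e6Z]

theorem coeff_zero_deltaZ : deltaZ.coeff 0 = 0 := by
  simp [deltaZ]

theorem hasQ_E₄ : HasQ (E₄ : ModularForm 𝒮ℒ 4) e4Z := by
  rw [hasQ_iff, FunField.qExpansion_E4, e4Z]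

theorem hasQ_E₆ : HasQ (E₆ : ModularForm 𝒮ℒ 6) e6Z := by
  rw [hasQ_iff]
  ext n
  rw [E_qExpansion_coeff _ ⟨3, rfl⟩, show bernoulli 6 = 1 / 42 by decide +kernel,
    PowerSeries.coeff_map, e6Z, PowerSeries.coeff_mk]
  split_ifs with h
  · simp
  · rw [ArithmeticFunction.sigma_apply]
    push_cast
    norm_num

/-- `A` is the `q`-expansion of a level one form of weight `k`. -/
def IsZ (k : ℤ) (A : PowerSeries ℤ) : Prop := ∃ F : ModularForm 𝒮ℒ k, HasQ F A

theorem IsZ.cast {k l : ℤ} {A : PowerSeries ℤ} (h : IsZ k A) (hkl : k = l) : IsZ l A := hkl ▸ h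

theorem IsZ.mul {k l : ℤ} {A B : PowerSeries ℤ} (hA : IsZ k A) (hB : IsZ l B) :
    IsZ (k + l) (A * B) := by
  obtain ⟨F, hF⟩ := hA
  obtain ⟨G, hG⟩ := hB
  refine ⟨F.mul G, ?_⟩
  rw [hasQ_iff] at *
  rw [ModularForm.qExpansion_mul one_pos one_mem_strictPeriods_SL, hF, hG, map_mul]

theorem IsZ.one : IsZ 0 1 := by
  refine ⟨1, ?_⟩
  rw [hasQ_iff]
  simp [UpperHalfPlane.qExpansion_one]

theorem IsZ.pow {k : ℤ} {A : PowerSeries ℤ} (hA : IsZ k A) (n : ℕ) : IsZ (n * k) (A ^ n) := by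
  induction n with
  | zero => simpa using IsZ.one
  | succ n ih =>
    rw [pow_succ]
    exact (ih.mul hA).cast (by push_cast; ring)

theorem IsZ.add {k : ℤ} {A B : PowerSeries ℤ} (hA : IsZ k A) (hB : IsZ k B) :
    IsZ k (A + B) := by
  obtain ⟨F, hF⟩ := hA
  obtain ⟨G, hG⟩ := hB
  refine ⟨F + G, ?_⟩
  rw [hasQ_iff] at *
  rw [FunLike.coe_add, ModularForm.qExpansion_add one_pos one_mem_strictPeriods_SL, hF, hG,
    map_add]

theorem IsZ.zsmul {k : ℤ} {A : PowerSeries ℤ} (c : ℤ) (hA : IsZ k A) :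
    IsZ k (PowerSeries.C c * A) := by
  obtain ⟨F, hF⟩ := hA
  refine ⟨(c : ℂ) • F, ?_⟩
  rw [hasQ_iff] at *
  rw [FunLike.coe_smul, ModularForm.qExpansion_smul one_pos one_mem_strictPeriods_SL, hF, map_mul,
    PowerSeries.map_C, PowerSeries.smul_eq_C_mul]
  rfl

theorem IsZ.sub {k : ℤ} {A B : PowerSeries ℤ} (hA : IsZ k A) (hB : IsZ k B) :
    IsZ k (A - B) := by
  have := hA.add (hB.zsmul (-1))
  simpa [sub_eq_add_neg] using this

theorem isZ_e4Z : IsZ 4 e4Z := ⟨E₄, hasQ_E₄⟩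

theorem isZ_e6Z : IsZ 6 e6Z := ⟨E₆, hasQ_E₆⟩

theorem isZ_deltaZ : IsZ 12 deltaZ := ⟨(CuspForm.discriminant : CuspForm 𝒮ℒ 12), hasQ_discriminant⟩

theorem IsZ.eq_zero_of_forall {k : ℤ} (h0 : ∀ F : ModularForm 𝒮ℒ k, F = 0) {A : PowerSeries ℤ}
    (hA : IsZ k A) : A = 0 := by
  obtain ⟨F, hF⟩ := hA
  rw [hasQ_iff, h0 F] at hF
  apply map_intCast_injective
  rw [← hF, map_zero]
  simp [UpperHalfPlane.qExpansion_zero]

theorem IsZ.eq_zero_of_neg {k : ℤ} (hk : k < 0) {A : PowerSeries ℤ} (hA : IsZ k A) : A = 0 :=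
  hA.eq_zero_of_forall (rank_zero_iff_forall_zero.mp (levelOne_neg_weight_rank_zero hk))

theorem IsZ.eq_zero_of_odd {k : ℤ} (hk : Odd k) {A : PowerSeries ℤ} (hA : IsZ k A) : A = 0 :=
  hA.eq_zero_of_forall (levelOne_odd_weight_eq_zero hk)

theorem IsZ.eq_zero_of_two {A : PowerSeries ℤ} (hA : IsZ 2 A) : A = 0 :=
  hA.eq_zero_of_forall (rank_zero_iff_forall_zero.mp levelOne_weight_two_rank_zero)

theorem IsZ.eq_C_of_zero {A : PowerSeries ℤ} (hA : IsZ 0 A) : A = PowerSeries.C (A.coeff 0) := by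
  obtain ⟨F, hF⟩ := hA
  obtain ⟨c, hc⟩ := ModularFormClass.levelOne_weight_zero_const F
  have h1 : (⇑F : ℍ → ℂ) = ⇑(c • (1 : ModularForm 𝒮ℒ 0)) := by
    rw [hc]; ext; simp
  have h2 : qExpansion 1 F = PowerSeries.C c := by
    rw [h1, FunLike.coe_smul, ModularForm.qExpansion_smul one_pos one_mem_strictPeriods_SL,
      PowerSeries.smul_eq_C_mul]
    simp [UpperHalfPlane.qExpansion_one]
  rw [hasQ_iff, h2] at hF
  ext n
  have h3 := congrArg (fun B => PowerSeries.coeff n B) hF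
  simp only [PowerSeries.coeff_map, PowerSeries.coeff_C] at h3 ⊢
  split_ifs at h3 ⊢ with hn
  · rw [hn]
  · simpa using h3.symm

/-- Division by `Δ`. -/
theorem IsZ.exists_deltaZ_mul {k : ℤ} {A : PowerSeries ℤ} (hA : IsZ k A) (h0 : A.coeff 0 = 0) :
    ∃ B, IsZ (k - 12) B ∧ A = deltaZ * B := by
  obtain ⟨F, hF⟩ := hA
  have hA0 : PowerSeries.X ∣ A := by
    rw [PowerSeries.X_dvd_iff, ← PowerSeries.coeff_zero_eq_constantCoeff]
    exact h0
  obtain ⟨A', hA'⟩ := hA0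
  have hB : A = deltaZ * (ModularCurve.dedekindEtaUnitInv * A') := by
    rw [deltaZ, hA']
    calc PowerSeries.X * A' = PowerSeries.X * (ModularCurve.dedekindEtaUnit *
        ModularCurve.dedekindEtaUnitInv) * A' := by
          rw [ModularCurve.dedekindEtaUnit_mul_inv, mul_one]
      _ = _ := by ring
  rw [hasQ_iff] at hF
  have hF0 : (qExpansion 1 F).coeff 0 = 0 := by
    rw [hF, PowerSeries.coeff_map, h0, map_zero]
  refine ⟨_, ⟨CuspForm.discriminantEquiv (toCuspForm F hF0), ?_⟩, hB⟩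
  rw [hasQ_iff]
  have h1 := qExpansion_eq_qExpansion_discriminant_mul F hF0
  have h2 := hasQ_iff.mp hasQ_discriminant
  rw [CuspForm.coe_discriminant] at h2
  rw [hF, h2, hB, map_mul] at h1
  have h3 : (PowerSeries.map (Int.castRingHom ℂ)) deltaZ ≠ 0 := by
    rw [← h2]
    intro h
    have := discriminant_qExpansion_coeff_one
    rw [h] at this
    simp at this
  exact (mul_left_cancel₀ h3 h1).symm

theorem dvd_coeff_mul_left {ℓ : ℤ} {A B : PowerSeries ℤ} {M : ℕ}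
    (h : ∀ n < M, ℓ ∣ B.coeff n) : ∀ n < M, ℓ ∣ (A * B).coeff n := by
  intro n hn
  rw [PowerSeries.coeff_mul]
  refine Finset.dvd_sum fun x hx => ?_
  rw [Finset.HasAntidiagonal.mem_antidiagonal] at hx
  exact Dvd.dvd.mul_left (h _ (by omega)) _

theorem dvd_coeff_of_deltaZ_mul {ℓ : ℤ} {B : PowerSeries ℤ} {M : ℕ}
    (h : ∀ n < M + 1, ℓ ∣ (deltaZ * B).coeff n) : ∀ n < M, ℓ ∣ B.coeff n := by
  have h1 : ∀ n < M, ℓ ∣ (ModularCurve.dedekindEtaUnit * B).coeff n := by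
    intro n hn
    have := h (n + 1) (by omega)
    rwa [deltaZ, mul_assoc, PowerSeries.coeff_succ_X_mul] at this
  have h2 : B = ModularCurve.dedekindEtaUnitInv * (ModularCurve.dedekindEtaUnit * B) := by
    calc B = (ModularCurve.dedekindEtaUnit * ModularCurve.dedekindEtaUnitInv) * B := by
          rw [ModularCurve.dedekindEtaUnit_mul_inv, one_mul]
      _ = _ := by ring
  rw [h2]
  exact dvd_coeff_mul_left h1

theorem coeff_zero_mul_pow (a b : ℕ) : (e4Z ^ a * e6Z ^ b).coeff 0 = 1 := by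
  rw [PowerSeries.coeff_zero_eq_constantCoeff, map_mul, map_pow, map_pow,
    ← PowerSeries.coeff_zero_eq_constantCoeff, coeff_zero_e4Z, coeff_zero_e6Z]
  simp

theorem isZ_pow_mul_pow (a b : ℕ) : IsZ (4 * a + 6 * b) (e4Z ^ a * e6Z ^ b) :=
  ((isZ_e4Z.pow a).mul (isZ_e6Z.pow b)).cast (by ring)

/-- subtracting the constant term -/
theorem IsZ.exists_eq_add {a b : ℕ} {A : PowerSeries ℤ} (hA : IsZ (4 * a + 6 * b) A) :
    ∃ B, IsZ (4 * a + 6 * b - 12) B ∧
      A = PowerSeries.C (A.coeff 0) * (e4Z ^ a * e6Z ^ b) + deltaZ * B := by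
  have h1 := hA.sub ((isZ_pow_mul_pow a b).zsmul (A.coeff 0))
  obtain ⟨B, hB, h2⟩ := h1.exists_deltaZ_mul (by
    rw [map_sub, PowerSeries.coeff_C_mul, coeff_zero_mul_pow]; ring)
  exact ⟨B, hB, by rw [← h2]; ring⟩

theorem exists_four_six {k : ℕ} (hk : 4 ≤ k) (hk2 : Even k) : ∃ a b : ℕ, 4 * a + 6 * b = k := by
  obtain ⟨m, rfl⟩ := hk2
  rcases Nat.even_or_odd m with ⟨r, rfl⟩ | ⟨r, rfl⟩
  · exact ⟨r, 0, by ring⟩
  · exact ⟨r - 1, 1, by omega⟩

/-- **Sturm's theorem mod `ℓ` in level one** (`ℓ` any integer). -/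
theorem IsZ.sturm {ℓ : ℤ} {k : ℕ} {A : PowerSeries ℤ} (hA : IsZ k A)
    (h : ∀ n, 12 * n ≤ k → ℓ ∣ A.coeff n) : ∀ n, ℓ ∣ A.coeff n := by
  induction k using Nat.strong_induction_on generalizing A with
  | _ k ih =>
  rcases Nat.even_or_odd k with hev | hodd
  swap
  · rw [hA.eq_zero_of_odd (by exact_mod_cast hodd)]
    simp
  rcases Nat.lt_or_ge k 4 with h4 | h4
  · have : k = 0 ∨ k = 2 := by
      obtain ⟨m, rfl⟩ := hev
      omega
    rcases this with rfl | rfl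
    · intro n
      rw [(show IsZ 0 A from hA).eq_C_of_zero, PowerSeries.coeff_C]
      split_ifs
      · exact h 0 (by simp)
      · simp
    · rw [(show IsZ 2 A from hA).eq_zero_of_two]
      simp
  · obtain ⟨a, b, hab⟩ := exists_four_six h4 hev
    have hA' : IsZ (4 * a + 6 * b) A := hA.cast (by rw [← hab]; push_cast; ring)
    obtain ⟨B, hB, hAB⟩ := hA'.exists_eq_add
    have h0 : ℓ ∣ A.coeff 0 := h 0 (by simp)
    have h0' : ∀ (G : PowerSeries ℤ) (n : ℕ), ℓ ∣ (PowerSeries.C (A.coeff 0) * G).coeff n := by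
      intro G n
      rw [PowerSeries.coeff_C_mul]
      exact Dvd.dvd.mul_right h0 _
    have hBdvd : ∀ n, ℓ ∣ B.coeff n := by
      rcases Nat.lt_or_ge k 12 with h12 | h12
      · rw [hB.eq_zero_of_neg (by rw [← hab] at h12; omega)]
        simp
      · refine ih (k - 12) (by omega) (hB.cast (by omega)) ?_
        intro n hn
        refine dvd_coeff_of_deltaZ_mul (M := n + 1) ?_ n (by omega)
        intro m hm
        have h2 : deltaZ * B = A - PowerSeries.C (A.coeff 0) * (e4Z ^ a * e6Z ^ b) := by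
          rw [eq_sub_iff_add_eq, add_comm]
          exact hAB.symm
        rw [h2, map_sub]
        exact dvd_sub (h m (by omega)) (h0' _ _)
    intro n
    rw [hAB, map_add]
    exact dvd_add (h0' _ _) (dvd_coeff_mul_left (M := n + 1) (fun m _ => hBdvd m) n (by omega))

/-- **Sturm's theorem mod `ℓ` in level one.** -/
theorem sturm_mod (ℓ : ℕ) (k : ℕ) (F : ModularForm 𝒮ℒ k) (A : PowerSeries ℤ) (hA : HasQ F A)
    (h : ∀ n, 12 * n ≤ k → (ℓ : ℤ) ∣ A.coeff n) : ∀ n, (ℓ : ℤ) ∣ A.coeff n :=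
  IsZ.sturm ⟨F, hA⟩ h

end Fermat.Agent.Eis
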