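import Mathlib
import Fermat.Agent.S16.LevelOneMod

/-!
# S16: no level one form of weight `12 p + 2` is congruent to `c Δ` mod `p`, `p ≥ 5` prime

Also `e6Z_sq : E₆² = E₄³ - 1728 Δ` over `ℤ`, and the structure of level one forms mod `p`
(`IsZ.structure_zero`, `IsZ.structure_two`), an integral multiple of `E_{p-1}` (`exists_hasse`).
-/

set_option autoImplicit false

open UpperHalfPlane ModularForm MatrixGroups EisensteinSeries

noncomputable section

namespace Fermat.Agent.Eis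

/-! ### `E₆² = E₄³ - 1728 Δ` -/

theorem e6Z_sq : e6Z ^ 2 = e4Z ^ 3 - 1728 * deltaZ := by
  have h4 : HasQ (ModularForm.mcast (by norm_num) ((E₄.mul E₄).mul E₄) : ModularForm 𝒮ℒ 12)
      (e4Z ^ 3) := by
    rw [hasQ_iff, coe_mcast, ModularForm.qExpansion_mul one_pos one_mem_strictPeriods_SL,
      ModularForm.qExpansion_mul one_pos one_mem_strictPeriods_SL, hasQ_iff.mp hasQ_E₄, map_pow]
    ring
  have h6 : HasQ (ModularForm.mcast (by norm_num) (E₆.mul E₆) : ModularForm 𝒮ℒ 12)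
      (e6Z ^ 2) := by
    rw [hasQ_iff, coe_mcast, ModularForm.qExpansion_mul one_pos one_mem_strictPeriods_SL,
      hasQ_iff.mp hasQ_E₆, map_pow]
    ring
  have hd : HasQ (((1728 : ℂ) • (CuspForm.discriminant : ModularForm 𝒮ℒ 12) : ModularForm 𝒮ℒ 12))
      (1728 * deltaZ) := by
    rw [hasQ_iff, FunLike.coe_smul, ModularForm.qExpansion_smul one_pos one_mem_strictPeriods_SL]
    have := hasQ_iff.mp hasQ_discriminant
    rw [show (⇑(CuspForm.discriminant : ModularForm 𝒮ℒ 12) : ℍ → ℂ) =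
      ⇑(CuspForm.discriminant : CuspForm 𝒮ℒ 12) from rfl, this, map_mul,
      PowerSeries.smul_eq_C_mul]
    congr 1
    rw [map_ofNat]
    exact (map_ofNat _ 1728).symm
  have hsub : HasQ ((ModularForm.mcast (by norm_num) ((E₄.mul E₄).mul E₄) : ModularForm 𝒮ℒ 12) -
      (ModularForm.mcast (by norm_num) (E₆.mul E₆) : ModularForm 𝒮ℒ 12) : ModularForm 𝒮ℒ 12)
      (e4Z ^ 3 - e6Z ^ 2) := by
    rw [hasQ_iff] at *
    rw [FunLike.coe_sub, ModularForm.qExpansion_sub one_pos one_mem_strictPeriods_SL, h4, h6,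
      map_sub]
  have heq : (⇑(((1728 : ℂ) • (CuspForm.discriminant : ModularForm 𝒮ℒ 12) :
      ModularForm 𝒮ℒ 12)) : ℍ → ℂ) = ⇑((ModularForm.mcast (by norm_num)
        ((E₄.mul E₄).mul E₄) : ModularForm 𝒮ℒ 12) -
      (ModularForm.mcast (by norm_num) (E₆.mul E₆) : ModularForm 𝒮ℒ 12) : ModularForm 𝒮ℒ 12) := by
    ext z
    have := discriminant_eq_E₄_cube_sub_E₆_sq z
    simp only [FunLike.coe_smul, Pi.smul_apply, FunLike.coe_sub, Pi.sub_apply, coe_mcast,
      ModularForm.coe_mul, Pi.mul_apply, smul_eq_mul]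
    rw [show ((CuspForm.discriminant : ModularForm 𝒮ℒ 12) : ℍ → ℂ) z =
      ModularForm.discriminant z from rfl, this]
    ring
  rw [heq] at hd
  have := hd.unique hsub
  rw [this]
  ring

/-! ### Polynomials in `t = Δ/E₄³` mod `p` -/

section Field

variable {K : Type*} [Field K]

/-- evaluation of a polynomial at a power series without constant term is injective. -/
theorem eval₂_C_eq_zero {t : PowerSeries K} (ht : t ≠ 0) (ht0 : PowerSeries.constantCoeff t = 0)
    (P : Polynomial K) (hP : P.eval₂ (PowerSeries.C (R := K)) t = 0) : P = 0 := by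
  induction hn : P.natDegree using Nat.strong_induction_on generalizing P with
  | _ n ih =>
  have h0 : P.coeff 0 = 0 := by
    have := congrArg PowerSeries.constantCoeff hP
    rw [Polynomial.hom_eval₂, ht0, map_zero] at this
    rw [Polynomial.eval₂_at_zero] at this
    simpa using this
  have h1 : P = Polynomial.X * P.divX := by
    conv_lhs => rw [← Polynomial.divX_mul_X_add P, h0, map_zero, add_zero, mul_comm]
  rw [h1, Polynomial.eval₂_mul, Polynomial.eval₂_X] at hP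
  have h2 := (mul_eq_zero.mp hP).resolve_left ht
  rcases Nat.eq_zero_or_pos n with rfl | hpos
  · rw [Polynomial.eq_C_of_natDegree_eq_zero hn, h0, map_zero]
  · have h3 := ih (P.divX.natDegree) (by rw [Polynomial.natDegree_divX_eq_natDegree_tsub_one]; omega)
      P.divX h2 rfl
    rw [h1, h3, mul_zero]

end Field

section Mod

variable (p : ℕ) [Fact p.Prime]

/-- reduction mod `p`. -/
def redP : PowerSeries ℤ →+* PowerSeries (ZMod p) := PowerSeries.map (Int.castRingHom (ZMod p))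

theorem redP_eq_zero_iff {A : PowerSeries ℤ} : redP p A = 0 ↔ ∀ n, (p : ℤ) ∣ A.coeff n := by
  rw [PowerSeries.ext_iff]
  refine forall_congr' fun n => ?_
  rw [redP, PowerSeries.coeff_map, map_zero, eq_intCast, ZMod.intCast_zmod_eq_zero_iff_dvd]

theorem redP_eq_iff {A B : PowerSeries ℤ} :
    redP p A = redP p B ↔ ∀ n, (p : ℤ) ∣ A.coeff n - B.coeff n := by
  rw [← sub_eq_zero, ← map_sub, redP_eq_zero_iff]
  simp

theorem redP_C (c : ℤ) : redP p (PowerSeries.C c) = PowerSeries.C (c : ZMod p) := by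
  rw [redP, PowerSeries.map_C]
  rfl

/-- `E₄³` mod `p`. -/
def xP : PowerSeries (ZMod p) := redP p (e4Z ^ 3)

/-- `Δ` mod `p`. -/
def yP : PowerSeries (ZMod p) := redP p deltaZ

/-- `Δ / E₄³` mod `p`. -/
def tP : PowerSeries (ZMod p) := yP p * (xP p)⁻¹

theorem constantCoeff_xP : PowerSeries.constantCoeff (xP p) = 1 := by
  rw [← PowerSeries.coeff_zero_eq_constantCoeff, xP, redP, PowerSeries.coeff_map,
    PowerSeries.coeff_zero_eq_constantCoeff, map_pow, ← PowerSeries.coeff_zero_eq_constantCoeff,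
    coeff_zero_e4Z]
  simp

theorem xP_mul_tP : xP p * tP p = yP p := by
  rw [tP, mul_comm (yP p), ← mul_assoc, PowerSeries.mul_inv_cancel, one_mul]
  rw [constantCoeff_xP]
  exact one_ne_zero

theorem xP_ne_zero : xP p ≠ 0 := by
  intro h
  have := constantCoeff_xP p
  rw [h, map_zero] at this
  exact zero_ne_one this

theorem constantCoeff_tP : PowerSeries.constantCoeff (tP p) = 0 := by
  have h : PowerSeries.constantCoeff (yP p) = 0 := by
    rw [← PowerSeries.coeff_zero_eq_constantCoeff, yP, redP, PowerSeries.coeff_map,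
      coeff_zero_deltaZ, map_zero]
  rw [tP, map_mul, h, zero_mul]

theorem yP_ne_zero : yP p ≠ 0 := by
  intro h
  have h1 : (yP p).coeff 1 = 1 := by
    rw [yP, redP, PowerSeries.coeff_map, deltaZ, show (1 : ℕ) = 0 + 1 from rfl,
      PowerSeries.coeff_succ_X_mul]
    have := ModularCurve.constantCoeff_dedekindEtaUnit
    rw [← PowerSeries.coeff_zero_eq_constantCoeff] at this
    rw [this]
    simp
  rw [h, map_zero] at h1
  exact zero_ne_one h1

theorem tP_ne_zero : tP p ≠ 0 := by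
  intro h
  have := xP_mul_tP p
  rw [h, mul_zero] at this
  exact yP_ne_zero p this.symm

/-- evaluation at `t`. -/
def evT (P : Polynomial (ZMod p)) : PowerSeries (ZMod p) :=
  P.eval₂ (PowerSeries.C (R := ZMod p)) (tP p)

theorem evT_mul (P Q : Polynomial (ZMod p)) : evT p (P * Q) = evT p P * evT p Q :=
  Polynomial.eval₂_mul _ _

theorem evT_pow (P : Polynomial (ZMod p)) (n : ℕ) : evT p (P ^ n) = evT p P ^ n :=
  Polynomial.eval₂_pow _ _ _

theorem evT_injective {P Q : Polynomial (ZMod p)} (h : evT p P = evT p Q) : P = Q := by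
  rw [← sub_eq_zero]
  refine eval₂_C_eq_zero (tP_ne_zero p) (constantCoeff_tP p) _ ?_
  rw [Polynomial.eval₂_sub]
  exact sub_eq_zero.mpr h

theorem evT_step (a : ZMod p) (Q : Polynomial (ZMod p)) (m : ℕ) :
    xP p ^ (m + 1) * evT p (Polynomial.C a + Polynomial.X * Q) =
      PowerSeries.C a * xP p ^ (m + 1) + yP p * (xP p ^ m * evT p Q) := by
  rw [evT, Polynomial.eval₂_add, Polynomial.eval₂_mul, Polynomial.eval₂_C, Polynomial.eval₂_X,
    ← xP_mul_tP, evT]
  ring

theorem natDegree_step {a : ZMod p} {Q : Polynomial (ZMod p)} {m : ℕ} (h : Q.natDegree ≤ m) :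
    (Polynomial.C a + Polynomial.X * Q).natDegree ≤ m + 1 := by
  refine (Polynomial.natDegree_add_le _ _).trans (max_le ?_ ?_)
  · rw [Polynomial.natDegree_C]; omega
  · refine Polynomial.natDegree_mul_le.trans ?_
    have := Polynomial.natDegree_X_le (R := ZMod p)
    omega

theorem IsZ.structure_zero (m : ℕ) {A : PowerSeries ℤ} (hA : IsZ (12 * m) A) :
    ∃ Q : Polynomial (ZMod p), Q.natDegree ≤ m ∧ redP p A = xP p ^ m * evT p Q := by
  induction m generalizing A with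
  | zero =>
    refine ⟨Polynomial.C ((A.coeff 0 : ℤ) : ZMod p), by simp, ?_⟩
    rw [(show IsZ 0 A from by simpa using hA).eq_C_of_zero, redP_C, evT, Polynomial.eval₂_C]
    simp
  | succ m ih =>
    have hA' : IsZ (4 * ((3 * (m + 1) : ℕ) : ℤ) + 6 * ((0 : ℕ) : ℤ)) A :=
      hA.cast (by push_cast; ring)
    obtain ⟨B, hB, hAB⟩ := hA'.exists_eq_add
    obtain ⟨Q, hQ, hQB⟩ := ih (A := B) (hB.cast (by push_cast; ring))
    refine ⟨Polynomial.C ((A.coeff 0 : ℤ) : ZMod p) + Polynomial.X * Q, natDegree_step p hQ, ?_⟩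
    rw [evT_step, ← hQB, ← redP_C]
    conv_lhs => rw [hAB]
    rw [map_add, map_mul, map_mul, map_mul, yP, xP, pow_zero, map_one, mul_one, ← map_pow,
      ← pow_mul]

theorem IsZ.structure_two (m : ℕ) {A : PowerSeries ℤ} (hA : IsZ (12 * m + 14) A) :
    ∃ Q : Polynomial (ZMod p), Q.natDegree ≤ m ∧
      redP p A = redP p (e4Z ^ 2 * e6Z) * (xP p ^ m * evT p Q) := by
  induction m generalizing A with
  | zero =>
    have hA' : IsZ (4 * ((2 : ℕ) : ℤ) + 6 * ((1 : ℕ) : ℤ)) A :=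
      hA.cast (by norm_num)
    obtain ⟨B, hB, hAB⟩ := hA'.exists_eq_add
    rw [(show IsZ 2 B from hB.cast (by norm_num)).eq_zero_of_two, mul_zero, add_zero,
      pow_one] at hAB
    refine ⟨Polynomial.C ((A.coeff 0 : ℤ) : ZMod p), by simp, ?_⟩
    conv_lhs => rw [hAB]
    rw [evT, Polynomial.eval₂_C, map_mul, redP_C]
    ring
  | succ m ih =>
    have hA' : IsZ (4 * ((2 + 3 * (m + 1) : ℕ) : ℤ) + 6 * ((1 : ℕ) : ℤ)) A :=
      hA.cast (by push_cast; ring)
    obtain ⟨B, hB, hAB⟩ := hA'.exists_eq_add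
    obtain ⟨Q, hQ, hQB⟩ := ih (A := B) (hB.cast (by push_cast; ring))
    refine ⟨Polynomial.C ((A.coeff 0 : ℤ) : ZMod p) + Polynomial.X * Q, natDegree_step p hQ, ?_⟩
    rw [evT_step, ← redP_C, mul_add, mul_left_comm (redP p (e4Z ^ 2 * e6Z)) (yP p), ← hQB]
    conv_lhs => rw [hAB]
    simp only [map_add, map_mul, map_pow, yP, xP, pow_one]
    ring

/-- `p` divides the denominator of `B_{p-1}`. -/
theorem dvd_den_bernoulli (hp : 3 ≤ p) : p ∣ (bernoulli (p - 1)).den := by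
  have hpp : p.Prime := Fact.out
  have hodd : ¬ 2 ∣ p := by
    intro h
    have := (Nat.prime_dvd_prime_iff_eq Nat.prime_two hpp).mp h
    omega
  obtain ⟨k, hk⟩ : ∃ k, p - 1 = 2 * k := by
    exact ⟨(p - 1) / 2, by omega⟩
  obtain ⟨m, hm⟩ := Bernoulli.vonStaudt_clausen k
  rw [← hk] at hm
  set s : Finset ℕ := {q ∈ Finset.range (p - 1 + 2) | q.Prime ∧ q - 1 ∣ p - 1} with hs
  have hps : p ∈ s := by
    rw [hs, Finset.mem_filter, Finset.mem_range]
    exact ⟨by omega, hpp, dvd_rfl⟩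
  rw [← Finset.add_sum_erase _ _ hps] at hm
  -- `1/p = m - B - Σ_{q ≠ p} 1/q`
  set D : ℕ := ∏ q ∈ s.erase p, q with hD
  have hDp : ¬ p ∣ D := by
    rw [hD, Prime.dvd_finsetProd_iff hpp.prime]
    rintro ⟨q, hq, hpq⟩
    rw [Finset.mem_erase, hs, Finset.mem_filter] at hq
    exact hq.1 ((Nat.prime_dvd_prime_iff_eq hpp hq.2.2.1).mp hpq).symm
  obtain ⟨e, he⟩ : ∃ e : ℤ, (D : ℚ) * ∑ q ∈ s.erase p, (1 : ℚ) / q = e := by
    refine ⟨∑ q ∈ s.erase p, ((D / q : ℕ) : ℤ), ?_⟩
    rw [Finset.mul_sum]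
    push_cast
    refine Finset.sum_congr rfl fun q hq => ?_
    have hqD : q ∣ D := Finset.dvd_prod_of_mem _ hq
    rw [Finset.mem_erase, hs, Finset.mem_filter] at hq
    have hq0 : (q : ℚ) ≠ 0 := by exact_mod_cast hq.2.2.1.ne_zero
    rw [mul_one_div]
    push_cast [hqD]
    rfl
  have hB : (bernoulli (p - 1) : ℚ) * (bernoulli (p - 1)).den = (bernoulli (p - 1)).num :=
    Rat.mul_den_eq_num _
  set B := bernoulli (p - 1)
  have hp0 : (p : ℚ) ≠ 0 := by exact_mod_cast hpp.ne_zero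
  have key : ((D * B.den : ℕ) : ℚ) = ((p * (D * B.den * m - D * B.num - B.den * e) : ℤ) : ℚ) := by
    push_cast
    have h1 : (p : ℚ) * (1 / p) = 1 := by field_simp
    have h2 : (m : ℚ) = B + (1 / p + ∑ q ∈ s.erase p, (1 : ℚ) / q) := hm
    rw [h2, ← he, ← hB]
    linear_combination (-(D : ℚ) * B.den) * h1
  have key' : (p : ℤ) ∣ ((D * B.den : ℕ) : ℤ) := ⟨_, by exact_mod_cast key⟩
  have := Int.natCast_dvd_natCast.mp key'
  exact (hpp.dvd_mul.mp this).resolve_left hDp

/-- an integral multiple of `E_{p-1}`, congruent to a constant prime to `p`. -/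
theorem exists_hasse (hp : 5 ≤ p) :
    ∃ (A : PowerSeries ℤ) (N : ℤ), IsZ ((p : ℤ) - 1) A ∧ ¬ (p : ℤ) ∣ N ∧
      redP p A = redP p (PowerSeries.C N) := by
  have hpp : p.Prime := Fact.out
  have hodd : Odd p := hpp.odd_of_ne_two (by omega)
  have hk2 : Even (p - 1) := by
    obtain ⟨r, hr⟩ := hodd
    exact ⟨r, by omega⟩
  have hk3 : 3 ≤ p - 1 := by omega
  set B := bernoulli (p - 1) with hBdef
  obtain ⟨d, hd⟩ := dvd_den_bernoulli p (by omega)
  have hnum : ¬ (p : ℤ) ∣ B.num := by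
    intro h
    have h1 : p ∣ B.num.natAbs := Int.natCast_dvd.mp h
    have h2 : p ∣ Nat.gcd B.num.natAbs B.den := Nat.dvd_gcd h1 ⟨d, hd⟩
    rw [B.reduced] at h2
    exact hpp.one_lt.ne' (Nat.dvd_one.mp h2)
  have hB0 : B ≠ 0 := by
    intro h
    rw [h] at hnum
    simp at hnum
  refine ⟨PowerSeries.mk fun n => if n = 0 then B.num else
    -(2 * (p - 1 : ℕ) * B.den) * (ArithmeticFunction.sigma (p - 1 - 1) n : ℕ), B.num,
    ⟨((B.num : ℂ) • (E hk3 : ModularForm 𝒮ℒ ((p - 1 : ℕ) : ℤ))).mcast (by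
      rw [Nat.cast_sub (by omega)]; simp), ?_⟩, hnum, ?_⟩
  · rw [hasQ_iff, coe_mcast, FunLike.coe_smul,
      ModularForm.qExpansion_smul one_pos one_mem_strictPeriods_SL]
    ext n
    rw [PowerSeries.coeff_smul, E_qExpansion_coeff hk3 hk2, PowerSeries.coeff_map,
      PowerSeries.coeff_mk]
    split_ifs with h
    · simp
    · have hB1 : ((bernoulli (p - 1) : ℚ) : ℂ) ≠ 0 := by exact_mod_cast hB0
      have hB2 : ((B : ℚ) : ℂ) * B.den = B.num := by exact_mod_cast Rat.mul_den_eq_num B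
      rw [smul_eq_mul, ← hB2, hBdef, eq_intCast]
      push_cast
      field_simp
  · rw [redP_eq_iff]
    intro n
    rw [PowerSeries.coeff_mk, PowerSeries.coeff_C]
    split_ifs with h
    · simp
    · rw [sub_zero]
      refine Dvd.dvd.mul_right ?_ _
      rw [dvd_neg]
      refine Dvd.dvd.mul_left ?_ _
      rw [hd]
      push_cast
      exact dvd_mul_right _ _

/-- **No form of weight `12 p - 10` is a nonzero constant mod `p`.** -/
theorem no_const_mod (hp : 5 ≤ p) {B : PowerSeries ℤ} (hB : IsZ (12 * p - 10) B) {c : ℤ}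
    (hc : ¬ (p : ℤ) ∣ c) (h : redP p B = redP p (PowerSeries.C c)) : False := by
  have hpp : p.Prime := Fact.out
  obtain ⟨Q, hQ, hQB⟩ := IsZ.structure_two p (p - 2) (A := B) (hB.cast (by
    rw [Nat.cast_sub (by omega)]; push_cast; ring))
  obtain ⟨H, N, hH, hN, hHN⟩ := exists_hasse p hp
  obtain ⟨R, hR, hRH⟩ := IsZ.structure_zero p (p - 1) (A := H ^ 12) ((hH.pow 12).cast (by
    rw [Nat.cast_sub (by omega)]; push_cast; ring))
  have hcp : (c : ZMod p) ≠ 0 := by
    rwa [Ne, ZMod.intCast_zmod_eq_zero_iff_dvd]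
  have hNp : (N : ZMod p) ≠ 0 := by
    rwa [Ne, ZMod.intCast_zmod_eq_zero_iff_dvd]
  rw [h, redP_C] at hQB
  rw [map_pow, hHN, redP_C] at hRH
  -- `E₄⁶ E₆⁶ ...`
  have h6 : redP p (e4Z ^ 2 * e6Z) ^ 6 = xP p ^ 7 *
      evT p ((Polynomial.C 1 + Polynomial.X * Polynomial.C (-1728)) ^ 3) := by
    have h7 : redP p (e6Z ^ 2) = xP p * evT p (Polynomial.C 1 + Polynomial.X *
        Polynomial.C (-1728)) := by
      have := evT_step p 1 (Polynomial.C (-1728)) 0
      rw [zero_add, pow_one, pow_zero, one_mul] at this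
      rw [this, e6Z_sq, map_sub, evT, Polynomial.eval₂_C, xP, yP, map_one, one_mul, map_mul,
        map_neg]
      have h8 : redP p 1728 = PowerSeries.C (1728 : ZMod p) := by
        rw [map_ofNat, map_ofNat]
      rw [h8]
      ring
    rw [evT_pow]
    calc redP p (e4Z ^ 2 * e6Z) ^ 6 = xP p ^ 4 * redP p (e6Z ^ 2) ^ 3 := by
          rw [xP, ← map_pow, ← map_pow, ← map_pow, ← map_mul]
          congr 1
          ring
      _ = _ := by rw [h7]; ring
  have hlin : (Polynomial.C 1 + Polynomial.X * Polynomial.C (-1728) :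
      Polynomial (ZMod p)).natDegree = 1 := by
    have h1728 : (-1728 : ZMod p) ≠ 0 := by
      rw [neg_ne_zero]
      intro h0
      have h1 : ((1728 : ℕ) : ZMod p) = 0 := by exact_mod_cast h0
      rw [ZMod.natCast_eq_zero_iff, show 1728 = 2 ^ 6 * 3 ^ 3 by norm_num] at h1
      rcases hpp.dvd_mul.mp h1 with h2 | h2
      · have := Nat.le_of_dvd (by norm_num) (hpp.dvd_of_dvd_pow h2); omega
      · have := Nat.le_of_dvd (by norm_num) (hpp.dvd_of_dvd_pow h2); omega
    rw [mul_comm, add_comm]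
    exact Polynomial.natDegree_linear h1728
  set U : Polynomial (ZMod p) := Polynomial.C 1 + Polynomial.X * Polynomial.C (-1728) with hU
  have e1 : PowerSeries.C ((c : ZMod p) ^ 6) = xP p ^ (6 * p - 5) * evT p (U ^ 3 * Q ^ 6) := by
    rw [map_pow, hQB, mul_pow, h6, evT_mul, evT_pow p Q]
    have : 6 * p - 5 = 7 + (p - 2) * 6 := by omega
    rw [this, pow_add, pow_mul, mul_pow]
    ring
  have e2 : PowerSeries.C ((N : ZMod p) ^ 12) = xP p ^ (p - 1) * evT p R := by
    rw [map_pow]; exact hRH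
  have e3 : PowerSeries.C (((N : ZMod p) ^ 12) ^ (6 * p - 5)) =
      xP p ^ ((p - 1) * (6 * p - 5)) * evT p (R ^ (6 * p - 5)) := by
    rw [map_pow, e2, mul_pow, evT_pow, pow_mul]
  have e4 : PowerSeries.C (((c : ZMod p) ^ 6) ^ (p - 1)) =
      xP p ^ ((p - 1) * (6 * p - 5)) * evT p ((U ^ 3 * Q ^ 6) ^ (p - 1)) := by
    rw [map_pow, e1, mul_pow, evT_pow p (U ^ 3 * Q ^ 6), ← pow_mul, mul_comm (6 * p - 5)]
  set u : ZMod p := ((N : ZMod p) ^ 12) ^ (6 * p - 5) * (((c : ZMod p) ^ 6) ^ (p - 1))⁻¹ with hu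
  have hc6 : ((c : ZMod p) ^ 6) ^ (p - 1) ≠ 0 := pow_ne_zero _ (pow_ne_zero _ hcp)
  have hN12 : ((N : ZMod p) ^ 12) ^ (6 * p - 5) ≠ 0 := pow_ne_zero _ (pow_ne_zero _ hNp)
  have hu0 : u ≠ 0 := mul_ne_zero hN12 (inv_ne_zero hc6)
  have e5 : evT p (R ^ (6 * p - 5)) = evT p (Polynomial.C u * (U ^ 3 * Q ^ 6) ^ (p - 1)) := by
    have hx : xP p ^ ((p - 1) * (6 * p - 5)) ≠ 0 := pow_ne_zero _ (xP_ne_zero p)
    apply mul_left_cancel₀ hx
    rw [← e3, evT_mul, mul_left_comm, ← e4, evT, Polynomial.eval₂_C, ← map_mul, hu, mul_assoc,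
      inv_mul_cancel₀ hc6, mul_one]
  have e6 := congrArg Polynomial.natDegree (evT_injective p e5)
  have hQ0 : Q ≠ 0 := by
    rintro rfl
    rw [evT, Polynomial.eval₂_zero, mul_zero, mul_zero] at hQB
    have := congrArg PowerSeries.constantCoeff hQB
    simp only [PowerSeries.constantCoeff_C, map_zero] at this
    exact hcp this
  have hU0 : U ≠ 0 := by
    intro h0
    rw [h0, Polynomial.natDegree_zero] at hlin
    exact zero_ne_one hlin
  rw [Polynomial.natDegree_pow, Polynomial.natDegree_C_mul hu0, Polynomial.natDegree_pow,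
    Polynomial.natDegree_mul (pow_ne_zero _ hU0) (pow_ne_zero _ hQ0), Polynomial.natDegree_pow,
    Polynomial.natDegree_pow, hlin] at e6
  have hdvd : (6 * p - 5) ∣ (p - 1) * (3 * 1 + 6 * Q.natDegree) := ⟨_, e6.symm⟩
  have hcop : Nat.Coprime (6 * p - 5) (p - 1) := by
    have : 6 * p - 5 = 6 * (p - 1) + 1 := by omega
    rw [this]
    simp
  have := Nat.le_of_dvd (by omega) (hcop.dvd_of_dvd_mul_left hdvd)
  omega

/-- **[L2]** -/
theorem IsZ.no_delta_mod (hp : 5 ≤ p) {A : PowerSeries ℤ} (hA : IsZ (12 * p + 2) A) {c : ℤ}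
    (hc : ¬ (p : ℤ) ∣ c) (h : ∀ n, (p : ℤ) ∣ A.coeff n - c * deltaZ.coeff n) : False := by
  have hpp : p.Prime := Fact.out
  have hA' : IsZ (4 * ((3 * p - 1 : ℕ) : ℤ) + 6 * ((1 : ℕ) : ℤ)) A :=
    hA.cast (by rw [Nat.cast_sub (by omega)]; push_cast; ring)
  obtain ⟨B, hB, hAB⟩ := hA'.exists_eq_add
  have h0 : redP p (PowerSeries.C (A.coeff 0)) = 0 := by
    rw [redP_eq_zero_iff]
    intro n
    rw [PowerSeries.coeff_C]
    split_ifs
    · have := h 0
      rwa [coeff_zero_deltaZ, mul_zero, sub_zero] at this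
    · simp
  have h1 : redP p A = redP p (PowerSeries.C c * deltaZ) := by
    rw [redP_eq_iff]
    intro n
    rw [PowerSeries.coeff_C_mul]
    exact h n
  rw [hAB, map_add, map_mul, h0, zero_mul, zero_add, map_mul, map_mul, mul_comm] at h1
  have h2 : redP p B = redP p (PowerSeries.C c) := mul_right_cancel₀ (yP_ne_zero p) h1
  exact no_const_mod p hp (hB.cast (by rw [Nat.cast_sub (by omega)]; push_cast; ring)) hc h2

theorem no_delta_mod (hp : 5 ≤ p) (F : ModularForm 𝒮ℒ (12 * p + 2)) (A : PowerSeries ℤ)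
    (hA : HasQ F A) (c : ℤ) (hc : ¬ (p : ℤ) ∣ c)
    (h : ∀ n, (p : ℤ) ∣ A.coeff n - c * deltaZ.coeff n) : False :=
  IsZ.no_delta_mod p hp ⟨F, hA⟩ hc h

end Mod

end Fermat.Agent.Eis
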