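import Fermat.Agent.S16.Upper2
import Fermat.Agent.S16.NoDelta

/-!
# The upper bound: `ℓ = p ≥ 5` and `p ≤ 7`
-/

set_option autoImplicit false
set_option linter.unusedSimpArgs false
set_option linter.unusedVariables false

open CongruenceSubgroup ModularCurve

noncomputable section

namespace Fermat.Agent.Eis

variable {p ℓ : ℕ}

theorem pow_eq_expand [Fact ℓ.Prime] (P : PowerSeries (ZMod ℓ)) :
    P ^ ℓ = PowerSeries.expand ℓ (Fact.out : ℓ.Prime).ne_zero P := by
  have h := MvPowerSeries.map_frobenius_expand (R := ZMod ℓ) (σ := Unit) ℓ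
    (Fact.out : ℓ.Prime).ne_zero (f := P)
  rw [ZMod.frobenius_zmod] at h
  exact h.symm

theorem not_cong_self [Fact p.Prime] (h5 : 5 ≤ p) (h : Cong p p) : False := by
  have hp := (Fact.out : p.Prime)
  obtain ⟨f, A, hA, hr⟩ := h
  obtain ⟨g, hg0, -, hF⟩ := exists_base f A hA _ hr
  have h1 := ((hF.swap.mul ((isPair_delta (p := p)).swap.pow p)).cast
    (show 1 + p * 6 = 6 * p + 1 by ring)).trace
  have hcast : (2 * ((6 * p + 1 : ℕ) : ℤ)) = 12 * p + 2 := by push_cast; ring
  refine IsZ.no_delta_mod p h5 (h1.cast hcast) (c := -1) ?_ ?_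
  · rw [Int.dvd_neg]
    intro h2
    have := Int.le_of_dvd one_pos h2
    have h3 : (5 : ℤ) ≤ p := by exact_mod_cast h5
    linarith
  · intro n
    rw [map_add, PowerSeries.coeff_C_mul]
    have e1 : (p : ℤ) ∣ (p : ℤ) ^ (6 * p) := dvd_pow_self _ (by omega)
    set B : PowerSeries ℤ := (PowerSeries.C ((p : ℤ) - 1) + PowerSeries.C (24 * (p : ℤ)) * g) *
      deltaZ ^ p with hB
    have e2 : (p : ℤ) ∣ (uOp p B).coeff n + deltaZ.coeff n := by
      have e3 : red p B = -(PowerSeries.expand p hp.ne_zero (red p deltaZ)) := by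
        rw [hB, map_mul, map_pow, pow_eq_expand, map_add, map_mul, red_C, red_C]
        have e4 : (((p : ℤ) - 1 : ℤ) : ZMod p) = -1 := by push_cast; simp
        have e5 : ((24 * (p : ℤ) : ℤ) : ZMod p) = 0 := by push_cast; simp
        rw [e4, e5, map_neg, map_one, map_zero]
        ring
      rw [← ZMod.intCast_zmod_eq_zero_iff_dvd, uOp, PowerSeries.coeff_mk, Int.cast_add,
        ← coeff_red, e3, map_neg, mul_comm n p, PowerSeries.coeff_expand_mul, coeff_red]
      ring
    have e6 := dvd_add (e1.mul_right ((-(PowerSeries.C ((p : ℤ) - 1) +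
      PowerSeries.C (24 * (p : ℤ)) * uOp p g) *
      (PowerSeries.C ((p : ℤ) ^ 6) * vOp p deltaZ) ^ p).coeff n)) e2
    have e7 : ∀ x y z : ℤ, (p : ℤ) ∣ x + (y + z) → (p : ℤ) ∣ x + y - -1 * z := by
      intro x y z hxyz
      have : x + y - -1 * z = x + (y + z) := by ring
      rwa [this]
    exact e7 _ _ _ e6

theorem upper_self [Fact p.Prime] (h5 : 5 ≤ p) {e : ℕ} (h : Cong p ((p : ℤ) ^ e)) :
    p ^ e ∣ eisensteinNumerator p := by
  rcases Nat.eq_zero_or_pos e with he | he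
  · rw [he, pow_zero]
    exact one_dvd _
  · exact (not_cong_self h5 (h.mono (dvd_pow_self _ he.ne'))).elim

/-- There are no integral cusp forms of weight two for `p ≤ 7`. -/
theorem cusp_eq_zero [Fact p.Prime] (h7 : p ≤ 7) (f : CuspForm (Gamma0 p) 2) (A : PowerSeries ℤ)
    (hA : HasQ f A) : A = 0 := by
  by_contra hne
  have : NeZero p := ⟨(Fact.out : p.Prime).ne_zero⟩
  have h0 : A.coeff 0 = 0 := CuspForm.coeff_zero_eq f hA
  obtain ⟨n, hn⟩ := PowerSeries.exists_coeff_ne_zero_iff_ne_zero.mpr hne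
  obtain ⟨ℓ, hℓ1, hℓ⟩ := Nat.exists_infinite_primes ((A.coeff n).natAbs + p + 1)
  have : Fact ℓ.Prime := ⟨hℓ⟩
  have hℓp : ℓ ≠ p := by omega
  have hred : red ℓ A ≠ 0 := by
    intro h1
    have h2 : (ℓ : ℤ) ∣ A.coeff n := by rw [dvd_coeff_iff, h1]; simp
    have h3 := Int.natAbs_dvd_natAbs.mpr h2
    have h4 := Nat.le_of_dvd (Int.natAbs_pos.mpr hn) h3
    simp at h4
    omega
  obtain ⟨t, ht⟩ : ∃ t : ℕ, (red ℓ A).order = t := ⟨_, (PowerSeries.coe_toNat_order hred).symm⟩
  have ht1 : 1 ≤ t := by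
    by_contra h1
    have h2 : t = 0 := by omega
    subst h2
    have h3 := (PowerSeries.order_eq_nat.mp ht).1
    rw [coeff_red, h0, Int.cast_zero] at h3
    exact h3 rfl
  have h1 := isPair_two (CuspForm.isG0 f) hA
  refine h1.swap.valence hℓp one_pos ht (t := 1) ?_ (by omega)
  refine PowerSeries.nat_le_order _ _ fun i hi => ?_
  have : i = 0 := by omega
  subst this
  rw [coeff_red, map_neg, uOp, PowerSeries.coeff_mk, zero_mul, h0]
  simp

theorem sigmaP_at_one (hp : p.Prime) : sigmaP p 1 = 1 := by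
  unfold sigmaP
  rw [Nat.divisors_one, Finset.filter_singleton, if_pos]
  · simp
  · intro h
    exact hp.one_lt.ne' (Nat.dvd_one.mp h)

theorem upper_small [Fact p.Prime] (h7 : p ≤ 7) {r : ℤ} (h : Cong p r) : r ∣ 1 := by
  obtain ⟨f, A, hA, hr⟩ := h
  have h1 := hr 1 one_pos
  rw [cusp_eq_zero h7 f A hA, map_zero, sigmaP_at_one Fact.out, zero_sub, dvd_neg] at h1
  exact h1

end Fermat.Agent.Eis
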