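import Fermat.Agent.S16.CuspCrit
import Fermat.Agent.S16.Upper3

/-!
# S16: final assembly, modulo the case `ℓ = 2`, `p ≡ 7 mod 8` of the upper bound
-/

set_option autoImplicit false

open ModularCurve CuspForm

namespace Fermat.Agent.Eis

/-- The upper bound for a prime power. -/
theorem upper_prime_pow (p : ℕ) [Fact p.Prime] (h78 : p % 8 = 7 → ¬ Cong p 2) (ℓ e : ℕ)
    (hℓ : ℓ.Prime) (h : Cong p ((ℓ : ℤ) ^ e)) : ℓ ^ e ∣ eisensteinNumerator p := by
  rcases Nat.eq_zero_or_pos e with rfl | he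
  · rw [pow_zero]
    exact one_dvd _
  rcases Nat.lt_or_ge p 5 with h4 | h5
  · have h1 := upper_small (p := p) (by omega) h
    have h2 : ℓ ^ e ∣ 1 := by exact_mod_cast h1
    exact h2.trans (one_dvd _)
  by_cases hℓp : ℓ = p
  · subst hℓp
    exact upper_self h5 h
  have : Fact ℓ.Prime := ⟨hℓ⟩
  rcases Nat.lt_or_ge ℓ 5 with h4 | h5'
  · have h23 : ℓ = 2 ∨ ℓ = 3 := by
      have := hℓ.two_le
      interval_cases ℓ
      · exact Or.inl rfl
      · exact Or.inr rfl
      · exact absurd hℓ (by decide)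
    rcases h23 with rfl | rfl
    · by_cases h8 : p % 8 = 7
      · exact absurd (h.mono (by exact_mod_cast dvd_pow_self (2 : ℤ) he.ne')) (h78 h8)
      · exact upper_two_aux hℓp h8 h
    · exact upper_three hℓp h
  · exact upper_five h5' hℓp h

/-- The upper bound. -/
theorem upper_all (p : ℕ) [Fact p.Prime] (h78 : p % 8 = 7 → ¬ Cong p 2) (r : ℕ) (_hr : r ≠ 0)
    (h : Cong p r) : r ∣ eisensteinNumerator p := by
  rw [Nat.dvd_iff_prime_pow_dvd_dvd]
  intro ℓ e hℓ hd
  exact upper_prime_pow p h78 ℓ e hℓ (h.mono (by exact_mod_cast hd))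

/-- S16 modulo `h78`. -/
theorem S16_of_h78 (p : ℕ) [Fact p.Prime] (h78 : p % 8 = 7 → ¬ Cong p 2) :
    Nat.card (↥(heckeLatticeAlgebra p ∅) ⧸
        Ideal.map ((latticeRestrictHom p ∅).toRingHom.comp (heckeEvalForms p 2))
          (eisensteinIdeal p)) =
      eisensteinNumerator p :=
  S16_of_upper p fun r hr h => upper_all p h78 r hr h

end Fermat.Agent.Eis
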