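import Mathlib
import Fermat.Agent.S16.ThetaKGauss

/-!
# S16 (B), piece (Q): one dimensional quadratic Gauss sums, auxiliary primes
-/

set_option autoImplicit false

open Complex
open scoped Real

noncomputable section

namespace Fermat.Agent.S16.Theta

open Fermat.Agent.Eis.ThetaK

lemma stdAddChar_ne_one' (q : ℕ) [Fact q.Prime] : (ZMod.stdAddChar : AddChar (ZMod q) ℂ) ≠ 1 := by
  have h := ZMod.isPrimitive_stdAddChar q
  have := h (one_ne_zero)
  rwa [AddChar.mulShift_one] at this

/-- `∑_y e_q(α y² + β y) = (α/q) · ∑_y e_q(y²) · e_q(-β²/(4α))`. -/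
theorem sum_stdAddChar_quadratic (q : ℕ) [Fact q.Prime] (hq2 : q ≠ 2) (α β : ZMod q)
    (hα : α ≠ 0) :
    ∑ y : ZMod q, (ZMod.stdAddChar (α * y ^ 2 + β * y) : ℂ) =
      ((quadraticChar (ZMod q) α : ℤ) : ℂ) * (∑ y : ZMod q, (ZMod.stdAddChar (y ^ 2) : ℂ)) *
        ZMod.stdAddChar (-(β ^ 2) / (4 * α)) := by
  have hF : ringChar (ZMod q) ≠ 2 := by rwa [ZMod.ringChar_zmod_n]
  have h2 : (2 : ZMod q) ≠ 0 := Ring.two_ne_zero hF
  have h4 : (4 : ZMod q) ≠ 0 := by
    rw [show (4 : ZMod q) = 2 * 2 by norm_num]; exact mul_ne_zero h2 h2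
  have e1 := chiC_mul_sum hF (stdAddChar_ne_one' q) hα
  have e2 := sum_sq hF (stdAddChar_ne_one' q)
  have e3 : ∑ x : ZMod q, (ZMod.stdAddChar (α * x ^ 2) : ℂ) =
      ((quadraticChar (ZMod q) α : ℤ) : ℂ) * (∑ y : ZMod q, (ZMod.stdAddChar (y ^ 2) : ℂ)) := by
    rw [e2, ← e1, ← chiC_apply, ← mul_assoc, chiC_sq hα, one_mul]
  rw [← e3, Finset.sum_mul]
  have e4 := Equiv.sum_comp (Equiv.addRight (β / (2 * α)))
    (fun x : ZMod q => (ZMod.stdAddChar (α * x ^ 2) : ℂ) *
      (ZMod.stdAddChar (-(β ^ 2) / (4 * α)) : ℂ))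
  rw [← e4]
  refine Finset.sum_congr rfl fun y _ => ?_
  rw [← AddChar.map_add_eq_mul]
  congr 1
  simp only [Equiv.coe_addRight]
  field_simp
  ring

/-- the square of the Gauss sum. -/
theorem sum_stdAddChar_sq_sq (q : ℕ) [Fact q.Prime] (hq : q % 4 = 3) :
    (∑ y : ZMod q, (ZMod.stdAddChar (y ^ 2) : ℂ)) ^ 2 = -q := by
  have hF : ringChar (ZMod q) ≠ 2 := by rw [ZMod.ringChar_zmod_n]; omega
  rw [sum_sq hF (stdAddChar_ne_one' q), sq, gauss_sq hF (stdAddChar_ne_one' q), ZMod.card,
    chiC_apply]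
  have h1 : quadraticChar (ZMod q) (-1) = -1 := by
    have := legendreSym.at_neg_one (p := q) (by omega)
    rw [ZMod.χ₄_nat_three_mod_four hq, legendreSym] at this
    push_cast at this
    exact this
  rw [h1]
  simp

/-- Auxiliary prime: `q ≡ 3 mod 4` with `(p/q) = -1`. -/
theorem exists_aux_prime (p : ℕ) [hp : Fact p.Prime] :
    ∃ q : ℕ, ∃ _ : Fact q.Prime, q % 4 = 3 ∧ q ≠ p ∧ quadraticChar (ZMod q) (p : ZMod q) = -1 ∧
      ∃ s : ZMod q, s ^ 2 = -(p : ZMod q) := by
  have key : ∃ q : ℕ, ∃ _ : Fact q.Prime, q % 4 = 3 ∧ q ≠ p ∧ legendreSym q p = -1 := by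
    rcases hp.out.eq_two_or_odd with h2 | hodd
    · subst h2
      refine ⟨3, ⟨by norm_num⟩, by norm_num, by norm_num, ?_⟩
      have : Fact (Nat.Prime 3) := ⟨by norm_num⟩
      decide +kernel
    · -- a nonresidue mod `p`
      obtain ⟨x, hx⟩ := quadraticChar_exists_neg_one (F := ZMod p)
        (by rw [ZMod.ringChar_zmod_n]; omega)
      have hx0 : x ≠ 0 := by rintro rfl; simp at hx
      have hcop : Nat.Coprime 4 p := by
        rw [show 4 = 2 ^ 2 by norm_num]
        exact Nat.Coprime.pow_left 2 ((Nat.coprime_primes Nat.prime_two hp.out).2 (by omega))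
      -- class mod `4p`
      let e := ZMod.chineseRemainder hcop
      let y : ZMod (4 * p) := e.symm (3, -x)
      have hy : IsUnit y := by
        have : IsUnit ((3, -x) : ZMod 4 × ZMod p) := by
          rw [Prod.isUnit_iff]
          exact ⟨(by decide : IsUnit (3 : ZMod 4)), (neg_ne_zero.2 hx0).isUnit⟩
        exact this.map e.symm
      have : NeZero (4 * p) := ⟨by have := hp.out.pos; positivity⟩
      obtain ⟨q, hqp, hq, hqy⟩ := Nat.forall_exists_prime_gt_and_eq_mod hy p
      have h3 : e (q : ZMod (4 * p)) = (3, -x) := by rw [hqy]; simp [y]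
      have h4 : e (q : ZMod (4 * p)) = ((q : ZMod 4), (q : ZMod p)) := by
        rw [map_natCast]; rfl
      rw [h4, Prod.mk.injEq] at h3
      have hq4 : q % 4 = 3 := by
        have : ((q : ℕ) : ZMod 4) = ((3 : ℕ) : ZMod 4) := by rw [h3.1]; rfl
        have := (ZMod.natCast_eq_natCast_iff _ _ _).1 this
        simpa [Nat.ModEq] using this
      have : Fact q.Prime := ⟨hq⟩
      refine ⟨q, ⟨hq⟩, hq4, by omega, ?_⟩
      -- `(p/q) = (-q/p)`
      have hpq : legendreSym p (-q) = legendreSym q p := by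
        have hq2 : q ≠ 2 := by rintro rfl; omega
        have hp2 : p ≠ 2 := by rintro rfl; omega
        have h1 : legendreSym p (-q) = legendreSym p (-1) * legendreSym p q := by
          rw [← legendreSym.mul]; congr 1; ring
        rw [h1, legendreSym.at_neg_one hp2]
        rcases Nat.odd_mod_four_iff.mp hodd with h | h
        · rw [ZMod.χ₄_nat_one_mod_four h, one_mul]
          exact (legendreSym.quadratic_reciprocity_one_mod_four h hq2).symm
        · rw [ZMod.χ₄_nat_three_mod_four h]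
          have := legendreSym.quadratic_reciprocity_three_mod_four hq4 h
          rw [this]
          ring
      rw [← hpq, legendreSym]
      push_cast
      rw [h3.2, neg_neg, hx]
  obtain ⟨q, hq, hq4, hqp, hleg⟩ := key
  have hchar : quadraticChar (ZMod q) (p : ZMod q) = -1 := by
    rw [legendreSym] at hleg
    push_cast at hleg
    exact hleg
  refine ⟨q, hq, hq4, hqp, hchar, ?_⟩
  have hneg1 : quadraticChar (ZMod q) (-1) = -1 := by
    have := legendreSym.at_neg_one (p := q) (by omega)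
    rw [ZMod.χ₄_nat_three_mod_four hq4, legendreSym] at this
    push_cast at this
    exact this
  have h1 : quadraticChar (ZMod q) (-(p : ZMod q)) = 1 := by
    rw [show -(p : ZMod q) = (-1) * p by ring, map_mul, hneg1, hchar]; norm_num
  have h0 : -(p : ZMod q) ≠ 0 := by
    intro h
    rw [h] at h1
    simp at h1
  obtain ⟨s, hs⟩ := (quadraticChar_one_iff_isSquare h0).1 h1
  exact ⟨s, by rw [hs]; ring⟩

end Fermat.Agent.S16.Theta
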