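import Mathlib

/-!
# S16: elementary congruences for divisor sums

`s1 n = Σ_{d ∣ n} d`, `s3 n = Σ_{d ∣ n} d³`, `m` odd:
* `8 ∣ (m - 1) s1 m`, `16 ∣ 5 s3 m - (m + 4) s1 m`
* `s1 (2^a m) = (2^(a+1) - 1) s1 m`, `16 ∣ s3 (2^a m) - 9 s3 m` for `a ≥ 1`.
-/

set_option autoImplicit false

namespace Fermat.Agent.Eis

/-- `Σ_{d ∣ n} d` -/
def s1 (n : ℕ) : ℤ := ∑ d ∈ n.divisors, (d : ℤ)

/-- `Σ_{d ∣ n} d³` -/
def s3 (n : ℕ) : ℤ := ∑ d ∈ n.divisors, (d : ℤ) ^ 3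

theorem s1_zero : s1 0 = 0 := by simp [s1]

theorem s3_zero : s3 0 = 0 := by simp [s3]

/-- if `f d + f (m / d) ≡ 0` and `f d ≡ 0` when `d * d = m`, then `Σ_{d ∣ m} f d ≡ 0`. -/
theorem sum_divisors_eq_zero {M : Type*} [AddCommGroup M] (m : ℕ) (f : ℕ → M)
    (h1 : ∀ d e : ℕ, d * e = m → f d + f e = 0) (h2 : ∀ d : ℕ, d * d = m → f d = 0) :
    ∑ d ∈ m.divisors, f d = 0 := by
  refine Finset.sum_involution (fun d _ => m / d) ?_ ?_ ?_ ?_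
  · intro d hd
    exact h1 d (m / d) (Nat.mul_div_cancel' (Nat.dvd_of_mem_divisors hd))
  · intro d hd hne heq
    refine hne (h2 d ?_)
    conv_rhs => rw [← Nat.mul_div_cancel' (Nat.dvd_of_mem_divisors hd), heq]
  · intro d hd
    rw [Nat.mem_divisors] at hd ⊢
    exact ⟨Nat.div_dvd_of_dvd hd.1, hd.2⟩
  · intro d hd
    rw [Nat.mem_divisors] at hd
    exact Nat.div_div_self hd.1 hd.2

theorem odd_zmod {N : ℕ} {d : ℕ} (hd : Odd d) : ∃ k : ZMod N, (d : ZMod N) = 2 * k + 1 := by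
  obtain ⟨k, rfl⟩ := hd
  exact ⟨k, by push_cast; ring⟩

theorem eight_dvd {m : ℕ} (hm : Odd m) : (8 : ℤ) ∣ ((m : ℤ) - 1) * s1 m := by
  have k1 : ∀ x y : ZMod 8, ((2 * x + 1) * (2 * y + 1) - 1) * (2 * x + 1) +
      ((2 * x + 1) * (2 * y + 1) - 1) * (2 * y + 1) = 0 := by decide
  have k2 : ∀ x : ZMod 8, ((2 * x + 1) * (2 * x + 1) - 1) * (2 * x + 1) = 0 := by decide
  have h : ∑ d ∈ m.divisors, (((m : ZMod 8) - 1) * (d : ZMod 8)) = 0 := by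
    refine sum_divisors_eq_zero m _ ?_ ?_
    · rintro d e rfl
      obtain ⟨x, hx⟩ := odd_zmod (N := 8) (Nat.odd_mul.mp hm).1
      obtain ⟨y, hy⟩ := odd_zmod (N := 8) (Nat.odd_mul.mp hm).2
      push_cast
      rw [hx, hy]
      exact k1 x y
    · rintro d rfl
      obtain ⟨x, hx⟩ := odd_zmod (N := 8) (Nat.odd_mul.mp hm).1
      push_cast
      rw [hx]
      exact k2 x
  rw [← Finset.mul_sum] at h
  refine (ZMod.intCast_zmod_eq_zero_iff_dvd _ 8).mp ?_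
  rw [s1]
  push_cast
  exact h

theorem sixteen_dvd {m : ℕ} (hm : Odd m) : (16 : ℤ) ∣ 5 * s3 m - ((m : ℤ) + 4) * s1 m := by
  have k1 : ∀ x y : ZMod 16, 5 * (2 * x + 1) ^ 3 - ((2 * x + 1) * (2 * y + 1) + 4) * (2 * x + 1) +
      (5 * (2 * y + 1) ^ 3 - ((2 * x + 1) * (2 * y + 1) + 4) * (2 * y + 1)) = 0 := by decide
  have k2 : ∀ x : ZMod 16,
      5 * (2 * x + 1) ^ 3 - ((2 * x + 1) * (2 * x + 1) + 4) * (2 * x + 1) = 0 := by decide
  have h : ∑ d ∈ m.divisors, (5 * (d : ZMod 16) ^ 3 - ((m : ZMod 16) + 4) * (d : ZMod 16)) = 0 := by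
    refine sum_divisors_eq_zero m _ ?_ ?_
    · rintro d e rfl
      obtain ⟨x, hx⟩ := odd_zmod (N := 16) (Nat.odd_mul.mp hm).1
      obtain ⟨y, hy⟩ := odd_zmod (N := 16) (Nat.odd_mul.mp hm).2
      push_cast
      rw [hx, hy]
      exact k1 x y
    · rintro d rfl
      obtain ⟨x, hx⟩ := odd_zmod (N := 16) (Nat.odd_mul.mp hm).1
      push_cast
      rw [hx]
      exact k2 x
  rw [Finset.sum_sub_distrib, ← Finset.mul_sum, ← Finset.mul_sum] at h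
  refine (ZMod.intCast_zmod_eq_zero_iff_dvd _ 16).mp ?_
  rw [s1, s3]
  push_cast
  exact h

theorem s1_two_pow_mul (a : ℕ) {m : ℕ} (hm : Odd m) :
    s1 (2 ^ a * m) = (2 ^ (a + 1) - 1) * s1 m := by
  have hc : Nat.Coprime (2 ^ a) m := (Nat.coprime_two_left.mpr hm).pow_left a
  have h := (ArithmeticFunction.isMultiplicative_sigma (k := 1)).map_mul_of_coprime hc
  have h1 : ∀ n : ℕ, ((ArithmeticFunction.sigma 1 n : ℕ) : ℤ) = s1 n := by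
    intro n
    rw [ArithmeticFunction.sigma_one_apply, s1]
    push_cast
    rfl
  have h2 : ((ArithmeticFunction.sigma 1 (2 ^ a) : ℕ) : ℤ) = 2 ^ (a + 1) - 1 := by
    rw [ArithmeticFunction.sigma_one_apply_prime_pow Nat.prime_two]
    push_cast
    have := mul_geom_sum (2 : ℤ) (a + 1)
    linear_combination this
  rw [← h1, h]
  push_cast
  rw [h2, h1]

theorem s3_two_pow_mul (a : ℕ) {m : ℕ} (hm : Odd m) :
    s3 (2 ^ a * m) = (∑ i ∈ Finset.range (a + 1), (8 : ℤ) ^ i) * s3 m := by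
  have hc : Nat.Coprime (2 ^ a) m := (Nat.coprime_two_left.mpr hm).pow_left a
  have h := (ArithmeticFunction.isMultiplicative_sigma (k := 3)).map_mul_of_coprime hc
  have h1 : ∀ n : ℕ, ((ArithmeticFunction.sigma 3 n : ℕ) : ℤ) = s3 n := by
    intro n
    rw [ArithmeticFunction.sigma_apply, s3]
    push_cast
    rfl
  have h2 : ((ArithmeticFunction.sigma 3 (2 ^ a) : ℕ) : ℤ) =
      ∑ i ∈ Finset.range (a + 1), (8 : ℤ) ^ i := by
    rw [ArithmeticFunction.sigma_apply_prime_pow Nat.prime_two]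
    push_cast
    refine Finset.sum_congr rfl fun i _ => ?_
    rw [mul_comm, pow_mul]
    norm_num
  rw [← h1, h]
  push_cast
  rw [h2, h1]

theorem s3_two_pow_mul' (a : ℕ) {m : ℕ} (hm : Odd m) :
    (16 : ℤ) ∣ s3 (2 ^ (a + 1) * m) - 9 * s3 m := by
  rw [s3_two_pow_mul _ hm, Finset.sum_range_succ', Finset.sum_range_succ']
  have h : (16 : ℤ) ∣ ∑ k ∈ Finset.range a, (8 : ℤ) ^ (k + 1 + 1) := by
    refine Finset.dvd_sum fun k _ => ?_
    exact ⟨8 ^ k * 4, by ring⟩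
  obtain ⟨c, hc⟩ := h
  refine ⟨c * s3 m, ?_⟩
  rw [hc]
  ring

theorem exists_two_pow_mul {n : ℕ} (hn : n ≠ 0) : ∃ a m, Odd m ∧ n = 2 ^ a * m := by
  obtain ⟨a, m, hm, h⟩ := Nat.exists_eq_two_pow_mul_odd hn
  exact ⟨a, m, hm, h⟩

/-- the mod 16 congruence behind the key mod 2 identity; `T k` stands for `τ k`. -/
theorem key16 (T : ℕ → ℤ) (hodd : ∀ m, Odd m → (8 : ℤ) ∣ T m - s1 m)
    (h2 : ∀ m, Odd m → (16 : ℤ) ∣ T (2 * m) - 8 * s1 m)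
    (h4 : ∀ m, (16 : ℤ) ∣ T (4 * m)) (heven : ∀ m, (2 : ℤ) ∣ T (2 * m)) (n : ℕ) (hn : n ≠ 0) :
    (16 : ℤ) ∣ 5 * s3 n + (13 - 18 * n) * s1 n +
      (if 2 ∣ n then 5 * s3 (n / 2) + (13 - 9 * n) * s1 (n / 2) else 0) +
      (if 4 ∣ n then 24 * T (n / 4) else 0) - (1 - n) * T n := by
  obtain ⟨a, m, hm, rfl⟩ := exists_two_pow_mul hn
  obtain ⟨t, ht⟩ := eight_dvd hm
  obtain ⟨w, hw⟩ := sixteen_dvd hm
  obtain ⟨v, hv⟩ := hodd m hm
  obtain ⟨v2, hv2⟩ := h2 m hm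
  obtain ⟨k, hk⟩ := hm
  have hm : Odd m := ⟨k, hk⟩
  have hmk : (m : ℤ) = 2 * k + 1 := by exact_mod_cast hk
  match a with
  | 0 =>
    have h1 : ¬ 2 ∣ 2 ^ 0 * m := by
      rw [pow_zero, one_mul]; omega
    have h3 : ¬ 4 ∣ 2 ^ 0 * m := by
      rw [pow_zero, one_mul]; omega
    rw [if_neg h1, if_neg h3]
    simp only [pow_zero, one_mul]
    refine ⟨(1 - m) * s1 m + w + k * v, ?_⟩
    linear_combination hw + ((m : ℤ) - 1) * hv + 8 * v * hmk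
  | 1 =>
    have h1 : 2 ∣ 2 ^ 1 * m := by rw [pow_one]; exact dvd_mul_right _ _
    have h3 : ¬ 4 ∣ 2 ^ 1 * m := by
      rw [pow_one]; omega
    rw [if_pos h1, if_neg h3]
    have e1 : 2 ^ 1 * m / 2 = m := by rw [pow_one]; omega
    rw [e1, s1_two_pow_mul 1 hm]
    obtain ⟨c, hc⟩ := s3_two_pow_mul' 0 hm
    rw [zero_add] at hc
    have e2 : 2 ^ 1 * m = 2 * m := by rw [pow_one]
    have hc' : s3 (2 ^ 1 * m) = 9 * s3 m + 16 * c := by linear_combination hc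
    have hv' : T (2 ^ 1 * m) = 8 * s1 m + 16 * v2 := by rw [e2]; linear_combination hv2
    rw [hc', hv']
    push_cast
    refine ⟨-50 * t - s1 m + 10 * w + 5 * c - v2 + 2 * m * v2, ?_⟩
    linear_combination 10 * hw - 100 * ht
  | 2 =>
    have h1 : 2 ∣ 2 ^ 2 * m := by omega
    have h3 : 4 ∣ 2 ^ 2 * m := by omega
    rw [if_pos h1, if_pos h3]
    have e1 : 2 ^ 2 * m / 2 = 2 ^ 1 * m := by omega
    have e3 : 2 ^ 2 * m / 4 = m := by omega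
    rw [e1, e3, s1_two_pow_mul 1 hm, s1_two_pow_mul 2 hm]
    obtain ⟨c1, hc1⟩ := s3_two_pow_mul' 0 hm
    obtain ⟨c2, hc2⟩ := s3_two_pow_mul' 1 hm
    rw [zero_add] at hc1
    obtain ⟨x, hx⟩ := h4 m
    have hc1' : s3 (2 ^ 1 * m) = 9 * s3 m + 16 * c1 := by linear_combination hc1
    have hc2' : s3 (2 ^ 2 * m) = 9 * s3 m + 16 * c2 := by linear_combination hc2
    have hx' : T (2 ^ 2 * m) = 16 * x := hx
    have hv' : T m = s1 m + 8 * v := by linear_combination hv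
    rw [hc1', hc2', hx', hv']
    push_cast
    refine ⟨-297 * t - 23 * s1 m + 18 * w + 5 * (c1 + c2) + 12 * v - x * (1 - 4 * m), ?_⟩
    linear_combination 18 * hw - 594 * ht
  | a + 3 =>
    have e0 : 2 ^ (a + 3) * m = 4 * (2 * (2 ^ a * m)) := by ring
    have h1 : 2 ∣ 2 ^ (a + 3) * m := by rw [e0]; omega
    have h3 : 4 ∣ 2 ^ (a + 3) * m := by rw [e0]; omega
    rw [if_pos h1, if_pos h3]
    have e1 : 2 ^ (a + 3) * m / 2 = 2 ^ (a + 2) * m := by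
      have : 2 ^ (a + 3) * m = 2 * (2 ^ (a + 2) * m) := by ring
      rw [this]; omega
    have e3 : 2 ^ (a + 3) * m / 4 = 2 * (2 ^ a * m) := by
      rw [e0]; omega
    rw [e1, e3, s1_two_pow_mul (a + 2) hm, s1_two_pow_mul (a + 3) hm]
    obtain ⟨c1, hc1⟩ := s3_two_pow_mul' (a + 1) hm
    obtain ⟨c2, hc2⟩ := s3_two_pow_mul' (a + 2) hm
    obtain ⟨x, hx⟩ := h4 (2 * (2 ^ a * m))
    obtain ⟨y, hy⟩ := heven (2 ^ a * m)
    rw [← e0] at hx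
    have hc1' : s3 (2 ^ (a + 2) * m) = 9 * s3 m + 16 * c1 := by linear_combination hc1
    have hc2' : s3 (2 ^ (a + 3) * m) = 9 * s3 m + 16 * c2 := by linear_combination hc2
    rw [hc1', hc2', hx, hy]
    push_cast
    set P : ℤ := 2 ^ a with hP
    have p2 : (2 : ℤ) ^ (a + 2 + 1) = 8 * P := by rw [hP]; ring
    have p3 : (2 : ℤ) ^ (a + 3 + 1) = 16 * P := by rw [hP]; ring
    rw [p2, p3]
    refine ⟨5 * (c1 + c2) + (13 * P - 144 * P ^ 2 * m + 9 * P * m) * s1 m +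
      P * (11 + 9 * k) * s1 m - 36 * P ^ 2 * m * s1 m + 9 * t + 4 * s1 m + 18 * w + 3 * y -
        (1 - 8 * P * m) * x, ?_⟩
    linear_combination 18 * hw + 18 * ht + 72 * P * s1 m * hmk

theorem key8 (n : ℕ) : (8 : ℤ) ∣ 5 * s3 n + (13 - 18 * n) * s1 n := by
  rcases eq_or_ne n 0 with rfl | hn
  · simp [s1_zero, s3_zero]
  obtain ⟨a, m, hm, rfl⟩ := exists_two_pow_mul hn
  obtain ⟨t, ht⟩ := eight_dvd hm
  obtain ⟨w, hw⟩ := sixteen_dvd hm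
  match a with
  | 0 =>
    simp only [pow_zero, one_mul]
    refine ⟨-17 * t + 2 * w, ?_⟩
    linear_combination hw - 17 * ht
  | 1 =>
    rw [s1_two_pow_mul 1 hm]
    obtain ⟨c, hc⟩ := s3_two_pow_mul' 0 hm
    rw [zero_add] at hc
    have hc' : s3 (2 ^ 1 * m) = 9 * s3 m + 16 * c := by linear_combination hc
    rw [hc']
    push_cast
    refine ⟨-99 * t - 3 * s1 m + 18 * w + 10 * c, ?_⟩
    linear_combination 9 * hw - 99 * ht
  | a + 2 =>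
    rw [s1_two_pow_mul (a + 2) hm]
    obtain ⟨c, hc⟩ := s3_two_pow_mul' (a + 1) hm
    have hc' : s3 (2 ^ (a + 2) * m) = 9 * s3 m + 16 * c := by linear_combination hc
    rw [hc']
    push_cast
    set P : ℤ := 2 ^ a with hP
    have p2 : (2 : ℤ) ^ (a + 2 + 1) = 8 * P := by rw [hP]; ring
    have p1 : (2 : ℤ) ^ (a + 2) = 4 * P := by rw [hP]; ring
    rw [p2, p1]
    refine ⟨18 * w + 10 * c + P * (13 - 72 * P * m) * s1 m + 9 * P * m * s1 m + 9 * t +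
      4 * s1 m, ?_⟩
    linear_combination 9 * hw + 9 * ht

/-- `s1 (2j) ≡ s1 j mod 2`. -/
theorem s1_two_mul (j : ℕ) : (2 : ℤ) ∣ s1 (2 * j) - s1 j := by
  rcases eq_or_ne j 0 with rfl | hn
  · simp
  obtain ⟨a, m, hm, rfl⟩ := exists_two_pow_mul hn
  have : 2 * (2 ^ a * m) = 2 ^ (a + 1) * m := by ring
  rw [this, s1_two_pow_mul a hm, s1_two_pow_mul (a + 1) hm]
  exact ⟨2 ^ a * s1 m, by ring⟩

/-- `s1 j ≡ (1 - 2j) s1 (2j) mod 4`. -/
theorem s1_two_mul' (j : ℕ) : (4 : ℤ) ∣ s1 j - (1 - 2 * j) * s1 (2 * j) := by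
  rcases eq_or_ne j 0 with rfl | hn
  · simp [s1_zero]
  obtain ⟨a, m, hm, rfl⟩ := exists_two_pow_mul hn
  have : 2 * (2 ^ a * m) = 2 ^ (a + 1) * m := by ring
  rw [this, s1_two_pow_mul a hm, s1_two_pow_mul (a + 1) hm]
  obtain ⟨k, hk⟩ := hm
  have hmk : (m : ℤ) = 2 * k + 1 := by exact_mod_cast hk
  push_cast
  refine ⟨2 ^ a * s1 m * (2 * 2 ^ a * m - k - 1), ?_⟩
  linear_combination (-2 : ℤ) * 2 ^ a * s1 m * hmk

theorem odd_pow_four {m : ℕ} (hm : Odd m) : (8 : ℤ) ∣ (m : ℤ) ^ 4 * s1 m - s1 m := by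
  obtain ⟨t, ht⟩ := eight_dvd hm
  refine ⟨((m : ℤ) ^ 3 + m ^ 2 + m + 1) * t, ?_⟩
  linear_combination ((m : ℤ) ^ 3 + m ^ 2 + m + 1) * ht

end Fermat.Agent.Eis
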