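import Fermat.Agent.S16.Niebur
import Fermat.Agent.S16.SigmaArith
import Mathlib.RingTheory.PowerSeries.Expand

/-!
# S16: power series identities mod 2 and mod 4

* `frob A : A² = V A + 2 W`
* `exists_kappa : φ² + φ - θφ = 2κ`
* `theta_phi_mod4 : θφ = Δ + 2Δ² + 4W`
* `vOp_phi_mod4 : V φ = φ - Δ - 2Δ² + 4W`
* `vOp_delta_mod4 : V Δ = Δ² + 4W`
* `kappa_mod2 : κ'² + κ' = (φ + 1)Δ + 2W`, `κ' = κ + Δ² + Δ`
-/

set_option autoImplicit false

noncomputable section

namespace Fermat.Agent.Eis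

theorem vOp_eq_expand' (m : ℕ) (hm : m ≠ 0) (A : PowerSeries ℤ) :
    vOp m A = PowerSeries.expand m hm A := by
  ext n
  rw [PowerSeries.coeff_expand, vOp, PowerSeries.coeff_mk]

theorem coeff_vOp (m n : ℕ) (A : PowerSeries ℤ) :
    (vOp m A).coeff n = if m ∣ n then A.coeff (n / m) else 0 := by
  rw [vOp, PowerSeries.coeff_mk]

theorem coeff_thetaOp (n : ℕ) (A : PowerSeries ℤ) :
    (thetaOp A).coeff n = n * A.coeff n := by
  rw [thetaOp, PowerSeries.coeff_mk]

theorem coeff_natCast_mul (c : ℕ) (n : ℕ) (A : PowerSeries ℤ) :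
    ((c : PowerSeries ℤ) * A).coeff n = (c : ℤ) * A.coeff n := by
  have : (c : PowerSeries ℤ) = PowerSeries.C (c : ℤ) := by simp
  rw [this, PowerSeries.coeff_C_mul]

theorem exists_of_forall_dvd {c : ℕ} {A : PowerSeries ℤ} (h : ∀ n, (c : ℤ) ∣ A.coeff n) :
    ∃ W : PowerSeries ℤ, A = (c : PowerSeries ℤ) * W := by
  choose w hw using h
  refine ⟨PowerSeries.mk w, ?_⟩
  ext n
  rw [coeff_natCast_mul, PowerSeries.coeff_mk, hw]

/-- Frobenius: `A² ≡ V A mod 2`. -/
theorem frob (A : PowerSeries ℤ) : ∃ W : PowerSeries ℤ, A ^ 2 = vOp 2 A + 2 * W := by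
  have h : redP 2 (A ^ 2 - vOp 2 A) = 0 := by
    rw [map_sub, map_pow, vOp_eq_expand' 2 (by norm_num), redP, PowerSeries.map_expand]
    have h1 := MvPowerSeries.map_frobenius_expand 2 (by norm_num)
      (f := PowerSeries.map (Int.castRingHom (ZMod 2)) A)
    rw [ZMod.frobenius_zmod, MvPowerSeries.map_id, RingHom.id_apply] at h1
    rw [← h1]
    exact sub_self _
  rw [redP_eq_zero_iff] at h
  obtain ⟨W, hW⟩ := exists_of_forall_dvd h
  refine ⟨W, ?_⟩
  push_cast at hW
  linear_combination hW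

theorem vOp_add (m : ℕ) (hm : m ≠ 0) (A B : PowerSeries ℤ) :
    vOp m (A + B) = vOp m A + vOp m B := by
  simp only [vOp_eq_expand' m hm, map_add]

theorem vOp_mul' (m : ℕ) (hm : m ≠ 0) (A B : PowerSeries ℤ) :
    vOp m (A * B) = vOp m A * vOp m B := by
  simp only [vOp_eq_expand' m hm, map_mul]

theorem vOp_pow' (m : ℕ) (hm : m ≠ 0) (A : PowerSeries ℤ) (k : ℕ) :
    vOp m (A ^ k) = vOp m A ^ k := by
  simp only [vOp_eq_expand' m hm, map_pow]

theorem vOp_natCast (m : ℕ) (hm : m ≠ 0) (k : ℕ) :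
    vOp m (k : PowerSeries ℤ) = k := by
  rw [vOp_eq_expand' m hm, map_natCast]

theorem vOp_X' (m : ℕ) (hm : m ≠ 0) : vOp m PowerSeries.X = PowerSeries.X ^ m := by
  rw [vOp_eq_expand' m hm, PowerSeries.expand_X]

theorem vOp_one' (m : ℕ) (hm : m ≠ 0) : vOp m 1 = 1 := by
  rw [vOp_eq_expand' m hm, map_one]

theorem vOp_sub (m : ℕ) (hm : m ≠ 0) (A B : PowerSeries ℤ) :
    vOp m (A - B) = vOp m A - vOp m B := by
  simp only [vOp_eq_expand' m hm, map_sub]

/-! ### coefficients -/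

/-- `τ(n)` -/
def tau (n : ℕ) : ℤ := deltaZ.coeff n

theorem coeff_phiZ (n : ℕ) : phiZ.coeff n = s1 n := by
  rw [phiZ, PowerSeries.coeff_mk, s1]

theorem coeff_theta4 (n : ℕ) : (thetaOp (thetaOp (thetaOp (thetaOp phiZ)))).coeff n =
    (n : ℤ) ^ 4 * s1 n := by
  rw [coeff_thetaOp, coeff_thetaOp, coeff_thetaOp, coeff_thetaOp, coeff_phiZ]
  ring

theorem tau_mod8 (n : ℕ) : (8 : ℤ) ∣ tau n - (n : ℤ) ^ 4 * s1 n := by
  obtain ⟨W, hW⟩ := deltaZ_mod16
  refine ⟨(phiZ * thetaOp (thetaOp (thetaOp (thetaOp phiZ)))).coeff n + 2 * W.coeff n, ?_⟩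
  have := congrArg (fun A => A.coeff n) hW
  have h8 := coeff_natCast_mul 8 n (phiZ * thetaOp (thetaOp (thetaOp (thetaOp phiZ))))
  have h16 := coeff_natCast_mul 16 n W
  push_cast at h8 h16
  simp only [map_add, coeff_theta4, h8, h16] at this
  rw [tau, this]
  ring

theorem tau_odd {m : ℕ} (hm : Odd m) : (8 : ℤ) ∣ tau m - s1 m := by
  have h1 := tau_mod8 m
  have h2 := odd_pow_four hm
  have := dvd_add h1 h2
  have e : tau m - (m : ℤ) ^ 4 * s1 m + ((m : ℤ) ^ 4 * s1 m - s1 m) = tau m - s1 m := by ring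
  rwa [e] at this

/-- `[φ θ⁴φ]_n ≡ [n/2 odd] σ₁(n/2) mod 2` for `n` even -/
theorem coeff_phi_theta4 (j : ℕ) :
    (2 : ℤ) ∣ (phiZ * thetaOp (thetaOp (thetaOp (thetaOp phiZ)))).coeff (2 * j) -
      (if Odd j then s1 j else 0) := by
  -- odd and even parts of `φ`
  set o : PowerSeries ℤ := PowerSeries.mk fun n => if Odd n then s1 n else 0 with ho
  set e : PowerSeries ℤ := PowerSeries.mk fun n => if Even n then s1 n else 0 with he
  have hoe : phiZ = o + e := by
    ext n
    rw [coeff_phiZ, map_add, ho, he, PowerSeries.coeff_mk, PowerSeries.coeff_mk]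
    rcases Nat.even_or_odd n with h | h
    · rw [if_pos h, if_neg (Nat.not_odd_iff_even.mpr h)]; ring
    · rw [if_pos h, if_neg (Nat.not_even_iff_odd.mpr h)]; ring
  obtain ⟨W, hW⟩ : ∃ W : PowerSeries ℤ,
      thetaOp (thetaOp (thetaOp (thetaOp phiZ))) - o = (2 : ℕ) * W := by
    refine exists_of_forall_dvd fun n => ?_
    rw [map_sub, coeff_theta4, ho, PowerSeries.coeff_mk]
    rcases Nat.even_or_odd n with h | h
    · rw [if_neg (Nat.not_odd_iff_even.mpr h)]
      obtain ⟨k, hk⟩ := h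
      have : (n : ℤ) = 2 * k := by rw [hk]; push_cast; ring
      refine ⟨8 * (k : ℤ) ^ 4 * s1 n, ?_⟩
      rw [this]
      push_cast
      ring
    · rw [if_pos h]
      exact (show ((2 : ℕ) : ℤ) ∣ 8 from ⟨4, by norm_num⟩).trans (odd_pow_four h)
  obtain ⟨W', hW'⟩ := frob o
  have h1 : phiZ * thetaOp (thetaOp (thetaOp (thetaOp phiZ))) =
      vOp 2 o + e * o + (2 : ℕ) * (W' + phiZ * W) := by
    have : thetaOp (thetaOp (thetaOp (thetaOp phiZ))) = o + (2 : ℕ) * W := by
      linear_combination hW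
    rw [this]
    push_cast
    rw [hoe]
    linear_combination hW'
  have h2 : (e * o).coeff (2 * j) = 0 := by
    rw [PowerSeries.coeff_mul]
    refine Finset.sum_eq_zero fun x hx => ?_
    have hx' := Finset.HasAntidiagonal.mem_antidiagonal.mp hx
    rw [ho, he, PowerSeries.coeff_mk, PowerSeries.coeff_mk]
    by_cases h3 : Even x.1
    · have h4 : ¬ Odd x.2 := by
        rw [Nat.not_odd_iff_even]
        obtain ⟨y, hy⟩ := h3
        exact ⟨j - y, by omega⟩
      rw [if_neg h4, mul_zero]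
    · rw [if_neg h3, zero_mul]
  refine ⟨(W' + phiZ * W).coeff (2 * j), ?_⟩
  rw [h1, map_add, map_add, h2, coeff_natCast_mul, coeff_vOp, if_pos (dvd_mul_right 2 j),
    Nat.mul_div_cancel_left _ (by norm_num : 0 < 2), ho, PowerSeries.coeff_mk]
  push_cast
  ring

theorem tau_even (j : ℕ) : (16 : ℤ) ∣ tau (2 * j) - 8 * (if Odd j then s1 j else 0) := by
  obtain ⟨W, hW⟩ := deltaZ_mod16
  obtain ⟨c, hc⟩ := coeff_phi_theta4 j
  refine ⟨(j : ℤ) ^ 4 * s1 (2 * j) + c + W.coeff (2 * j), ?_⟩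
  have := congrArg (fun A => A.coeff (2 * j)) hW
  have h8 := coeff_natCast_mul 8 (2 * j) (phiZ * thetaOp (thetaOp (thetaOp (thetaOp phiZ))))
  have h16 := coeff_natCast_mul 16 (2 * j) W
  push_cast at h8 h16
  simp only [map_add, coeff_theta4, h8, h16] at this
  rw [tau, this]
  push_cast
  linear_combination 8 * hc

theorem coeff_mk_s3 (n : ℕ) :
    (PowerSeries.mk fun n => ∑ d ∈ n.divisors, (d : ℤ) ^ 3 : PowerSeries ℤ).coeff n = s3 n := by
  rw [PowerSeries.coeff_mk, s3]

theorem coeff_phiZ_sq (n : ℕ) :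
    12 * (phiZ ^ 2).coeff n = 5 * s3 n + s1 n - 6 * (n * s1 n) := by
  have h := congrArg (fun A => A.coeff n) twelve_phiZ_sq
  have h12 := coeff_natCast_mul 12 n (phiZ ^ 2)
  have h5 := coeff_natCast_mul 5 n
    (PowerSeries.mk fun n => ∑ d ∈ n.divisors, (d : ℤ) ^ 3 : PowerSeries ℤ)
  have h6 := coeff_natCast_mul 6 n (thetaOp phiZ)
  push_cast at h12 h5 h6
  simp only [map_add, map_sub, h12, h5, h6, coeff_mk_s3, coeff_phiZ, coeff_thetaOp] at h
  exact h

theorem coeff_phi_delta (n : ℕ) :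
    24 * (phiZ * deltaZ).coeff n = (1 - n) * tau n := by
  have h := congrArg (fun A => A.coeff n) twentyfour_phi_delta
  have h24 := coeff_natCast_mul 24 n (phiZ * deltaZ)
  push_cast at h24
  simp only [map_sub, h24, coeff_thetaOp] at h
  rw [h, tau]
  ring

/-- (a), first half -/
theorem exists_kappa : ∃ κ : PowerSeries ℤ, phiZ ^ 2 + phiZ - thetaOp phiZ = 2 * κ := by
  have := exists_of_forall_dvd (c := 2) (A := phiZ ^ 2 + phiZ - thetaOp phiZ) fun n => by
    have h1 := coeff_phiZ_sq n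
    obtain ⟨c, hc⟩ := key8 n
    rw [map_sub, map_add, coeff_phiZ, coeff_thetaOp, coeff_phiZ]
    have h2 : 12 * ((phiZ ^ 2).coeff n + s1 n - n * s1 n) = 8 * c := by
      linear_combination h1 + hc
    generalize (phiZ ^ 2).coeff n + s1 n - n * s1 n = x at h2 ⊢
    push_cast
    omega
  exact_mod_cast this

/-- (a), second half -/
theorem theta_phi_mod4 : ∃ W : PowerSeries ℤ,
    thetaOp phiZ = deltaZ + 2 * deltaZ ^ 2 + 4 * W := by
  obtain ⟨W', hW'⟩ := frob deltaZ
  obtain ⟨W, hW⟩ := exists_of_forall_dvd (c := 4)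
    (A := thetaOp phiZ - deltaZ - 2 * vOp 2 deltaZ) fun n => by
    have h2 := coeff_natCast_mul 2 n (vOp 2 deltaZ)
    push_cast at h2
    rw [map_sub, map_sub, coeff_thetaOp, coeff_phiZ, h2, coeff_vOp]
    change (4 : ℤ) ∣ (n : ℤ) * s1 n - tau n - 2 * (if 2 ∣ n then tau (n / 2) else 0)
    rcases Nat.even_or_odd n with h | h
    · obtain ⟨j, hj⟩ := h
      have hn : n = 2 * j := by omega
      subst hn
      rw [if_pos (dvd_mul_right 2 j), Nat.mul_div_cancel_left _ (by norm_num : 0 < 2)]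
      obtain ⟨x, hx⟩ := tau_mod8 (2 * j)
      obtain ⟨y, hy⟩ := tau_mod8 j
      obtain ⟨z, hz⟩ := s1_two_mul j
      obtain ⟨w, hw⟩ : (2 : ℤ) ∣ (j : ℤ) - (j : ℤ) ^ 4 := by
        rcases Nat.even_or_odd j with h | h
        · obtain ⟨k, hk⟩ := h
          refine ⟨k - 8 * (k : ℤ) ^ 4, ?_⟩
          rw [hk]; push_cast; ring
        · obtain ⟨k, hk⟩ := h
          refine ⟨- (k : ℤ) * (2 * k + 1) * (4 * k ^ 2 + 6 * k + 3), ?_⟩
          rw [hk]; push_cast; ring
      push_cast at hx ⊢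
      refine ⟨-2 * x - 4 * (j : ℤ) ^ 4 * s1 (2 * j) - 4 * y + w * s1 j + j * z, ?_⟩
      linear_combination -hx - 2 * hy + 2 * j * hz + 2 * s1 j * hw
    · have h3 : ¬ 2 ∣ n := by
        obtain ⟨k, hk⟩ := h; omega
      rw [if_neg h3]
      obtain ⟨x, hx⟩ := tau_odd h
      obtain ⟨t, ht⟩ := eight_dvd h
      refine ⟨2 * t - 2 * x, ?_⟩
      linear_combination ht - hx
  refine ⟨W - W', ?_⟩
  push_cast at hW
  linear_combination hW - 2 * hW'

/-- (b), first half -/
theorem vOp_phi_mod4 : ∃ W : PowerSeries ℤ,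
    vOp 2 phiZ = phiZ - deltaZ - 2 * deltaZ ^ 2 + 4 * W := by
  obtain ⟨W', hW'⟩ := theta_phi_mod4
  obtain ⟨W, hW⟩ := exists_of_forall_dvd (c := 4)
    (A := vOp 2 phiZ - phiZ + thetaOp phiZ) fun n => by
    rw [map_add, map_sub, coeff_thetaOp, coeff_phiZ, coeff_vOp]
    simp only [coeff_phiZ]
    rcases Nat.even_or_odd n with h | h
    · obtain ⟨j, hj⟩ := h
      have hn : n = 2 * j := by omega
      subst hn
      rw [if_pos (dvd_mul_right 2 j), Nat.mul_div_cancel_left _ (by norm_num : 0 < 2)]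
      obtain ⟨x, hx⟩ := s1_two_mul' j
      refine ⟨x, ?_⟩
      push_cast
      linear_combination hx
    · have h3 : ¬ 2 ∣ n := by
        obtain ⟨k, hk⟩ := h; omega
      rw [if_neg h3]
      obtain ⟨t, ht⟩ := eight_dvd h
      refine ⟨2 * t, ?_⟩
      push_cast
      linear_combination ht
  refine ⟨W - W', ?_⟩
  push_cast at hW
  linear_combination hW - hW'

open scoped PowerSeries.WithPiTopology in
open Filter Topology in
theorem continuous_vOp (m : ℕ) : Continuous (vOp m) := by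
  rw [continuous_iff_continuousAt]
  intro A
  refine (PowerSeries.WithPiTopology.tendsto_iff_coeff_tendsto _ _ _ _).mpr fun d => ?_
  simp only [coeff_vOp]
  split_ifs with h
  · exact ((PowerSeries.WithPiTopology.continuous_coeff ℤ (d / m)).tendsto _)
  · exact tendsto_const_nhds

open scoped PowerSeries.WithPiTopology in
open Filter Topology in
/-- `∏ (1 - q^{2n})² ≡ ∏ (1 - q^n)⁴ mod 4` -/
theorem etaProd_mod4 : ∃ W : PowerSeries ℤ,
    vOp 2 ModularCurve.etaProd ^ 2 = ModularCurve.etaProd ^ 4 + 4 * W := by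
  obtain ⟨W, hW⟩ := exists_of_forall_dvd (c := 4)
    (A := vOp 2 ModularCurve.etaProd ^ 2 - ModularCurve.etaProd ^ 4) fun n => by
    set P : ℕ → PowerSeries ℤ := fun k => ∏ i ∈ Finset.range k, (1 - PowerSeries.X ^ (i + 1))
    have h1 : Tendsto P atTop (𝓝 ModularCurve.etaProd) :=
      (PowerSeries.WithPiTopology.multipliable_one_sub_X_pow ℤ).hasProd.tendsto_prod_nat
    have h2 : Tendsto (fun k => (vOp 2 (P k) ^ 2 - P k ^ 4)) atTop
        (𝓝 (vOp 2 ModularCurve.etaProd ^ 2 - ModularCurve.etaProd ^ 4)) :=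
      ((((continuous_vOp 2).tendsto _).comp h1).pow 2).sub (h1.pow 4)
    have h3 := ((PowerSeries.WithPiTopology.continuous_coeff ℤ n).tendsto _).comp h2
    have h4 : ∀ k, ∃ W : PowerSeries ℤ, vOp 2 (P k) ^ 2 = P k ^ 4 + 4 * W := by
      intro k
      induction k with
      | zero =>
        refine ⟨0, ?_⟩
        simp only [P, Finset.range_zero, Finset.prod_empty]
        rw [vOp_one' 2 (by norm_num)]
        ring
      | succ k ih =>
        obtain ⟨W, hW⟩ := ih
        have e1 : P (k + 1) = P k * (1 - PowerSeries.X ^ (k + 1)) := by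
          simp only [P, Finset.prod_range_succ]
        set x : PowerSeries ℤ := PowerSeries.X ^ (k + 1) with hx
        have e2 : vOp 2 (1 - x) = 1 - x ^ 2 := by
          rw [vOp_sub 2 (by norm_num), vOp_one' 2 (by norm_num), hx, vOp_pow' 2 (by norm_num),
            vOp_X' 2 (by norm_num)]
          ring
        refine ⟨W * (1 - x ^ 2) ^ 2 + P k ^ 4 * (x * (1 - x) ^ 2), ?_⟩
        rw [e1, vOp_mul' 2 (by norm_num), e2]
        linear_combination (1 - x ^ 2) ^ 2 * hW
    have h5 : ∀ k, ((4 : ℕ) : ℤ) ∣ (vOp 2 (P k) ^ 2 - P k ^ 4).coeff n := by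
      intro k
      obtain ⟨W, hW⟩ := h4 k
      have h6 := coeff_natCast_mul 4 n W
      push_cast at h6
      rw [hW, add_sub_cancel_left, h6]
      exact dvd_mul_right _ _
    exact (isClosed_discrete {z : ℤ | ((4 : ℕ) : ℤ) ∣ z}).mem_of_tendsto h3
      (Eventually.of_forall h5)
  refine ⟨W, ?_⟩
  push_cast at hW
  linear_combination hW

/-- (b), second half -/
theorem vOp_delta_mod4 : ∃ W : PowerSeries ℤ, vOp 2 deltaZ = deltaZ ^ 2 + 4 * W := by
  obtain ⟨W, hW⟩ := etaProd_mod4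
  have h : ∀ n : ℕ, ∃ W : PowerSeries ℤ,
      (vOp 2 ModularCurve.etaProd ^ 2) ^ n = (ModularCurve.etaProd ^ 4) ^ n + 4 * W := by
    intro n
    induction n with
    | zero => exact ⟨0, by ring⟩
    | succ n ih =>
      obtain ⟨W', hW'⟩ := ih
      refine ⟨W' * vOp 2 ModularCurve.etaProd ^ 2 + (ModularCurve.etaProd ^ 4) ^ n * W, ?_⟩
      rw [pow_succ, pow_succ]
      linear_combination (vOp 2 ModularCurve.etaProd ^ 2) * hW' +
        (ModularCurve.etaProd ^ 4) ^ n * hW
  obtain ⟨W12, h12⟩ := h 12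
  refine ⟨PowerSeries.X ^ 2 * W12, ?_⟩
  rw [deltaZ, ModularCurve.dedekindEtaUnit, vOp_mul' 2 (by norm_num), vOp_X' 2 (by norm_num),
    vOp_pow' 2 (by norm_num)]
  linear_combination PowerSeries.X ^ 2 * h12

/-- (c) -/
theorem kappa_mod2 {κ : PowerSeries ℤ} (hκ : phiZ ^ 2 + phiZ - thetaOp phiZ = 2 * κ) :
    ∃ W : PowerSeries ℤ, (κ + deltaZ ^ 2 + deltaZ) ^ 2 + (κ + deltaZ ^ 2 + deltaZ) =
      (phiZ + 1) * deltaZ + 2 * W := by
  have hk : ∀ n, 24 * κ.coeff n = 5 * s3 n + (13 - 18 * n) * s1 n := by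
    intro n
    have h := congrArg (fun A => A.coeff n) hκ
    have h2 := coeff_natCast_mul 2 n κ
    push_cast at h2
    simp only [map_add, map_sub, h2, coeff_phiZ, coeff_thetaOp] at h
    have h3 := coeff_phiZ_sq n
    linear_combination -12 * h + h3
  obtain ⟨W, hW⟩ := exists_of_forall_dvd (c := 2)
    (A := κ + vOp 2 κ + vOp 2 (vOp 2 deltaZ) - phiZ * deltaZ) fun n => by
    rw [map_sub, map_add, map_add]
    rcases eq_or_ne n 0 with rfl | hn
    · have h1 := hk 0
      have h2 := coeff_phi_delta 0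
      have h3 : deltaZ.coeff 0 = 0 := coeff_zero_deltaZ
      rw [coeff_vOp, coeff_vOp, if_pos (dvd_zero 2), if_pos (dvd_zero 2)]
      simp only [Nat.zero_div]
      rw [coeff_vOp, if_pos (dvd_zero 2)]
      simp only [Nat.zero_div]
      rw [s1_zero, s3_zero] at h1
      rw [tau, h3] at h2
      rw [h3]
      have e1 : κ.coeff 0 = 0 := by linarith
      have e2 : (phiZ * deltaZ).coeff 0 = 0 := by linarith
      rw [e1, e2]
      simp
    · have key := key16 tau (fun m hm => tau_odd hm)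
        (fun m hm => by
          have := tau_even m
          rwa [if_pos hm] at this)
        (fun m => by
          have := tau_even (2 * m)
          rw [if_neg (by rw [Nat.not_odd_iff_even]; exact even_two_mul m), mul_zero,
            sub_zero, ← mul_assoc] at this
          exact this)
        (fun m => by
          have := tau_even m
          obtain ⟨c, hc⟩ := this
          exact ⟨8 * c + 4 * (if Odd m then s1 m else 0), by linear_combination hc⟩) n hn
      obtain ⟨c, hc⟩ := key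
      have h1 := hk n
      have h2 := coeff_phi_delta n
      have h3 : 24 * (vOp 2 κ).coeff n =
          (if 2 ∣ n then 5 * s3 (n / 2) + (13 - 9 * n) * s1 (n / 2) else 0) := by
        rw [coeff_vOp]
        split_ifs with h
        · rw [hk]
          obtain ⟨j, rfl⟩ := h
          rw [Nat.mul_div_cancel_left _ (by norm_num : 0 < 2)]
          push_cast
          ring
        · rw [mul_zero]
      have h4 : 24 * (vOp 2 (vOp 2 deltaZ)).coeff n =
          (if 4 ∣ n then 24 * tau (n / 4) else 0) := by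
        rw [coeff_vOp, coeff_vOp]
        by_cases h : 4 ∣ n
        · obtain ⟨j, rfl⟩ := h
          have e1 : 2 ∣ 4 * j := by omega
          have e2 : 2 ∣ 4 * j / 2 := by omega
          have e3 : 4 * j / 2 / 2 = 4 * j / 4 := by omega
          rw [if_pos e1, if_pos e2, if_pos (dvd_mul_right 4 j), e3, tau]
        · rw [if_neg h]
          by_cases e1 : 2 ∣ n
          · have e2 : ¬ 2 ∣ n / 2 := by omega
            rw [if_pos e1, if_neg e2, mul_zero]
          · rw [if_neg e1, mul_zero]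
      rw [← h3, ← h4, ← h1, ← h2] at hc
      generalize κ.coeff n = x1 at hc ⊢
      generalize (vOp 2 κ).coeff n = x2 at hc ⊢
      generalize (vOp 2 (vOp 2 deltaZ)).coeff n = x3 at hc ⊢
      generalize (phiZ * deltaZ).coeff n = x4 at hc ⊢
      push_cast
      omega
  obtain ⟨W1, hW1⟩ := frob (κ + deltaZ ^ 2 + deltaZ)
  obtain ⟨W2, hW2⟩ := frob deltaZ
  rw [vOp_add 2 (by norm_num), vOp_add 2 (by norm_num), hW2, vOp_add 2 (by norm_num),
    vOp_mul' 2 (by norm_num)] at hW1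
  have h2 : vOp 2 (2 : PowerSeries ℤ) = 2 := by
    have := vOp_natCast 2 (by norm_num) 2
    exact_mod_cast this
  rw [h2] at hW1
  push_cast at hW
  refine ⟨W + W1 + vOp 2 W2 + vOp 2 deltaZ + W2, ?_⟩
  rw [hW2]
  linear_combination hW1 + hW
end Fermat.Agent.Eis
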