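import Fermat.Agent.S16.Ramanujan

/-!
# S16: the Chazy equation and Niebur's formula

With `φ = Σ σ₁(n) qⁿ`, `u = E₂ = 1 - 24 φ`:
* `e4Z = u² + 288 θφ`, `e6Z = u³ + 432 u θφ - 864 θ²φ`
* `chazy : θ³φ = u θ²φ + 36 (θφ)²`
* `niebur : Δ = θ⁴φ - 24 φ θ⁴φ + 384 θ³φ θφ - 432 (θ²φ)²`
* `deltaZ_mod16 : Δ = θ⁴φ + 8 φ θ⁴φ + 16 W`
-/

set_option autoImplicit false

noncomputable section

namespace Fermat.Agent.Eis

theorem natCast_ne_zero_ps {n : ℕ} (hn : n ≠ 0) : (n : PowerSeries ℤ) ≠ 0 := by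
  intro h
  have := congrArg PowerSeries.constantCoeff h
  rw [map_natCast, map_zero] at this
  exact hn (by exact_mod_cast this)

theorem thetaOp_ofNat_mul (n : ℕ) (A : PowerSeries ℤ) :
    thetaOp ((n : PowerSeries ℤ) * A) = (n : PowerSeries ℤ) * thetaOp A := by
  have : (n : PowerSeries ℤ) = PowerSeries.C (n : ℤ) := by simp
  rw [this, thetaOp_C_mul']

theorem thetaOp_one : thetaOp 1 = 0 := by
  have := thetaOp_C' 1
  rwa [map_one] at this

theorem thetaOp_neg' (A : PowerSeries ℤ) : thetaOp (-A) = - thetaOp A := by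
  have h := thetaOp_sub 0 A
  have h0 : thetaOp 0 = 0 := by
    ext n
    simp [thetaOp]
  rwa [h0, zero_sub, zero_sub] at h

theorem theta_e2Z : thetaOp e2Z = -24 * thetaOp phiZ := by
  rw [e2Z, thetaOp_sub, thetaOp_one]
  have := thetaOp_ofNat_mul 24 phiZ
  push_cast at this
  rw [this]
  ring

theorem e4Z_eq : e4Z = e2Z ^ 2 + 288 * thetaOp phiZ := by
  have h := twelve_theta_e2Z
  rw [theta_e2Z] at h
  linear_combination h

theorem theta_e4Z : thetaOp e4Z = -48 * (e2Z * thetaOp phiZ) + 288 * thetaOp (thetaOp phiZ) := by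
  have := thetaOp_ofNat_mul 288 (thetaOp phiZ)
  push_cast at this
  rw [e4Z_eq, thetaOp_add', this, pow_two, thetaOp_mul, theta_e2Z]
  ring

theorem e6Z_eq : e6Z = e2Z ^ 3 + 432 * (e2Z * thetaOp phiZ) - 864 * thetaOp (thetaOp phiZ) := by
  have h := three_theta_e4Z
  rw [theta_e4Z, e4Z_eq] at h
  linear_combination h

theorem theta_e6Z : thetaOp e6Z = -72 * (e2Z ^ 2 * thetaOp phiZ) - 10368 * thetaOp phiZ ^ 2 +
    432 * (e2Z * thetaOp (thetaOp phiZ)) - 864 * thetaOp (thetaOp (thetaOp phiZ)) := by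
  have h1 := thetaOp_ofNat_mul 432 (e2Z * thetaOp phiZ)
  have h2 := thetaOp_ofNat_mul 864 (thetaOp (thetaOp phiZ))
  push_cast at h1 h2
  rw [e6Z_eq, thetaOp_sub, thetaOp_add', h1, h2, pow_succ, pow_two, thetaOp_mul, thetaOp_mul,
    thetaOp_mul, theta_e2Z]
  ring

/-- the Chazy equation -/
theorem chazy : thetaOp (thetaOp (thetaOp phiZ)) =
    e2Z * thetaOp (thetaOp phiZ) + 36 * thetaOp phiZ ^ 2 := by
  have h := two_theta_e6Z
  rw [theta_e6Z, e6Z_eq, e4Z_eq] at h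
  refine mul_left_cancel₀ (natCast_ne_zero_ps (n := 1728) (by norm_num)) ?_
  push_cast
  linear_combination -h

theorem chazy' : thetaOp (thetaOp (thetaOp (thetaOp phiZ))) =
    e2Z ^ 2 * thetaOp (thetaOp phiZ) + 36 * (e2Z * thetaOp phiZ ^ 2) +
      48 * (thetaOp phiZ * thetaOp (thetaOp phiZ)) := by
  have h1 := thetaOp_ofNat_mul 36 (thetaOp phiZ ^ 2)
  push_cast at h1
  conv_lhs => rw [chazy]
  rw [thetaOp_add', h1, thetaOp_mul, pow_two, thetaOp_mul, theta_e2Z]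
  rw [chazy]
  ring

theorem deltaZ_eq : deltaZ = e2Z ^ 3 * thetaOp (thetaOp phiZ) +
    36 * (e2Z ^ 2 * thetaOp phiZ ^ 2) + 432 * (e2Z * thetaOp phiZ * thetaOp (thetaOp phiZ)) -
      432 * thetaOp (thetaOp phiZ) ^ 2 + 13824 * thetaOp phiZ ^ 3 := by
  have h := e6Z_sq
  rw [e6Z_eq, e4Z_eq] at h
  refine mul_left_cancel₀ (natCast_ne_zero_ps (n := 1728) (by norm_num)) ?_
  push_cast
  linear_combination h

/-- Niebur's formula -/
theorem niebur : deltaZ = e2Z * thetaOp (thetaOp (thetaOp (thetaOp phiZ))) +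
    384 * (thetaOp (thetaOp (thetaOp phiZ)) * thetaOp phiZ) -
      432 * thetaOp (thetaOp phiZ) ^ 2 := by
  rw [deltaZ_eq, chazy', chazy]
  ring

theorem deltaZ_mod16 : ∃ W : PowerSeries ℤ,
    deltaZ = thetaOp (thetaOp (thetaOp (thetaOp phiZ))) +
      8 * (phiZ * thetaOp (thetaOp (thetaOp (thetaOp phiZ)))) + 16 * W := by
  refine ⟨-2 * (phiZ * thetaOp (thetaOp (thetaOp (thetaOp phiZ)))) +
    24 * (thetaOp (thetaOp (thetaOp phiZ)) * thetaOp phiZ) -
      27 * thetaOp (thetaOp phiZ) ^ 2, ?_⟩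
  conv_lhs => rw [niebur, e2Z]
  ring

/-- `12 φ² = 5 Σ σ₃(n) qⁿ + φ - 6 θφ` -/
theorem twelve_phiZ_sq : 12 * phiZ ^ 2 =
    5 * (PowerSeries.mk fun n => ∑ d ∈ n.divisors, (d : ℤ) ^ 3 : PowerSeries ℤ) +
      phiZ - 6 * thetaOp phiZ := by
  have h := e4Z_eq
  have h2 : e4Z = 1 + 240 *
      (PowerSeries.mk fun n => ∑ d ∈ n.divisors, (d : ℤ) ^ 3 : PowerSeries ℤ) := by
    ext n
    rw [e4Z, ModularCurve.eisenstein4, PowerSeries.coeff_mk, map_add, PowerSeries.coeff_one,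
      show (240 : PowerSeries ℤ) = PowerSeries.C 240 from (map_ofNat _ 240).symm,
      PowerSeries.coeff_C_mul, PowerSeries.coeff_mk]
    split_ifs with h0
    · simp [h0]
    · ring
  rw [h2, e2Z] at h
  refine mul_left_cancel₀ (natCast_ne_zero_ps (n := 48) (by norm_num)) ?_
  push_cast
  linear_combination -h

/-- `24 φ Δ = Δ - θΔ` -/
theorem twentyfour_phi_delta : 24 * (phiZ * deltaZ) = deltaZ - thetaOp deltaZ := by
  rw [theta_deltaZ, e2Z]
  ring

end Fermat.Agent.Eis
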