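import Fermat.Agent.S16.Pair
import Fermat.Agent.S16.LevelOneMod

/-!
# The trace, the Serre derivative and the basic pairs
-/

set_option autoImplicit false
set_option linter.unusedSimpArgs false
set_option linter.unusedVariables false

open UpperHalfPlane MatrixGroups CongruenceSubgroup ModularGroup
  Matrix.SpecialLinearGroup

open scoped ModularForm Manifold

noncomputable section

namespace Fermat.Agent.Eis

local notation "𝕢" => Function.Periodic.qParam

variable {p : ℕ}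

theorem sum_exp_pow (hp : p ≠ 0) (w : ℂ) (m : ℕ) :
    ∑ j ∈ Finset.range p, (w * Complex.exp (2 * Real.pi * Complex.I / p) ^ j) ^ m =
      if p ∣ m then (p : ℂ) * w ^ m else 0 := by
  set ζ := Complex.exp (2 * Real.pi * Complex.I / p) with hζ
  have hprim : IsPrimitiveRoot ζ p := Complex.isPrimitiveRoot_exp p hp
  have h1 : ∀ j ∈ Finset.range p, (w * ζ ^ j) ^ m = w ^ m * (ζ ^ m) ^ j := by
    intro j _
    rw [mul_pow, ← pow_mul, ← pow_mul, mul_comm j m]
  rw [Finset.sum_congr rfl h1, ← Finset.mul_sum]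
  split_ifs with h
  · rw [(hprim.pow_eq_one_iff_dvd m).mpr h]
    simp [mul_comm]
  · have h2 : ζ ^ m ≠ 1 := fun e => h ((hprim.pow_eq_one_iff_dvd m).mp e)
    rw [geom_sum_eq h2, ← pow_mul, mul_comm m p, pow_mul, hprim.pow_eq_one, one_pow]
    simp

theorem QS.sum_hecke {g : ℍ → ℂ} {R : PowerSeries ℂ} (hg : QS g R) (hp : p ≠ 0) :
    QS (fun τ => ∑ j ∈ Finset.range p, g (ModularForm.heckeMatrix p j • τ))
      ((p : ℂ) • uOpC p R) := fun τ => by
  have hinj : Function.Injective (fun m : ℕ => p * m) := fun a b h =>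
    Nat.eq_of_mul_eq_mul_left (Nat.pos_of_ne_zero hp) h
  set w : ℂ := Complex.exp (2 * Real.pi * Complex.I * τ / p) with hw
  have hp' : (p : ℂ) ≠ 0 := by exact_mod_cast hp
  have hq : ∀ j : ℕ, 𝕢 1 ((ModularForm.heckeMatrix p j • τ : ℍ) : ℂ) =
      w * Complex.exp (2 * Real.pi * Complex.I / p) ^ j := by
    intro j
    rw [hw, ← Complex.exp_nat_mul, ← Complex.exp_add, ModularForm.coe_heckeMatrix_smul hp,
      Function.Periodic.qParam]
    congr 1
    push_cast
    field_simp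
  have hwp : w ^ p = 𝕢 1 τ := by
    rw [hw, ← Complex.exp_nat_mul, Function.Periodic.qParam]
    congr 1
    push_cast
    field_simp
  have h := hasSum_sum (f := fun (j : ℕ) (m : ℕ) =>
      R.coeff m * 𝕢 1 ((ModularForm.heckeMatrix p j • τ : ℍ) : ℂ) ^ m)
    (s := Finset.range p) (fun j _ => hg (ModularForm.heckeMatrix p j • τ))
  have h' : (fun m : ℕ => ∑ j ∈ Finset.range p,
      R.coeff m * 𝕢 1 ((ModularForm.heckeMatrix p j • τ : ℍ) : ℂ) ^ m) =
      fun m => if p ∣ m then R.coeff m * ((p : ℂ) * w ^ m) else 0 := by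
    ext m
    rw [← Finset.mul_sum, Finset.sum_congr rfl (fun j _ => by rw [hq j]), sum_exp_pow hp]
    split_ifs <;> simp
  rw [h', ← hinj.hasSum_iff] at h
  · convert h using 2 with m
    simp only [Function.comp_apply, dvd_mul_right, if_true, uOpC, PowerSeries.coeff_smul,
      PowerSeries.coeff_mk, smul_eq_mul]
    rw [pow_mul, hwp, mul_comm m p]
    ring
  · intro x hx
    have : ¬ p ∣ x := fun ⟨m, hm⟩ => hx ⟨m, hm.symm⟩
    simp [this]

/-! ### The trace -/

theorem heckeDiag_heckeMatrix_smul (hp : p ≠ 0) (j : ℕ) (τ : ℍ) :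
    ModularForm.heckeDiagMatrix p • (ModularForm.heckeMatrix p j • τ) =
      (T ^ (j : ℤ) : SL(2, ℤ)) • τ := by
  have hp' : (p : ℂ) ≠ 0 := by exact_mod_cast hp
  apply UpperHalfPlane.ext
  rw [ModularForm.coe_heckeDiagMatrix_smul hp, ModularForm.coe_heckeMatrix_smul hp,
    UpperHalfPlane.coe_specialLinearGroup_apply]
  simp only [algebraMap_int_eq, eq_intCast, sl_T00, sl_T01, sl_T10, sl_T11]
  push_cast
  field_simp
  ring

theorem slash_T_apply (k : ℤ) (f : ℍ → ℂ) (j : ℤ) (τ : ℍ) :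
    (f ∣[k] (T ^ j : SL(2, ℤ))) τ = f ((T ^ j : SL(2, ℤ)) • τ) := by
  rw [ModularForm.SL_slash_apply, ModularGroup.denom_apply]
  simp [sl_T10, sl_T11]

theorem trFun_eq [NeZero p] (j : ℕ) (f : ℍ → ℂ) :
    trFun p (2 * (j : ℤ)) f = f + ((p : ℂ) ^ j)⁻¹ • (fun τ => ∑ i ∈ Finset.range p,
      flatFun p j f (ModularForm.heckeMatrix p i • τ)) := by
  have hp : (p : ℂ) ≠ 0 := by exact_mod_cast NeZero.ne p
  rw [trFun]
  congr 1
  ext τ
  rw [Finset.sum_apply, Pi.smul_apply, smul_eq_mul, Finset.mul_sum]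
  refine Finset.sum_congr rfl fun i _ => ?_
  rw [SlashAction.slash_mul, slash_T_apply, flatFun, heckeDiag_heckeMatrix_smul (NeZero.ne p),
    inv_mul_cancel_left₀ (pow_ne_zero _ hp)]

theorem IsG0.tr_qs [NeZero p] {j : ℕ} {f : ℍ → ℂ}
    {P R : PowerSeries ℂ} (hP : QS f P) (hR : QS (flatFun p j f) R) :
    QS (trFun p (2 * (j : ℤ)) f) (P + ((p : ℂ) ^ j)⁻¹ • ((p : ℂ) • uOpC p R)) := by
  rw [trFun_eq]
  exact hP.add ((hR.sum_hecke (NeZero.ne p)).smul _)

/-- The trace of an integral pair of weight `2(j+1)`. -/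
theorem IsPair.trace [Fact p.Prime] {j : ℕ} {A B : PowerSeries ℤ} (h : IsPair p (j + 1) A B) :
    IsZ (2 * ((j + 1 : ℕ) : ℤ)) (PowerSeries.C ((p : ℤ) ^ j) * A + uOp p B) := by
  have : NeZero p := ⟨(Fact.out : p.Prime).ne_zero⟩
  have hp : (p : ℂ) ≠ 0 := by exact_mod_cast NeZero.ne p
  obtain ⟨_, ⟨f, rfl⟩, hA, hB⟩ := isPair_iff.mp h
  have h1 : QS ((((p : ℂ) ^ j) • tr f : ModularForm 𝒮ℒ _) : ℍ → ℂ)
      (toC (PowerSeries.C ((p : ℤ) ^ j) * A + uOp p B)) := by
    have h2 := (IsG0.tr_qs hA hB).smul ((p : ℂ) ^ j)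
    refine h2.congr ?_
    ext n
    simp only [map_add, map_mul, IsPair.toC_C, toC_uOp, PowerSeries.coeff_smul,
      PowerSeries.coeff_C_mul, smul_eq_mul]
    push_cast
    field_simp
    ring
  refine ⟨((p : ℂ) ^ j) • tr f, ?_⟩
  rw [Fermat.Agent.Eis.hasQ_iff]
  exact h1.qExpansion_eq one_mem_strictPeriods_SL

/-! ### Weight two -/

theorem tr_two_eq_zero [Fact p.Prime] (f : ModularForm (Gamma0 p) 2) : trFun p 2 f = 0 := by
  have h : tr f = 0 := rank_zero_iff_forall_zero.mp ModularForm.levelOne_weight_two_rank_zero (tr f)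
  rw [← coe_tr, h]
  rfl

theorem QS.zero_unique {P : PowerSeries ℂ} (h : QS 0 P) : P = 0 := by
  have h1 : QS ((0 : ModularForm 𝒮ℒ 2) : ℍ → ℂ) P := h
  have h2 : QS ((0 : ModularForm 𝒮ℒ 2) : ℍ → ℂ) 0 := QS.zero
  rw [← h1.qExpansion_eq one_mem_strictPeriods_SL, ← h2.qExpansion_eq one_mem_strictPeriods_SL]

theorem IsG0.qs_flat_two [Fact p.Prime] {f : ℍ → ℂ} (hf : IsG0 p (2 * ((1 : ℕ) : ℤ)) f)
    {P : PowerSeries ℂ} (hP : QS f P) : QS (flatFun p 1 f) (-uOpC p P) := by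
  have : NeZero p := ⟨(Fact.out : p.Prime).ne_zero⟩
  have hp : (p : ℂ) ≠ 0 := by exact_mod_cast NeZero.ne p
  have h1 := hf.flat.qs
  set R := qExpansion 1 (flatFun p 1 f) with hR
  have h2 := IsG0.tr_qs (p := p) (j := 1) h1 (by rwa [flatFun_flatFun])
  obtain ⟨g, hg⟩ := hf.flat
  have h3 : trFun p (2 * ((1 : ℕ) : ℤ)) (flatFun p 1 f) = 0 := by
    rw [← hg]
    exact tr_two_eq_zero g
  rw [h3] at h2
  have h4 := h2.zero_unique
  have h5 : R = -uOpC p P := by
    rw [eq_neg_iff_add_eq_zero, ← h4]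
    congr 1
    ext n
    simp only [PowerSeries.coeff_smul, smul_eq_mul, pow_one]
    field_simp
  rwa [← h5]

/-- A weight two form with integral `q`-expansion `A` gives the pair `(A, -U_p A)`. -/
theorem isPair_two [Fact p.Prime] {f : ℍ → ℂ} (hf : IsG0 p 2 f) {A : PowerSeries ℤ}
    (hA : HasQ f A) : IsPair p 1 A (-uOp p A) := by
  have : NeZero p := ⟨(Fact.out : p.Prime).ne_zero⟩
  have hf' : IsG0 p (2 * ((1 : ℕ) : ℤ)) f := hf
  rw [hf'.hasQ_iff] at hA
  refine isPair_iff.mpr ⟨f, hf', hA, ?_⟩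
  rw [map_neg, toC_uOp]
  exact hf'.qs_flat_two hA

/-! ### The Serre derivative -/

theorem qs_E2 : QS EisensteinSeries.E2 (toC e2Z) := fun τ => by
  have h := EisensteinSeries.hasSum_qExpansion_E2 (z := τ)
  convert h using 2 with m
  rw [smul_eq_mul, coeff_toC]
  congr 1
  · rw [e2Z, map_sub, PowerSeries.coeff_one]
    have : (24 : PowerSeries ℤ) = PowerSeries.C 24 := by simp
    rw [this, PowerSeries.coeff_C_mul, phiZ, PowerSeries.coeff_mk]
    split_ifs with h0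
    · simp [h0]
    · rw [ArithmeticFunction.sigma_one_apply]
      push_cast
      ring
  · simp [Function.Periodic.qParam]

open Derivative in
theorem heckeDiag_deriv (hp : p ≠ 0) {f : ℍ → ℂ} (hf : MDiff f) :
    normalizedDerivOfComplex (fun τ => f (ModularForm.heckeDiagMatrix p • τ)) =
      fun τ => (p : ℂ) * normalizedDerivOfComplex f (ModularForm.heckeDiagMatrix p • τ) := by
  have hp' : (p : ℂ) ≠ 0 := by exact_mod_cast hp
  have h1 : (fun τ => f (ModularForm.heckeDiagMatrix p • τ)) =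
      f ∣[(1 : ℤ)] (ModularForm.heckeDiagMatrix p) := by
    ext τ
    rw [ModularForm.slash_heckeDiagMatrix_apply _ hp]
    simp
  have hdet : ((ModularForm.heckeDiagMatrix p : GL (Fin 2) ℝ) : Matrix (Fin 2) (Fin 2) ℝ).det =
      p := by
    rw [ModularForm.val_heckeDiagMatrix hp]
    simp
  rw [h1, normalizedDerivOfComplex_slash hf (by rw [hdet]; exact_mod_cast Nat.pos_of_ne_zero hp)]
  ext τ
  rw [ModularForm.slash_heckeDiagMatrix_apply _ hp, hdet]
  have h10 : ((ModularForm.heckeDiagMatrix p : GL (Fin 2) ℝ) : Matrix (Fin 2) (Fin 2) ℝ) 1 0 =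
      0 := by
    rw [ModularForm.val_heckeDiagMatrix hp]
    simp
  rw [h10]
  norm_num
  field_simp

open Derivative in
/-- `6 θ f - j E₂ f` for `f` of weight `2j`. -/
def serreFun (j : ℕ) (f : ℍ → ℂ) : ℍ → ℂ :=
  (6 : ℂ) • serreDerivative ((2 * (j : ℤ) : ℤ) : ℂ) f

open Derivative in
theorem serreFun_apply (j : ℕ) (f : ℍ → ℂ) (τ : ℍ) : serreFun j f τ =
    6 * normalizedDerivOfComplex f τ - j * (EisensteinSeries.E2 τ * f τ) := by
  rw [serreFun, Pi.smul_apply, serreDerivative_apply, smul_eq_mul]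
  push_cast
  ring

theorem QS.serre {f : ℍ → ℂ} {P : PowerSeries ℂ} (j : ℕ) (hP : QS f P) :
    QS (serreFun j f) ((6 : ℂ) • thetaOpC P - (j : ℂ) • (toC e2Z * P)) := by
  have h := (hP.deriv.smul 6).sub ((qs_E2.mul hP).smul (j : ℂ))
  convert h using 1
  ext τ
  rw [serreFun_apply]
  rfl

theorem serreFun_slash {j : ℕ} {f : ℍ → ℂ} (hf : MDiff f) (γ : SL(2, ℤ)) :
    serreFun j f ∣[(2 * ((j + 1 : ℕ) : ℤ))] γ = serreFun j (f ∣[(2 * (j : ℤ))] γ) := by
  have h : (2 * ((j + 1 : ℕ) : ℤ)) = 2 * (j : ℤ) + 2 := by push_cast; ring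
  rw [h, serreFun, ModularForm.SL_smul_slash, Derivative.serreDerivative_slash_equivariant hf,
    serreFun]

theorem serreFun_mdiff {j : ℕ} {f : ℍ → ℂ} (hf : MDiff f) : MDiff (serreFun j f) :=
  (Derivative.serreDerivative_mdifferentiable _ hf).const_smul _

open Derivative in
theorem flatFun_serre [NeZero p] {j : ℕ} {f : ℍ → ℂ} (hf : MDiff f) :
    flatFun p (j + 1) (serreFun j f) = (6 : ℂ) • normalizedDerivOfComplex (flatFun p j f) -
      ((j : ℂ) * p) • ((fun τ => EisensteinSeries.E2 (ModularForm.heckeDiagMatrix p • τ)) *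
        flatFun p j f) := by
  have hfS : MDiff (f ∣[(2 * (j : ℤ))] S) := mdiff_slash_SL hf S
  have hg : flatFun p j f = ((p : ℂ) ^ j) •
      (fun τ => (f ∣[(2 * (j : ℤ))] S) (ModularForm.heckeDiagMatrix p • τ)) := rfl
  have hm : MDiff (fun τ => (f ∣[(2 * (j : ℤ))] S) (ModularForm.heckeDiagMatrix p • τ)) := by
    have h1 : (fun τ => (f ∣[(2 * (j : ℤ))] S) (ModularForm.heckeDiagMatrix p • τ)) =
        (f ∣[(2 * (j : ℤ))] S) ∣[(1 : ℤ)] (ModularForm.heckeDiagMatrix p) := by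
      ext τ
      rw [ModularForm.slash_heckeDiagMatrix_apply _ (NeZero.ne p)]
      simp
    rw [h1]
    exact hfS.slash _ _
  ext τ
  rw [flatFun, serreFun_slash hf, serreFun_apply, hg,
    normalizedDerivOfComplex_smul _ _ hm, heckeDiag_deriv (NeZero.ne p) hfS]
  simp only [Pi.sub_apply, Pi.smul_apply, Pi.mul_apply, smul_eq_mul]
  ring

theorem bdd_slash_S_of_flat [NeZero p] {j : ℕ} {f : ℍ → ℂ}
    (h : IsBoundedAtImInfty (flatFun p j f)) : IsBoundedAtImInfty (f ∣[(2 * (j : ℤ))] S) := by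
  have hp : (p : ℂ) ≠ 0 := by exact_mod_cast NeZero.ne p
  have h10 : ((ModularForm.heckeMatrix p 0 : GL (Fin 2) ℝ) : Matrix (Fin 2) (Fin 2) ℝ) 1 0 =
      0 := by
    rw [ModularForm.val_heckeMatrix (NeZero.ne p)]
    simp
  have h1 := bdd_const_smul ((p : ℂ) * ((p : ℂ) ^ j)⁻¹) (h.slash 0 h10)
  convert h1 using 1
  ext τ
  rw [Pi.smul_apply, ModularForm.slash_heckeMatrix_apply _ (NeZero.ne p), flatFun,
    heckeDiag_heckeMatrix_smul (NeZero.ne p), smul_eq_mul]
  have h2 : (p : ℂ) ^ j ≠ 0 := pow_ne_zero _ hp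
  simp only [Nat.cast_zero, zpow_zero, one_smul]
  field_simp

theorem thetaOpC_smul (c : ℂ) (P : PowerSeries ℂ) : thetaOpC (c • P) = c • thetaOpC P := by
  ext n
  simp only [thetaOpC, PowerSeries.coeff_mk, PowerSeries.coeff_smul, smul_eq_mul]
  ring

theorem flatFun_serre_qs [NeZero p] {j : ℕ} {f : ℍ → ℂ} (hf : MDiff f) {R : PowerSeries ℂ}
    (hR : QS (flatFun p j f) R) : QS (flatFun p (j + 1) (serreFun j f))
      ((6 : ℂ) • thetaOpC R - ((j : ℂ) * p) • (vOpC p (toC e2Z) * R)) := by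
  rw [flatFun_serre hf]
  exact (hR.deriv.smul 6).sub (((qs_E2.comp_mul (NeZero.ne p)).mul hR).smul _)

theorem IsG0.serre [Fact p.Prime] {j : ℕ} {f : ℍ → ℂ} (hf : IsG0 p (2 * (j : ℤ)) f) :
    IsG0 p (2 * ((j + 1 : ℕ) : ℤ)) (serreFun j f) := by
  have : NeZero p := ⟨(Fact.out : p.Prime).ne_zero⟩
  refine ⟨mkGamma0 _ (serreFun j f) ?_ (serreFun_mdiff hf.mdiff) ?_ ?_, rfl⟩
  · intro γ hγ
    rw [serreFun_slash hf.mdiff, hf.slash γ hγ]
  · exact (hf.qs.serre j).isBoundedAtImInfty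
  · exact bdd_slash_S_of_flat (flatFun_serre_qs hf.mdiff hf.flat.qs).isBoundedAtImInfty

theorem natCast_smul_series (j : ℕ) (P : PowerSeries ℂ) : (j : ℂ) • P = (j : PowerSeries ℂ) * P := by
  rw [Nat.cast_smul_eq_nsmul, nsmul_eq_mul]

theorem six_smul_series (P : PowerSeries ℂ) : (6 : ℂ) • P = toC 6 * P := by
  rw [map_ofNat toC 6]
  exact_mod_cast natCast_smul_series 6 P

theorem IsPair.serre [Fact p.Prime] {j : ℕ} {A B : PowerSeries ℤ} (h : IsPair p j A B) :
    IsPair p (j + 1) (6 * thetaOp A - (j : PowerSeries ℤ) * (e2Z * A))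
      (6 * thetaOp B - ((j * p : ℕ) : PowerSeries ℤ) * (vOp p e2Z * B)) := by
  have : NeZero p := ⟨(Fact.out : p.Prime).ne_zero⟩
  obtain ⟨f, hf, hA, hB⟩ := isPair_iff.mp h
  refine isPair_iff.mpr ⟨serreFun j f, hf.serre, ?_, ?_⟩
  · refine (hA.serre j).congr ?_
    rw [map_sub, map_mul, map_mul, map_mul, map_natCast, toC_thetaOp, natCast_smul_series]
    congr 2
    exact six_smul_series _
  · refine (flatFun_serre_qs hf.mdiff hB).congr ?_
    rw [map_sub, map_mul, map_mul, map_mul, map_natCast, toC_thetaOp, toC_vOp,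
      ← natCast_smul_series]
    push_cast
    congr 2
    exact six_smul_series _

end Fermat.Agent.Eis
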