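import Fermat.Agent.S16.Pair2

/-!
# The Eisenstein series, `Δ` and `Δ^p / Δ_p`
-/

set_option autoImplicit false
set_option linter.unusedSimpArgs false
set_option linter.unusedVariables false

open UpperHalfPlane MatrixGroups CongruenceSubgroup ModularGroup
  Matrix.SpecialLinearGroup Filter Topology

open scoped ModularForm Manifold

noncomputable section

namespace Fermat.Agent.Eis

local notation "𝕢" => Function.Periodic.qParam

variable {p : ℕ}

/-! ### Limits at infinity -/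

theorem qParam_ne_zero' (τ : ℍ) : 𝕢 1 τ ≠ 0 := Complex.exp_ne_zero _

theorem QS.div_q {f : ℍ → ℂ} {P : PowerSeries ℂ} (hf : QS f P) :
    QS (fun τ => (f τ - P.coeff 0) / 𝕢 1 τ) (PowerSeries.mk fun n => P.coeff (n + 1)) := fun τ => by
  have h := (hasSum_nat_add_iff' 1).mpr (hf τ)
  have h2 := h.div_const (𝕢 1 τ)
  simp only [Finset.range_one, Finset.sum_singleton, pow_zero, mul_one] at h2
  have h3 : (fun m : ℕ => P.coeff (m + 1) * 𝕢 1 τ ^ (m + 1) / 𝕢 1 τ) =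
      fun m => (PowerSeries.mk fun n => P.coeff (n + 1)).coeff m * 𝕢 1 τ ^ m := by
    ext m
    rw [PowerSeries.coeff_mk, pow_succ, ← mul_assoc,
      mul_div_cancel_right₀ _ (qParam_ne_zero' τ)]
  rw [h3] at h2
  exact h2

theorem QS.tendsto {f : ℍ → ℂ} {P : PowerSeries ℂ} (hf : QS f P) :
    Tendsto f atImInfty (𝓝 (P.coeff 0)) := by
  have h1 := hf.div_q.isBoundedAtImInfty
  have h2 : ZeroAtFilter atImInfty (fun τ : ℍ => 𝕢 1 τ) := qParam_tendsto_atImInfty one_pos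
  have h3 : Tendsto _ atImInfty (𝓝 (0 : ℂ)) := h2.mul_boundedAtFilter h1
  have h4 := h3.add_const (P.coeff 0)
  rw [zero_add] at h4
  refine h4.congr fun τ => ?_
  simp only [Pi.mul_apply]
  rw [mul_div_cancel₀ _ (qParam_ne_zero' τ)]
  ring

theorem QS.isZeroAtImInfty {f : ℍ → ℂ} {P : PowerSeries ℂ} (hf : QS f P) (h : P.coeff 0 = 0) :
    IsZeroAtImInfty f := by
  have := hf.tendsto
  rwa [h] at this

theorem zero_slash_S_of_flat [NeZero p] {j : ℕ} {f : ℍ → ℂ}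
    (h : IsZeroAtImInfty (flatFun p j f)) : IsZeroAtImInfty (f ∣[(2 * (j : ℤ))] S) := by
  have hp : (p : ℂ) ≠ 0 := by exact_mod_cast NeZero.ne p
  have h10 : ((ModularForm.heckeMatrix p 0 : GL (Fin 2) ℝ) : Matrix (Fin 2) (Fin 2) ℝ) 1 0 =
      0 := by
    rw [ModularForm.val_heckeMatrix (NeZero.ne p)]
    simp
  have h1 : IsZeroAtImInfty (((p : ℂ) * ((p : ℂ) ^ j)⁻¹) •
      ((flatFun p j f) ∣[(0 : ℤ)] (ModularForm.heckeMatrix p 0))) :=
    ZeroAtFilter.smul _ (h.slash 0 h10)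
  convert h1 using 1
  ext τ
  rw [Pi.smul_apply, ModularForm.slash_heckeMatrix_apply _ (NeZero.ne p), flatFun,
    heckeDiag_heckeMatrix_smul (NeZero.ne p), smul_eq_mul]
  have h2 : (p : ℂ) ^ j ≠ 0 := pow_ne_zero _ hp
  simp only [Nat.cast_zero, zpow_zero, one_smul]
  field_simp

/-- A weight two form on `Γ₀(p)` with `a₀ = 0` is a cusp form. -/
theorem exists_cuspForm_two [Fact p.Prime] {f : ℍ → ℂ} (hf : IsG0 p 2 f) {A : PowerSeries ℤ}
    (hA : HasQ f A) (h0 : A.coeff 0 = 0) : ∃ F : CuspForm (Gamma0 p) 2, ⇑F = f := by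
  have : NeZero p := ⟨(Fact.out : p.Prime).ne_zero⟩
  have hf' : IsG0 p (2 * ((1 : ℕ) : ℤ)) f := hf
  have hq : QS f (toC A) := hf'.hasQ_iff.mp hA
  refine ⟨mkGamma0Cusp 2 f (fun γ hγ => hf.slash γ hγ) hf.mdiff ?_ ?_, rfl⟩
  · exact hq.isZeroAtImInfty (by rw [coeff_toC, h0, Int.cast_zero])
  · refine zero_slash_S_of_flat (p := p) (j := 1) ((hf'.qs_flat_two hq).isZeroAtImInfty ?_)
    rw [map_neg, uOpC, PowerSeries.coeff_mk, zero_mul, coeff_toC, h0, Int.cast_zero, neg_zero]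

theorem CuspForm.isG0 {k : ℤ} (f : CuspForm (Gamma0 p) k) : IsG0 p k f :=
  ⟨(f : ModularForm (Gamma0 p) k), rfl⟩

theorem CuspForm.coeff_zero_eq [NeZero p] {k : ℤ} (f : CuspForm (Gamma0 p) k) {A : PowerSeries ℤ}
    (hA : HasQ f A) : A.coeff 0 = 0 := by
  have h := CuspFormClass.qExpansion_coeff_zero f one_pos
    (CongruenceSubgroup.one_mem_strictPeriods_Gamma0 p)
  have h2 := hA 0
  rw [ModularFormClass.qCoeff, h] at h2
  exact_mod_cast h2.symm

/-! ### The weight two Eisenstein series -/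

/-- `p E₂(pτ) - E₂(τ)`, i.e. `24 E`. -/
def eisFun (p : ℕ) : ℍ → ℂ := fun τ =>
  (p : ℂ) * EisensteinSeries.E2 (ModularForm.heckeDiagMatrix p • τ) - EisensteinSeries.E2 τ

/-- `p - 1 + 24 Σ σ'(n) qⁿ` -/
def eisZ (p : ℕ) : PowerSeries ℤ := PowerSeries.C ((p : ℤ) - 1) + 24 * sigmaPZ p

theorem eisZ_eq [Fact p.Prime] : eisZ p = PowerSeries.C (p : ℤ) * vOp p e2Z - e2Z := by
  have hp := (Fact.out : p.Prime)
  have h24 : (24 : PowerSeries ℤ) = PowerSeries.C 24 := by simp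
  ext n
  rw [eisZ, e2Z, h24]
  simp only [map_add, map_sub, PowerSeries.coeff_C_mul, PowerSeries.coeff_C, vOp,
    PowerSeries.coeff_mk, sigmaPZ, phiZ, PowerSeries.coeff_one]
  rcases Nat.eq_zero_or_pos n with rfl | hn
  · simp [sigmaP]
  have h1 : sigmaP p n = ∑ d ∈ n.divisors, (d : ℤ) -
      (p : ℤ) * (if p ∣ n then ∑ d ∈ (n / p).divisors, (d : ℤ) else 0) := by
    have h2 := Finset.sum_filter_add_sum_filter_not n.divisors (fun d => ¬ p ∣ d)
      (fun d => (d : ℤ))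
    have h3 : ∑ d ∈ n.divisors with ¬ ¬ p ∣ d, (d : ℤ) =
        (p : ℤ) * (if p ∣ n then ∑ d ∈ (n / p).divisors, (d : ℤ) else 0) := by
      split_ifs with h
      · rw [Finset.mul_sum]
        obtain ⟨m, rfl⟩ := h
        rw [Nat.mul_div_cancel_left _ hp.pos]
        symm
        refine Finset.sum_bij (fun d _ => p * d) ?_ ?_ ?_ ?_
        · intro d hd
          rw [Nat.mem_divisors] at hd
          simp only [not_not, Finset.mem_filter, Nat.mem_divisors, dvd_mul_right, and_true]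
          exact ⟨Nat.mul_dvd_mul_left p hd.1, hn.ne'⟩
        · intro a _ b _ h
          exact Nat.eq_of_mul_eq_mul_left hp.pos h
        · intro b hb
          simp only [not_not, Finset.mem_filter, Nat.mem_divisors] at hb
          obtain ⟨⟨h1, h2⟩, ⟨c, rfl⟩⟩ := hb
          refine ⟨c, ?_, rfl⟩
          rw [Nat.mem_divisors]
          exact ⟨Nat.dvd_of_mul_dvd_mul_left hp.pos h1, fun h => by simp [h] at hn⟩
        · intro d _
          push_cast
          ring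
      · rw [mul_zero]
        refine Finset.sum_eq_zero fun d hd => ?_
        simp only [not_not, Finset.mem_filter, Nat.mem_divisors] at hd
        exact absurd (hd.2.trans hd.1.1) h
    rw [h3] at h2
    rw [sigmaP]
    linarith
  rw [if_neg hn.ne']
  have h4 : ¬ (n / p = 0 ∧ p ∣ n) := by
    rintro ⟨h5, m, rfl⟩
    rw [Nat.mul_div_cancel_left _ hp.pos] at h5
    simp [h5] at hn
  rw [h1, if_neg hn.ne']
  split_ifs with h6 h7
  · exact absurd ⟨h7, h6⟩ h4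
  · ring
  · ring

theorem eisFun_qs [Fact p.Prime] : QS (eisFun p) (toC (eisZ p)) := by
  have hp := (Fact.out : p.Prime).ne_zero
  rw [eisZ_eq]
  have h := ((qs_E2.comp_mul hp).smul (p : ℂ)).sub qs_E2
  refine h.congr ?_
  rw [map_sub, map_mul, IsPair.toC_C, toC_vOp, PowerSeries.smul_eq_C_mul]
  push_cast
  rfl

theorem E2_S (τ : ℍ) : EisensteinSeries.E2 (S • τ) =
    (τ : ℂ) ^ 2 * EisensteinSeries.E2 τ -
      (1 / (2 * riemannZeta 2)) * (2 * Real.pi * Complex.I) * τ := by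
  have h := congrFun (EisensteinSeries.E2_slash_action S) τ
  have hτ : (τ : ℂ) ≠ 0 := ne_zero τ
  rw [slash_S_apply, Pi.sub_apply, Pi.smul_apply, EisensteinSeries.D2_S, smul_eq_mul] at h
  have h2 : EisensteinSeries.E2 (S • τ) = (EisensteinSeries.E2 (S • τ) * (τ : ℂ) ^ (-2 : ℤ)) *
      (τ : ℂ) ^ 2 := by
    rw [zpow_neg, mul_assoc]
    have : ((τ : ℂ) ^ (2 : ℤ))⁻¹ * (τ : ℂ) ^ 2 = 1 := by
      norm_cast
      exact inv_mul_cancel₀ (pow_ne_zero 2 hτ)
    rw [this, mul_one]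
  rw [h2, h]
  field_simp

theorem heckeDiag_wPt [NeZero p] (τ : ℍ) : ModularForm.heckeDiagMatrix p • (wPt p τ) = S • τ := by
  have hp : (p : ℂ) ≠ 0 := by exact_mod_cast NeZero.ne p
  have hτ : (τ : ℂ) ≠ 0 := ne_zero τ
  apply UpperHalfPlane.ext
  have h : ((S • τ : ℍ) : ℂ) = (-(τ : ℂ))⁻¹ := by
    rw [UpperHalfPlane.modular_S_smul]
  rw [ModularForm.coe_heckeDiagMatrix_smul (NeZero.ne p), coe_wPt, h]
  field_simp

theorem flatFun_eisFun [NeZero p] : flatFun p 1 (eisFun p) = -eisFun p := by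
  ext τ
  have hp : (p : ℂ) ≠ 0 := by exact_mod_cast NeZero.ne p
  have hτ : (τ : ℂ) ≠ 0 := ne_zero τ
  rw [flatFun_apply, eisFun, heckeDiag_wPt, E2_S, wPt, E2_S,
    ModularForm.coe_heckeDiagMatrix_smul (NeZero.ne p), Pi.neg_apply, eisFun]
  have h2 : ((p : ℂ) * τ) ^ (-(2 * ((1 : ℕ) : ℤ))) = (((p : ℂ) * τ) ^ 2)⁻¹ := by
    rw [zpow_neg]
    norm_cast
  rw [h2]
  field_simp
  ring

theorem sub_slash_GL (k : ℤ) (g : GL (Fin 2) ℝ) (f₁ f₂ : ℍ → ℂ) :
    (f₁ - f₂) ∣[k] g = f₁ ∣[k] g - f₂ ∣[k] g := by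
  rw [sub_eq_add_neg, SlashAction.add_slash, SlashAction.neg_slash, ← sub_eq_add_neg]

theorem sub_slash_SL (k : ℤ) (g : SL(2, ℤ)) (f₁ f₂ : ℍ → ℂ) :
    (f₁ - f₂) ∣[k] g = f₁ ∣[k] g - f₂ ∣[k] g := by
  rw [sub_eq_add_neg, SlashAction.add_slash, SlashAction.neg_slash, ← sub_eq_add_neg]

theorem E2_mdiff_comp (hp : p ≠ 0) : MDiff (fun τ : ℍ =>
    EisensteinSeries.E2 (ModularForm.heckeDiagMatrix p • τ)) := by
  have h1 : (fun τ : ℍ => EisensteinSeries.E2 (ModularForm.heckeDiagMatrix p • τ)) =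
      EisensteinSeries.E2 ∣[(1 : ℤ)] (ModularForm.heckeDiagMatrix p) := by
    ext τ
    rw [ModularForm.slash_heckeDiagMatrix_apply _ hp]
    simp
  rw [h1]
  exact E2_mdifferentiable.slash _ _

theorem eisFun_slash [NeZero p] (γ : SL(2, ℤ)) (hγ : γ ∈ Gamma0 p) :
    eisFun p ∣[(2 : ℤ)] γ = eisFun p := by
  have hp : (p : ℂ) ≠ 0 := by exact_mod_cast NeZero.ne p
  have hp' : (p : ℝ) ≠ 0 := by exact_mod_cast NeZero.ne p
  rw [Gamma0_mem] at hγ
  obtain ⟨c, hc⟩ := (ZMod.intCast_zmod_eq_zero_iff_dvd _ p).mp hγ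
  have h1 : eisFun p = EisensteinSeries.E2 ∣[(2 : ℤ)] (ModularForm.heckeDiagMatrix p) -
      EisensteinSeries.E2 := by
    ext τ
    rw [Pi.sub_apply, ModularForm.slash_heckeDiagMatrix_apply _ (NeZero.ne p), eisFun]
    norm_num
  have h2 : (EisensteinSeries.E2 ∣[(2 : ℤ)] (ModularForm.heckeDiagMatrix p)) ∣[(2 : ℤ)] γ =
      EisensteinSeries.E2 ∣[(2 : ℤ)] (ModularForm.heckeDiagMatrix p) -
        (1 / (2 * riemannZeta 2)) • EisensteinSeries.D2 γ := by
    have h := IntStr.heckeDiag_mul p γ c hc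
    have h' : ModularForm.heckeDiagMatrix p * (γ : GL (Fin 2) ℝ) =
      ((IntStr.conjSL p γ c hc : SL(2, ℤ)) : GL (Fin 2) ℝ) * ModularForm.heckeDiagMatrix p := h
    rw [ModularForm.SL_slash, ← SlashAction.slash_mul, h', SlashAction.slash_mul,
      ← ModularForm.SL_slash, EisensteinSeries.E2_slash_action, sub_slash_GL]
    congr 1
    ext τ
    rw [ModularForm.slash_heckeDiagMatrix_apply _ (NeZero.ne p), Pi.smul_apply, Pi.smul_apply,
      EisensteinSeries.D2, EisensteinSeries.D2, ModularGroup.denom_apply,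
      ModularGroup.denom_apply, ModularForm.coe_heckeDiagMatrix_smul (NeZero.ne p), hc]
    have e10 : (IntStr.conjSL p γ c hc : SL(2, ℤ)) 1 0 = c := by simp [IntStr.conjSL]
    have e11 : (IntStr.conjSL p γ c hc : SL(2, ℤ)) 1 1 = γ 1 1 := by simp [IntStr.conjSL]
    rw [e10, e11]
    push_cast
    norm_num
    ring_nf
  rw [h1, sub_slash_SL, h2, EisensteinSeries.E2_slash_action]
  abel

theorem isG0_eisFun [Fact p.Prime] : IsG0 p 2 (eisFun p) := by
  have : NeZero p := ⟨(Fact.out : p.Prime).ne_zero⟩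
  refine ⟨mkGamma0 _ (eisFun p) eisFun_slash ?_ eisFun_qs.isBoundedAtImInfty ?_, rfl⟩
  · exact ((E2_mdiff_comp (NeZero.ne p)).const_smul (p : ℂ)).sub E2_mdifferentiable
  · refine bdd_slash_S_of_flat (p := p) (j := 1) ?_
    rw [flatFun_eisFun]
    exact (eisFun_qs.neg).isBoundedAtImInfty

/-- The Eisenstein pair. -/
theorem isPair_eis [Fact p.Prime] : IsPair p 1 (eisZ p) (-eisZ p) := by
  have : NeZero p := ⟨(Fact.out : p.Prime).ne_zero⟩
  refine isPair_iff.mpr ⟨eisFun p, isG0_eisFun, eisFun_qs, ?_⟩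
  rw [flatFun_eisFun, map_neg]
  exact eisFun_qs.neg

end Fermat.Agent.Eis
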