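import Fermat.Agent.S16.Pair3

/-!
# `Δ` and `Δ^p / Δ_p`
-/

set_option autoImplicit false
set_option linter.unusedSimpArgs false
set_option linter.unusedVariables false

open UpperHalfPlane MatrixGroups CongruenceSubgroup ModularGroup
  Matrix.SpecialLinearGroup Filter Topology

open scoped ModularForm Manifold

noncomputable section

namespace Fermat.Agent.Eis

local notation "𝕢" => Function.Periodic.qParam

variable {p : ℕ}

theorem vOp_eq_expand (hp : p ≠ 0) (A : PowerSeries ℤ) : vOp p A = PowerSeries.expand p hp A := by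
  ext n
  rw [vOp, PowerSeries.coeff_mk, PowerSeries.coeff_expand]

theorem vOpC_eq_expand (hp : p ≠ 0) (A : PowerSeries ℂ) : vOpC p A = PowerSeries.expand p hp A := by
  ext n
  rw [vOpC, PowerSeries.coeff_mk, PowerSeries.coeff_expand]

theorem vOp_mul (hp : p ≠ 0) (A B : PowerSeries ℤ) : vOp p (A * B) = vOp p A * vOp p B := by
  simp [vOp_eq_expand hp]

theorem vOp_pow (hp : p ≠ 0) (A : PowerSeries ℤ) (n : ℕ) : vOp p (A ^ n) = vOp p A ^ n := by
  simp [vOp_eq_expand hp]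

theorem vOp_one (hp : p ≠ 0) : vOp p 1 = 1 := by
  simp [vOp_eq_expand hp]

theorem vOp_X (hp : p ≠ 0) : vOp p PowerSeries.X = PowerSeries.X ^ p := by
  simp [vOp_eq_expand hp]

local notation "Δ" => ModularForm.discriminant

theorem qs_discriminant : QS Δ (toC deltaZ) := by
  have h1 := qs_of_modularForm CuspForm.discriminant one_mem_strictPeriods_SL
  have h2 : qExpansion 1 CuspForm.discriminant = toC deltaZ := hasQ_iff.mp hasQ_discriminant
  rw [h2] at h1
  exact h1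

theorem isL1_discriminant : IntStr.IsL1 (2 * ((6 : ℕ) : ℤ)) Δ :=
  ⟨(CuspForm.discriminant : ModularForm 𝒮ℒ 12), rfl⟩

/-- the pair of `Δ`. -/
theorem isPair_delta [Fact p.Prime] :
    IsPair p 6 deltaZ (PowerSeries.C ((p : ℤ) ^ 6) * vOp p deltaZ) :=
  isPair_of_isL1 isL1_discriminant qs_discriminant

/-- `Δ(pτ)` -/
def deltaP (p : ℕ) : ℍ → ℂ := fun τ => Δ (ModularForm.heckeDiagMatrix p • τ)

theorem deltaP_ne_zero (τ : ℍ) : deltaP p τ ≠ 0 := ModularForm.discriminant_ne_zero _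

theorem flatFun_discriminant : flatFun p 6 Δ = ((p : ℂ) ^ 6) • deltaP p :=
  flatFun_of_isL1 isL1_discriminant

theorem flatFun_deltaP [NeZero p] : ((p : ℂ) ^ 6) • flatFun p 6 (deltaP p) = Δ := by
  rw [← flatFun_smul, ← flatFun_discriminant, flatFun_flatFun]

theorem isG0_discriminant : IsG0 p (2 * ((6 : ℕ) : ℤ)) Δ := IsL1.isG0 isL1_discriminant

theorem isG0_deltaP [Fact p.Prime] : IsG0 p (2 * ((6 : ℕ) : ℤ)) (deltaP p) := by
  have : NeZero p := ⟨(Fact.out : p.Prime).ne_zero⟩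
  have hp : (p : ℂ) ≠ 0 := by exact_mod_cast NeZero.ne p
  have h := (isG0_discriminant (p := p)).flat.smul ((p : ℂ) ^ 6)⁻¹
  rw [flatFun_discriminant, smul_smul, inv_mul_cancel₀ (pow_ne_zero _ hp), one_smul] at h
  exact h

/-- `Δ(τ)^p / Δ(pτ)` -/
def phiFun (p : ℕ) : ℍ → ℂ := fun τ => Δ τ ^ p / deltaP p τ

theorem phiFun_mul : phiFun p * deltaP p = Δ ^ p := by
  ext τ
  rw [Pi.mul_apply, Pi.pow_apply, phiFun, div_mul_cancel₀ _ (deltaP_ne_zero τ)]

theorem IsG0.pow {j : ℕ} {f : ℍ → ℂ} (hf : IsG0 p (2 * (j : ℤ)) f) (n : ℕ) :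
    IsG0 p (2 * ((n * j : ℕ) : ℤ)) (f ^ n) := by
  induction n with
  | zero =>
    rw [pow_zero]
    exact (IsG0.const 1).cast (by simp)
  | succ n ih =>
    rw [pow_succ]
    exact (ih.mul hf).cast (by push_cast; ring)

theorem phiFun_slash_of {k : ℤ} {f g h : ℍ → ℂ} (l : ℤ) (γ : SL(2, ℤ)) (hfg : f * g = h)
    (hg : g ∣[k] γ = g) (hh : h ∣[k + l] γ = h) (h0 : ∀ τ, g τ ≠ 0) : f ∣[l] γ = f := by
  have h1 := ModularForm.mul_slash_SL2 k l γ g f
  have h2 : g * f = h := by rw [mul_comm, hfg]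
  rw [h2, hh, hg] at h1
  ext τ
  have h3 := congrFun h1 τ
  have h4 := congrFun hfg τ
  rw [Pi.mul_apply] at h3 h4
  exact mul_left_cancel₀ (h0 τ) (by rw [← h3, ← h4, mul_comm])

theorem phiFun_slash [Fact p.Prime] (γ : SL(2, ℤ)) (hγ : γ ∈ Gamma0 p) :
    phiFun p ∣[(2 * ((6 * (p - 1) : ℕ) : ℤ))] γ = phiFun p := by
  have hp := (Fact.out : p.Prime).one_le
  refine phiFun_slash_of (k := 2 * ((6 : ℕ) : ℤ)) _ γ phiFun_mul (isG0_deltaP.slash γ hγ) ?_
    deltaP_ne_zero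
  have h := (isG0_discriminant (p := p).pow p).slash γ hγ
  have e : (2 * ((p * 6 : ℕ) : ℤ)) = 2 * ((6 : ℕ) : ℤ) + 2 * ((6 * (p - 1) : ℕ) : ℤ) := by
    push_cast [Nat.cast_sub hp]
    ring
  rwa [e] at h

theorem phiFun_mdiff [Fact p.Prime] : MDiff (phiFun p) :=
  MDifferentiable.div (isG0_discriminant (p := p).pow p).mdiff isG0_deltaP.mdiff deltaP_ne_zero

/-- `Δ(τ)/q → 1` -/
theorem tendsto_disc_div_q : Tendsto (fun τ : ℍ => Δ τ / 𝕢 1 τ) atImInfty (𝓝 1) := by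
  have h := qs_discriminant.div_q.tendsto
  have h0 : (toC deltaZ).coeff 0 = 0 := by rw [coeff_toC, coeff_zero_deltaZ, Int.cast_zero]
  have h1 : (toC deltaZ).coeff 1 = 1 := by
    rw [coeff_toC, deltaZ, ← zero_add 1, PowerSeries.coeff_succ_X_mul,
      PowerSeries.coeff_zero_eq_constantCoeff, ModularCurve.constantCoeff_dedekindEtaUnit,
      Int.cast_one]
  rw [PowerSeries.coeff_mk, zero_add, h1] at h
  refine h.congr fun τ => ?_
  rw [h0, sub_zero]

theorem tendsto_heckeDiag [NeZero p] :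
    Tendsto (fun τ : ℍ => ModularForm.heckeDiagMatrix p • τ) atImInfty atImInfty :=
  tendsto_smul_atImInfty (by rw [ModularForm.val_heckeDiagMatrix (NeZero.ne p)]; simp)

theorem tendsto_deltaP_div_q [NeZero p] :
    Tendsto (fun τ : ℍ => deltaP p τ / 𝕢 1 τ ^ p) atImInfty (𝓝 1) := by
  refine (tendsto_disc_div_q.comp (tendsto_heckeDiag (p := p))).congr fun τ => ?_
  rw [Function.comp_apply, deltaP]
  congr 1
  rw [ModularForm.coe_heckeDiagMatrix_smul (NeZero.ne p), Function.Periodic.qParam,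
    Function.Periodic.qParam, ← Complex.exp_nat_mul]
  congr 1
  ring

theorem phiFun_bdd [NeZero p] : IsBoundedAtImInfty (phiFun p) := by
  have h := (tendsto_disc_div_q.pow p).div (tendsto_deltaP_div_q (p := p))
    (by simp : (1 : ℂ) ≠ 0)
  have h2 : Tendsto (phiFun p) atImInfty (𝓝 (1 ^ p / 1)) := by
    refine h.congr fun τ => ?_
    have h3 : 𝕢 1 (τ : ℂ) ^ p ≠ 0 := pow_ne_zero _ (qParam_ne_zero' τ)
    rw [Pi.div_apply, phiFun, div_pow]
    field_simp
  exact h2.isBigO_one ℝ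

theorem flatFun_phiFun [Fact p.Prime] : flatFun p (6 * (p - 1)) (phiFun p) =
    fun τ => (p : ℂ) ^ (6 * (p + 1)) * (deltaP p τ ^ p / Δ τ) := by
  have : NeZero p := ⟨(Fact.out : p.Prime).ne_zero⟩
  have hp1 := (Fact.out : p.Prime).one_le
  have hp : (p : ℂ) ≠ 0 := by exact_mod_cast NeZero.ne p
  have h1 := flatFun_mul (p := p) (6 * (p - 1)) 6 (phiFun p) (deltaP p)
  rw [phiFun_mul] at h1
  have h2 : ∀ n : ℕ, flatFun p (n * 6) (Δ ^ n) = (((p : ℂ) ^ 6) • deltaP p) ^ n := by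
    intro n
    induction n with
    | zero =>
      rw [zero_mul, pow_zero, pow_zero]
      exact flatFun_const (p := p) 1
    | succ n ih =>
      rw [pow_succ (Δ : ℍ → ℂ) n, add_mul, one_mul, flatFun_mul, ih, flatFun_discriminant,
        ← pow_succ]
  have e : 6 * (p - 1) + 6 = p * 6 := by omega
  rw [e, h2] at h1
  ext τ
  have h3 := congrFun h1 τ
  have h4 := congrFun (flatFun_deltaP (p := p)) τ
  simp only [Pi.mul_apply, Pi.pow_apply, Pi.smul_apply, smul_eq_mul] at h3 h4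
  have hΔ : Δ τ ≠ 0 := ModularForm.discriminant_ne_zero τ
  have hp6 : (p : ℂ) ^ 6 ≠ 0 := pow_ne_zero _ hp
  have h5 : flatFun p (6 * (p - 1)) (phiFun p) τ * Δ τ =
      (p : ℂ) ^ 6 * ((p : ℂ) ^ 6 * deltaP p τ) ^ p := by
    rw [← h4, h3]
    ring
  rw [mul_div_assoc', eq_div_iff hΔ, h5, mul_pow, ← mul_assoc, ← pow_mul, ← pow_add]
  congr 2
  ring

theorem phiFun_slash_S_bdd [Fact p.Prime] :
    IsBoundedAtImInfty (phiFun p ∣[(2 * ((6 * (p - 1) : ℕ) : ℤ))] S) := by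
  have : NeZero p := ⟨(Fact.out : p.Prime).ne_zero⟩
  have hp2 := (Fact.out : p.Prime).two_le
  refine bdd_slash_S_of_flat (p := p) ?_
  rw [flatFun_phiFun]
  have h := (tendsto_deltaP_div_q (p := p).pow p).div tendsto_disc_div_q (by simp : (1 : ℂ) ≠ 0)
  have hq : Tendsto (fun τ : ℍ => 𝕢 1 τ) atImInfty (𝓝 0) := qParam_tendsto_atImInfty one_pos
  have h1 := (h.mul (hq.pow (p * p - 1))).const_mul ((p : ℂ) ^ (6 * (p + 1)))
  have h2 : Tendsto (fun τ => (p : ℂ) ^ (6 * (p + 1)) * (deltaP p τ ^ p / Δ τ)) atImInfty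
      (𝓝 ((p : ℂ) ^ (6 * (p + 1)) * (1 ^ p / 1 * 0 ^ (p * p - 1)))) := by
    refine h1.congr fun τ => ?_
    have h3 : 𝕢 1 (τ : ℂ) ≠ 0 := qParam_ne_zero' τ
    have hΔ : Δ τ ≠ 0 := ModularForm.discriminant_ne_zero τ
    rw [Pi.div_apply, div_pow, ← pow_mul]
    have e : p * p = (p * p - 1) + 1 := by
      have : 1 ≤ p * p := by nlinarith
      omega
    have h5 : 𝕢 1 (τ : ℂ) ^ (p * p) = 𝕢 1 (τ : ℂ) ^ (p * p - 1) * 𝕢 1 (τ : ℂ) := by
      conv_lhs => rw [e, pow_succ]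
    rw [h5]
    field_simp
  exact h2.isBigO_one ℝ

theorem isG0_phiFun [Fact p.Prime] : IsG0 p (2 * ((6 * (p - 1) : ℕ) : ℤ)) (phiFun p) := by
  have : NeZero p := ⟨(Fact.out : p.Prime).ne_zero⟩
  exact ⟨mkGamma0 _ (phiFun p) phiFun_slash phiFun_mdiff phiFun_bdd phiFun_slash_S_bdd, rfl⟩

/-- the expansion of `Δ^p / Δ_p` -/
def phiA (p : ℕ) : PowerSeries ℤ :=
  ModularCurve.dedekindEtaUnit ^ p * vOp p ModularCurve.dedekindEtaUnitInv

/-- the expansion of `(Δ^p / Δ_p)♭` -/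
def phiB (p : ℕ) : PowerSeries ℤ :=
  PowerSeries.C ((p : ℤ) ^ (6 * (p + 1))) * (PowerSeries.X ^ (p * p - 1) *
    (vOp p ModularCurve.dedekindEtaUnit ^ p * ModularCurve.dedekindEtaUnitInv))

theorem phiA_mul (hp : p ≠ 0) : phiA p * vOp p deltaZ = deltaZ ^ p := by
  have h : vOp p ModularCurve.dedekindEtaUnit * vOp p ModularCurve.dedekindEtaUnitInv = 1 := by
    rw [← vOp_mul hp, ModularCurve.dedekindEtaUnit_mul_inv, vOp_one hp]
  rw [phiA, deltaZ, vOp_mul hp, vOp_X hp, mul_pow]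
  calc _ = PowerSeries.X ^ p * ModularCurve.dedekindEtaUnit ^ p *
      (vOp p ModularCurve.dedekindEtaUnit * vOp p ModularCurve.dedekindEtaUnitInv) := by ring
    _ = _ := by rw [h, mul_one]

theorem phiB_mul (hp : 1 ≤ p) : phiB p * deltaZ =
    PowerSeries.C ((p : ℤ) ^ (6 * (p + 1))) * vOp p deltaZ ^ p := by
  have hp' : p ≠ 0 := by omega
  have e : PowerSeries.X ^ (p * p - 1) * PowerSeries.X =
      (PowerSeries.X ^ (p * p) : PowerSeries ℤ) := by
    rw [← pow_succ]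
    congr 1
    have : 1 ≤ p * p := by nlinarith
    omega
  rw [phiB, deltaZ, vOp_mul hp', vOp_X hp', mul_pow, ← pow_mul, ← e]
  calc _ = PowerSeries.C ((p : ℤ) ^ (6 * (p + 1))) *
      (PowerSeries.X ^ (p * p - 1) * PowerSeries.X * vOp p ModularCurve.dedekindEtaUnit ^ p) *
      (ModularCurve.dedekindEtaUnit * ModularCurve.dedekindEtaUnitInv) := by ring
    _ = _ := by rw [ModularCurve.dedekindEtaUnit_mul_inv]; ring

theorem IsG0.qs_unique [NeZero p] {k : ℤ} {f : ℍ → ℂ} (hf : IsG0 p k f) {P R : PowerSeries ℂ}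
    (hP : QS f P) (hR : QS f R) : P = R := by
  rw [← hf.qExpansion_eq hP, ← hf.qExpansion_eq hR]

theorem qs_deltaP (hp : p ≠ 0) : QS (deltaP p) (toC (vOp p deltaZ)) := by
  rw [toC_vOp]
  exact qs_discriminant.comp_mul hp

theorem vOp_deltaZ_ne_zero (hp : p ≠ 0) : vOp p deltaZ ≠ 0 := by
  intro h
  have h1 := congrArg (PowerSeries.coeff (p * 1)) h
  rw [vOp_eq_expand hp, PowerSeries.coeff_expand_mul] at h1
  have h2 : deltaZ.coeff 1 = 1 := by
    rw [deltaZ, ← zero_add 1, PowerSeries.coeff_succ_X_mul,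
      PowerSeries.coeff_zero_eq_constantCoeff, ModularCurve.constantCoeff_dedekindEtaUnit]
  rw [h2] at h1
  simp at h1

theorem deltaZ_ne_zero : deltaZ ≠ 0 := by
  intro h
  have h2 : deltaZ.coeff 1 = 1 := by
    rw [deltaZ, ← zero_add 1, PowerSeries.coeff_succ_X_mul,
      PowerSeries.coeff_zero_eq_constantCoeff, ModularCurve.constantCoeff_dedekindEtaUnit]
  rw [h] at h2
  simp at h2

/-- the pair of `Δ^p / Δ_p`, of weight `12 (p - 1)`. -/
theorem isPair_phi [Fact p.Prime] : IsPair p (6 * (p - 1)) (phiA p) (phiB p) := by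
  have : NeZero p := ⟨(Fact.out : p.Prime).ne_zero⟩
  have hp0 : p ≠ 0 := NeZero.ne p
  have hp : (p : ℂ) ≠ 0 := by exact_mod_cast NeZero.ne p
  have hf := isG0_phiFun (p := p)
  refine isPair_iff.mpr ⟨phiFun p, hf, ?_, ?_⟩
  · have h1 := hf.qs.mul (qs_deltaP hp0)
    rw [phiFun_mul] at h1
    have h2 := (isG0_discriminant (p := p).pow p).qs_unique h1 (qs_discriminant.pow p)
    rw [← map_pow, ← phiA_mul hp0, map_mul] at h2
    have h3 : toC (vOp p deltaZ) ≠ 0 := fun h => vOp_deltaZ_ne_zero hp0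
      (toC_injective (by rw [h, map_zero]))
    rw [← mul_right_cancel₀ h3 h2]
    exact hf.qs
  · have h1 := hf.flat.qs.mul qs_discriminant
    have h2 : flatFun p (6 * (p - 1)) (phiFun p) * Δ =
        ((p : ℂ) ^ (6 * (p + 1))) • (deltaP p) ^ p := by
      rw [flatFun_phiFun]
      ext τ
      have hΔ : Δ τ ≠ 0 := ModularForm.discriminant_ne_zero τ
      simp only [Pi.mul_apply, Pi.smul_apply, Pi.pow_apply, smul_eq_mul]
      field_simp
    rw [h2] at h1
    have h3 := ((isG0_deltaP (p := p).pow p).smul ((p : ℂ) ^ (6 * (p + 1)))).qs_unique h1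
      (((qs_deltaP hp0).pow p).smul _)
    have h4 : ((p : ℂ) ^ (6 * (p + 1))) • (toC (vOp p deltaZ)) ^ p =
        toC (phiB p * deltaZ) := by
      rw [phiB_mul (Nat.pos_of_ne_zero hp0), map_mul, IsPair.toC_C, map_pow,
        PowerSeries.smul_eq_C_mul]
      push_cast
      rfl
    rw [h4, map_mul] at h3
    have h5 : toC deltaZ ≠ 0 := fun h => deltaZ_ne_zero (toC_injective (by rw [h, map_zero]))
    rw [← mul_right_cancel₀ h5 h3]
    exact hf.flat.qs

end Fermat.Agent.Eis
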