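import Fermat.Agent.S16.Gamma0Tools
import Fermat.Prelude.Def_ModularForm_HeckeOperatorForms
import Fermat.Prelude.Thm_ModularFormClass_qCoeff_heckeU
import Fermat.Prelude.Thm_CongruenceSubgroup_one_mem_strictPeriods_Gamma0

/-!
# Convergent `q`-series on the upper half plane

`QS f P`: `f τ = Σ P_m q^m` for all `τ ∈ ℍ`.
-/

set_option autoImplicit false
set_option linter.unusedSimpArgs false
set_option linter.unusedVariables false

open UpperHalfPlane MatrixGroups CongruenceSubgroup ModularGroup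
  Matrix.SpecialLinearGroup

open scoped ModularForm Manifold

noncomputable section

namespace Fermat.Agent.Eis

local notation "𝕢" => Function.Periodic.qParam

/-- `f τ = Σ P_m q^m` for all `τ`. -/
def QS (f : ℍ → ℂ) (P : PowerSeries ℂ) : Prop :=
  ∀ τ : ℍ, HasSum (fun m : ℕ => P.coeff m * 𝕢 1 τ ^ m) (f τ)

namespace QS

variable {f g : ℍ → ℂ} {P R : PowerSeries ℂ}

theorem add (hf : QS f P) (hg : QS g R) : QS (f + g) (P + R) := fun τ => by
  simpa [add_mul] using (hf τ).add (hg τ)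

theorem sub (hf : QS f P) (hg : QS g R) : QS (f - g) (P - R) := fun τ => by
  simpa [sub_mul] using (hf τ).sub (hg τ)

theorem neg (hf : QS f P) : QS (-f) (-P) := fun τ => by
  simpa using (hf τ).neg

theorem smul (c : ℂ) (hf : QS f P) : QS (c • f) (c • P) := fun τ => by
  simpa [mul_assoc] using (hf τ).mul_left c

theorem zero : QS 0 0 := fun τ => by
  simp [hasSum_zero]

theorem C (c : ℂ) : QS (fun _ => c) (PowerSeries.C c) := fun τ => by
  have : (fun m : ℕ => (PowerSeries.C c : PowerSeries ℂ).coeff m * 𝕢 1 τ ^ m) =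
      fun m => if m = 0 then c else 0 := by
    ext m
    rw [PowerSeries.coeff_C]
    split_ifs with h
    · simp [h]
    · simp
  rw [this]
  exact hasSum_ite_eq 0 c

theorem sum {ι : Type*} (s : Finset ι) (f : ι → ℍ → ℂ) (P : ι → PowerSeries ℂ)
    (h : ∀ i ∈ s, QS (f i) (P i)) : QS (∑ i ∈ s, f i) (∑ i ∈ s, P i) := by
  classical
  induction s using Finset.induction_on with
  | empty => simpa using zero
  | insert i s hi ih =>
    rw [Finset.sum_insert hi, Finset.sum_insert hi]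
    exact (h i (by simp)).add (ih fun j hj => h j (by simp [hj]))

theorem summable_norm (hf : QS f P) (τ : ℍ) :
    Summable (fun m : ℕ => ‖P.coeff m * 𝕢 1 τ ^ m‖) := (hf τ).summable.norm

theorem mul (hf : QS f P) (hg : QS g R) : QS (f * g) (P * R) := fun τ => by
  have h1 := hf.summable_norm τ
  have h2 := hg.summable_norm τ
  have h3 := tsum_mul_tsum_eq_tsum_sum_antidiagonal_of_summable_norm h1 h2
  have h4 := (summable_norm_sum_mul_antidiagonal_of_summable_norm h1 h2).of_norm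
  rw [(hf τ).tsum_eq, (hg τ).tsum_eq] at h3
  have h5 : (fun n : ℕ => ∑ kl ∈ Finset.HasAntidiagonal.antidiagonal n,
      (P.coeff kl.1 * 𝕢 1 τ ^ kl.1) * (R.coeff kl.2 * 𝕢 1 τ ^ kl.2)) =
      fun n => (P * R).coeff n * 𝕢 1 τ ^ n := by
    ext n
    rw [PowerSeries.coeff_mul, Finset.sum_mul]
    refine Finset.sum_congr rfl fun x hx => ?_
    rw [← Finset.HasAntidiagonal.mem_antidiagonal.mp hx, pow_add]
    ring
  rw [h5] at h3 h4
  rw [Pi.mul_apply, h3]
  exact h4.hasSum

theorem pow (hf : QS f P) (n : ℕ) : QS (f ^ n) (P ^ n) := by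
  induction n with
  | zero =>
    have := C 1
    rw [map_one] at this
    rw [pow_zero, pow_zero]
    exact this
  | succ n ih => rw [pow_succ, pow_succ]; exact ih.mul hf

theorem isBoundedAtImInfty (hf : QS f P) : IsBoundedAtImInfty f :=
  isBoundedAtImInfty_of_hasSum_qExpansion (c := fun m => P.coeff m) one_pos hf

theorem congr (hf : QS f P) (h : P = R) : QS f R := h ▸ hf

theorem mk_iff (c : ℕ → ℂ) : QS f (PowerSeries.mk c) ↔
    ∀ τ : ℍ, HasSum (fun m : ℕ => c m * 𝕢 1 τ ^ m) (f τ) := by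
  simp [QS]

end QS

theorem qs_of_modularForm {F : Type*} [FunLike F ℍ ℂ] {Γ : Subgroup (GL (Fin 2) ℝ)} {k : ℤ}
    [ModularFormClass F Γ k] [Fact (IsCusp OnePoint.infty Γ)] (f : F)
    (hΓ : (1 : ℝ) ∈ Γ.strictPeriods) : QS f (qExpansion 1 f) := fun τ => by
  have := ModularForm.hasSum_qExpansion f one_pos hΓ τ
  exact this

theorem QS.qExpansion_eq {F : Type*} [FunLike F ℍ ℂ] {Γ : Subgroup (GL (Fin 2) ℝ)} {k : ℤ}
    [ModularFormClass F Γ k] {f : F} (hΓ : (1 : ℝ) ∈ Γ.strictPeriods) {P : PowerSeries ℂ}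
    (h : QS f P) : qExpansion 1 f = P := by
  ext m
  refine (ModularFormClass.qExpansion_coeff_unique (f := f) (c := fun m => P.coeff m) one_pos hΓ
    ?_ m).symm
  exact h

/-- `q ↦ q^m` on complex power series -/
def vOpC (m : ℕ) (P : PowerSeries ℂ) : PowerSeries ℂ :=
  PowerSeries.mk fun n => if m ∣ n then P.coeff (n / m) else 0

/-- `θ = q d/dq` on complex power series -/
def thetaOpC (P : PowerSeries ℂ) : PowerSeries ℂ := PowerSeries.mk fun n => (n : ℂ) * P.coeff n

/-- `U_m` on complex power series -/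
def uOpC (m : ℕ) (P : PowerSeries ℂ) : PowerSeries ℂ := PowerSeries.mk fun n => P.coeff (n * m)

theorem QS.comp_mul {f : ℍ → ℂ} {P : PowerSeries ℂ} (hf : QS f P) {p : ℕ} (hp : p ≠ 0) :
    QS (fun τ => f (ModularForm.heckeDiagMatrix p • τ)) (vOpC p P) := fun τ => by
  have hinj : Function.Injective (fun m : ℕ => p * m) := fun a b h =>
    Nat.eq_of_mul_eq_mul_left (Nat.pos_of_ne_zero hp) h
  rw [← hinj.hasSum_iff]
  · have h := hf (ModularForm.heckeDiagMatrix p • τ)
    convert h using 2 with m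
    simp only [Function.comp_apply, vOpC, PowerSeries.coeff_mk, dvd_mul_right, if_true,
      Nat.mul_div_cancel_left _ (Nat.pos_of_ne_zero hp)]
    congr 1
    rw [ModularForm.coe_heckeDiagMatrix_smul hp, pow_mul]
    congr 1
    simp only [Function.Periodic.qParam, ← Complex.exp_nat_mul]
    congr 1
    ring
  · intro x hx
    have : ¬ p ∣ x := fun ⟨m, hm⟩ => hx ⟨m, hm.symm⟩
    simp [vOpC, this]

open Derivative in
theorem QS.deriv {f : ℍ → ℂ} {P : PowerSeries ℂ} (hf : QS f P) :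
    QS (normalizedDerivOfComplex f) (thetaOpC P) := fun τ => by
  -- work on the half plane `im > im τ / 2`
  set y : ℝ := τ.im / 2 with hy
  have hy0 : 0 < y := half_pos τ.im_pos
  set U : Set ℂ := {z | y < z.im} with hU
  have hUo : IsOpen U := isOpen_lt continuous_const Complex.continuous_im
  have hτU : (τ : ℂ) ∈ U := by
    change τ.im / 2 < τ.im
    linarith [τ.im_pos]
  let F : ℕ → ℂ → ℂ := fun m z => P.coeff m * 𝕢 1 z ^ m
  let τ₀ : ℍ := ⟨Complex.I * y, by simpa using hy0⟩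
  have hu : Summable (fun m : ℕ => ‖P.coeff m * 𝕢 1 τ₀ ^ m‖) := hf.summable_norm τ₀
  have hdiffq : Differentiable ℂ (fun z : ℂ => 𝕢 1 z) := by
    unfold Function.Periodic.qParam
    fun_prop
  have hF : ∀ m, DifferentiableOn ℂ (F m) U := fun m =>
    ((hdiffq.pow m).const_mul _).differentiableOn
  have hle : ∀ (m : ℕ) (w : ℂ), w ∈ U → ‖F m w‖ ≤ ‖P.coeff m * 𝕢 1 τ₀ ^ m‖ := by
    intro m w hw
    simp only [F, norm_mul, norm_pow]
    refine mul_le_mul_of_nonneg_left (pow_le_pow_left₀ (norm_nonneg _) ?_ m) (norm_nonneg _)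
    rw [Function.Periodic.norm_qParam, Function.Periodic.norm_qParam]
    refine Real.exp_le_exp.mpr ?_
    have h1 : (τ₀ : ℂ).im = y := by simp [τ₀]
    rw [h1]
    have h2 : y < w.im := hw
    have := Real.pi_pos
    simp only [div_one]
    nlinarith
  have key := Complex.hasSum_deriv_of_summable_norm hu hF hUo hle hτU
  have heq : _root_.deriv (fun w : ℂ => ∑' i : ℕ, F i w) (τ : ℂ) =
      _root_.deriv (f ∘ ofComplex) (τ : ℂ) := by
    refine Filter.EventuallyEq.deriv_eq ?_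
    filter_upwards [hUo.mem_nhds hτU] with w hw
    have hw0 : 0 < w.im := lt_trans hy0 hw
    have := hf ⟨w, hw0⟩
    rw [Function.comp_apply, ofComplex_apply_of_im_pos hw0]
    exact this.tsum_eq
  rw [heq] at key
  have h2 := key.mul_left ((2 * Real.pi * Complex.I)⁻¹ : ℂ)
  have h7 : (fun m : ℕ => (thetaOpC P).coeff m * 𝕢 1 (τ : ℂ) ^ m) =
      fun m : ℕ => (2 * Real.pi * Complex.I)⁻¹ * _root_.deriv (F m) (τ : ℂ) := ?_
  · rw [h7]
    exact h2
  ext m
  simp only [thetaOpC, PowerSeries.coeff_mk, F]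
  have h3 : HasDerivAt (fun z : ℂ => 𝕢 1 z) (2 * Real.pi * Complex.I * 𝕢 1 (τ : ℂ)) (τ : ℂ) := by
    have h4 : HasDerivAt (fun z : ℂ => 2 * Real.pi * Complex.I * z / (1 : ℝ))
        (2 * Real.pi * Complex.I) (τ : ℂ) := by
      simpa using (hasDerivAt_id (τ : ℂ)).const_mul (2 * Real.pi * Complex.I)
    exact h4.cexp.congr_deriv (mul_comm _ _)
  rw [((h3.fun_pow m).const_mul (P.coeff m)).deriv]
  rcases Nat.eq_zero_or_pos m with rfl | hm
  · simp
  · have h6 : 𝕢 1 (τ : ℂ) ^ m = 𝕢 1 (τ : ℂ) ^ (m - 1) * 𝕢 1 (τ : ℂ) := by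
      rw [← pow_succ, Nat.sub_add_cancel hm]
    have hpi : (2 * Real.pi * Complex.I : ℂ) ≠ 0 := by simp
    rw [h6]
    calc (m : ℂ) * P.coeff m * (𝕢 1 (τ : ℂ) ^ (m - 1) * 𝕢 1 (τ : ℂ))
        = ((2 * Real.pi * Complex.I)⁻¹ * (2 * Real.pi * Complex.I)) *
          ((m : ℂ) * P.coeff m * (𝕢 1 (τ : ℂ) ^ (m - 1) * 𝕢 1 (τ : ℂ))) := by
          rw [inv_mul_cancel₀ hpi, one_mul]
      _ = _ := by ring

end Fermat.Agent.Eis
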