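import Fermat.Agent.S16.Pair
import Fermat.Agent.S16.Pair2
import Fermat.Agent.S16.NoDelta
import Fermat.Agent.VVMF.Deriv

/-!
# S16: Ramanujan's differential equations, as identities of integral power series

* `twelve_theta_e2Z : 12 θ E₂ = E₂² - E₄`
* `three_theta_e4Z : 3 θ E₄ = E₂ E₄ - E₆`
* `two_theta_e6Z : 2 θ E₆ = E₂ E₆ - E₄²`
* `theta_deltaZ : θ Δ = E₂ Δ`
-/

set_option autoImplicit false

open UpperHalfPlane ModularForm MatrixGroups EisensteinSeries Derivative ModularGroup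

open scoped ModularForm Manifold

noncomputable section

namespace Fermat.Agent.Eis

local notation "𝕢" => Function.Periodic.qParam

theorem QS.unique {f : ℍ → ℂ} {P R : PowerSeries ℂ} (hf : QS f P) (hg : QS f R) : P = R := by
  have h0 : QS ((0 : ModularForm 𝒮ℒ 0) : ℍ → ℂ) (P - R) := by
    intro τ
    have h := (hf τ).sub (hg τ)
    rw [sub_self] at h
    have h2 : (fun m : ℕ => (P - R).coeff m * 𝕢 1 τ ^ m) =
        fun m => P.coeff m * 𝕢 1 τ ^ m - R.coeff m * 𝕢 1 τ ^ m := by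
      ext m
      rw [map_sub, sub_mul]
    rw [h2]
    exact h
  have h1 : QS ((0 : ModularForm 𝒮ℒ 0) : ℍ → ℂ) 0 := QS.zero
  have h2 := QS.qExpansion_eq one_mem_strictPeriods_SL h0
  have h3 := QS.qExpansion_eq one_mem_strictPeriods_SL h1
  exact sub_eq_zero.mp (h2.symm.trans h3)

theorem qs_of_L1 {k : ℤ} (F : ModularForm 𝒮ℒ k) : QS F (qExpansion 1 F) :=
  qs_of_modularForm F one_mem_strictPeriods_SL

theorem qs_E4 : QS E₄ (toC e4Z) := by
  have := qs_of_L1 E₄
  rwa [hasQ_iff.mp hasQ_E₄] at this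

theorem qs_E6 : QS E₆ (toC e6Z) := by
  have := qs_of_L1 E₆
  rwa [hasQ_iff.mp hasQ_E₆] at this

/-- the weight four form `D E₂ - E₂²/12`. -/
def ramFun : ℍ → ℂ := fun τ => normalizedDerivOfComplex E2 τ - E2 τ ^ 2 / 12

theorem ramFun_eq : ramFun = normalizedDerivOfComplex E2 - (12 : ℂ)⁻¹ • (E2 * E2) := by
  ext τ
  simp only [ramFun, Pi.sub_apply, Pi.smul_apply, Pi.mul_apply, smul_eq_mul]
  ring

theorem ramFun_T : ramFun ∣[(4 : ℤ)] T = ramFun := by
  have h := normalizedDerivOfComplex_SL_slash (k := 2) E2_mdifferentiable (γ := T)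
  have hT : E2 ∣[(2 : ℤ)] T = E2 := by
    rw [E2_slash_action, D2_T, smul_zero, sub_zero]
  have h10 : ((T : SL(2, ℤ)) 1 0 : ℤ) = 0 := by simp [T]
  rw [hT] at h
  have h2 : normalizedDerivOfComplex E2 ∣[(4 : ℤ)] T = normalizedDerivOfComplex E2 := by
    ext z
    have h3 := congrFun h z
    simp only [Pi.sub_apply, h10, Int.cast_zero, zero_div, mul_zero, zero_mul, sub_zero] at h3
    exact h3.symm
  have h4 : (E2 * E2) ∣[(4 : ℤ)] T = E2 * E2 := by
    have := ModularForm.mul_slash_SL2 2 2 T E2 E2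
    rw [hT] at this
    exact this
  rw [ramFun_eq, sub_eq_add_neg, SlashAction.add_slash, SlashAction.neg_slash, h2,
    ModularForm.SL_smul_slash, h4]

theorem D_inv (z : ℍ) : normalizedDerivOfComplex (fun w : ℍ => (w : ℂ)⁻¹) z =
    -(2 * Real.pi * Complex.I)⁻¹ * ((z : ℂ) ^ 2)⁻¹ := by
  have hz : (z : ℂ) ≠ 0 := z.ne_zero
  have h1 : ((fun w : ℍ => (w : ℂ)⁻¹) ∘ ofComplex) =ᶠ[nhds (z : ℂ)] fun w => w⁻¹ := by
    filter_upwards [isOpen_upperHalfPlaneSet.mem_nhds z.im_pos] with w hw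
    simp only [Function.comp_apply, ofComplex_apply_of_im_pos hw]
  rw [normalizedDerivOfComplex, h1.deriv_eq, deriv_inv]
  ring

theorem ramFun_S : ramFun ∣[(4 : ℤ)] S = ramFun := by
  have h := normalizedDerivOfComplex_SL_slash (k := 2) E2_mdifferentiable (γ := S)
  have h10 : ((S : SL(2, ℤ)) 1 0 : ℤ) = 1 := by simp [S]
  have hpi : (Real.pi : ℂ) ≠ 0 := by exact_mod_cast Real.pi_ne_zero
  set κ : ℂ := (2 * Real.pi * Complex.I)⁻¹ with hκ
  have hS : E2 ∣[(2 : ℤ)] S = E2 + (12 * κ) • (fun w : ℍ => (w : ℂ)⁻¹) := by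
    rw [E2_slash_action]
    ext z
    have hz : (z : ℂ) ≠ 0 := z.ne_zero
    simp only [Pi.sub_apply, Pi.smul_apply, D2_S, smul_eq_mul, Pi.add_apply, riemannZeta_two, hκ]
    field_simp
    linear_combination (-12 : ℂ) * Complex.I_sq
  have hmd : MDiff (fun w : ℍ => (w : ℂ)⁻¹) := by
    rw [UpperHalfPlane.mdifferentiable_iff]
    refine DifferentiableOn.congr (f := fun w : ℂ => w⁻¹) ?_ ?_
    · intro w hw
      refine (differentiableAt_inv ?_).differentiableWithinAt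
      rintro rfl
      simp at hw
    · intro w hw
      simp only [Function.comp_apply, ofComplex_apply_of_im_pos hw]
  have hD : normalizedDerivOfComplex (E2 ∣[(2 : ℤ)] S) =
      normalizedDerivOfComplex E2 +
        (12 * κ) • normalizedDerivOfComplex (fun w : ℍ => (w : ℂ)⁻¹) := by
    rw [hS, normalizedDerivOfComplex_add _ _ E2_mdifferentiable (hmd.const_smul _),
      normalizedDerivOfComplex_smul _ _ hmd]
  have h4 : (E2 * E2) ∣[(4 : ℤ)] S = (E2 ∣[(2 : ℤ)] S) * (E2 ∣[(2 : ℤ)] S) :=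
    ModularForm.mul_slash_SL2 2 2 S E2 E2
  rw [ramFun_eq, sub_eq_add_neg, SlashAction.add_slash, SlashAction.neg_slash,
    ModularForm.SL_smul_slash, h4]
  ext z
  have h3 := congrFun h z
  rw [hD] at h3
  have hz : (z : ℂ) ≠ 0 := z.ne_zero
  have hden : denom S z = z := by
    rw [ModularGroup.denom_S]
  simp only [Pi.sub_apply, h10, Int.cast_one, Pi.add_apply, Pi.smul_apply, smul_eq_mul, D_inv,
    hS, hden] at h3
  simp only [Pi.add_apply, Pi.neg_apply, Pi.smul_apply, Pi.mul_apply, smul_eq_mul, hS]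
  have h5 : ((2 : ℤ) : ℂ) = 2 := by norm_num
  rw [h5, ← hκ] at h3
  have h6 : (normalizedDerivOfComplex E2 ∣[(4 : ℤ)] S) z =
      (normalizedDerivOfComplex E2 ∣[(2 : ℤ) + 2] S) z := rfl
  rw [h6]
  linear_combination (-1 : ℂ) * h3

/-- `D E₂ - E₂²/12` as a level one form. -/
def ramForm : ModularForm 𝒮ℒ 4 := mkL1 4 ramFun ramFun_S ramFun_T
  (by
    rw [ramFun_eq]
    exact (normalizedDerivOfComplex_mdifferentiable E2_mdifferentiable).sub
      ((E2_mdifferentiable.mul E2_mdifferentiable).const_smul _))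
  (by
    rw [ramFun_eq]
    exact (qs_E2.deriv.sub ((qs_E2.mul qs_E2).smul _)).isBoundedAtImInfty)

theorem qs_ramFun : QS ramFun (thetaOpC (toC e2Z) - (12 : ℂ)⁻¹ • (toC e2Z * toC e2Z)) := by
  rw [ramFun_eq]
  exact qs_E2.deriv.sub ((qs_E2.mul qs_E2).smul _)

theorem coeff_zero_e2Z : e2Z.coeff 0 = 1 := by
  rw [e2Z, map_sub, PowerSeries.coeff_one,
    show (24 : PowerSeries ℤ) = PowerSeries.C 24 from (map_ofNat _ 24).symm,
    PowerSeries.coeff_C_mul, phiZ, PowerSeries.coeff_mk]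
  simp

theorem twelve_theta_e2Z : 12 * thetaOp e2Z = e2Z ^ 2 - e4Z := by
  obtain ⟨c, hc⟩ : ∃ c : ℂ, c • E₄ = ramForm :=
    (finrank_eq_one_iff_of_nonzero' E₄ (E_ne_zero _ ⟨2, rfl⟩)).mp
      (Module.rank_eq_one_iff_finrank_eq_one.mp levelOne_weight_four_rank_one) _
  have h1 : QS ramFun (c • toC e4Z) := by
    have : (c • (E₄ : ℍ → ℂ)) = ramFun := by
      have := congrArg DFunLike.coe hc
      exact this
    rw [← this]
    exact qs_E4.smul c
  have h2 := h1.unique qs_ramFun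
  have h3 := congrArg (fun P => PowerSeries.coeff 0 P) h2
  simp only [PowerSeries.coeff_smul, coeff_toC, coeff_zero_e4Z, map_sub, thetaOpC,
    PowerSeries.coeff_mk] at h3
  rw [← map_mul, coeff_toC, ← pow_two, PowerSeries.coeff_zero_eq_constantCoeff, map_pow,
    ← PowerSeries.coeff_zero_eq_constantCoeff, coeff_zero_e2Z] at h3
  have hc' : c = -(12 : ℂ)⁻¹ := by
    simpa using h3
  rw [hc'] at h2
  apply toC_injective
  rw [map_mul, map_sub, map_pow, toC_thetaOp, map_ofNat]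
  have h4 : (12 : PowerSeries ℂ) = PowerSeries.C (12 : ℂ) := (map_ofNat _ 12).symm
  have h5 : (12 : PowerSeries ℂ) * PowerSeries.C (12 : ℂ)⁻¹ = 1 := by
    rw [h4, ← map_mul]; simp
  rw [PowerSeries.smul_eq_C_mul, PowerSeries.smul_eq_C_mul, map_neg] at h2
  linear_combination (-12 : PowerSeries ℂ) * h2 + (toC e2Z ^ 2 - toC e4Z) * h5

theorem three_theta_e4Z : 3 * thetaOp e4Z = e2Z * e4Z - e6Z := by
  have h1 : QS (normalizedDerivOfComplex E₄) ((3 : ℂ)⁻¹ • (toC e2Z * toC e4Z - toC e6Z)) := by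
    have : (normalizedDerivOfComplex E₄) = (3 : ℂ)⁻¹ • (E2 * E₄ - E₆) := by
      ext τ
      rw [VVMF.D_E4]
      simp only [Pi.sub_apply, Pi.smul_apply, Pi.mul_apply, smul_eq_mul]
      ring
    rw [this]
    exact ((qs_E2.mul qs_E4).sub qs_E6).smul _
  have h2 := qs_E4.deriv.unique h1
  apply toC_injective
  rw [map_mul, map_sub, map_mul, toC_thetaOp, map_ofNat, h2, PowerSeries.smul_eq_C_mul]
  have h5 : (3 : PowerSeries ℂ) * PowerSeries.C (3 : ℂ)⁻¹ = 1 := by
    rw [show (3 : PowerSeries ℂ) = PowerSeries.C (3 : ℂ) from (map_ofNat _ 3).symm, ← map_mul]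
    simp
  linear_combination (toC e2Z * toC e4Z - toC e6Z) * h5

theorem two_theta_e6Z : 2 * thetaOp e6Z = e2Z * e6Z - e4Z ^ 2 := by
  have h1 : QS (normalizedDerivOfComplex E₆)
      ((2 : ℂ)⁻¹ • (toC e2Z * toC e6Z - toC e4Z ^ 2)) := by
    have : (normalizedDerivOfComplex E₆) = (2 : ℂ)⁻¹ • (E2 * E₆ - E₄ ^ 2) := by
      ext τ
      rw [VVMF.D_E6]
      simp only [Pi.sub_apply, Pi.smul_apply, Pi.mul_apply, Pi.pow_apply, smul_eq_mul]
      ring
    rw [this]
    exact ((qs_E2.mul qs_E6).sub (qs_E4.pow 2)).smul _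
  have h2 := qs_E6.deriv.unique h1
  apply toC_injective
  rw [map_mul, map_sub, map_mul, map_pow, toC_thetaOp, map_ofNat, h2, PowerSeries.smul_eq_C_mul]
  have h5 : (2 : PowerSeries ℂ) * PowerSeries.C (2 : ℂ)⁻¹ = 1 := by
    rw [show (2 : PowerSeries ℂ) = PowerSeries.C (2 : ℂ) from (map_ofNat _ 2).symm, ← map_mul]
    simp
  linear_combination (toC e2Z * toC e6Z - toC e4Z ^ 2) * h5

/-! ### `thetaOp` is a derivation -/

theorem thetaOp_eq (A : PowerSeries ℤ) :
    thetaOp A = PowerSeries.X * PowerSeries.derivative ℤ A := by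
  ext n
  rw [thetaOp, PowerSeries.coeff_mk]
  rcases n with _ | n
  · simp
  · rw [PowerSeries.coeff_succ_X_mul, PowerSeries.coeff_derivative]
    push_cast
    ring

theorem thetaOp_mul (A B : PowerSeries ℤ) : thetaOp (A * B) = thetaOp A * B + A * thetaOp B := by
  rw [thetaOp_eq, thetaOp_eq, thetaOp_eq, Derivation.leibniz]
  simp only [smul_eq_mul]
  ring

theorem thetaOp_add' (A B : PowerSeries ℤ) : thetaOp (A + B) = thetaOp A + thetaOp B := by
  rw [thetaOp_eq, thetaOp_eq, thetaOp_eq, map_add, mul_add]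

theorem thetaOp_sub (A B : PowerSeries ℤ) : thetaOp (A - B) = thetaOp A - thetaOp B := by
  rw [thetaOp_eq, thetaOp_eq, thetaOp_eq, map_sub, mul_sub]

theorem thetaOp_C' (c : ℤ) : thetaOp (PowerSeries.C c) = 0 := by
  rw [thetaOp_eq, PowerSeries.derivative_C, mul_zero]

theorem thetaOp_C_mul' (c : ℤ) (A : PowerSeries ℤ) :
    thetaOp (PowerSeries.C c * A) = PowerSeries.C c * thetaOp A := by
  rw [thetaOp_mul, thetaOp_C', zero_mul, zero_add]

theorem theta_deltaZ : thetaOp deltaZ = e2Z * deltaZ := by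
  have h0 := e6Z_sq
  have h1 : thetaOp (e6Z ^ 2) = 2 * e6Z * thetaOp e6Z := by
    rw [pow_two, thetaOp_mul]; ring
  have h2 : thetaOp (e4Z ^ 3) = 3 * e4Z ^ 2 * thetaOp e4Z := by
    rw [pow_succ, pow_two, thetaOp_mul, thetaOp_mul]; ring
  have h3 : thetaOp (1728 * deltaZ) = 1728 * thetaOp deltaZ := by
    have : (1728 : PowerSeries ℤ) = PowerSeries.C (1728 : ℤ) := (map_ofNat _ 1728).symm
    rw [this, thetaOp_C_mul']
  have h4 : thetaOp (e6Z ^ 2) = thetaOp (e4Z ^ 3) - 1728 * thetaOp deltaZ := by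
    rw [h0, thetaOp_sub, h3]
  rw [h1, h2] at h4
  have h5 : (1728 : PowerSeries ℤ) * thetaOp deltaZ = 1728 * (e2Z * deltaZ) := by
    linear_combination (1 : PowerSeries ℤ) * h4 - e6Z * two_theta_e6Z +
      e4Z ^ 2 * three_theta_e4Z - e2Z * h0
  have h6 : (1728 : PowerSeries ℤ) ≠ 0 := by
    intro h
    have := congrArg PowerSeries.constantCoeff h
    rw [map_ofNat, map_zero] at this
    norm_num at this
  exact mul_left_cancel₀ h6 h5

end Fermat.Agent.Eis
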