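import Mathlib

/-!
# One-dimensional theta functions with characteristics

`th M a z = ∑_{n ≡ a mod M} exp (π i n² z / M)` and its transformation under `z ↦ -1/z`
(helper85, S16 part (B)).
-/

set_option autoImplicit false

open Complex Real Filter Topology

noncomputable section

namespace Fermat.Agent.S16.Theta

/-- term of the theta series -/
def thTerm (M : ℕ) (a : ZMod M) (z : ℂ) (n : ℤ) : ℂ :=
  if (n : ZMod M) = a then cexp (π * I * n ^ 2 * z / M) else 0

/-- `th M a z = ∑_{n ≡ a mod M} exp (π i n² z / M)` -/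
def th (M : ℕ) (a : ZMod M) (z : ℂ) : ℂ := ∑' n : ℤ, thTerm M a z n

theorem thTerm_param (M : ℕ) [NeZero M] (r : ℤ) (z : ℂ) (k : ℤ) :
    thTerm M (r : ZMod M) z (r + M * k) =
      cexp (π * I * r ^ 2 * z / M) * jacobiTheta₂_term k (r * z) (M * z) := by
  have hM : (M : ℂ) ≠ 0 := by exact_mod_cast NeZero.ne M
  rw [thTerm, if_pos (by simp), jacobiTheta₂_term, ← Complex.exp_add]
  congr 1
  push_cast
  field_simp
  ring

theorem im_mul_pos (M : ℕ) [NeZero M] {z : ℂ} (hz : 0 < z.im) : 0 < ((M : ℂ) * z).im := by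
  have : (0 : ℝ) < M := by exact_mod_cast Nat.pos_of_ne_zero (NeZero.ne M)
  simp [hz, this]

theorem hasSum_thTerm' (M : ℕ) [NeZero M] (r : ℤ) {z : ℂ} (hz : 0 < z.im) :
    HasSum (thTerm M (r : ZMod M) z)
      (cexp (π * I * r ^ 2 * z / M) * jacobiTheta₂ (r * z) (M * z)) := by
  have hM0 : (M : ℤ) ≠ 0 := by exact_mod_cast NeZero.ne M
  have hinj : Function.Injective (fun k : ℤ => r + M * k) := fun a b h => by
    have : (M : ℤ) * a = M * b := by simpa using h
    exact mul_left_cancel₀ hM0 this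
  rw [← hinj.hasSum_iff]
  · have := (hasSum_jacobiTheta₂_term (r * z) (im_mul_pos M hz)).mul_left
      (cexp (π * I * r ^ 2 * z / M))
    have h2 : thTerm M (r : ZMod M) z ∘ (fun k : ℤ => r + M * k) =
        fun k : ℤ => cexp (π * I * r ^ 2 * z / M) * jacobiTheta₂_term k (r * z) (M * z) :=
      funext fun k => thTerm_param M r z k
    rw [h2]
    exact this
  · intro x hx
    rw [thTerm, if_neg]
    intro h
    rw [ZMod.intCast_eq_intCast_iff, Int.modEq_iff_dvd] at h
    obtain ⟨k, hk⟩ := h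
    exact hx ⟨-k, by simp only; linear_combination hk⟩

theorem th_eq (M : ℕ) [NeZero M] (r : ℤ) {z : ℂ} (hz : 0 < z.im) :
    th M (r : ZMod M) z = cexp (π * I * r ^ 2 * z / M) * jacobiTheta₂ (r * z) (M * z) :=
  (hasSum_thTerm' M r hz).tsum_eq

theorem summable_thTerm (M : ℕ) [NeZero M] (a : ZMod M) {z : ℂ} (hz : 0 < z.im) :
    Summable (thTerm M a z) := by
  obtain ⟨r, rfl⟩ := ZMod.intCast_surjective a
  exact (hasSum_thTerm' M r hz).summable

theorem hasSum_thTerm (M : ℕ) [NeZero M] (a : ZMod M) {z : ℂ} (hz : 0 < z.im) :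
    HasSum (thTerm M a z) (th M a z) :=
  (summable_thTerm M a hz).hasSum

/-- transformation under `z ↦ -1/z`. -/
theorem th_S (M : ℕ) [NeZero M] (a : ZMod M) {z : ℂ} (hz : 0 < z.im) :
    th M a (-1 / z) = 1 / ((M : ℂ) * (I / z)) ^ (1 / 2 : ℂ) *
      ∑ b : ZMod M, ZMod.stdAddChar (a * b) * th M b z := by
  have hz0 : z ≠ 0 := fun h => by simp [h] at hz
  have hM : (M : ℂ) ≠ 0 := by exact_mod_cast NeZero.ne M
  have hz' : 0 < (-1 / z).im := by
    rw [div_eq_mul_inv, neg_one_mul, Complex.neg_im, Complex.inv_im, neg_div, neg_neg]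
    exact div_pos hz (Complex.normSq_pos.mpr hz0)
  obtain ⟨r, rfl⟩ := ZMod.intCast_surjective a
  rw [th_eq M r hz', jacobiTheta₂_functional_equation]
  have e1 : cexp (π * I * r ^ 2 * (-1 / z) / M) *
      (1 / (-I * (M * (-1 / z))) ^ (1 / 2 : ℂ) *
        cexp (-π * I * (r * (-1 / z)) ^ 2 / (M * (-1 / z))) *
        jacobiTheta₂ (r * (-1 / z) / (M * (-1 / z))) (-1 / (M * (-1 / z)))) =
      1 / ((M : ℂ) * (I / z)) ^ (1 / 2 : ℂ) * jacobiTheta₂ (r / M) (z / M) := by
    have h1 : -I * (M * (-1 / z)) = (M : ℂ) * (I / z) := by ring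
    have h2 : (r : ℂ) * (-1 / z) / (M * (-1 / z)) = r / M := by field_simp
    have h3 : (-1 : ℂ) / (M * (-1 / z)) = z / M := by field_simp
    have h4 : cexp (π * I * r ^ 2 * (-1 / z) / M) *
        cexp (-π * I * (r * (-1 / z)) ^ 2 / (M * (-1 / z))) = 1 := by
      rw [← Complex.exp_add, ← Complex.exp_zero]
      congr 1
      field_simp
      ring
    rw [h1, h2, h3]
    linear_combination (1 / ((M : ℂ) * (I / z)) ^ (1 / 2 : ℂ) * jacobiTheta₂ (r / M) (z / M)) * h4
  rw [e1]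
  congr 1
  have h5 : 0 < (z / M).im := by
    rw [Complex.div_natCast_im]
    have : (0 : ℝ) < M := by exact_mod_cast Nat.pos_of_ne_zero (NeZero.ne M)
    positivity
  have h6 : HasSum (fun n : ℤ => ∑ b : ZMod M, ZMod.stdAddChar ((r : ZMod M) * b) * thTerm M b z n)
      (∑ b : ZMod M, ZMod.stdAddChar ((r : ZMod M) * b) * th M b z) :=
    hasSum_sum fun b _ => (hasSum_thTerm M b hz).mul_left _
  have h7 := hasSum_jacobiTheta₂_term (r / M) h5
  refine h7.unique ?_
  convert h6 using 2 with n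
  simp only [thTerm, mul_ite, mul_zero]
  rw [Finset.sum_ite_eq Finset.univ (n : ZMod M), if_pos (Finset.mem_univ _), jacobiTheta₂_term,
    ← Int.cast_mul, ZMod.stdAddChar_coe, ← Complex.exp_add]
  congr 1
  push_cast
  field_simp

/-- `th` is differentiable on the upper half plane. -/
theorem differentiableAt_th (M : ℕ) [NeZero M] (a : ZMod M) {z : ℂ} (hz : 0 < z.im) :
    DifferentiableAt ℂ (th M a) z := by
  obtain ⟨r, rfl⟩ := ZMod.intCast_surjective a
  have h1 : DifferentiableAt ℂ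
      (fun z : ℂ => cexp (π * I * r ^ 2 * z / M) * jacobiTheta₂ (r * z) (M * z)) z := by
    refine DifferentiableAt.mul (by fun_prop) ?_
    have h2 := (hasFDerivAt_jacobiTheta₂ (r * z) (im_mul_pos M hz)).differentiableAt
    have h3 : DifferentiableAt ℂ (fun z : ℂ => ((r : ℂ) * z, (M : ℂ) * z)) z := by fun_prop
    exact DifferentiableAt.comp z (f := fun z : ℂ => ((r : ℂ) * z, (M : ℂ) * z)) h2 h3
  refine h1.congr_of_eventuallyEq ?_
  have : ∀ᶠ w in 𝓝 z, 0 < w.im := (isOpen_lt continuous_const Complex.continuous_im).mem_nhds hz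
  filter_upwards [this] with w hw
  exact th_eq M r hw

theorem norm_thTerm_le (M : ℕ) [NeZero M] (a : ZMod M) {z : ℂ} (hz : 1 ≤ z.im) (n : ℤ) :
    ‖thTerm M a z n‖ ≤ ‖thTerm M a I n‖ := by
  unfold thTerm
  split_ifs
  · rw [Complex.norm_exp, Complex.norm_exp]
    have hM : (0 : ℝ) < M := by exact_mod_cast Nat.pos_of_ne_zero (NeZero.ne M)
    have key : ∀ w : ℂ, (π * I * (n : ℂ) ^ 2 * w / M).re = -(π * (n : ℝ) ^ 2 / M) * w.im := by
      intro w
      have : (π * I * (n : ℂ) ^ 2 * w / M) = ((π * (n : ℝ) ^ 2 / M : ℝ) : ℂ) * (I * w) := by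
        push_cast; ring
      rw [this, Complex.re_ofReal_mul]
      simp
    rw [key, key, Complex.I_im]
    apply Real.exp_le_exp.mpr
    have : 0 ≤ π * (n : ℝ) ^ 2 / M := by positivity
    nlinarith
  · simp

theorem norm_th_le (M : ℕ) [NeZero M] (a : ZMod M) : ∃ C : ℝ, ∀ z : ℂ, 1 ≤ z.im →
    ‖th M a z‖ ≤ C := by
  refine ⟨∑' n : ℤ, ‖thTerm M a I n‖, fun z hz => ?_⟩
  have h1 : Summable fun n : ℤ => ‖thTerm M a I n‖ := (summable_thTerm M a (by simp)).norm
  have h2 : Summable fun n : ℤ => ‖thTerm M a z n‖ :=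
    h1.of_nonneg_of_le (fun _ => norm_nonneg _) (norm_thTerm_le M a hz)
  exact (norm_tsum_le_tsum_norm h2).trans (h2.tsum_le_tsum (norm_thTerm_le M a hz) h1)

end Fermat.Agent.S16.Theta
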