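import Fermat.Agent.S16.Theta1

/-!
# The vector valued theta function of the ring of integers of `ℚ(√-q)`, `q ≡ 3 mod 4`

(helper85, S16 part (B)).
-/

set_option autoImplicit false

open Complex Real Filter Topology

noncomputable section

namespace Fermat.Agent.S16.Theta

/-- reduction `ZMod (2q) → ZMod q` -/
abbrev redQ (q : ℕ) : ZMod (2 * q) →+* ZMod q := ZMod.castHom (dvd_mul_left q 2) (ZMod q)

/-- reduction `ZMod (2q) → ZMod 2` -/
abbrev redTwo (q : ℕ) : ZMod (2 * q) →+* ZMod 2 := ZMod.castHom (dvd_mul_right 2 q) (ZMod 2)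

/-- the theta function of the coset `h` of the inverse different. -/
def thv (q : ℕ) [NeZero q] (h : ZMod q) (z : ℂ) : ℂ :=
  ∑ b : ZMod (2 * q), if redQ q b = 2 * h then th (2 * q) b z * th 2 (redTwo q b) z else 0

/-- the quaternary theta function. -/
def Theta4 (q p : ℕ) [NeZero q] (s : ZMod q) (z : ℂ) : ℂ :=
  ∑ h : ZMod q, thv q (s * h) z * thv q h (p * z)

theorem th_T (M : ℕ) [NeZero M] (hM : Even M) (r : ℤ) (z : ℂ) :
    th M (r : ZMod M) (z + 1) = cexp (π * I * r ^ 2 / M) * th M (r : ZMod M) z := by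
  have hM0 : (M : ℂ) ≠ 0 := by exact_mod_cast NeZero.ne M
  rw [th, th, ← tsum_mul_left]
  congr 1
  ext n
  rw [thTerm, thTerm]
  split_ifs with h
  · rw [← Complex.exp_add]
    rw [ZMod.intCast_eq_intCast_iff, Int.modEq_iff_dvd] at h
    obtain ⟨k, hk⟩ := h
    obtain ⟨m, hm⟩ := hM
    have hn : (n : ℂ) = r - M * k := by
      have : (n : ℤ) = r - M * k := by linear_combination -hk
      exact_mod_cast this
    have hm' : (M : ℂ) = m + m := by exact_mod_cast hm
    rw [Complex.exp_eq_exp_iff_exists_int]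
    refine ⟨- r * k + m * k ^ 2, ?_⟩
    rw [hn]
    push_cast
    field_simp
    rw [hm']
    ring
  · rw [mul_zero]

variable (q : ℕ) [Fact q.Prime]

theorem thv_T (hq : q % 4 = 3) (h : ZMod q) (z : ℂ) :
    thv q h (z + 1) = ZMod.stdAddChar (h ^ 2) * thv q h z := by
  have hq0 : (q : ℂ) ≠ 0 := by exact_mod_cast (Fact.out : q.Prime).ne_zero
  rw [thv, thv, Finset.mul_sum]
  refine Finset.sum_congr rfl fun b _ => ?_
  split_ifs with hb
  · obtain ⟨r, rfl⟩ := ZMod.intCast_surjective b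
    rw [map_intCast] at hb
    rw [map_intCast, th_T _ (even_two_mul q), th_T 2 even_two]
    obtain ⟨t, ht⟩ : ∃ t : ℕ, q + 1 = 4 * t := ⟨(q + 1) / 4, by omega⟩
    have h4 : (4 : ZMod q) * t = 1 := by
      have : ((q + 1 : ℕ) : ZMod q) = ((4 * t : ℕ) : ZMod q) := by rw [ht]
      push_cast at this
      rw [← this]
      simp
    have h1 : h ^ 2 = ((r ^ 2 * t : ℤ) : ZMod q) := by
      push_cast
      rw [hb]
      linear_combination (-h ^ 2) * h4
    rw [h1, ZMod.stdAddChar_coe]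
    have h2 : cexp (π * I * r ^ 2 / ((2 * q : ℕ) : ℂ)) * cexp (π * I * r ^ 2 / ((2 : ℕ) : ℂ)) =
        cexp (2 * π * I * ((r ^ 2 * t : ℤ) : ℂ) / q) := by
      rw [← Complex.exp_add]
      congr 1
      have ht' : (q : ℂ) + 1 = 4 * t := by exact_mod_cast ht
      push_cast
      field_simp
      linear_combination (r ^ 2 : ℂ) * ht'
    rw [← h2]
    ring
  · rw [mul_zero]

theorem std_two_mul (x : ZMod (2 * q)) :
    ZMod.stdAddChar (2 * x) = ZMod.stdAddChar (redQ q x) := by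
  have hq0 : (q : ℂ) ≠ 0 := by exact_mod_cast (Fact.out : q.Prime).ne_zero
  obtain ⟨r, rfl⟩ := ZMod.intCast_surjective x
  have : (2 * (r : ZMod (2 * q))) = ((2 * r : ℤ) : ZMod (2 * q)) := by push_cast; ring
  rw [this, ZMod.stdAddChar_coe, map_intCast (redQ q), ZMod.stdAddChar_coe]
  congr 1
  push_cast
  field_simp

theorem std_q_mul (x : ZMod (2 * q)) :
    ZMod.stdAddChar ((q : ZMod (2 * q)) * x) = ZMod.stdAddChar (redTwo q x) := by
  have hq0 : (q : ℂ) ≠ 0 := by exact_mod_cast (Fact.out : q.Prime).ne_zero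
  obtain ⟨r, rfl⟩ := ZMod.intCast_surjective x
  have : ((q : ZMod (2 * q)) * (r : ZMod (2 * q))) = ((q * r : ℤ) : ZMod (2 * q)) := by
    push_cast; ring
  rw [this, ZMod.stdAddChar_coe, map_intCast (redTwo q), ZMod.stdAddChar_coe]
  congr 1
  push_cast
  field_simp

theorem filter_redQ (h : ZMod q) :
    (Finset.univ.filter fun b : ZMod (2 * q) => redQ q b = 2 * h) =
      {((2 * h.val : ℕ) : ZMod (2 * q)), ((2 * h.val : ℕ) : ZMod (2 * q)) + (q : ZMod (2 * q))} := by
  have hh : ((h.val : ℕ) : ZMod q) = h := ZMod.natCast_zmod_val h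
  ext b
  simp only [Finset.mem_filter, Finset.mem_univ, true_and, Finset.mem_insert,
    Finset.mem_singleton]
  constructor
  · intro hb
    obtain ⟨r, rfl⟩ := ZMod.intCast_surjective b
    rw [map_intCast] at hb
    have h1 : ((r - 2 * h.val : ℤ) : ZMod q) = 0 := by
      push_cast
      rw [hb, hh, sub_self]
    rw [ZMod.intCast_zmod_eq_zero_iff_dvd] at h1
    obtain ⟨k, hk⟩ := h1
    rcases Int.even_or_odd k with ⟨m, hm⟩ | ⟨m, hm⟩
    · left
      have : (((2 * h.val : ℕ) : ℤ) : ZMod (2 * q)) = ((2 * h.val : ℕ) : ZMod (2 * q)) := by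
        push_cast; ring
      rw [← this, ZMod.intCast_eq_intCast_iff, Int.modEq_iff_dvd]
      exact ⟨-m, by push_cast; linear_combination -hk - q * hm⟩
    · right
      have : (((2 * h.val + q : ℕ) : ℤ) : ZMod (2 * q)) =
          ((2 * h.val : ℕ) : ZMod (2 * q)) + (q : ZMod (2 * q)) := by
        push_cast; ring
      rw [← this, ZMod.intCast_eq_intCast_iff, Int.modEq_iff_dvd]
      exact ⟨-m, by push_cast; linear_combination -hk - q * hm⟩
  · rintro (rfl | rfl)
    · rw [map_natCast]; push_cast; rw [hh]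
    · rw [map_add, map_natCast, map_natCast]; push_cast; rw [hh]; simp

theorem ne_add_q : ∀ b : ZMod (2 * q), b ≠ b + (q : ZMod (2 * q)) := by
  intro b hb
  have h0 : ((q : ℕ) : ZMod (2 * q)) = 0 := by
    have : b + 0 = b + (q : ZMod (2 * q)) := by rw [add_zero]; exact hb
    exact (add_left_cancel this).symm
  rw [ZMod.natCast_eq_zero_iff] at h0
  have hp := (Fact.out : q.Prime).pos
  have := Nat.le_of_dvd hp h0
  omega

theorem inner_sum (hq : q % 2 = 1) (h : ZMod q) (b' : ZMod (2 * q)) (δ : ZMod 2) :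
    (∑ b : ZMod (2 * q), if redQ q b = 2 * h then
      ZMod.stdAddChar (b * b') * ZMod.stdAddChar (redTwo q b * δ) else (0 : ℂ)) =
      if redTwo q b' = δ then 2 * ZMod.stdAddChar (h * redQ q b') else 0 := by
  rw [← Finset.sum_filter, filter_redQ q h, Finset.sum_pair (ne_add_q q _)]
  have hh : ((h.val : ℕ) : ZMod q) = h := ZMod.natCast_zmod_val h
  have h1 : (ZMod.stdAddChar (((2 * h.val : ℕ) : ZMod (2 * q)) * b') : ℂ) =
      ZMod.stdAddChar (h * redQ q b') := by
    have : ((2 * h.val : ℕ) : ZMod (2 * q)) * b' = 2 * ((h.val : ℕ) * b') := by push_cast; ring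
    rw [this, std_two_mul, map_mul, map_natCast, hh]
  have h2 : redTwo q ((2 * h.val : ℕ) : ZMod (2 * q)) = 0 := by
    rw [map_natCast]
    push_cast
    have : (2 : ZMod 2) = 0 := by decide
    rw [this, zero_mul]
  have h3 : redTwo q (q : ZMod (2 * q)) = 1 := by
    rw [map_natCast]
    have : ((q : ℕ) : ZMod 2) = ((q % 2 : ℕ) : ZMod 2) := by simp
    rw [this, hq]
    simp
  rw [add_mul, AddChar.map_add_eq_mul, h1, std_q_mul, map_add, h2, h3, zero_mul, zero_add,
    one_mul, AddChar.map_zero_eq_one, mul_one, mul_assoc, ← AddChar.map_add_eq_mul]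
  have h4 : (ZMod.stdAddChar (redTwo q b' + δ) : ℂ) = if redTwo q b' = δ then 1 else -1 := by
    generalize redTwo q b' = x
    have e1 : (ZMod.stdAddChar (1 : ZMod 2) : ℂ) = -1 := by
      have := ZMod.stdAddChar_coe (N := 2) 1
      rw [Int.cast_one] at this
      rw [this]
      push_cast
      rw [mul_one, show (2 : ℂ) * π * I / 2 = π * I by ring, Complex.exp_pi_mul_I]
    have hd : ∀ x y : ZMod 2, (x = y → x + y = 0) ∧ (x ≠ y → x + y = 1) := by decide
    split_ifs with hx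
    · rw [(hd x δ).1 hx, AddChar.map_zero_eq_one]
    · rw [(hd x δ).2 hx, e1]
  rw [h4]
  split_ifs <;> ring

omit [Fact q.Prime] in
theorem cpow_half_mul {a b : ℝ} (ha : 0 < a) (hb : 0 < b) {w : ℂ} (hw : w ≠ 0) :
    ((a : ℂ) * w) ^ (1 / 2 : ℂ) * ((b : ℂ) * w) ^ (1 / 2 : ℂ) = (√(a * b) : ℝ) * w := by
  have ha' : (a : ℂ) ≠ 0 := by exact_mod_cast ha.ne'
  have hb' : (b : ℂ) ≠ 0 := by exact_mod_cast hb.ne'
  rw [Complex.cpow_def_of_ne_zero (mul_ne_zero ha' hw),
    Complex.cpow_def_of_ne_zero (mul_ne_zero hb' hw), Complex.log_ofReal_mul ha hw,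
    Complex.log_ofReal_mul hb hw, ← Complex.exp_add]
  have h1 : ((Real.log a : ℂ) + Complex.log w) * (1 / 2) +
      ((Real.log b : ℂ) + Complex.log w) * (1 / 2) =
      ((1 / 2 * Real.log (a * b) : ℝ) : ℂ) + Complex.log w := by
    rw [Real.log_mul ha.ne' hb.ne']
    push_cast
    ring
  rw [h1, Complex.exp_add, Complex.exp_log hw, ← Complex.ofReal_exp]
  congr 2
  rw [Real.sqrt_eq_rpow, Real.rpow_def_of_pos (mul_pos ha hb), mul_comm]

theorem thv_S (hq : q % 2 = 1) (h : ZMod q) {z : ℂ} (hz : 0 < z.im) :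
    thv q h (-1 / z) = z / (I * (√(q : ℝ) : ℝ)) *
      ∑ w : ZMod q, ZMod.stdAddChar (2 * h * w) * thv q w z := by
  have hz0 : z ≠ 0 := fun h => by simp [h] at hz
  have hqpos : (0 : ℝ) < q := by exact_mod_cast (Fact.out : q.Prime).pos
  have hsq : ((√(q : ℝ) : ℝ) : ℂ) ≠ 0 := by exact_mod_cast (Real.sqrt_pos.mpr hqpos).ne'
  set κ₁ : ℂ := 1 / (((2 * q : ℕ) : ℂ) * (I / z)) ^ (1 / 2 : ℂ) with hκ₁
  set κ₂ : ℂ := 1 / (((2 : ℕ) : ℂ) * (I / z)) ^ (1 / 2 : ℂ) with hκ₂
  have hκ : κ₁ * κ₂ * 2 = z / (I * (√(q : ℝ) : ℝ)) := by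
    have hw : I / z ≠ 0 := div_ne_zero Complex.I_ne_zero hz0
    have h1 := cpow_half_mul (a := 2 * q) (b := 2) (by positivity) (by norm_num) hw
    have h2 : √(2 * (q : ℝ) * 2) = 2 * √(q : ℝ) := by
      rw [show 2 * (q : ℝ) * 2 = 2 ^ 2 * q by ring, Real.sqrt_mul (by norm_num),
        Real.sqrt_sq (by norm_num)]
    rw [h2] at h1
    push_cast at h1
    rw [hκ₁, hκ₂, div_mul_div_comm, one_mul]
    push_cast
    rw [h1]
    field_simp
  have hLHS : thv q h (-1 / z) = κ₁ * κ₂ * ∑ b' : ZMod (2 * q), ∑ δ : ZMod 2,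
      (∑ b : ZMod (2 * q), if redQ q b = 2 * h then
        ZMod.stdAddChar (b * b') * ZMod.stdAddChar (redTwo q b * δ) else (0 : ℂ)) *
      (th (2 * q) b' z * th 2 δ z) := by
    simp_rw [Finset.sum_mul]
    rw [thv]
    have : ∀ b' : ZMod (2 * q), ∑ δ : ZMod 2, ∑ b : ZMod (2 * q),
        (if redQ q b = 2 * h then ZMod.stdAddChar (b * b') * ZMod.stdAddChar (redTwo q b * δ)
          else (0 : ℂ)) * (th (2 * q) b' z * th 2 δ z) =
        ∑ b : ZMod (2 * q), ∑ δ : ZMod 2,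
        (if redQ q b = 2 * h then ZMod.stdAddChar (b * b') * ZMod.stdAddChar (redTwo q b * δ)
          else (0 : ℂ)) * (th (2 * q) b' z * th 2 δ z) := fun b' => Finset.sum_comm
    simp_rw [this]
    rw [Finset.sum_comm, Finset.mul_sum]
    refine Finset.sum_congr rfl fun b _ => ?_
    split_ifs with hb
    · rw [th_S (2 * q) b hz, th_S 2 _ hz, ← hκ₁, ← hκ₂, mul_mul_mul_comm, Finset.sum_mul_sum]
      congr 1
      refine Finset.sum_congr rfl fun b' _ => Finset.sum_congr rfl fun δ _ => ?_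
      ring
    · simp
  rw [hLHS, ← hκ, mul_assoc (κ₁ * κ₂)]
  congr 1
  simp_rw [inner_sum q hq h]
  simp only [ite_mul, zero_mul]
  simp_rw [Finset.sum_ite_eq, Finset.mem_univ, if_true]
  simp_rw [thv, Finset.mul_sum]
  rw [Finset.sum_comm]
  refine Finset.sum_congr rfl fun b _ => ?_
  have h2 : (2 : ZMod q) ≠ 0 := by
    intro h0
    have : ((2 : ℕ) : ZMod q) = 0 := by exact_mod_cast h0
    rw [ZMod.natCast_eq_zero_iff] at this
    have h3 := Nat.le_of_dvd (by norm_num) this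
    have h4 := (Fact.out : q.Prime).two_le
    have : q = 2 := le_antisymm h3 h4
    omega
  have h3 : ∀ w : ZMod q, redQ q b = 2 * w ↔ w = redQ q b / 2 := fun w => by
    rw [eq_div_iff h2, mul_comm w 2, eq_comm]
  simp only [h3, mul_ite, mul_zero]
  rw [Finset.sum_ite_eq' Finset.univ, if_pos (Finset.mem_univ _)]
  have h4 : 2 * h * (redQ q b / 2) = h * redQ q b := by field_simp
  rw [h4]
  ring

end Fermat.Agent.S16.Theta
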