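import Mathlib
import Fermat.Agent.S16.ThetaVec

/-!
# S16 (B), piece (E): the `q`-expansion of the quaternary theta function
-/

set_option autoImplicit false

open Complex
open scoped Real

noncomputable section

namespace Fermat.Agent.S16.Theta

/-- summand of `thv`. -/
def gT (q : ℕ) (h : ZMod q) (z : ℂ) (u : ℤ × ℤ) : ℂ :=
  if (u.1 : ZMod q) = 2 * h ∧ (u.1 : ZMod 2) = (u.2 : ZMod 2) then
    cexp (2 * π * I * z * ((u.1 ^ 2 + q * u.2 ^ 2 : ℤ) / (4 * q))) else 0

lemma hasSum_norm_thTerm (M : ℕ) [NeZero M] (a : ZMod M) {z : ℂ} (hz : 0 < z.im) :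
    Summable fun n => ‖thTerm M a z n‖ :=
  (summable_thTerm M a hz).norm

lemma sum_thTerm (q : ℕ) [NeZero q] (h : ZMod q) (z : ℂ) (u : ℤ × ℤ) :
    ∑ b : ZMod (2 * q), (if redQ q b = 2 * h then thTerm (2 * q) b z u.1 *
      thTerm 2 (redTwo q b) z u.2 else 0) = gT q h z u := by
  have hq : (q : ℂ) ≠ 0 := by exact_mod_cast NeZero.ne q
  rw [Finset.sum_eq_single (u.1 : ZMod (2 * q))]
  · unfold thTerm gT
    simp only [map_intCast, if_true]
    by_cases h1 : (u.1 : ZMod q) = 2 * h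
    · by_cases h2 : (u.1 : ZMod 2) = (u.2 : ZMod 2)
      · rw [if_pos h1, if_pos h2.symm, if_pos ⟨h1, h2⟩, ← Complex.exp_add]
        congr 1
        push_cast
        field_simp
        ring
      · rw [if_pos h1, if_neg (fun h => h2 h.symm), if_neg (fun h => h2 h.2), mul_zero]
    · rw [if_neg h1, if_neg (fun h => h1 h.1)]
  · intro b _ hb
    split_ifs
    · unfold thTerm
      rw [if_neg (fun h => hb h.symm), zero_mul]
    · rfl
  · intro h; exact absurd (Finset.mem_univ _) h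

lemma hasSum_thv (q : ℕ) [NeZero q] (h : ZMod q) {z : ℂ} (hz : 0 < z.im) :
    HasSum (gT q h z) (thv q h z) := by
  have h1 : HasSum (fun u : ℤ × ℤ => ∑ b : ZMod (2 * q), (if redQ q b = 2 * h then
      thTerm (2 * q) b z u.1 * thTerm 2 (redTwo q b) z u.2 else 0)) (thv q h z) := by
    unfold thv
    refine hasSum_sum fun b _ => ?_
    split_ifs
    · exact (hasSum_thTerm (2 * q) b hz).mul (hasSum_thTerm 2 (redTwo q b) hz)
        (summable_mul_of_summable_norm (hasSum_norm_thTerm (2 * q) b hz)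
          (hasSum_norm_thTerm 2 (redTwo q b) hz))
    · exact hasSum_zero
  simp_rw [sum_thTerm] at h1
  exact h1

/-- the quaternary form times `4q`. -/
def qf (q p : ℕ) (v : (ℤ × ℤ) × (ℤ × ℤ)) : ℤ :=
  (v.1.1 ^ 2 + q * v.1.2 ^ 2) + p * (v.2.1 ^ 2 + q * v.2.2 ^ 2)

/-- membership in the lattice. -/
def inL (q : ℕ) (s : ZMod q) (v : (ℤ × ℤ) × (ℤ × ℤ)) : Prop :=
  (v.1.1 : ZMod 2) = v.1.2 ∧ (v.2.1 : ZMod 2) = v.2.2 ∧ (v.1.1 : ZMod q) = s * v.2.1

instance (q : ℕ) (s : ZMod q) (v : (ℤ × ℤ) × (ℤ × ℤ)) : Decidable (inL q s v) := by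
  unfold inL; infer_instance

lemma sum_gT (q p : ℕ) [Fact q.Prime] (hq : q % 4 = 3) (s : ZMod q) (z : ℂ)
    (v : (ℤ × ℤ) × (ℤ × ℤ)) :
    ∑ h : ZMod q, gT q (s * h) z v.1 * gT q h (p * z) v.2 =
      if inL q s v then cexp (2 * π * I * z * (qf q p v / (4 * q))) else 0 := by
  have h2 : (2 : ZMod q) ≠ 0 := by
    have : ((2 : ℕ) : ZMod q) ≠ 0 := by
      rw [Ne, ZMod.natCast_eq_zero_iff]
      intro h
      have := Nat.le_of_dvd (by norm_num) h
      omega
    exact_mod_cast this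
  have hq0 : (q : ℂ) ≠ 0 := by exact_mod_cast (Fact.out : q.Prime).ne_zero
  rw [Finset.sum_eq_single ((v.2.1 : ZMod q) / 2)]
  · unfold gT
    have e1 : (v.2.1 : ZMod q) = 2 * ((v.2.1 : ZMod q) / 2) := by field_simp
    have e2 : (2 : ZMod q) * (s * ((v.2.1 : ZMod q) / 2)) = s * v.2.1 := by field_simp
    rw [e2]
    by_cases a1 : (v.1.1 : ZMod 2) = v.1.2
    · by_cases a2 : (v.2.1 : ZMod 2) = v.2.2
      · by_cases a3 : (v.1.1 : ZMod q) = s * v.2.1
        · have h3 : inL q s v := ⟨a1, a2, a3⟩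
          rw [if_pos (And.intro a3 a1), if_pos (And.intro e1 a2), if_pos h3, ← Complex.exp_add]
          congr 1
          unfold qf
          push_cast
          field_simp
        · have h3 : ¬ inL q s v := fun h => a3 h.2.2
          have h4 : ¬ ((v.1.1 : ZMod q) = s * v.2.1 ∧ (v.1.1 : ZMod 2) = v.1.2) := fun h => a3 h.1
          rw [if_neg h4, if_neg h3, zero_mul]
      · have h3 : ¬ inL q s v := fun h => a2 h.2.1
        have h4 : ¬ ((v.2.1 : ZMod q) = 2 * ((v.2.1 : ZMod q) / 2) ∧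
          (v.2.1 : ZMod 2) = v.2.2) := fun h => a2 h.2
        rw [if_neg h4, if_neg h3, mul_zero]
    · have h3 : ¬ inL q s v := fun h => a1 h.1
      have h4 : ¬ ((v.1.1 : ZMod q) = s * v.2.1 ∧ (v.1.1 : ZMod 2) = v.1.2) := fun h => a1 h.2
      rw [if_neg h4, if_neg h3, zero_mul]
  · intro h _ hh
    have : ¬ ((v.2.1 : ZMod q) = 2 * h) := by
      intro h3
      apply hh
      rw [h3]
      field_simp
    have h4 : ¬ ((v.2.1 : ZMod q) = 2 * h ∧ (v.2.1 : ZMod 2) = v.2.2) := fun h => this h.1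
    unfold gT
    rw [if_neg h4, mul_zero]
  · intro h; exact absurd (Finset.mem_univ _) h

lemma hasSum_Theta4 (q p : ℕ) [Fact q.Prime] (hq : q % 4 = 3) (hp : 0 < p) (s : ZMod q) {z : ℂ}
    (hz : 0 < z.im) :
    HasSum (fun v : (ℤ × ℤ) × (ℤ × ℤ) => if inL q s v then
      cexp (2 * π * I * z * (qf q p v / (4 * q))) else 0) (Theta4 q p s z) := by
  have hpz : 0 < ((p : ℂ) * z).im := by
    have : (0 : ℝ) < p := by exact_mod_cast hp
    simp [hz, this]
  have h1 : HasSum (fun v : (ℤ × ℤ) × (ℤ × ℤ) => ∑ h : ZMod q,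
      gT q (s * h) z v.1 * gT q h (p * z) v.2) (Theta4 q p s z) := by
    unfold Theta4
    refine hasSum_sum fun h _ => ?_
    exact (hasSum_thv q (s * h) hz).mul (hasSum_thv q h hpz)
      (summable_mul_of_summable_norm (hasSum_thv q (s * h) hz).summable.norm
        (hasSum_thv q h hpz).summable.norm)
  simp_rw [sum_gT q p hq s] at h1
  exact h1

lemma four_dvd_of_parity {q : ℕ} (hq : q % 4 = 3) {m n : ℤ} (h : (m : ZMod 2) = n) :
    (4 : ℤ) ∣ m ^ 2 + q * n ^ 2 := by
  rw [ZMod.intCast_eq_intCast_iff, Int.modEq_iff_dvd] at h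
  obtain ⟨k, hk⟩ := h
  obtain ⟨t, ht⟩ : ∃ t : ℕ, q + 1 = 4 * t := ⟨(q + 1) / 4, by omega⟩
  have hn : n = m + 2 * k := by push_cast at hk; linarith
  have hq' : (q : ℤ) = 4 * t - 1 := by
    have : ((q + 1 : ℕ) : ℤ) = ((4 * t : ℕ) : ℤ) := by rw [ht]
    push_cast at this
    linarith
  refine ⟨t * n ^ 2 - k * (m + k), ?_⟩
  rw [hq', hn]
  ring

lemma four_q_dvd {q p : ℕ} [Fact q.Prime] (hq : q % 4 = 3) {s : ZMod q} (hs : s ^ 2 = -(p : ZMod q))
    {v : (ℤ × ℤ) × (ℤ × ℤ)} (hv : inL q s v) : ((4 * q : ℕ) : ℤ) ∣ qf q p v := by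
  have h4 : (4 : ℤ) ∣ qf q p v := by
    unfold qf
    exact dvd_add (four_dvd_of_parity hq hv.1) ((four_dvd_of_parity hq hv.2.1).mul_left _)
  have hqd : (q : ℤ) ∣ qf q p v := by
    rw [← ZMod.intCast_zmod_eq_zero_iff_dvd]
    unfold qf
    push_cast
    rw [hv.2.2, ZMod.natCast_self]
    linear_combination (v.2.1 : ZMod q) ^ 2 * hs
  have hcop : IsCoprime (4 : ℤ) (q : ℤ) := by
    have : Nat.Coprime 4 q := by
      rw [show 4 = 2 ^ 2 by norm_num]
      exact Nat.Coprime.pow_left 2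
        ((Nat.coprime_primes Nat.prime_two (Fact.out : q.Prime)).2 (by omega))
    exact_mod_cast (Nat.isCoprime_iff_coprime.2 this)
  push_cast
  exact hcop.mul_dvd h4 hqd

lemma qf_nonneg (q p : ℕ) (v : (ℤ × ℤ) × (ℤ × ℤ)) : 0 ≤ qf q p v := by
  unfold qf; positivity

lemma qf_eq_zero {q p : ℕ} (hq : 0 < q) (hp : 0 < p) {v : (ℤ × ℤ) × (ℤ × ℤ)}
    (h : qf q p v = 0) : v = 0 := by
  unfold qf at h
  have hq' : (0 : ℤ) < q := by exact_mod_cast hq
  have hp' : (0 : ℤ) < p := by exact_mod_cast hp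
  have a1 : 0 ≤ v.1.1 ^ 2 := sq_nonneg _
  have a2 : 0 ≤ q * v.1.2 ^ 2 := by positivity
  have a3 : 0 ≤ p * v.2.1 ^ 2 := by positivity
  have a4 : 0 ≤ p * (q * v.2.2 ^ 2) := by positivity
  have b1 : v.1.1 ^ 2 = 0 := by linarith
  have b2 : q * v.1.2 ^ 2 = 0 := by linarith
  have b3 : p * v.2.1 ^ 2 = 0 := by linarith
  have b4 : p * (q * v.2.2 ^ 2) = 0 := by linarith
  have c1 : v.1.1 = 0 := by simpa using b1
  have c2 : v.1.2 = 0 := by simpa [hq.ne'] using b2
  have c3 : v.2.1 = 0 := by simpa [hp.ne'] using b3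
  have c4 : v.2.2 = 0 := by simpa [hp.ne', hq.ne'] using b4
  ext <;> simp [c1, c2, c3, c4]

lemma qf_neg (q p : ℕ) (v : (ℤ × ℤ) × (ℤ × ℤ)) : qf q p (-v) = qf q p v := by
  simp [qf]

lemma inL_neg {q : ℕ} {s : ZMod q} {v : (ℤ × ℤ) × (ℤ × ℤ)} (h : inL q s v) : inL q s (-v) := by
  obtain ⟨h1, h2, h3⟩ := h
  refine ⟨?_, ?_, ?_⟩
  · simp [h1]
  · simp [h2]
  · simp [h3]

/-- the representation numbers. -/
def rT (q p : ℕ) (s : ZMod q) (n : ℕ) : ℕ :=
  Nat.card {v : (ℤ × ℤ) × (ℤ × ℤ) // inL q s v ∧ qf q p v = 4 * q * n}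

lemma rT_zero (q p : ℕ) (hq : 0 < q) (hp : 0 < p) (s : ZMod q) : rT q p s 0 = 1 := by
  unfold rT
  rw [Nat.card_eq_one_iff_unique]
  refine ⟨⟨fun a b => Subtype.ext ?_⟩, ⟨⟨0, ⟨by simp [inL], by simp [qf]⟩⟩⟩⟩
  have ha := a.2.2
  have hb := b.2.2
  simp only [Nat.cast_zero, mul_zero] at ha hb
  rw [qf_eq_zero hq hp ha, qf_eq_zero hq hp hb]

lemma rT_even (q p : ℕ) (hq : 0 < q) (s : ZMod q) {n : ℕ} (hn : 0 < n) :
    Even (rT q p s n) := by
  unfold rT
  set T := {v : (ℤ × ℤ) × (ℤ × ℤ) // inL q s v ∧ qf q p v = 4 * q * n} with hT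
  by_cases hfin : Finite T
  · have : Fintype T := Fintype.ofFinite T
    have : DecidableEq T := Classical.decEq T
    let σ : Function.End T := fun v => ⟨-v.1, inL_neg v.2.1, by rw [qf_neg]; exact v.2.2⟩
    have hσ : σ ^ 2 ^ 1 = 1 := by
      rw [pow_one, sq]
      funext v
      exact Subtype.ext (neg_neg v.1)
    have : Fact (Nat.Prime 2) := ⟨Nat.prime_two⟩
    have h := Equiv.Perm.card_fixedPoints_modEq hσ
    have hempty : IsEmpty (Function.fixedPoints σ) := by
      refine ⟨fun v => ?_⟩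
      have h1 : (σ v.1).1 = v.1.1 := congrArg Subtype.val v.2
      have h2 : -v.1.1 = v.1.1 := h1
      have h3 : v.1.1 = 0 := by
        rw [Prod.ext_iff, Prod.ext_iff, Prod.ext_iff] at h2 ⊢
        simp only [Prod.fst_neg, Prod.snd_neg, Prod.fst_zero, Prod.snd_zero] at h2 ⊢
        omega
      have h4 := v.1.2.2
      rw [h3] at h4
      simp only [qf, Prod.fst_zero, Prod.snd_zero] at h4
      have hq' : (0 : ℤ) < q := by exact_mod_cast hq
      have hn' : (0 : ℤ) < n := by exact_mod_cast hn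
      have : (0 : ℤ) < 4 * q * n := by positivity
      simp at h4
      rcases h4 with h4 | h4 <;> omega
    rw [Nat.card_eq_fintype_card, Nat.even_iff]
    have h5 : Fintype.card (Function.fixedPoints σ) = 0 := Fintype.card_eq_zero_iff.2 hempty
    rw [h5] at h
    exact h
  · have : Infinite T := not_finite_iff_infinite.1 hfin
    rw [Nat.card_eq_zero_of_infinite]
    exact Even.zero

/-- (E) the `q`-expansion of `Theta4`. The coefficients `rT q p s n` satisfy `rT_zero`, `rT_even`. -/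
theorem hasSum_Theta4_q (q p : ℕ) [Fact q.Prime] (hq : q % 4 = 3) (hp : 0 < p) (s : ZMod q)
    (hs : s ^ 2 = -(p : ZMod q)) {z : ℂ} (hz : 0 < z.im) :
    HasSum (fun n : ℕ => (rT q p s n : ℂ) * cexp (2 * π * I * z) ^ n) (Theta4 q p s z) := by
  have hq0 : (0 : ℤ) < q := by exact_mod_cast (Fact.out : q.Prime).pos
  have h := hasSum_Theta4 q p hq hp s hz
  have h1 := h.tsum_fiberwise (fun v => (qf q p v / (4 * q)).toNat)
  have key : ∀ n : ℕ, ∑' v : ((fun v => (qf q p v / (4 * q)).toNat) ⁻¹' {n} :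
      Set ((ℤ × ℤ) × (ℤ × ℤ))), (if inL q s v then
      cexp (2 * π * I * z * (qf q p v / (4 * q))) else 0) =
      (rT q p s n : ℂ) * cexp (2 * π * I * z) ^ n := by
    intro n
    have hqC : (q : ℂ) ≠ 0 := by exact_mod_cast hq0.ne'
    set A : Set ((ℤ × ℤ) × (ℤ × ℤ)) := {v | inL q s v ∧ qf q p v = 4 * q * n} with hA
    rw [tsum_subtype ((fun v => (qf q p v / (4 * q)).toNat) ⁻¹' {n} : Set ((ℤ × ℤ) × (ℤ × ℤ)))
      (fun v => if inL q s v then cexp (2 * π * I * z * (qf q p v / (4 * q))) else 0)]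
    have hind : (((fun v => (qf q p v / (4 * q)).toNat) ⁻¹' {n} : Set ((ℤ × ℤ) × (ℤ × ℤ))).indicator
        (fun v => if inL q s v then cexp (2 * π * I * z * (qf q p v / (4 * q))) else 0)) =
        A.indicator (fun _ => cexp (2 * π * I * z) ^ n) := by
      funext v
      by_cases hv : inL q s v
      · obtain ⟨m, hm⟩ := four_q_dvd hq hs hv
        have hm0 : 0 ≤ m := by
          have := qf_nonneg q p v
          rw [hm] at this
          push_cast at this
          by_contra hneg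
          push Not at hneg
          nlinarith
        have hdiv : qf q p v / (4 * q) = m := by
          rw [hm]
          push_cast
          rw [Int.mul_ediv_cancel_left _ (by positivity)]
        by_cases hmn : m = n
        · have h1 : v ∈ ((fun v => (qf q p v / (4 * q)).toNat) ⁻¹' {n} :
              Set ((ℤ × ℤ) × (ℤ × ℤ))) := by
            simp only [Set.mem_preimage, Set.mem_singleton_iff]
            rw [hdiv, hmn]
            simp
          have h2 : v ∈ A := ⟨hv, by rw [hm, hmn]; push_cast; ring⟩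
          rw [Set.indicator_of_mem h1, Set.indicator_of_mem h2, if_pos hv, ← Complex.exp_nat_mul]
          congr 1
          rw [hm, hmn]
          push_cast
          field_simp
        · have h1 : v ∉ ((fun v => (qf q p v / (4 * q)).toNat) ⁻¹' {n} :
              Set ((ℤ × ℤ) × (ℤ × ℤ))) := by
            simp only [Set.mem_preimage, Set.mem_singleton_iff]
            rw [hdiv]
            omega
          have h2 : v ∉ A := by
            rintro ⟨-, h3⟩
            apply hmn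
            rw [hm] at h3
            push_cast at h3
            have : (4 * (q : ℤ)) ≠ 0 := by positivity
            exact mul_left_cancel₀ this h3
          rw [Set.indicator_of_notMem h1, Set.indicator_of_notMem h2]
      · have h2 : v ∉ A := fun h => hv h.1
        rw [Set.indicator_of_notMem h2]
        by_cases h1 : v ∈ ((fun v => (qf q p v / (4 * q)).toNat) ⁻¹' {n} :
              Set ((ℤ × ℤ) × (ℤ × ℤ)))
        · rw [Set.indicator_of_mem h1, if_neg hv]
        · rw [Set.indicator_of_notMem h1]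
    rw [hind, ← tsum_subtype, tsum_const, nsmul_eq_mul]
    rfl
  simp_rw [key] at h1
  exact h1

/-- (E) in existential form. -/
theorem exists_qexp_Theta4 (q p : ℕ) [Fact q.Prime] (hq : q % 4 = 3) (hp : 0 < p) (s : ZMod q)
    (hs : s ^ 2 = -(p : ZMod q)) :
    ∃ r : ℕ → ℕ, r 0 = 1 ∧ (∀ n > 0, Even (r n)) ∧ ∀ z : ℂ, 0 < z.im →
      HasSum (fun n : ℕ => (r n : ℂ) * cexp (2 * π * I * z) ^ n) (Theta4 q p s z) :=
  ⟨rT q p s, rT_zero q p (Fact.out : q.Prime).pos hp s,
    fun n hn => rT_even q p (Fact.out : q.Prime).pos s hn,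
    fun _ hz => hasSum_Theta4_q q p hq hp s hs hz⟩

end Fermat.Agent.S16.Theta
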