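import Fermat.Agent.S16.ThetaMod
import Fermat.Agent.S16.ThetaQexp
import Fermat.Agent.S16.GaussQ
import Fermat.Prelude.Thm_CongruenceSubgroup_one_mem_strictPeriods_Gamma0

/-!
# The quaternary theta function as a modular form of weight 2 on `Γ₀(p)`

Main result: `Fermat.Agent.S16.Theta.exists_even_form`: for every prime `p` there is
`g ∈ M₂(Γ₀(p))` with integral `q`-expansion `1 + Σ (even) qⁿ`.
-/

set_option autoImplicit false

open Complex Real Filter Topology ModularGroup MatrixGroups CongruenceSubgroup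

open UpperHalfPlane hiding I

open scoped ModularForm Manifold

noncomputable section

namespace Fermat.Agent.S16.Theta

section Analytic

variable (q : ℕ) [NeZero q]

theorem differentiableAt_thv (h : ZMod q) {z : ℂ} (hz : 0 < z.im) :
    DifferentiableAt ℂ (thv q h) z := by
  have : thv q h = fun z => ∑ b : ZMod (2 * q),
      if redQ q b = 2 * h then th (2 * q) b z * th 2 (redTwo q b) z else 0 := rfl
  rw [this]
  refine DifferentiableAt.fun_sum fun b _ => ?_
  split_ifs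
  · exact (differentiableAt_th _ _ hz).mul (differentiableAt_th _ _ hz)
  · exact differentiableAt_const _

theorem mdiff_thH (h : ZMod q) : MDiff (thH q h) := by
  rw [mdifferentiable_iff]
  intro z hz
  refine DifferentiableAt.differentiableWithinAt ?_
  refine (differentiableAt_thv q h hz).congr_of_eventuallyEq ?_
  filter_upwards [isOpen_upperHalfPlaneSet.mem_nhds hz] with w hw
  rw [Function.comp_apply, thH, ofComplex_apply_of_im_pos hw]

theorem mdiff_psi (p : ℕ) [NeZero p] (h : ZMod q) : MDiff (psi q p h) := by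
  have hp : (0 : ℝ) < p := by exact_mod_cast Nat.pos_of_ne_zero (NeZero.ne p)
  rw [mdifferentiable_iff]
  intro z hz
  refine DifferentiableAt.differentiableWithinAt ?_
  have hz' : 0 < ((p : ℂ) * z).im := by
    rw [← Complex.ofReal_natCast, Complex.im_ofReal_mul]
    exact mul_pos hp hz
  have h1 : DifferentiableAt ℂ (fun z => thv q h ((p : ℂ) * z)) z :=
    DifferentiableAt.comp z (f := fun z => (p : ℂ) * z) (differentiableAt_thv q h hz')
      (by fun_prop)
  refine h1.congr_of_eventuallyEq ?_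
  filter_upwards [isOpen_upperHalfPlaneSet.mem_nhds hz] with w hw
  rw [Function.comp_apply, psi, thH, ModularForm.coe_heckeDiagMatrix_smul (NeZero.ne p),
    ofComplex_apply_of_im_pos hw]

theorem mdiff_ThetaH (p : ℕ) [NeZero p] (s : ZMod q) : MDiff (ThetaH q p s) :=
  Fermat.Agent.Eis.mdiff_sum _ _ fun _ _ => (mdiff_thH q _).mul (mdiff_psi q p _)

theorem norm_thv_le (h : ZMod q) : ∃ C : ℝ, ∀ z : ℂ, 1 ≤ z.im → ‖thv q h z‖ ≤ C := by
  have h1 : ∀ b : ZMod (2 * q), ∃ C : ℝ, ∀ z : ℂ, 1 ≤ z.im →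
      ‖if redQ q b = 2 * h then th (2 * q) b z * th 2 (redTwo q b) z else 0‖ ≤ C := by
    intro b
    obtain ⟨C₁, hC₁⟩ := norm_th_le (2 * q) b
    obtain ⟨C₂, hC₂⟩ := norm_th_le 2 (redTwo q b)
    refine ⟨|C₁| * |C₂|, fun z hz => ?_⟩
    split_ifs
    · rw [norm_mul]
      exact mul_le_mul ((hC₁ z hz).trans (le_abs_self _)) ((hC₂ z hz).trans (le_abs_self _))
        (norm_nonneg _) (abs_nonneg _)
    · rw [norm_zero]
      positivity
  choose C hC using h1
  exact ⟨∑ b, C b, fun z hz => (norm_sum_le _ _).trans (Finset.sum_le_sum fun b _ => hC b z hz)⟩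

theorem bdd_thH (h : ZMod q) : IsBoundedAtImInfty (thH q h) := by
  obtain ⟨C, hC⟩ := norm_thv_le q h
  rw [isBoundedAtImInfty_iff]
  exact ⟨C, 1, fun z hz => hC z hz⟩

theorem bdd_psi (p : ℕ) [NeZero p] (h : ZMod q) : IsBoundedAtImInfty (psi q p h) := by
  obtain ⟨C, hC⟩ := norm_thv_le q h
  have hp : (1 : ℝ) ≤ p := by exact_mod_cast Nat.pos_of_ne_zero (NeZero.ne p)
  rw [isBoundedAtImInfty_iff]
  refine ⟨C, 1, fun z hz => ?_⟩
  rw [psi, thH, ModularForm.coe_heckeDiagMatrix_smul (NeZero.ne p)]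
  apply hC
  rw [← Complex.ofReal_natCast, Complex.im_ofReal_mul]
  change 1 ≤ (z : ℂ).im at hz
  nlinarith

theorem bdd_ThetaH (p : ℕ) [NeZero p] (s : ZMod q) : IsBoundedAtImInfty (ThetaH q p s) :=
  Fermat.Agent.Eis.isBoundedAtImInfty_sum _ _ fun _ _ => (bdd_thH q _).mul (bdd_psi q p _)

end Analytic

section AtS

variable (q : ℕ) [Fact q.Prime]

theorem bdd_thH_S (hq : q % 2 = 1) (h : ZMod q) : IsBoundedAtImInfty (thH q h ∣[(1 : ℤ)] S) := by
  rw [thH_slash_S q hq]
  refine Fermat.Agent.Eis.isBoundedAtImInfty_sum _ _ fun w _ => ?_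
  exact (bdd_thH q w).const_smul_left _

theorem bdd_psi_S (hq : q % 2 = 1) (p : ℕ) [NeZero p] (h : ZMod q) :
    IsBoundedAtImInfty (psi q p h ∣[(1 : ℤ)] S) := by
  have hp : (0 : ℝ) < p := by exact_mod_cast Nat.pos_of_ne_zero (NeZero.ne p)
  have hpc : (p : ℂ) ≠ 0 := by exact_mod_cast NeZero.ne p
  have hC := fun w : ZMod q => norm_thv_le q w
  choose C hC using hC
  have key : ∀ τ : ℍ, (psi q p h ∣[(1 : ℤ)] S) τ = cS q / p * ∑ w : ZMod q,
      (ZMod.stdAddChar (2 * h * w) : ℂ) * thv q w ((τ : ℂ) / p) := by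
    intro τ
    have hτ := ne_zero τ
    have h1 : ((S • τ : ℍ) : ℂ) = -1 / (τ : ℂ) := by
      rw [modular_S_smul, coe_mk, inv_neg, neg_div, one_div]
    have him : 0 < ((τ : ℂ) / p).im := by
      rw [← Complex.ofReal_natCast, Complex.div_ofReal_im]
      exact div_pos τ.im_pos hp
    rw [ModularForm.SL_slash_apply, denom_S, psi, thH,
      ModularForm.coe_heckeDiagMatrix_smul (NeZero.ne p), h1,
      show (p : ℂ) * (-1 / (τ : ℂ)) = -1 / ((τ : ℂ) / p) by field_simp, thv_S q hq h him, cS,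
      zpow_neg, zpow_one]
    have h2 : (I * ((√(q : ℝ) : ℝ) : ℂ)) ≠ 0 := mul_ne_zero I_ne_zero (sqrt_q_ne_zero q)
    have h3 := sqrt_q_ne_zero q
    field_simp
  rw [isBoundedAtImInfty_iff]
  refine ⟨‖cS q / p‖ * ∑ w, C w, p, fun τ hτ => ?_⟩
  rw [key, norm_mul]
  refine mul_le_mul_of_nonneg_left ((norm_sum_le _ _).trans (Finset.sum_le_sum fun w _ => ?_))
    (norm_nonneg _)
  rw [norm_mul]
  have h4 : ‖(ZMod.stdAddChar (2 * h * w) : ℂ)‖ = 1 := by
    rw [ZMod.stdAddChar_apply]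
    exact Circle.norm_coe _
  rw [h4, one_mul]
  apply hC
  rw [← Complex.ofReal_natCast, Complex.div_ofReal_im, le_div_iff₀ hp, one_mul]
  exact hτ

theorem bdd_ThetaH_S (hq : q % 2 = 1) (p : ℕ) [NeZero p] (s : ZMod q) :
    IsBoundedAtImInfty (ThetaH q p s ∣[(2 : ℤ)] S) := by
  rw [ThetaH, SlashAction.sum_slash]
  refine Fermat.Agent.Eis.isBoundedAtImInfty_sum _ _ fun h _ => ?_
  rw [show (2 : ℤ) = 1 + 1 by norm_num, ModularForm.mul_slash_SL2]
  exact (bdd_thH_S q hq _).mul (bdd_psi_S q hq p h)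

end AtS

/-- For every prime `p` there is a modular form of weight `2` on `Γ₀(p)` whose `q`-expansion is
integral, congruent to `1` modulo `2` and with constant term `1`. -/
theorem exists_even_form (p : ℕ) [Fact p.Prime] :
    ∃ (g : ModularForm (CongruenceSubgroup.Gamma0 p) 2) (A : PowerSeries ℤ),
      Fermat.Agent.Eis.HasQ g A ∧ A.coeff 0 = 1 ∧ ∀ n, 0 < n → (2 : ℤ) ∣ A.coeff n := by
  have : NeZero p := ⟨(Fact.out : p.Prime).ne_zero⟩
  obtain ⟨q, hqf, hq4, hqp, hchi, s, hs⟩ := exists_aux_prime p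
  have hq2 : q % 2 = 1 := by omega
  have hpq : (p : ZMod q) ≠ 0 := by
    rw [Ne, ZMod.natCast_eq_zero_iff]
    intro h
    exact hqp ((Nat.prime_dvd_prime_iff_eq (Fact.out : q.Prime) (Fact.out : p.Prime)).mp h)
  have hchi' : chiQ q (p : ZMod q) = -1 := by
    rw [chiQ, hchi]
    norm_num
  let g : ModularForm (Gamma0 p) 2 := Fermat.Agent.Eis.mkGamma0 2 (ThetaH q p s)
    (fun γ hγ => ThetaH_slash hq4 p s hs hpq hchi' γ hγ) (mdiff_ThetaH q p s)
    (bdd_ThetaH q p s) (bdd_ThetaH_S q hq2 p s)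
  obtain ⟨r, hr0, hreven, hr⟩ := exists_qexp_Theta4 q p hq4 (Fact.out : p.Prime).pos s hs
  refine ⟨g, PowerSeries.mk fun n => (r n : ℤ), ?_, ?_, ?_⟩
  · intro n
    rw [PowerSeries.coeff_mk, ModularFormClass.qCoeff]
    have h1 := ModularFormClass.qExpansion_coeff_unique (h := 1) (F := ModularForm (Gamma0 p) 2)
      (Γ := Gamma0 p) (k := 2) one_pos (CongruenceSubgroup.one_mem_strictPeriods_Gamma0 p)
      (f := g) (c := fun n => (r n : ℂ)) ?_ n
    · rw [← h1]
      simp
    · intro τ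
      have h2 := hr τ τ.im_pos
      have h3 : g τ = Theta4 q p s τ := ThetaH_apply q p s τ
      rw [h3]
      convert h2 using 2
      rw [smul_eq_mul, Function.Periodic.qParam]
      simp
  · rw [PowerSeries.coeff_mk, hr0]
    rfl
  · intro n hn
    rw [PowerSeries.coeff_mk]
    exact_mod_cast (hreven n hn).two_dvd

end Fermat.Agent.S16.Theta
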