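import Fermat.Agent.S16.ThetaVec

/-!
# Quadratic Gauss sums in `ZMod q`; the sign of the quadratic Gauss sum from theta functions

(helper85, S16 part (B)).
-/

set_option autoImplicit false

open Complex Real Filter Topology

noncomputable section

namespace Fermat.Agent.S16.Theta

variable (q : ℕ) [Fact q.Prime]

/-- quadratic character with complex values -/
def chiQ (x : ZMod q) : ℂ := ((quadraticChar (ZMod q) x : ℤ) : ℂ)

theorem chiQ_mul (x y : ZMod q) : chiQ q (x * y) = chiQ q x * chiQ q y := by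
  rw [chiQ, map_mul, Int.cast_mul]
  rfl

theorem chiQ_one : chiQ q 1 = 1 := by
  simp [chiQ]

theorem chiQ_sq {x : ZMod q} (hx : x ≠ 0) : chiQ q x * chiQ q x = 1 := by
  rw [chiQ, ← Int.cast_mul, ← sq, quadraticChar_sq_one hx, Int.cast_one]

theorem chiQ_inv {x : ZMod q} (hx : x ≠ 0) : chiQ q x⁻¹ = chiQ q x := by
  have h1 : chiQ q x * chiQ q x⁻¹ = 1 := by
    rw [← chiQ_mul, mul_inv_cancel₀ hx, chiQ_one]
  have h2 := chiQ_sq q hx
  have h3 : chiQ q x ≠ 0 := fun h => by rw [h, zero_mul] at h1; exact zero_ne_one h1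
  exact mul_left_cancel₀ h3 (h1.trans h2.symm)

/-- The Gauss sum `∑ e(y²/q)`. -/
def gaussG : ℂ := ∑ y : ZMod q, ZMod.stdAddChar (y ^ 2)

variable (hq : q % 2 = 1)

include hq in
theorem ringChar_ne_two : ringChar (ZMod q) ≠ 2 := by
  rw [ZMod.ringChar_zmod_n]
  omega

include hq in
theorem two_ne_zero_zmod : (2 : ZMod q) ≠ 0 :=
  Ring.two_ne_zero (ringChar_ne_two q hq)

include hq in
theorem sum_sq (f : ZMod q → ℂ) :
    ∑ y : ZMod q, f (y ^ 2) = ∑ x : ZMod q, (chiQ q x + 1) * f x := by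
  have h1 : ∑ y : ZMod q, f (y ^ 2) =
      ∑ x : ZMod q, ∑ y : ZMod q with y ^ 2 = x, f (y ^ 2) :=
    (Finset.sum_fiberwise Finset.univ (fun y : ZMod q => y ^ 2) (fun y => f (y ^ 2))).symm
  rw [h1]
  refine Finset.sum_congr rfl fun x _ => ?_
  have h2 : ∑ y : ZMod q with y ^ 2 = x, f (y ^ 2) = ∑ y : ZMod q with y ^ 2 = x, f x :=
    Finset.sum_congr rfl fun y hy => by rw [(Finset.mem_filter.mp hy).2]
  rw [h2, Finset.sum_const, nsmul_eq_mul]
  congr 1
  have h3 := quadraticChar_card_sqrts (F := ZMod q) (ringChar_ne_two q hq) x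
  have h4 : ({y : ZMod q | y ^ 2 = x}.toFinset) = Finset.univ.filter fun y => y ^ 2 = x := by
    ext y; simp
  rw [h4] at h3
  rw [chiQ]
  have h5 := congrArg (fun t : ℤ => (t : ℂ)) h3
  push_cast at h5
  exact h5

include hq in
theorem sum_mul_sq {α : ZMod q} (hα : α ≠ 0) :
    ∑ y : ZMod q, (ZMod.stdAddChar (α * y ^ 2) : ℂ) = chiQ q α * gaussG q := by
  have h0 : ∀ {β : ZMod q}, β ≠ 0 → ∑ x : ZMod q, (ZMod.stdAddChar (β * x) : ℂ) = 0 := by
    intro β hβ
    have := AddChar.sum_mulShift β (ZMod.isPrimitive_stdAddChar q)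
    rw [if_neg hβ] at this
    simpa [mul_comm] using this
  have key : ∀ {β : ZMod q}, β ≠ 0 → ∑ y : ZMod q, (ZMod.stdAddChar (β * y ^ 2) : ℂ) =
      ∑ x : ZMod q, chiQ q x * ZMod.stdAddChar (β * x) := by
    intro β hβ
    rw [sum_sq q hq (fun x => (ZMod.stdAddChar (β * x) : ℂ))]
    simp_rw [add_mul, one_mul]
    rw [Finset.sum_add_distrib, h0 hβ, add_zero]
  rw [key hα, gaussG]
  have h2 := key (β := 1) one_ne_zero
  simp_rw [one_mul] at h2
  rw [h2, Finset.mul_sum]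
  rw [← Equiv.sum_comp (Equiv.mulLeft₀ α hα)
    (fun x => chiQ q α * (chiQ q x * (ZMod.stdAddChar x : ℂ)))]
  refine (Finset.sum_congr rfl fun x _ => ?_)
  change chiQ q x * (ZMod.stdAddChar (α * x) : ℂ) =
    chiQ q α * (chiQ q (α * x) * (ZMod.stdAddChar (α * x) : ℂ))
  rw [chiQ_mul]
  linear_combination (-(chiQ q x * (ZMod.stdAddChar (α * x) : ℂ))) * chiQ_sq q hα

include hq in
/-- completed square Gauss sum -/
theorem sum_quadratic {α : ZMod q} (hα : α ≠ 0) (β : ZMod q) :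
    ∑ y : ZMod q, (ZMod.stdAddChar (α * y ^ 2 + β * y) : ℂ) =
      chiQ q α * gaussG q * ZMod.stdAddChar (-(β ^ 2 / (4 * α))) := by
  have h2 : (2 : ZMod q) ≠ 0 := two_ne_zero_zmod q hq
  have h4 : (4 : ZMod q) ≠ 0 := by
    rw [show (4 : ZMod q) = 2 * 2 by norm_num]
    exact mul_ne_zero h2 h2
  rw [← sum_mul_sq q hq hα, ← Equiv.sum_comp (Equiv.addRight (β / (2 * α)))
    (fun y => (ZMod.stdAddChar (α * y ^ 2) : ℂ)), Finset.sum_mul]
  refine (Finset.sum_congr rfl fun x _ => ?_)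
  rw [Equiv.coe_addRight, ← AddChar.map_add_eq_mul]
  congr 1
  field_simp
  ring

/-- positivity of `th` on the imaginary axis -/
theorem th_I (M : ℕ) [NeZero M] (a : ZMod M) : ∃ r : ℝ, 0 ≤ r ∧ (a = 0 → 0 < r) ∧
    th M a I = (r : ℂ) := by
  have hs : Summable (thTerm M a I) := summable_thTerm M a (by simp)
  have key : ∀ n : ℤ, thTerm M a I n =
      ((if (n : ZMod M) = a then Real.exp (-(π * n ^ 2 / M)) else 0 : ℝ) : ℂ) := by
    intro n
    rw [thTerm]
    split_ifs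
    · rw [Complex.ofReal_exp]
      congr 1
      push_cast
      have : (π * I * (n : ℂ) ^ 2 * I / M) = (I * I) * (π * n ^ 2 / M) := by ring
      rw [this, Complex.I_mul_I]
      ring
    · simp
  have hs' : Summable (fun n : ℤ =>
      (if (n : ZMod M) = a then Real.exp (-(π * n ^ 2 / M)) else 0 : ℝ)) := by
    rw [← Complex.summable_ofReal]
    refine hs.congr fun n => ?_
    rw [key n]
  refine ⟨∑' n : ℤ, (if (n : ZMod M) = a then Real.exp (-(π * n ^ 2 / M)) else 0 : ℝ), ?_, ?_, ?_⟩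
  · exact tsum_nonneg fun n => by split_ifs <;> positivity
  · rintro rfl
    refine hs'.tsum_pos (fun n => by split_ifs <;> positivity) 0 ?_
    simp
  · rw [th, Complex.ofReal_tsum]
    exact tsum_congr key

theorem thv_zero_I_ne_zero : thv q 0 I ≠ 0 := by
  have h1 : ∀ b : ZMod (2 * q), ∃ r : ℝ, 0 ≤ r ∧ (b = 0 → 0 < r) ∧
      (if redQ q b = 2 * 0 then th (2 * q) b I * th 2 (redTwo q b) I else 0) = (r : ℂ) := by
    intro b
    obtain ⟨r₁, h₁, h₁', e₁⟩ := th_I (2 * q) b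
    obtain ⟨r₂, h₂, h₂', e₂⟩ := th_I 2 (redTwo q b)
    split_ifs with hb
    · refine ⟨r₁ * r₂, mul_nonneg h₁ h₂, ?_, by rw [e₁, e₂]; push_cast; ring⟩
      rintro rfl
      exact mul_pos (h₁' rfl) (h₂' (map_zero _))
    · refine ⟨0, le_refl 0, ?_, by simp⟩
      rintro rfl
      exact absurd (by rw [map_zero, mul_zero]) hb
  choose r h1 h2 h3 using h1
  rw [thv]
  simp_rw [h3]
  rw [← Complex.ofReal_sum]
  have : 0 < ∑ b : ZMod (2 * q), r b :=
    Finset.sum_pos' (fun b _ => h1 b) ⟨0, Finset.mem_univ _, h2 0 rfl⟩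
  exact_mod_cast this.ne'

end Fermat.Agent.S16.Theta
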