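import Fermat.Agent.S16.ThetaGauss

/-!
# The action of `SL₂(ℤ)` on the vector valued theta function: explicit Weil representation

(helper85, S16 part (B)).
-/

set_option autoImplicit false

open Complex Real Filter Topology ModularGroup MatrixGroups

open UpperHalfPlane hiding I

open scoped ModularForm

noncomputable section

namespace Fermat.Agent.S16.Theta

/-- the theta vector as functions on the upper half plane -/
def thH (q : ℕ) [NeZero q] (h : ZMod q) : ℍ → ℂ := fun τ => thv q h (τ : ℂ)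

theorem th_neg (M : ℕ) (a : ZMod M) (z : ℂ) : th M (-a) z = th M a z := by
  rw [th, th, ← (Equiv.neg ℤ).tsum_eq]
  refine tsum_congr fun n => ?_
  simp only [thTerm, Equiv.neg_apply, Int.cast_neg, neg_inj, neg_sq]

theorem thv_neg (q : ℕ) [NeZero q] (h : ZMod q) (z : ℂ) : thv q (-h) z = thv q h z := by
  rw [thv, thv, ← Equiv.sum_comp (Equiv.neg (ZMod (2 * q)))]
  refine Finset.sum_congr rfl fun b _ => ?_
  simp only [Equiv.neg_apply, map_neg, th_neg, mul_neg, neg_inj]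

variable (q : ℕ) [Fact q.Prime]

theorem thH_neg (h : ZMod q) : thH q (-h) = thH q h := by
  ext τ
  exact thv_neg q h τ

/-- the constant of the `S`-transformation -/
def cS : ℂ := 1 / (I * (√(q : ℝ) : ℝ))

theorem sqrt_q_ne_zero : ((√(q : ℝ) : ℝ) : ℂ) ≠ 0 := by
  have hqpos : (0 : ℝ) < q := by exact_mod_cast (Fact.out : q.Prime).pos
  exact_mod_cast (Real.sqrt_pos.mpr hqpos).ne'

theorem cS_ne_zero : cS q ≠ 0 := by
  rw [cS]
  exact div_ne_zero one_ne_zero (mul_ne_zero Complex.I_ne_zero (sqrt_q_ne_zero q))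

theorem cS_mul_cS : cS q * cS q * q = -1 := by
  have h1 := sqrt_q_ne_zero q
  have h2 : ((√(q : ℝ) : ℝ) : ℂ) * ((√(q : ℝ) : ℝ) : ℂ) = q := by
    rw [← Complex.ofReal_mul, Real.mul_self_sqrt (Nat.cast_nonneg q), Complex.ofReal_natCast]
  rw [cS, div_mul_div_comm, one_mul, mul_mul_mul_comm, Complex.I_mul_I, h2]
  have h3 : (q : ℂ) ≠ 0 := by exact_mod_cast (Fact.out : q.Prime).ne_zero
  field_simp

theorem thH_slash_T (hq : q % 4 = 3) (h : ZMod q) :
    thH q h ∣[(1 : ℤ)] T = (ZMod.stdAddChar (h ^ 2) : ℂ) • thH q h := by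
  ext τ
  rw [ModularForm.SL_slash_apply, Pi.smul_apply, smul_eq_mul, thH, thH]
  have h1 : ((T • τ : ℍ) : ℂ) = (τ : ℂ) + 1 := by
    rw [modular_T_smul, coe_vadd]
    push_cast
    ring
  have h2 : denom (T : GL (Fin 2) ℝ) τ = 1 := by
    rw [ModularGroup.denom_apply]
    simp [T]
  rw [h1, h2, thv_T q hq]
  simp

theorem thH_slash_S (hq : q % 2 = 1) (h : ZMod q) :
    thH q h ∣[(1 : ℤ)] S =
      ∑ w : ZMod q, (cS q * ZMod.stdAddChar (-(2 * h * w)) : ℂ) • thH q w := by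
  ext τ
  rw [ModularForm.SL_slash_apply, denom_S, thH]
  have h1 : ((S • τ : ℍ) : ℂ) = -1 / (τ : ℂ) := by
    rw [modular_S_smul, coe_mk, inv_neg, neg_div, one_div]
  rw [h1, thv_S q hq h τ.im_pos, Finset.sum_apply]
  have h2 : (τ : ℂ) / (I * (√(q : ℝ) : ℝ)) = cS q * τ := by rw [cS]; ring
  have h3 : ∀ x : ℂ, cS q * (τ : ℂ) * x * (τ : ℂ) ^ (-1 : ℤ) = cS q * x := by
    intro x
    rw [zpow_neg, zpow_one]
    have := ne_zero τ
    field_simp
  rw [h2, h3, Finset.mul_sum, ← Equiv.sum_comp (Equiv.neg (ZMod q))]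
  refine Finset.sum_congr rfl fun w _ => ?_
  rw [Equiv.neg_apply, Pi.smul_apply, smul_eq_mul, thv_neg, mul_neg, thH]
  ring

/-- Weil representation kernel -/
def kF (a b c d h w : ZMod q) : ℂ :=
  if c = 0 then (if w = a * h then chiQ q a * ZMod.stdAddChar (a * b * h ^ 2) else 0)
  else cS q * chiQ q c * ZMod.stdAddChar ((a * h ^ 2 - 2 * h * w + d * w ^ 2) / c)

variable {q}

theorem kF_T {a b c d : ZMod q} (n : ZMod q) (h w : ZMod q) :
    kF q a b c d h w * ZMod.stdAddChar (n * w ^ 2) = kF q a (b + n * a) c (d + n * c) h w := by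
  unfold kF
  split_ifs with hc hw
  · rw [mul_assoc, ← AddChar.map_add_eq_mul, hw]
    congr 2
    ring
  · rw [zero_mul]
  · rw [mul_assoc, ← AddChar.map_add_eq_mul]
    congr 2
    field_simp
    ring

theorem sum_std_mul (x : ZMod q) :
    ∑ w : ZMod q, (ZMod.stdAddChar (w * x) : ℂ) = if x = 0 then (q : ℂ) else 0 := by
  have := AddChar.sum_mulShift x (ZMod.isPrimitive_stdAddChar q)
  rw [this, ZMod.card]
  split_ifs <;> simp

theorem chiQ_div {x y : ZMod q} (hy : y ≠ 0) : chiQ q (x / y) = chiQ q x * chiQ q y := by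
  rw [div_eq_mul_inv, chiQ_mul, chiQ_inv q hy]

theorem kF_S (hq : q % 2 = 1) (hG : cS q * gaussG q = 1) (hchi : chiQ q (-1) = -1)
    {a b c d : ZMod q} (hdet : a * d - b * c = 1) (h v : ZMod q) :
    ∑ w : ZMod q, kF q a b c d h w * (cS q * ZMod.stdAddChar (-(2 * w * v))) =
      kF q b (-a) d (-c) h v := by
  have h2 : (2 : ZMod q) ≠ 0 := two_ne_zero_zmod q hq
  by_cases hc : c = 0
  · subst hc
    rw [mul_zero, sub_zero] at hdet
    have ha : a ≠ 0 := left_ne_zero_of_mul_eq_one hdet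
    have hd : d ≠ 0 := right_ne_zero_of_mul_eq_one hdet
    have hd' : d = a⁻¹ := eq_inv_of_mul_eq_one_right hdet
    simp only [kF, if_true, hd, if_false, ite_mul, zero_mul, Finset.sum_ite_eq',
      Finset.mem_univ]
    rw [hd', chiQ_inv q ha]
    have h1 : (ZMod.stdAddChar (a * b * h ^ 2) : ℂ) * ZMod.stdAddChar (-(2 * (a * h) * v)) =
        ZMod.stdAddChar ((b * h ^ 2 - 2 * h * v + -0 * v ^ 2) / a⁻¹) := by
      rw [← AddChar.map_add_eq_mul]
      congr 1
      field_simp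
      ring
    rw [← h1]
    ring
  · by_cases hd : d = 0
    · subst hd
      rw [mul_zero, zero_sub] at hdet
      have hb : b ≠ 0 := fun hb => by rw [hb] at hdet; simp at hdet
      simp only [kF, if_true, hc, if_false]
      have h1 : ∀ w : ZMod q, cS q * chiQ q c *
          ZMod.stdAddChar ((a * h ^ 2 - 2 * h * w + 0 * w ^ 2) / c) *
          (cS q * ZMod.stdAddChar (-(2 * w * v))) =
          cS q * cS q * chiQ q c * ZMod.stdAddChar (a * h ^ 2 / c) *
            ZMod.stdAddChar (w * (-(2 * (h / c + v)))) := by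
        intro w
        have : (ZMod.stdAddChar ((a * h ^ 2 - 2 * h * w + 0 * w ^ 2) / c) : ℂ) *
            ZMod.stdAddChar (-(2 * w * v)) =
            ZMod.stdAddChar (a * h ^ 2 / c) * ZMod.stdAddChar (w * (-(2 * (h / c + v)))) := by
          rw [← AddChar.map_add_eq_mul, ← AddChar.map_add_eq_mul]
          congr 1
          field_simp
          ring
        linear_combination (cS q * chiQ q c * cS q) * this
      simp_rw [h1]
      rw [← Finset.mul_sum, sum_std_mul]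
      have hbc : b = -c⁻¹ := by
        rw [eq_neg_iff_add_eq_zero]
        field_simp
        linear_combination -hdet
      have h3 : -(2 * (h / c + v)) = 0 ↔ v = b * h := by
        rw [neg_eq_zero, mul_eq_zero, or_iff_right h2, hbc]
        constructor
        · intro hh
          have : v = -(h / c) := by linear_combination hh
          rw [this]; ring
        · intro hh
          rw [hh]; ring
      simp only [h3]
      split_ifs with hv
      · have h4 : chiQ q b = -chiQ q c := by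
          rw [hbc, ← neg_one_mul, chiQ_mul, hchi, chiQ_inv q hc]
          ring
        have h5 : a * h ^ 2 / c = b * -a * h ^ 2 := by rw [hbc]; ring
        rw [h4, h5]
        linear_combination (chiQ q c * ZMod.stdAddChar (b * -a * h ^ 2)) * cS_mul_cS q
      · rw [mul_zero]
    · simp only [kF, hc, hd, if_false]
      have h1 : ∀ w : ZMod q, cS q * chiQ q c *
          ZMod.stdAddChar ((a * h ^ 2 - 2 * h * w + d * w ^ 2) / c) *
          (cS q * ZMod.stdAddChar (-(2 * w * v))) =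
          cS q * cS q * chiQ q c * ZMod.stdAddChar (a * h ^ 2 / c) *
            ZMod.stdAddChar (d / c * w ^ 2 + -(2 * (h / c + v)) * w) := by
        intro w
        have : (ZMod.stdAddChar ((a * h ^ 2 - 2 * h * w + d * w ^ 2) / c) : ℂ) *
            ZMod.stdAddChar (-(2 * w * v)) =
            ZMod.stdAddChar (a * h ^ 2 / c) *
              ZMod.stdAddChar (d / c * w ^ 2 + -(2 * (h / c + v)) * w) := by
          rw [← AddChar.map_add_eq_mul, ← AddChar.map_add_eq_mul]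
          congr 1
          field_simp
          ring
        linear_combination (cS q * chiQ q c * cS q) * this
      simp_rw [h1]
      rw [← Finset.mul_sum, sum_quadratic q hq (div_ne_zero hd hc), chiQ_div hc]
      have h4 : (4 : ZMod q) ≠ 0 := by
        rw [show (4 : ZMod q) = 2 * 2 by norm_num]
        exact mul_ne_zero h2 h2
      have h5 : (ZMod.stdAddChar (a * h ^ 2 / c) : ℂ) *
          ZMod.stdAddChar (-((-(2 * (h / c + v))) ^ 2 / (4 * (d / c)))) =
          ZMod.stdAddChar ((b * h ^ 2 - 2 * h * v + -c * v ^ 2) / d) := by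
        rw [← AddChar.map_add_eq_mul]
        congr 1
        field_simp
        linear_combination (4 * h ^ 2 : ZMod q) * hdet
      rw [← h5]
      linear_combination (cS q * chiQ q d * (ZMod.stdAddChar (a * h ^ 2 / c) *
          ZMod.stdAddChar (-((-(2 * (h / c + v))) ^ 2 / (4 * (d / c)))))) *
          (cS q * gaussG q * chiQ_sq q hc + hG)

variable (q)

theorem std_mul_neg (x : ZMod q) :
    (ZMod.stdAddChar x : ℂ) * ZMod.stdAddChar (-x) = 1 := by
  rw [← AddChar.map_add_eq_mul, add_neg_cancel, AddChar.map_zero_eq_one]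

theorem thH_slash_T_inv (hq : q % 4 = 3) (h : ZMod q) :
    thH q h ∣[(1 : ℤ)] T⁻¹ = (ZMod.stdAddChar (-(h ^ 2)) : ℂ) • thH q h := by
  have h1 : (thH q h ∣[(1 : ℤ)] T) ∣[(1 : ℤ)] T⁻¹ = thH q h := by
    rw [← SlashAction.slash_mul, mul_inv_cancel, SlashAction.slash_one]
  rw [thH_slash_T q hq, ModularForm.SL_smul_slash] at h1
  rw [← h1, smul_smul, mul_comm, std_mul_neg, one_smul, h1]

theorem sum_smul_slash {ι : Type*} (s : Finset ι) (k : ℤ) (c : ι → ℂ) (f : ι → ℍ → ℂ)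
    (γ : SL(2, ℤ)) : (∑ i ∈ s, c i • f i) ∣[k] γ = ∑ i ∈ s, c i • (f i ∣[k] γ) := by
  rw [SlashAction.sum_slash]
  exact Finset.sum_congr rfl fun i _ => ModularForm.SL_smul_slash _ _ _ _

theorem thH_zero_ne_zero : thH q 0 ≠ 0 := by
  intro h
  exact thv_zero_I_ne_zero q (congrFun h UpperHalfPlane.I)

theorem cS_mul_gaussG (hq : q % 4 = 3) : cS q * gaussG q = 1 := by
  have hq2 : q % 2 = 1 := by omega
  -- first evaluation
  have hS : thH q 0 ∣[(1 : ℤ)] S = ∑ w : ZMod q, cS q • thH q w := by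
    rw [thH_slash_S q hq2]
    refine Finset.sum_congr rfl fun w _ => ?_
    rw [mul_zero, zero_mul, neg_zero, AddChar.map_zero_eq_one, mul_one]
  have h1 : thH q 0 ∣[(1 : ℤ)] (S * T * S) =
      (cS q * cS q * gaussG q) • ∑ w : ZMod q, (ZMod.stdAddChar (-(w ^ 2)) : ℂ) • thH q w := by
    rw [SlashAction.slash_mul, SlashAction.slash_mul, hS, sum_smul_slash, sum_smul_slash]
    simp_rw [thH_slash_T q hq, ModularForm.SL_smul_slash, thH_slash_S q hq2, Finset.smul_sum,
      smul_smul]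
    rw [Finset.sum_comm]
    refine Finset.sum_congr rfl fun w _ => ?_
    rw [← Finset.sum_smul]
    congr 1
    have h2 := sum_quadratic q hq2 (α := 1) one_ne_zero (-(2 * w))
    have h3 : chiQ q 1 = 1 := chiQ_one q
    have h4 : -((-(2 * w)) ^ 2 / (4 * 1)) = -(w ^ 2) := by
      have h2 : (2 : ZMod q) ≠ 0 := two_ne_zero_zmod q hq2
      have h4 : (4 : ZMod q) ≠ 0 := by
        rw [show (4 : ZMod q) = 2 * 2 by norm_num]
        exact mul_ne_zero h2 h2
      field_simp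
      ring
    rw [h3, h4, one_mul] at h2
    rw [mul_assoc, ← h2, Finset.mul_sum]
    refine Finset.sum_congr rfl fun y _ => ?_
    rw [show (1 : ZMod q) * y ^ 2 + -(2 * w) * y = y ^ 2 + -(2 * y * w) by ring,
      AddChar.map_add_eq_mul]
    ring
  -- second evaluation
  have h5 : thH q 0 ∣[(1 : ℤ)] (T⁻¹ * S * T⁻¹) =
      cS q • ∑ w : ZMod q, (ZMod.stdAddChar (-(w ^ 2)) : ℂ) • thH q w := by
    rw [SlashAction.slash_mul, SlashAction.slash_mul, thH_slash_T_inv q hq]
    have : (ZMod.stdAddChar (-((0 : ZMod q) ^ 2)) : ℂ) = 1 := by simp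
    rw [this, one_smul, hS, sum_smul_slash, Finset.smul_sum]
    refine Finset.sum_congr rfl fun w _ => ?_
    rw [thH_slash_T_inv q hq]
  have h6 : (S * T * S : SL(2, ℤ)) = T⁻¹ * S * T⁻¹ := by decide
  rw [h6, h5] at h1
  set F : ℍ → ℂ := ∑ w : ZMod q, (ZMod.stdAddChar (-(w ^ 2)) : ℂ) • thH q w with hF
  have hF0 : F ≠ 0 := by
    intro hF0
    have h7 : F ∣[(1 : ℤ)] T = ∑ w : ZMod q, thH q w := by
      rw [hF, sum_smul_slash]
      refine Finset.sum_congr rfl fun w _ => ?_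
      rw [thH_slash_T q hq, smul_smul, mul_comm, std_mul_neg, one_smul]
    rw [hF0, SlashAction.zero_slash] at h7
    have h8 : (thH q 0 ∣[(1 : ℤ)] S) = 0 := by
      rw [hS, ← Finset.smul_sum, ← h7, smul_zero]
    have h9 : (thH q 0 ∣[(1 : ℤ)] S) ∣[(1 : ℤ)] S⁻¹ = thH q 0 := by
      rw [← SlashAction.slash_mul, mul_inv_cancel, SlashAction.slash_one]
    rw [h8, SlashAction.zero_slash] at h9
    exact thH_zero_ne_zero q h9.symm
  have h10 : (cS q - cS q * cS q * gaussG q) • F = 0 := by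
    rw [sub_smul, ← h1, sub_self]
  have h11 : cS q - cS q * cS q * gaussG q = 0 := by
    by_contra hne
    apply hF0
    have := congrArg (fun g => (cS q - cS q * cS q * gaussG q)⁻¹ • g) h10
    simpa [smul_smul, inv_mul_cancel₀ hne] using this
  have h12 := cS_ne_zero q
  apply mul_left_cancel₀ h12
  linear_combination -h11

theorem chiQ_neg_one (hq : q % 4 = 3) : chiQ q (-1) = -1 := by
  rw [chiQ, quadraticChar_neg_one (ringChar_ne_two q (by omega)), ZMod.card,
    ZMod.χ₄_nat_three_mod_four hq]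
  simp

theorem mul_S_entries (g : SL(2, ℤ)) : (g * S) 0 0 = g 0 1 ∧ (g * S) 0 1 = -g 0 0 ∧
    (g * S) 1 0 = g 1 1 ∧ (g * S) 1 1 = -g 1 0 := by
  rw [Matrix.SpecialLinearGroup.coe_mul, coe_S]
  simp [Matrix.mul_apply, Fin.sum_univ_two]

theorem mul_T_entries (g : SL(2, ℤ)) : (g * T) 0 0 = g 0 0 ∧ (g * T) 0 1 = g 0 1 + g 0 0 ∧
    (g * T) 1 0 = g 1 0 ∧ (g * T) 1 1 = g 1 1 + g 1 0 := by
  rw [Matrix.SpecialLinearGroup.coe_mul, coe_T]
  simp [Matrix.mul_apply, Fin.sum_univ_two, add_comm]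

theorem mul_T_inv_entries (g : SL(2, ℤ)) : (g * T⁻¹) 0 0 = g 0 0 ∧
    (g * T⁻¹) 0 1 = g 0 1 + -g 0 0 ∧ (g * T⁻¹) 1 0 = g 1 0 ∧
    (g * T⁻¹) 1 1 = g 1 1 + -g 1 0 := by
  rw [Matrix.SpecialLinearGroup.coe_mul, coe_T_inv]
  simp [Matrix.mul_apply, Fin.sum_univ_two, add_comm]

/-- The transformation formula of the theta vector under all of `SL₂(ℤ)`. -/
theorem thH_slash (hq : q % 4 = 3) (γ : SL(2, ℤ)) (h : ZMod q) :
    thH q h ∣[(1 : ℤ)] γ = ∑ w : ZMod q,
      kF q ((γ 0 0 : ℤ) : ZMod q) ((γ 0 1 : ℤ) : ZMod q) ((γ 1 0 : ℤ) : ZMod q)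
        ((γ 1 1 : ℤ) : ZMod q) h w • thH q w := by
  have hq2 : q % 2 = 1 := by omega
  have hG := cS_mul_gaussG q hq
  have hchi := chiQ_neg_one q hq
  have hγ : γ ∈ Subgroup.closure {S, T} := by simp [SpecialLinearGroup.SL2Z_generators]
  have hdet : ∀ g : SL(2, ℤ), ((g 0 0 : ℤ) : ZMod q) * ((g 1 1 : ℤ) : ZMod q) -
      ((g 0 1 : ℤ) : ZMod q) * ((g 1 0 : ℤ) : ZMod q) = 1 := by
    intro g
    have h1 := g.det_coe
    rw [Matrix.det_fin_two] at h1
    have h2 := congrArg (fun t : ℤ => (t : ZMod q)) h1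
    push_cast at h2
    exact h2
  -- step for `S`
  have stepS : ∀ g : SL(2, ℤ), (∀ h, thH q h ∣[(1 : ℤ)] g = ∑ w : ZMod q,
      kF q ((g 0 0 : ℤ) : ZMod q) ((g 0 1 : ℤ) : ZMod q) ((g 1 0 : ℤ) : ZMod q)
        ((g 1 1 : ℤ) : ZMod q) h w • thH q w) →
      (∀ h, thH q h ∣[(1 : ℤ)] (g * S) = ∑ w : ZMod q,
      kF q (((g * S) 0 0 : ℤ) : ZMod q) (((g * S) 0 1 : ℤ) : ZMod q)
        (((g * S) 1 0 : ℤ) : ZMod q) (((g * S) 1 1 : ℤ) : ZMod q) h w • thH q w) := by
    intro g hg h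
    rw [SlashAction.slash_mul, hg h, sum_smul_slash]
    simp_rw [thH_slash_S q hq2, Finset.smul_sum, smul_smul]
    rw [Finset.sum_comm]
    refine Finset.sum_congr rfl fun v _ => ?_
    obtain ⟨e1, e2, e3, e4⟩ := mul_S_entries g
    rw [← Finset.sum_smul, kF_S hq2 hG hchi (hdet g), e1, e2, e3, e4, Int.cast_neg, Int.cast_neg]
  -- step for `T`
  have stepT : ∀ g : SL(2, ℤ), (∀ h, thH q h ∣[(1 : ℤ)] g = ∑ w : ZMod q,
      kF q ((g 0 0 : ℤ) : ZMod q) ((g 0 1 : ℤ) : ZMod q) ((g 1 0 : ℤ) : ZMod q)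
        ((g 1 1 : ℤ) : ZMod q) h w • thH q w) →
      (∀ h, thH q h ∣[(1 : ℤ)] (g * T) = ∑ w : ZMod q,
      kF q (((g * T) 0 0 : ℤ) : ZMod q) (((g * T) 0 1 : ℤ) : ZMod q)
        (((g * T) 1 0 : ℤ) : ZMod q) (((g * T) 1 1 : ℤ) : ZMod q) h w • thH q w) := by
    intro g hg h
    rw [SlashAction.slash_mul, hg h, sum_smul_slash]
    simp_rw [thH_slash_T q hq, smul_smul]
    refine Finset.sum_congr rfl fun v _ => ?_
    have := kF_T (q := q) (a := ((g 0 0 : ℤ) : ZMod q)) (b := ((g 0 1 : ℤ) : ZMod q))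
      (c := ((g 1 0 : ℤ) : ZMod q)) (d := ((g 1 1 : ℤ) : ZMod q)) 1 h v
    rw [one_mul, one_mul, one_mul] at this
    obtain ⟨e1, e2, e3, e4⟩ := mul_T_entries g
    rw [this, e1, e2, e3, e4, Int.cast_add, Int.cast_add]
  have stepT' : ∀ g : SL(2, ℤ), (∀ h, thH q h ∣[(1 : ℤ)] g = ∑ w : ZMod q,
      kF q ((g 0 0 : ℤ) : ZMod q) ((g 0 1 : ℤ) : ZMod q) ((g 1 0 : ℤ) : ZMod q)
        ((g 1 1 : ℤ) : ZMod q) h w • thH q w) →
      (∀ h, thH q h ∣[(1 : ℤ)] (g * T⁻¹) = ∑ w : ZMod q,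
      kF q (((g * T⁻¹) 0 0 : ℤ) : ZMod q) (((g * T⁻¹) 0 1 : ℤ) : ZMod q)
        (((g * T⁻¹) 1 0 : ℤ) : ZMod q) (((g * T⁻¹) 1 1 : ℤ) : ZMod q) h w • thH q w) := by
    intro g hg h
    rw [SlashAction.slash_mul, hg h, sum_smul_slash]
    simp_rw [thH_slash_T_inv q hq, smul_smul]
    refine Finset.sum_congr rfl fun v _ => ?_
    have := kF_T (q := q) (a := ((g 0 0 : ℤ) : ZMod q)) (b := ((g 0 1 : ℤ) : ZMod q))
      (c := ((g 1 0 : ℤ) : ZMod q)) (d := ((g 1 1 : ℤ) : ZMod q)) (-1) h v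
    rw [neg_one_mul, neg_one_mul, neg_one_mul] at this
    obtain ⟨e1, e2, e3, e4⟩ := mul_T_inv_entries g
    rw [this, e1, e2, e3, e4, Int.cast_add, Int.cast_add, Int.cast_neg, Int.cast_neg]
  revert h
  refine Subgroup.closure_induction_right (p := fun g _ => ∀ h, thH q h ∣[(1 : ℤ)] g =
      ∑ w : ZMod q, kF q ((g 0 0 : ℤ) : ZMod q) ((g 0 1 : ℤ) : ZMod q) ((g 1 0 : ℤ) : ZMod q)
        ((g 1 1 : ℤ) : ZMod q) h w • thH q w) ?_ ?_ ?_ hγ
  · intro h
    rw [SlashAction.slash_one]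
    simp [kF, chiQ_one]
  · rintro x - y hy hx
    rcases hy with rfl | hy
    · exact stepS x hx
    · rw [Set.mem_singleton_iff] at hy
      subst hy
      exact stepT x hx
  · rintro x - y hy hx
    rcases hy with rfl | hy
    · have h4 : x * S⁻¹ = x * S * S * S := by
        rw [mul_assoc, mul_assoc, mul_right_inj]
        decide
      rw [h4]
      exact stepS _ (stepS _ (stepS x hx))
    · rw [Set.mem_singleton_iff] at hy
      subst hy
      exact stepT' x hx

end Fermat.Agent.S16.Theta
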