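import Fermat.Agent.S16.Valence

/-!
# The upper bound: `ℓ ≥ 5`, `ℓ = 3`, `ℓ = 2` (`p ≢ 7 mod 8`)
-/

set_option autoImplicit false
set_option linter.unusedSimpArgs false
set_option linter.unusedVariables false

open CongruenceSubgroup

noncomputable section

namespace Fermat.Agent.Eis

variable {p ℓ : ℕ}

theorem sigmaP_mul_p [Fact p.Prime] (n : ℕ) : sigmaP p (n * p) = sigmaP p n := by
  have hp := (Fact.out : p.Prime)
  rcases Nat.eq_zero_or_pos n with rfl | hn
  · simp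
  unfold sigmaP
  congr 1
  ext d
  simp only [Finset.mem_filter, Nat.mem_divisors]
  constructor
  · rintro ⟨⟨h1, h2⟩, h3⟩
    refine ⟨⟨?_, hn.ne'⟩, h3⟩
    exact (Nat.Coprime.symm ((Nat.Prime.coprime_iff_not_dvd hp).mpr h3)).dvd_of_dvd_mul_right h1
  · rintro ⟨⟨h1, h2⟩, h3⟩
    exact ⟨⟨h1.mul_right p, Nat.mul_ne_zero hn.ne' hp.ne_zero⟩, h3⟩

theorem uOp_sigmaPZ [Fact p.Prime] : uOp p (sigmaPZ p) = sigmaPZ p := by
  ext n
  rw [uOp, PowerSeries.coeff_mk, sigmaPZ, PowerSeries.coeff_mk, PowerSeries.coeff_mk, sigmaP_mul_p]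

theorem sigmaP_zero : sigmaP p 0 = 0 := by simp [sigmaP]

theorem uOp_sub (A B : PowerSeries ℤ) : uOp p (A - B) = uOp p A - uOp p B := by
  ext n; simp [uOp]

theorem uOp_add (A B : PowerSeries ℤ) : uOp p (A + B) = uOp p A + uOp p B := by
  ext n; simp [uOp]

theorem uOp_C_mul (c : ℤ) (A : PowerSeries ℤ) :
    uOp p (PowerSeries.C c * A) = PowerSeries.C c * uOp p A := by
  ext n
  rw [uOp, PowerSeries.coeff_mk, PowerSeries.coeff_C_mul, PowerSeries.coeff_C_mul, uOp,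
    PowerSeries.coeff_mk]

theorem natCast_eq_C (n : ℕ) : ((n : ℕ) : PowerSeries ℤ) = PowerSeries.C (n : ℤ) := by
  rw [map_natCast]

theorem ofNat24_eq_C : (24 : PowerSeries ℤ) = PowerSeries.C 24 := by simp

/-- The basic pair attached to a cusp form congruent to `E` mod `r`. -/
theorem exists_base [Fact p.Prime] (f : CuspForm (Gamma0 p) 2) (A : PowerSeries ℤ)
    (hA : HasQ f A) (r : ℤ) (h : ∀ j, 0 < j → r ∣ A.coeff j - sigmaP p j) :
    ∃ h : PowerSeries ℤ, h.coeff 0 = 0 ∧ A = sigmaPZ p - PowerSeries.C r * h ∧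
      IsPair p 1 (PowerSeries.C ((p : ℤ) - 1) + PowerSeries.C (24 * r) * h)
        (-(PowerSeries.C ((p : ℤ) - 1) + PowerSeries.C (24 * r) * uOp p h)) := by
  have : NeZero p := ⟨(Fact.out : p.Prime).ne_zero⟩
  have h0 : A.coeff 0 = 0 := CuspForm.coeff_zero_eq f hA
  have h1 : ∀ j, ∃ x : ℤ, A.coeff j - sigmaP p j = r * x := by
    intro j
    rcases Nat.eq_zero_or_pos j with rfl | hj
    · exact ⟨0, by rw [h0, sigmaP_zero]; ring⟩
    · exact h j hj
  choose x hx using h1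
  by_cases hr : r = 0
  · subst hr
    have e : A = sigmaPZ p := by
      ext n
      have := hx n
      rw [sigmaPZ, PowerSeries.coeff_mk]
      linarith
    refine ⟨0, by simp, by rw [e]; simp, ?_⟩
    have h2 := (isPair_eis (p := p)).sub ((isPair_two (CuspForm.isG0 f) hA).smul 24)
    refine h2.congr ?_ ?_
    · rw [e, eisZ, ofNat24_eq_C]
      simp
    · rw [e, uOp_sigmaPZ, eisZ, ofNat24_eq_C]
      simp
  set g : PowerSeries ℤ := PowerSeries.mk fun n => -x n with hg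
  have e : A = sigmaPZ p - PowerSeries.C r * g := by
    ext n
    rw [map_sub, PowerSeries.coeff_C_mul, hg, PowerSeries.coeff_mk, sigmaPZ, PowerSeries.coeff_mk]
    linarith [hx n]
  refine ⟨g, ?_, e, ?_⟩
  · have h2 := hx 0
    rw [h0, sigmaP_zero, sub_self] at h2
    rw [hg, PowerSeries.coeff_mk]
    rcases mul_eq_zero.mp h2.symm with h3 | h3
    · exact absurd h3 hr
    · rw [h3, neg_zero]
  have h2 := (isPair_eis (p := p)).sub ((isPair_two (CuspForm.isG0 f) hA).smul 24)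
  have e2 : uOp p A = sigmaPZ p - PowerSeries.C r * uOp p g := by
    rw [e, uOp_sub, uOp_C_mul, uOp_sigmaPZ]
  refine h2.congr ?_ ?_
  · rw [e, eisZ, ofNat24_eq_C, map_mul]
    ring
  · rw [e2, eisZ, ofNat24_eq_C, map_mul]
    ring

theorem thetaOp_C (c : ℤ) : thetaOp (PowerSeries.C c) = 0 := by
  ext n
  rw [thetaOp, PowerSeries.coeff_mk, PowerSeries.coeff_C, map_zero]
  split_ifs with h
  · simp [h]
  · simp

theorem thetaOp_add (A B : PowerSeries ℤ) : thetaOp (A + B) = thetaOp A + thetaOp B := by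
  ext n
  simp only [thetaOp, PowerSeries.coeff_mk, map_add]
  ring

theorem thetaOp_neg (A : PowerSeries ℤ) : thetaOp (-A) = -thetaOp A := by
  ext n
  simp only [thetaOp, PowerSeries.coeff_mk, map_neg]
  ring

theorem thetaOp_C_mul (c : ℤ) (A : PowerSeries ℤ) :
    thetaOp (PowerSeries.C c * A) = PowerSeries.C c * thetaOp A := by
  ext n
  simp only [thetaOp, PowerSeries.coeff_mk, PowerSeries.coeff_C_mul]
  ring

theorem vOp_e2Z (hp : p ≠ 0) : vOp p e2Z = 1 - PowerSeries.C 24 * vOp p phiZ := by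
  rw [e2Z, ofNat24_eq_C, vOp_eq_expand hp, vOp_eq_expand hp, map_sub, map_one, map_mul,
    PowerSeries.expand_C]

/-- The weight four form `c H + λ F²`, divided by `m`. -/
theorem exists_weight_four [Fact p.Prime] {c m g u a b lam : ℤ} {l : ℤ} (hm : m ≠ 0)
    (hu : 24 = m * u) (ha : 1 + lam = m * a) (hb : lam - p = m * b) {h h' : PowerSeries ℤ}
    (hF : IsPair p 1 (PowerSeries.C c + PowerSeries.C (m * l * g) * h)
      (-(PowerSeries.C c + PowerSeries.C (m * l * g) * h'))) :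
    ∃ X₁ X₂ : PowerSeries ℤ, IsPair p 2
      (PowerSeries.C (c ^ 2) * (PowerSeries.C a - PowerSeries.C u * phiZ) + PowerSeries.C l * X₁)
      (PowerSeries.C (c ^ 2) * (PowerSeries.C b + PowerSeries.C (u * p) * vOp p phiZ) +
        PowerSeries.C l * X₂) := by
  have hp0 : p ≠ 0 := (Fact.out : p.Prime).ne_zero
  have h1 := hF.serre.neg.smul c
  have h2 := (hF.mul hF).smul lam
  have h3 := h1.add h2
  rw [Nat.cast_one, one_mul, one_mul, natCast_eq_C] at h3
  set G : PowerSeries ℤ := PowerSeries.C g with hG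
  set L : PowerSeries ℤ := PowerSeries.C l with hL
  set Cc : PowerSeries ℤ := PowerSeries.C c with hC
  set U : PowerSeries ℤ := PowerSeries.C u with hU
  set Mm : PowerSeries ℤ := PowerSeries.C m with hM
  set Pp : PowerSeries ℤ := PowerSeries.C (p : ℤ) with hP
  refine ⟨G * (Cc * (e2Z * h - 6 * thetaOp h) + PowerSeries.C lam * (2 * Cc * h +
      Mm * L * G * h * h)), G * (-Cc * (Pp * vOp p e2Z * h' - 6 * thetaOp h') +
      PowerSeries.C lam * (2 * Cc * h' + Mm * L * G * h' * h')),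
    IsPair.of_smul (c := m) hm (h3.congr ?_ ?_)⟩
  · rw [thetaOp_add, thetaOp_C, thetaOp_C_mul, map_mul, map_mul, map_pow]
    have e1 : PowerSeries.C a * Mm = 1 + PowerSeries.C lam := by
      rw [hM, ← map_mul, mul_comm, ← ha, map_add, map_one]
    have e2 : Mm * U = 24 := by rw [hM, hU, ← map_mul, ← hu, ofNat24_eq_C]
    have e3 : e2Z = 1 - 24 * phiZ := rfl
    rw [← hC, ← hM, ← hL, ← hG]
    linear_combination Cc ^ 2 * e3 - Cc ^ 2 * e1 + Cc ^ 2 * phiZ * e2
  · rw [thetaOp_neg, thetaOp_add, thetaOp_C, thetaOp_C_mul, map_mul, map_mul, map_pow, map_mul]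
    have e1 : PowerSeries.C b * Mm = PowerSeries.C lam - Pp := by
      rw [hM, ← map_mul, mul_comm, ← hb, map_sub]
    have e2 : Mm * U = PowerSeries.C 24 := by rw [hM, hU, ← map_mul, ← hu]
    have e5 := vOp_e2Z hp0
    rw [← hC, ← hM, ← hL, ← hG, ← hU, ← hP]
    linear_combination -Cc ^ 2 * Pp * e5 - Cc ^ 2 * e1 - Cc ^ 2 * Pp * vOp p phiZ * e2

theorem intCast_ne_zero_of_not_dvd {c : ℤ} (h : ¬ (ℓ : ℤ) ∣ c) : ((c : ℤ) : ZMod ℓ) ≠ 0 := by
  rwa [Ne, ZMod.intCast_zmod_eq_zero_iff_dvd]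

theorem coeff_zero_phiZ : phiZ.coeff 0 = 0 := by simp [phiZ]

theorem order_red_phiZ [Fact ℓ.Prime] : (red ℓ phiZ).order = 1 := by
  rw [show (1 : ℕ∞) = ((1 : ℕ) : ℕ∞) from rfl, PowerSeries.order_eq_nat]
  constructor
  · rw [coeff_red, phiZ, PowerSeries.coeff_mk]
    simp
  · intro i hi
    have : i = 0 := by omega
    subst this
    rw [coeff_red, coeff_zero_phiZ, Int.cast_zero]

theorem red_vOp (hp : p ≠ 0) (A : PowerSeries ℤ) :
    red ℓ (vOp p A) = PowerSeries.expand p hp (red ℓ A) := by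
  rw [vOp_eq_expand hp, red, PowerSeries.map_expand]

theorem order_C_of_ne {F : Type*} [Field F] {c : F} (h : c ≠ 0) :
    (PowerSeries.C c : PowerSeries F).order = 0 := by
  apply order_eq_zero_of_coeff
  rwa [PowerSeries.coeff_zero_C]

section final

variable [Fact p.Prime] [Fact ℓ.Prime] {c u a b : ℤ} {X₁ X₂ : PowerSeries ℤ}

theorem red_C_self (X : PowerSeries ℤ) : red ℓ (PowerSeries.C (ℓ : ℤ) * X) = 0 :=
  (red_eq_zero_iff _).mpr ⟨X, rfl⟩

theorem red_C_of_dvd {c : ℤ} (h : (ℓ : ℤ) ∣ c) : red ℓ (PowerSeries.C c) = 0 := by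
  rw [red_C, (ZMod.intCast_zmod_eq_zero_iff_dvd c ℓ).mpr h, map_zero]

theorem weight_four_false₁ (hℓ : ℓ ≠ p) (hc : ¬ (ℓ : ℤ) ∣ c) (hb : (ℓ : ℤ) ∣ b)
    (hu : ¬ (ℓ : ℤ) ∣ u)
    (h : IsPair p 2
      (PowerSeries.C (c ^ 2) * (PowerSeries.C a - PowerSeries.C u * phiZ) +
        PowerSeries.C (ℓ : ℤ) * X₁)
      (PowerSeries.C (c ^ 2) * (PowerSeries.C b + PowerSeries.C (u * p) * vOp p phiZ) +
        PowerSeries.C (ℓ : ℤ) * X₂)) : False := by
  have hp0 : p ≠ 0 := (Fact.out : p.Prime).ne_zero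
  have hp2 : 2 ≤ p := (Fact.out : p.Prime).two_le
  have hℓp : Prime (ℓ : ℤ) := Nat.prime_iff_prime_int.mp Fact.out
  have hup : ¬ (ℓ : ℤ) ∣ u * p := by
    intro h1
    rcases hℓp.dvd_or_dvd h1 with h2 | h2
    · exact hu h2
    · have : ℓ ∣ p := by exact_mod_cast h2
      exact hℓ ((Nat.prime_dvd_prime_iff_eq Fact.out Fact.out).mp this)
  have hc2 : ¬ (ℓ : ℤ) ∣ c ^ 2 := fun h1 => hc (hℓp.dvd_of_dvd_pow h1)
  refine h.valence hℓ (by omega) (o := p) (t := 0) ?_ (by simp) (by nlinarith)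
  rw [map_add, red_C_self, add_zero, map_mul, map_add, red_C_of_dvd hb, zero_add, map_mul,
    PowerSeries.order_mul, PowerSeries.order_mul, red_C, red_C,
    order_C_of_ne (intCast_ne_zero_of_not_dvd hc2), order_C_of_ne (intCast_ne_zero_of_not_dvd hup),
    red_vOp hp0, PowerSeries.order_expand, order_red_phiZ]
  simp

theorem weight_four_false₂ (hℓ : ℓ ≠ p) (hc : ¬ (ℓ : ℤ) ∣ c) (ha : (ℓ : ℤ) ∣ a)
    (hu : (ℓ : ℤ) ∣ u) (hb : ¬ (ℓ : ℤ) ∣ b)
    (h : IsPair p 2
      (PowerSeries.C (c ^ 2) * (PowerSeries.C a - PowerSeries.C u * phiZ) +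
        PowerSeries.C (ℓ : ℤ) * X₁)
      (PowerSeries.C (c ^ 2) * (PowerSeries.C b + PowerSeries.C (u * p) * vOp p phiZ) +
        PowerSeries.C (ℓ : ℤ) * X₂)) : False := by
  have hℓp : Prime (ℓ : ℤ) := Nat.prime_iff_prime_int.mp Fact.out
  have hc2 : ¬ (ℓ : ℤ) ∣ c ^ 2 := fun h1 => hc (hℓp.dvd_of_dvd_pow h1)
  refine h.valence hℓ (by omega) (o := 0) (t := p + 1) ?_ ?_ (by nlinarith)
  · rw [map_add, red_C_self, add_zero, map_mul, map_add, map_mul, red_C_of_dvd (hu.mul_right _),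
      zero_mul, add_zero, PowerSeries.order_mul, red_C, red_C,
      order_C_of_ne (intCast_ne_zero_of_not_dvd hc2), order_C_of_ne (intCast_ne_zero_of_not_dvd hb)]
    simp
  · rw [map_add, red_C_self, add_zero, map_mul, map_sub, map_mul, red_C_of_dvd hu, zero_mul,
      red_C_of_dvd ha, sub_zero, mul_zero, PowerSeries.order_zero]
    exact le_top

theorem weight_four_false₃ (hℓ : ℓ ≠ p) (hc : ¬ (ℓ : ℤ) ∣ c) (hb : (ℓ : ℤ) ∣ b)
    (hu : (ℓ : ℤ) ∣ u) (ha : ¬ (ℓ : ℤ) ∣ a)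
    (h : IsPair p 2
      (PowerSeries.C (c ^ 2) * (PowerSeries.C a - PowerSeries.C u * phiZ) +
        PowerSeries.C (ℓ : ℤ) * X₁)
      (PowerSeries.C (c ^ 2) * (PowerSeries.C b + PowerSeries.C (u * p) * vOp p phiZ) +
        PowerSeries.C (ℓ : ℤ) * X₂)) : False := by
  have hℓp : Prime (ℓ : ℤ) := Nat.prime_iff_prime_int.mp Fact.out
  have hc2 : ¬ (ℓ : ℤ) ∣ c ^ 2 := fun h1 => hc (hℓp.dvd_of_dvd_pow h1)
  refine h.swap.valence hℓ (by omega) (o := 0) (t := p + 1) ?_ ?_ (by nlinarith)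
  · rw [map_add, red_C_self, add_zero, map_mul, map_sub, map_mul, red_C_of_dvd hu,
      zero_mul, sub_zero, PowerSeries.order_mul, red_C, red_C,
      order_C_of_ne (intCast_ne_zero_of_not_dvd hc2), order_C_of_ne (intCast_ne_zero_of_not_dvd ha)]
    simp
  · rw [map_add, red_C_self, add_zero, map_mul, map_add, map_mul, red_C_of_dvd (hu.mul_right _),
      zero_mul, red_C_of_dvd hb, add_zero, mul_zero, PowerSeries.order_zero]
    exact le_top

end final

/-- dividing the basic pair by a common factor -/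
theorem base_div [Fact p.Prime] {x y d c g : ℤ} (hd : d ≠ 0) (hx : x = d * c) (hy : y = d * g)
    {h h' : PowerSeries ℤ}
    (hF : IsPair p 1 (PowerSeries.C x + PowerSeries.C y * h)
      (-(PowerSeries.C x + PowerSeries.C y * h'))) :
    IsPair p 1 (PowerSeries.C c + PowerSeries.C g * h)
      (-(PowerSeries.C c + PowerSeries.C g * h')) := by
  refine IsPair.of_smul hd (hF.congr ?_ ?_)
  · rw [hx, hy, map_mul, map_mul]; ring
  · rw [hx, hy, map_mul, map_mul]; ring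

end Fermat.Agent.Eis
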