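import Fermat.Agent.S16.Upper1

/-!
# The upper bound: number theory
-/

set_option autoImplicit false
set_option linter.unusedSimpArgs false
set_option linter.unusedVariables false

open CongruenceSubgroup ModularCurve

noncomputable section

namespace Fermat.Agent.Eis

variable {p ℓ : ℕ}

/-- There is an integral cusp form of weight two congruent to the Eisenstein series mod `r`. -/
def Cong (p : ℕ) (r : ℤ) : Prop :=
  ∃ (f : CuspForm (Gamma0 p) 2) (A : PowerSeries ℤ), HasQ f A ∧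
    ∀ j, 0 < j → r ∣ A.coeff j - sigmaP p j

theorem Cong.mono {r s : ℤ} (h : Cong p r) (hs : s ∣ r) : Cong p s := by
  obtain ⟨f, A, hA, hr⟩ := h
  exact ⟨f, A, hA, fun j hj => hs.trans (hr j hj)⟩

theorem gcd_mul_numerator (p : ℕ) : Nat.gcd (p - 1) 12 * eisensteinNumerator p = p - 1 :=
  Nat.mul_div_cancel' (Nat.gcd_dvd_left _ _)

theorem sub_one_dvd_numerator (p : ℕ) : p - 1 ∣ 12 * eisensteinNumerator p := by
  conv_lhs => rw [← gcd_mul_numerator p]
  exact Nat.mul_dvd_mul_right (Nat.gcd_dvd_right _ _) _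

theorem upper_five [Fact p.Prime] [Fact ℓ.Prime] (h5 : 5 ≤ ℓ) (hℓ : ℓ ≠ p) {e : ℕ}
    (h : Cong p ((ℓ : ℤ) ^ e)) : ℓ ^ e ∣ eisensteinNumerator p := by
  have hp := (Fact.out : p.Prime)
  have hl := (Fact.out : ℓ.Prime)
  have hp1 : p - 1 ≠ 0 := by have := hp.two_le; omega
  obtain ⟨s, c, hc, hs⟩ := Nat.exists_eq_pow_mul_and_not_dvd hp1 ℓ hl.ne_one
  have hpc : ((p : ℤ) - 1) = (ℓ : ℤ) ^ s * c := by
    have : ((p - 1 : ℕ) : ℤ) = (ℓ : ℤ) ^ s * c := by rw [hs]; push_cast; ring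
    rw [← this, Nat.cast_sub hp.one_le]
    simp
  have hcz : ¬ (ℓ : ℤ) ∣ (c : ℤ) := by exact_mod_cast hc
  rcases le_or_gt e s with hes | hes
  · have h1 : ℓ ^ e ∣ 12 * eisensteinNumerator p :=
      ((pow_dvd_pow ℓ hes).trans ⟨c, hs⟩).trans (sub_one_dvd_numerator p)
    refine Nat.Coprime.dvd_of_dvd_mul_left (Nat.Coprime.pow_left e ?_) h1
    rw [Nat.Prime.coprime_iff_not_dvd hl]
    intro h2
    have h3 := Nat.le_of_dvd (by norm_num) h2
    interval_cases ℓ <;> revert hl h2 <;> decide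
  · exfalso
    obtain ⟨e', rfl⟩ := Nat.exists_eq_add_of_lt hes
    obtain ⟨f, A, hA, hr⟩ := h
    obtain ⟨g, hg0, -, hF⟩ := exists_base f A hA _ hr
    have h24 : ¬ (ℓ : ℤ) ∣ 24 := by
      intro h2
      have h2' : ℓ ∣ 24 := by exact_mod_cast h2
      have h3 := Nat.le_of_dvd (by norm_num) h2'
      interval_cases ℓ <;> revert hl h2' <;> decide
    have hF' := base_div (d := (ℓ : ℤ) ^ s) (c := c) (g := 1 * ℓ * (24 * (ℓ : ℤ) ^ e'))
      (pow_ne_zero _ (by exact_mod_cast hl.ne_zero)) hpc (by ring) hF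
    obtain ⟨X₁, X₂, hX⟩ := exists_weight_four (m := 1) (u := 24) (a := 1 + p) (b := 0)
      (lam := p) one_ne_zero (by ring) (by ring) (by ring) hF'
    exact weight_four_false₁ hℓ hcz (dvd_zero _) h24 hX

theorem upper_three [Fact p.Prime] (hℓ : 3 ≠ p) {e : ℕ}
    (h : Cong p (((3 : ℕ) : ℤ) ^ e)) : 3 ^ e ∣ eisensteinNumerator p := by
  have hp := (Fact.out : p.Prime)
  have hl : Nat.Prime 3 := by norm_num
  have : Fact (Nat.Prime 3) := ⟨hl⟩
  have hp1 : p - 1 ≠ 0 := by have := hp.two_le; omega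
  obtain ⟨s, c, hc, hs⟩ := Nat.exists_eq_pow_mul_and_not_dvd hp1 3 hl.ne_one
  have hpc : ((p : ℤ) - 1) = ((3 : ℕ) : ℤ) ^ s * c := by
    have : ((p - 1 : ℕ) : ℤ) = ((3 : ℕ) : ℤ) ^ s * c := by rw [hs]; push_cast; ring
    rw [← this, Nat.cast_sub hp.one_le]
    simp
  have hcz : ¬ ((3 : ℕ) : ℤ) ∣ (c : ℤ) := by exact_mod_cast hc
  have hp3 : ¬ 3 ∣ p := fun h => hℓ ((Nat.prime_dvd_prime_iff_eq hl hp).mp h)
  rcases le_or_gt (e + 1) s with hes | hes
  · have h1 : 3 ^ (e + 1) ∣ 12 * eisensteinNumerator p :=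
      ((pow_dvd_pow 3 hes).trans ⟨c, hs⟩).trans (sub_one_dvd_numerator p)
    have h2 : 3 * 3 ^ e ∣ 3 * (4 * eisensteinNumerator p) := by
      rw [pow_succ, mul_comm] at h1
      rwa [← mul_assoc]
    have h3 := Nat.dvd_of_mul_dvd_mul_left (by norm_num) h2
    exact Nat.Coprime.dvd_of_dvd_mul_left (Nat.Coprime.pow_left e (by norm_num)) h3
  rcases Nat.eq_zero_or_pos s with hs0 | hs0
  · subst hs0
    rcases Nat.eq_zero_or_pos e with he | he
    · rw [he, pow_zero]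
      exact one_dvd _
    exfalso
    obtain ⟨e', rfl⟩ : ∃ e', e = e' + 1 := ⟨e - 1, by omega⟩
    obtain ⟨f, A, hA, hr⟩ := h
    obtain ⟨g, hg0, -, hF⟩ := exists_base f A hA _ hr
    have hF' := base_div (d := 1) (c := c) (g := 3 * (3 : ℕ) * (8 * (3 : ℤ) ^ e'))
      one_ne_zero (by rw [hpc]; simp) (by push_cast; ring) hF
    have hc' : ¬ 3 ∣ p - 1 := by
      rw [hs]; simpa using hc
    obtain ⟨a, ha⟩ : ∃ a : ℤ, (1 + (p : ℤ)) = 3 * a := by
      have : 3 ∣ 1 + p := by omega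
      obtain ⟨a, ha⟩ := this
      exact ⟨a, by exact_mod_cast ha⟩
    obtain ⟨X₁, X₂, hX⟩ := exists_weight_four (m := 3) (u := 8) (a := a) (b := 0)
      (lam := p) (by norm_num) (by ring) ha (by ring) hF'
    exact weight_four_false₁ (ℓ := 3) hℓ hcz (dvd_zero _) (by norm_num) hX
  · exfalso
    obtain ⟨e', rfl⟩ := Nat.exists_eq_add_of_le (show s ≤ e by omega)
    obtain ⟨f, A, hA, hr⟩ := h
    obtain ⟨g, hg0, -, hF⟩ := exists_base f A hA _ hr
    have hF' := base_div (d := ((3 : ℕ) : ℤ) ^ s) (c := c)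
      (g := 1 * (3 : ℕ) * (8 * (3 : ℤ) ^ e'))
      (by positivity) hpc (by push_cast; ring) hF
    have hc' : 3 ∣ p - 1 := by
      rw [hs]; exact (dvd_pow_self 3 hs0.ne').mul_right _
    obtain ⟨X₁, X₂, hX⟩ := exists_weight_four (m := 1) (u := 24) (a := 0) (b := -1 - p)
      (lam := -1) (by norm_num) (by ring) (by ring) (by ring) hF'
    refine weight_four_false₂ (ℓ := 3) hℓ hcz (dvd_zero _) (by norm_num) ?_ hX
    have := hp.two_le
    omega

theorem upper_two_aux [Fact p.Prime] (hℓ : 2 ≠ p) (h78 : p % 8 ≠ 7) {e : ℕ}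
    (h : Cong p (((2 : ℕ) : ℤ) ^ e)) : 2 ^ e ∣ eisensteinNumerator p := by
  have hp := (Fact.out : p.Prime)
  have hl : Nat.Prime 2 := by norm_num
  have : Fact (Nat.Prime 2) := ⟨hl⟩
  have hp1 : p - 1 ≠ 0 := by have := hp.two_le; omega
  obtain ⟨s, c, hc, hs⟩ := Nat.exists_eq_pow_mul_and_not_dvd hp1 2 hl.ne_one
  have hpc : ((p : ℤ) - 1) = ((2 : ℕ) : ℤ) ^ s * c := by
    have : ((p - 1 : ℕ) : ℤ) = ((2 : ℕ) : ℤ) ^ s * c := by rw [hs]; push_cast; ring
    rw [← this, Nat.cast_sub hp.one_le]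
    simp
  have hcz : ¬ ((2 : ℕ) : ℤ) ∣ (c : ℤ) := by exact_mod_cast hc
  have hp2 : ¬ 2 ∣ p := fun h => hℓ ((Nat.prime_dvd_prime_iff_eq hl hp).mp h)
  have hs1 : s ≠ 0 := by
    rintro rfl
    rw [pow_zero, one_mul] at hs
    rw [← hs] at hc
    omega
  rcases le_or_gt (e + 2) s with hes | hes
  · have h1 : 2 ^ (e + 2) ∣ 12 * eisensteinNumerator p :=
      ((pow_dvd_pow 2 hes).trans ⟨c, hs⟩).trans (sub_one_dvd_numerator p)
    have h2 : 4 * 2 ^ e ∣ 4 * (3 * eisensteinNumerator p) := by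
      rw [pow_add, mul_comm] at h1
      rwa [← mul_assoc]
    have h3 := Nat.dvd_of_mul_dvd_mul_left (by norm_num) h2
    exact Nat.Coprime.dvd_of_dvd_mul_left (Nat.Coprime.pow_left e (by norm_num)) h3
  by_cases hs2 : s = 1
  · subst hs2
    rcases Nat.eq_zero_or_pos e with he | he
    · rw [he, pow_zero]
      exact one_dvd _
    exfalso
    obtain ⟨e', rfl⟩ : ∃ e', e = e' + 1 := ⟨e - 1, by omega⟩
    obtain ⟨f, A, hA, hr⟩ := h
    obtain ⟨g, hg0, -, hF⟩ := exists_base f A hA _ hr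
    have hF' := base_div (d := 2) (c := c) (g := 4 * (2 : ℕ) * (3 * (2 : ℤ) ^ e'))
      (by norm_num) (by rw [hpc]; simp) (by push_cast; ring) hF
    have h38 : p % 8 = 3 := by omega
    obtain ⟨a, ha⟩ : ∃ a : ℤ, (1 + (p : ℤ)) = 4 * a := by
      have : 4 ∣ 1 + p := by omega
      obtain ⟨a, ha⟩ := this
      exact ⟨a, by exact_mod_cast ha⟩
    obtain ⟨X₁, X₂, hX⟩ := exists_weight_four (m := 4) (u := 6) (a := a) (b := 0)
      (lam := p) (by norm_num) (by ring) ha (by ring) hF'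
    exact weight_four_false₃ (ℓ := 2) hℓ hcz (dvd_zero _) (by norm_num) (by omega) hX
  · exfalso
    obtain ⟨e', he'⟩ := Nat.exists_eq_add_of_le (show s ≤ e + 1 by omega)
    obtain ⟨f, A, hA, hr⟩ := h
    obtain ⟨g, hg0, -, hF⟩ := exists_base f A hA _ hr
    have h24 : 24 * (((2 : ℕ) : ℤ)) ^ e = ((2 : ℕ) : ℤ) ^ s * (2 * (2 : ℕ) * (3 * (2 : ℤ) ^ e')) := by
      have h3 : (((2 : ℕ) : ℤ)) ^ (e + 1) = ((2 : ℕ) : ℤ) ^ (s + e') := by rw [he']
      rw [pow_succ, pow_add] at h3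
      push_cast at h3 ⊢
      linear_combination 12 * h3
    have hF' := base_div (d := ((2 : ℕ) : ℤ) ^ s) (c := c)
      (g := 2 * (2 : ℕ) * (3 * (2 : ℤ) ^ e'))
      (by positivity) hpc h24 hF
    have hc' : 4 ∣ p - 1 := by
      rw [hs]
      exact ((pow_dvd_pow 2 (show 2 ≤ s by omega)).mul_right _)
    obtain ⟨b, hb⟩ : ∃ b : ℤ, (-1 - (p : ℤ)) = 2 * b := by
      have : 2 ∣ 1 + p := by omega
      obtain ⟨a, ha⟩ := this
      exact ⟨-a, by
        have : (1 + (p : ℤ)) = 2 * a := by exact_mod_cast ha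
        linarith⟩
    obtain ⟨X₁, X₂, hX⟩ := exists_weight_four (m := 2) (u := 12) (a := 0) (b := b)
      (lam := -1) (by norm_num) (by ring) (by ring) hb hF'
    refine weight_four_false₂ (ℓ := 2) hℓ hcz (dvd_zero _) (by norm_num) ?_ hX
    have := hp.two_le
    omega

end Fermat.Agent.Eis
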