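import Fermat.Agent.S16.Upper3
import Fermat.Agent.S16.Mod2

/-!
# The upper bound: `ℓ = 2`, `p ≡ 7 mod 8`
-/

set_option autoImplicit false
set_option linter.unusedSimpArgs false
set_option linter.unusedVariables false

open CongruenceSubgroup ModularCurve

noncomputable section

namespace Fermat.Agent.Eis

variable {p : ℕ}

theorem sigmaPZ_eq [Fact p.Prime] :
    sigmaPZ p = phiZ - PowerSeries.C (p : ℤ) * vOp p phiZ := by
  have hp0 : p ≠ 0 := (Fact.out : p.Prime).ne_zero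
  have h := eisZ_eq (p := p)
  rw [eisZ, vOp_e2Z hp0, e2Z, map_sub, map_one, ← ofNat24_eq_C] at h
  have h24 : (24 : PowerSeries ℤ) ≠ 0 := by
    rw [ofNat24_eq_C]
    intro h0
    have := congrArg (PowerSeries.coeff 0) h0
    rw [PowerSeries.coeff_zero_C] at this
    norm_num at this
  apply mul_left_cancel₀ h24
  linear_combination h

/-- the form `D` of weight four. -/
theorem exists_D [Fact p.Prime] {a e : ℤ} (ha : 1 + (p : ℤ) = 8 * a)
    (he : (p : ℤ) - 1 = 2 * (2 * e + 1)) {h h₁ : PowerSeries ℤ}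
    (hF : IsPair p 1 (PowerSeries.C (2 * e + 1) + 24 * h)
      (-(PowerSeries.C (2 * e + 1) + 24 * h₁))) :
    ∃ W₁ W₂ : PowerSeries ℤ, IsPair p 2 (PowerSeries.C a + phiZ + h + 2 * W₁)
      (vOp p phiZ + h₁ + 2 * W₂) := by
  have hp0 : p ≠ 0 := (Fact.out : p.Prime).ne_zero
  have h1 := hF.serre.neg.smul (2 * e + 1)
  have h2 := (hF.mul hF).smul p
  have h3 := h1.add h2
  rw [Nat.cast_one, one_mul, one_mul, natCast_eq_C] at h3
  set Ee : PowerSeries ℤ := PowerSeries.C e with hE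
  have hC : PowerSeries.C (2 * e + 1) = 2 * Ee + 1 := by
    rw [map_add, map_mul, map_one]; simp [hE]
  set Pp : PowerSeries ℤ := PowerSeries.C (p : ℤ) with hP
  set Aa : PowerSeries ℤ := PowerSeries.C a with hA
  have hpa : 1 + Pp = 8 * Aa := by
    have := congrArg (PowerSeries.C (R := ℤ)) ha
    rw [map_add, map_mul, map_one] at this
    simpa [hP, hA] using this
  have hpe : Pp - 1 = 2 * (2 * Ee + 1) := by
    have := congrArg (PowerSeries.C (R := ℤ)) he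
    rw [map_sub, map_mul, hC, map_one] at this
    simpa [hP] using this
  have e3 : e2Z = 1 - 24 * phiZ := rfl
  have e5 := vOp_e2Z hp0
  rw [← ofNat24_eq_C] at e5
  have e6 : thetaOp (PowerSeries.C (2 * e + 1) + 24 * h) = 24 * thetaOp h := by
    rw [thetaOp_add, thetaOp_C, ofNat24_eq_C, thetaOp_C_mul, zero_add]
  have e7 : thetaOp (-(PowerSeries.C (2 * e + 1) + 24 * h₁)) = -(24 * thetaOp h₁) := by
    rw [thetaOp_neg, thetaOp_add, thetaOp_C, ofNat24_eq_C, thetaOp_C_mul, zero_add]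
  rw [e6, e7] at h3
  rw [hC] at h3
  have h8 : (PowerSeries.C (8 : ℤ) : PowerSeries ℤ) = 8 := by simp
  refine ⟨(2 * Ee ^ 2 + 2 * Ee) * Aa - (6 * Ee ^ 2 + 6 * Ee + 2) * phiZ + (3 * Ee + 1) * h -
      36 * (2 * Ee + 1) * phiZ * h - 9 * (2 * Ee + 1) * thetaOp h +
      3 * Pp * (2 * Ee + 1) * h + 36 * Pp * h ^ 2,
    (24 * Ee ^ 3 + 42 * Ee ^ 2 + 24 * Ee + 4) * vOp p phiZ - (12 * Ee ^ 2 + 15 * Ee + 5) * h₁ +
      36 * (2 * Ee + 1) * Pp * vOp p phiZ * h₁ + 9 * (2 * Ee + 1) * thetaOp h₁ +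
      3 * Pp * (2 * Ee + 1) * h₁ + 36 * Pp * h₁ ^ 2,
    IsPair.of_smul (c := 8) (by norm_num) (h3.congr ?_ ?_)⟩
  · rw [h8, e3]
    linear_combination (2 * Ee + 1) ^ 2 * hpa
  · rw [h8, e5]
    linear_combination (24 * (2 * Ee + 1) ^ 2 * vOp p phiZ - 24 * (2 * Ee + 1) * h₁) * hpe

/-- the form `X₆`. -/
theorem exists_X [Fact p.Prime] {e : ℤ} {d χ h h₁ : PowerSeries ℤ}
    (hχ : d ^ 2 + d - thetaOp d = 2 * χ)
    (hF : IsPair p 1 (PowerSeries.C (2 * e + 1) + 24 * h)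
      (-(PowerSeries.C (2 * e + 1) + 24 * h₁)))
    (hf : IsPair p 1 (d - 2 * h) (-(d - 2 * h₁))) :
    ∃ W₁ W₂ : PowerSeries ℤ, IsPair p 3 (χ + h + thetaOp h + 2 * W₁)
      (χ + thetaOp d + h₁ + thetaOp h₁ + 2 * W₂) := by
  have hp0 : p ≠ 0 := (Fact.out : p.Prime).ne_zero
  have g1 := ((hf.mul hf).mul hF).smul 6
  have g2 := ((hf.mul hF).mul hF).smul (6 * (2 * e + 1))
  have g3 := (hF.mul hf.serre).sub (hf.mul hF.serre)
  have g4 := (g1.add g2).sub (g3.cast (show 1 + (1 + 1) = 1 + 1 + 1 by norm_num))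
  rw [Nat.cast_one, one_mul, one_mul, one_mul, natCast_eq_C] at g4
  set Ee : PowerSeries ℤ := PowerSeries.C e with hE
  have hC : PowerSeries.C (2 * e + 1) = 2 * Ee + 1 := by
    rw [map_add, map_mul, map_one]; simp [hE]
  have hC6 : PowerSeries.C (6 * (2 * e + 1)) = 6 * (2 * Ee + 1) := by
    rw [map_mul, hC]; simp
  have hC66 : (PowerSeries.C (6 : ℤ) : PowerSeries ℤ) = 6 := by simp
  have e6 : thetaOp (PowerSeries.C (2 * e + 1) + 24 * h) = 24 * thetaOp h := by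
    rw [thetaOp_add, thetaOp_C, ofNat24_eq_C, thetaOp_C_mul, zero_add]
  have e7 : thetaOp (-(PowerSeries.C (2 * e + 1) + 24 * h₁)) = -(24 * thetaOp h₁) := by
    rw [thetaOp_neg, thetaOp_add, thetaOp_C, ofNat24_eq_C, thetaOp_C_mul, zero_add]
  have h2C : (2 : PowerSeries ℤ) = PowerSeries.C 2 := by simp
  have e8 : thetaOp (d - 2 * h) = thetaOp d - 2 * thetaOp h := by
    rw [thetaOp_sub, h2C, thetaOp_C_mul]
  have e9 : thetaOp (-(d - 2 * h₁)) = -(thetaOp d - 2 * thetaOp h₁) := by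
    rw [thetaOp_neg, thetaOp_sub, h2C, thetaOp_C_mul]
  rw [e6, e7, e8, e9, hC6, hC66] at g4
  rw [hC] at g4
  have h12 : (PowerSeries.C (12 : ℤ) : PowerSeries ℤ) = 12 := by simp
  refine ⟨Ee * (χ + h + thetaOp h) + (2 * Ee + 1) * (-d * h + h ^ 2 - h) +
      (Ee ^ 2 + Ee) * (2 * Ee + 1) * (d - 2 * h) + 6 * h * (d - 2 * h) ^ 2 +
      12 * (2 * Ee + 1) ^ 2 * h * (d - 2 * h) + 144 * (2 * Ee + 1) * h ^ 2 * (d - 2 * h) -
      6 * h * (thetaOp d - 2 * thetaOp h) + 6 * (d - 2 * h) * thetaOp h,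
    -(Ee + 1) * (χ + thetaOp d) + Ee * (h₁ + thetaOp h₁) + (2 * Ee + 1) * (d * h₁ - h₁ ^ 2) -
      (Ee ^ 2 + Ee) * (2 * Ee + 1) * (d - 2 * h₁) - 6 * h₁ * (d - 2 * h₁) ^ 2 -
      12 * (2 * Ee + 1) ^ 2 * h₁ * (d - 2 * h₁) - 144 * (2 * Ee + 1) * h₁ ^ 2 * (d - 2 * h₁) -
      6 * h₁ * (thetaOp d - 2 * thetaOp h₁) + 6 * (d - 2 * h₁) * thetaOp h₁,
    IsPair.of_smul (c := 12) (by norm_num) ((g4.cast rfl).congr ?_ ?_)⟩
  · rw [h12]
    linear_combination (6 * (2 * Ee + 1)) * hχ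
  · rw [h12]
    linear_combination (-6 * (2 * Ee + 1)) * hχ

/-- the form `Ξ` of weight six: `X₆ + (3 θ D - E₂ D)`. -/
theorem exists_Xi [Fact p.Prime] {a k : ℤ} {d χ h h₁ W₁ W₂ W₃ W₄ : PowerSeries ℤ}
    (hk : (p : ℤ) = 2 * k + 1)
    (hD : IsPair p 2 (PowerSeries.C a + phiZ + h + 2 * W₁) (vOp p phiZ + h₁ + 2 * W₂))
    (hX : IsPair p 3 (χ + h + thetaOp h + 2 * W₃) (χ + thetaOp d + h₁ + thetaOp h₁ + 2 * W₄)) :
    ∃ W₅ W₆ : PowerSeries ℤ, IsPair p 3 (χ + thetaOp phiZ + PowerSeries.C a + phiZ + 2 * W₅)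
      (χ + thetaOp d + thetaOp (vOp p phiZ) + vOp p phiZ + 2 * W₆) := by
  have hp0 : p ≠ 0 := (Fact.out : p.Prime).ne_zero
  have hkC : (PowerSeries.C (p : ℤ) : PowerSeries ℤ) = 2 * PowerSeries.C k + 1 := by
    rw [hk, map_add, map_mul, map_one]; simp
  have h2C : (2 : PowerSeries ℤ) = PowerSeries.C 2 := by simp
  have e1 : thetaOp (PowerSeries.C a + phiZ + h + 2 * W₁) =
      thetaOp phiZ + thetaOp h + 2 * thetaOp W₁ := by
    rw [thetaOp_add, thetaOp_add, thetaOp_add, thetaOp_C, h2C, thetaOp_C_mul, zero_add]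
  have e2 : thetaOp (vOp p phiZ + h₁ + 2 * W₂) =
      thetaOp (vOp p phiZ) + thetaOp h₁ + 2 * thetaOp W₂ := by
    rw [thetaOp_add, thetaOp_add, h2C, thetaOp_C_mul]
  have g1 := hX.add (IsPair.of_smul (c := 2) (by norm_num) (hD.serre.congr
    (A' := PowerSeries.C 2 * (3 * (thetaOp phiZ + thetaOp h + 2 * thetaOp W₁) -
      (1 - 24 * phiZ) * (PowerSeries.C a + phiZ + h + 2 * W₁)))
    (B' := PowerSeries.C 2 * (3 * (thetaOp (vOp p phiZ) + thetaOp h₁ + 2 * thetaOp W₂) -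
      PowerSeries.C (p : ℤ) * (1 - 24 * vOp p phiZ) * (vOp p phiZ + h₁ + 2 * W₂))) ?_ ?_))
  · refine ⟨W₃ + thetaOp phiZ + 2 * thetaOp h + 3 * thetaOp W₁ -
        (PowerSeries.C a + phiZ + W₁) + 12 * phiZ * (PowerSeries.C a + phiZ + h + 2 * W₁),
      W₄ + thetaOp (vOp p phiZ) + 2 * thetaOp h₁ + 3 * thetaOp W₂ -
        (PowerSeries.C k + 1) * vOp p phiZ - PowerSeries.C k * h₁ -
        PowerSeries.C (p : ℤ) * W₂ +
        12 * PowerSeries.C (p : ℤ) * vOp p phiZ * (vOp p phiZ + h₁ + 2 * W₂), g1.congr ?_ ?_⟩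
    · ring
    · rw [hkC]
      ring
  · rw [e1, ← h2C, e2Z]
    push_cast
    ring
  · rw [e2, ← h2C, vOp_e2Z hp0, ← ofNat24_eq_C, natCast_eq_C]
    push_cast
    rw [show (PowerSeries.C (2 * (p : ℤ)) : PowerSeries ℤ) = 2 * PowerSeries.C (p : ℤ) by
      rw [map_mul]; simp]
    ring

theorem thetaOp_vOp (hp : p ≠ 0) (A : PowerSeries ℤ) :
    thetaOp (vOp p A) = PowerSeries.C (p : ℤ) * vOp p (thetaOp A) := by
  ext n
  simp only [thetaOp, vOp, PowerSeries.coeff_mk, PowerSeries.coeff_C_mul]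
  split_ifs with h
  · obtain ⟨m, rfl⟩ := h
    rw [Nat.mul_div_cancel_left _ (Nat.pos_of_ne_zero hp)]
    push_cast
    ring
  · ring

theorem two_eq_zero : (2 : PowerSeries (ZMod 2)) = 0 := by
  have h := map_ofNat (PowerSeries.C (R := ZMod 2)) 2
  have h2 : (OfNat.ofNat 2 : ZMod 2) = 0 := rfl
  rw [h2, map_zero] at h
  exact h.symm

/-- the mod 2 identity -/
theorem mod_two_identity {R : Type*} [CommRing R] (h2 : (2 : R) = 0) {x y k kp a : R}
    (hk : k ^ 2 + k = (x + 1) * (x ^ 2 + x)) (hkp : kp ^ 2 + kp = (y + 1) * (y ^ 2 + y))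
    (ha : a ^ 2 = a) {Xi δ D : R} (hδ : δ = x + y) (hD : D = x ^ 2 + x)
    (hXi : Xi = k + D ^ 2 + D + x * y + y ^ 2 + (kp + (y ^ 2 + y) ^ 2 + (y ^ 2 + y)) + y + D + a +
      x) :
    Xi ^ 2 + Xi + δ ^ 8 + δ ^ 2 + D + δ ^ 3 + δ + D * δ ^ 2 + D * δ = D ^ 2 := by
  subst hδ hD hXi
  linear_combination hk + hkp + ha + (
      1*x^4*k + 2*x^3*k + 3*x^2*k + 3*x*k + 1*x*y*k + 3*y^2*k + 1*k*kp + 1*y^4*k + 2*y^3*k +
      2*y*k + 1*k*a + 1*x^8 + 2*x^7 + 5*x^6 + 9*x^5 + 1*x^5*y + 3*x^4*y^2 + 1*x^4*kp +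
      36*x^4*y^4 + 2*x^4*y^3 + 4*x^4*y + 1*x^4*a + 11*x^4 + 6*x^3*y^2 + 2*x^3*kp + 2*x^3*y^4 +
      4*x^3*y^3 + 8*x^3*y + 2*x^3*a + 11*x^3 + 10*x^2*y^2 + 3*x^2*kp + 3*x^2*y^4 + 6*x^2*y^3 +
      12*x^2*y + 3*x^2*a + 8*x^2 + 13*x*y^2 + 3*x*kp + 5*x*y^4 + 9*x*y^3 + 8*x*y + 3*x*a +
      1*x*y*kp + 1*x*y^5 + 1*x*y*a + 9*y^4 + 3*y^2*kp + 5*y^6 + 8*y^5 + 8*y^3 + 3*y^2*a +
      1*y^4*kp + 2*y^3*kp + 2*y*kp + 1*kp*a + 1*y^8 + 2*y^7 + 1*y^4*a + 2*y^3*a + 5*y^2 + 2*y*a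
      + 3*x + 2*y + 1*a + 4*x^7*y + 14*x^6*y^2 + 28*x^5*y^3 + 28*x^3*y^5 + 14*x^2*y^6 + 4*x*y^7) * h2

theorem red_two_mul (W : PowerSeries ℤ) : red 2 (2 * W) = 0 := by
  rw [map_mul, map_ofNat, two_eq_zero, zero_mul]

theorem order_red_deltaZ {ℓ : ℕ} [Fact ℓ.Prime] : (red ℓ deltaZ).order = 1 := by
  have h2 : deltaZ.coeff 1 = 1 := by
    rw [deltaZ, ← zero_add 1, PowerSeries.coeff_succ_X_mul,
      PowerSeries.coeff_zero_eq_constantCoeff, ModularCurve.constantCoeff_dedekindEtaUnit]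
  rw [show (1 : ℕ∞) = ((1 : ℕ) : ℕ∞) from rfl, PowerSeries.order_eq_nat]
  constructor
  · rw [coeff_red, h2]
    simp
  · intro i hi
    have : i = 0 := by omega
    subst this
    rw [coeff_red, coeff_zero_deltaZ, Int.cast_zero]

theorem zmod2_sq (z : ZMod 2) : z ^ 2 = z := by revert z; decide

theorem red_Y {R : Type*} [CommRing R] (r : PowerSeries ℤ →+* R) (X F f D : PowerSeries ℤ)
    {δ Δ : R} (hF : r F = 1) (hf : r f = δ) (hD : r D = Δ) :
    r (X ^ 2 * F ^ 2 + X * F ^ 5 + f ^ 8 + f ^ 2 * F ^ 6 + D * F ^ 2 + f ^ 3 * F ^ 5 + f * F ^ 7 +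
      D * f ^ 2 + D * f * F) = r X ^ 2 + r X + δ ^ 8 + δ ^ 2 + Δ + δ ^ 3 + δ + Δ * δ ^ 2 + Δ * δ := by
  simp only [map_add, map_mul, map_pow, hF, hf, hD, one_pow, mul_one]

theorem not_cong_two [Fact p.Prime] (hp : p % 8 = 7) (hc : Cong p 2) : False := by
  have hp0 : p ≠ 0 := (Fact.out : p.Prime).ne_zero
  have : Fact (Nat.Prime 2) := ⟨Nat.prime_two⟩
  obtain ⟨f, A, hA, hr⟩ := hc
  obtain ⟨h, hg0, hAh, hF0⟩ := exists_base f A hA _ hr
  obtain ⟨n, hn⟩ : ∃ n : ℕ, p = 8 * n + 7 := ⟨p / 8, by omega⟩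
  set a : ℤ := n + 1 with ha
  set e : ℤ := 2 * n + 1 with he
  have h1 : 1 + (p : ℤ) = 8 * a := by rw [hn, ha]; push_cast; ring
  have h2 : (p : ℤ) - 1 = 2 * (2 * e + 1) := by rw [hn, he]; push_cast; ring
  have h3 : (p : ℤ) = 2 * (2 * e + 1) + 1 := by linarith
  set h₁ := uOp p h with hh₁
  set d := sigmaPZ p with hd
  have hC2 : (PowerSeries.C (2 : ℤ) : PowerSeries ℤ) = 2 := by simp
  have hC24 : (PowerSeries.C (24 : ℤ) : PowerSeries ℤ) = 24 := by simp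
  have hF : IsPair p 1 (PowerSeries.C (2 * e + 1) + 24 * h)
      (-(PowerSeries.C (2 * e + 1) + 24 * h₁)) := by
    have := base_div (d := 2) (c := 2 * e + 1) (g := 24) two_ne_zero h2 (by ring) hF0
    rwa [hC24] at this
  have hf : IsPair p 1 (d - 2 * h) (-(d - 2 * h₁)) := by
    have h4 := isPair_two (CuspForm.isG0 f) hA
    have h5 : uOp p A = d - 2 * h₁ := by
      rw [hAh, uOp_sub, uOp_C_mul, uOp_sigmaPZ, hC2]
    rwa [h5, hAh, hC2] at h4
  obtain ⟨κ, hκ⟩ := exists_kappa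
  obtain ⟨W₀, hW₀⟩ := theta_phi_mod4
  obtain ⟨W₁, hW₁⟩ := kappa_mod2 hκ
  have hκp := congrArg (vOp p) hκ
  rw [vOp_sub p hp0, vOp_add p hp0, vOp_pow hp0, vOp_mul hp0] at hκp
  have hv2 : vOp p (2 : PowerSeries ℤ) = 2 := by
    have := vOp_natCast p hp0 2
    exact_mod_cast this
  rw [hv2] at hκp
  -- `d = φ - p φ_p`
  have hdφ : d = phiZ - PowerSeries.C (p : ℤ) * vOp p phiZ := sigmaPZ_eq
  have hθd : thetaOp d = thetaOp phiZ - PowerSeries.C (p : ℤ) *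
      (PowerSeries.C (p : ℤ) * vOp p (thetaOp phiZ)) := by
    rw [hdφ, thetaOp_sub, thetaOp_C_mul, thetaOp_vOp hp0]
  set Pp : PowerSeries ℤ := PowerSeries.C (p : ℤ) with hPp
  set Ee : PowerSeries ℤ := PowerSeries.C e with hEe
  have hPE : Pp = 2 * (2 * Ee + 1) + 1 := by
    rw [hPp, hEe, h3]
    simp only [map_add, map_mul, map_one]
    simp
  set χ : PowerSeries ℤ := κ - Pp * phiZ * vOp p phiZ + Pp ^ 2 * vOp p phiZ ^ 2 -
    Pp ^ 2 * vOp p κ + Pp * (2 * Ee + 1) * vOp p phiZ with hχ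
  have hχ2 : d ^ 2 + d - thetaOp d = 2 * χ := by
    rw [hθd, hdφ, hχ]
    linear_combination hκ - Pp ^ 2 * hκp + (Pp * vOp p phiZ) * hPE
  obtain ⟨W₂, W₃, hD⟩ := exists_D h1 h2 hF
  obtain ⟨W₄, W₅, hX⟩ := exists_X hχ2 hF hf
  obtain ⟨W₆, W₇, hXi⟩ := exists_Xi (k := 2 * e + 1) h3 hD hX
  -- the form of weight 16
  have Y1 := ((hXi.pow 2).mul (hF.pow 2)).cast (show 2 * 3 + 2 * 1 = 8 by norm_num)
  have Y2 := (hXi.mul (hF.pow 5)).cast (show 3 + 5 * 1 = 8 by norm_num)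
  have Y3 := (hf.pow 8).cast (show 8 * 1 = 8 by norm_num)
  have Y4 := ((hf.pow 2).mul (hF.pow 6)).cast (show 2 * 1 + 6 * 1 = 8 by norm_num)
  have Y5 := ((isPair_delta (p := p)).mul (hF.pow 2)).cast (show 6 + 2 * 1 = 8 by norm_num)
  have Y6 := ((hf.pow 3).mul (hF.pow 5)).cast (show 3 * 1 + 5 * 1 = 8 by norm_num)
  have Y7 := (hf.mul (hF.pow 7)).cast (show 1 + 7 * 1 = 8 by norm_num)
  have Y8 := ((isPair_delta (p := p)).mul (hf.pow 2)).cast (show 6 + 2 * 1 = 8 by norm_num)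
  have Y9 := (((isPair_delta (p := p)).mul hf).mul hF).cast (show 6 + 1 + 1 = 8 by norm_num)
  have Y := (((((((Y1.add Y2).add Y3).add Y4).add Y5).add Y6).add Y7).add Y8).add Y9
  -- reductions
  have t0 := two_eq_zero
  have t24 : (24 : PowerSeries (ZMod 2)) = 0 := by linear_combination 12 * t0
  have t4 : (4 : PowerSeries (ZMod 2)) = 0 := by linear_combination 2 * t0
  set x := red 2 phiZ with hx
  set D := red 2 deltaZ with hDd
  have hy : red 2 (vOp p phiZ) = PowerSeries.expand p hp0 x := red_vOp hp0 _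
  have hDp : red 2 (vOp p deltaZ) = PowerSeries.expand p hp0 D := red_vOp hp0 _
  set y := PowerSeries.expand p hp0 x with hyd
  set Dp := PowerSeries.expand p hp0 D with hDpd
  have rθ : red 2 (thetaOp phiZ) = D := by
    rw [hW₀, map_add, map_add, map_mul, map_mul, map_ofNat, map_ofNat, t0, t4]
    ring
  have kD : D = x ^ 2 + x := by
    have := congrArg (red 2) hκ
    rw [red_two_mul, map_sub, map_add, map_pow, rθ, ← hx] at this
    linear_combination -this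
  have kDp : Dp = y ^ 2 + y := by
    rw [hDpd, kD, map_add, map_pow]
  set k := red 2 (κ + deltaZ ^ 2 + deltaZ) with hkd
  have hkk : k ^ 2 + k = (x + 1) * (x ^ 2 + x) := by
    have := congrArg (red 2) hW₁
    rw [map_add, map_pow, map_add (red 2) (_ * _), red_two_mul, map_mul, map_add (red 2) phiZ,
      map_one, ← hkd, ← hx, ← hDd, kD] at this
    rw [this, add_zero]
  set kp := PowerSeries.expand p hp0 k with hkpd
  have hkpk : kp ^ 2 + kp = (y + 1) * (y ^ 2 + y) := by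
    have := congrArg (PowerSeries.expand p hp0) hkk
    simp only [map_add, map_mul, map_pow, map_one] at this
    exact this
  have rκ : red 2 κ = k - D ^ 2 - D := by
    rw [hkd, map_add, map_add, map_pow]
    ring
  have rκp : red 2 (vOp p κ) = kp - Dp ^ 2 - Dp := by
    rw [red_vOp hp0, rκ, map_sub, map_sub, map_pow]
  have rP : red 2 Pp = 1 := by
    rw [hPE, map_add, map_one, red_two_mul, zero_add]
  have r2 : red 2 (2 : PowerSeries ℤ) = 0 := by rw [map_ofNat, t0]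
  have rχ : red 2 χ = k - D ^ 2 - D - x * y + y ^ 2 - (kp - Dp ^ 2 - Dp) + y := by
    rw [hχ]
    simp only [map_add, map_sub, map_mul, map_pow, rP, rκ, rκp, hy, ← hx, r2, map_one]
    ring
  have rθd : red 2 (thetaOp d) = D - Dp := by
    rw [hθd]
    simp only [map_sub, map_mul, rP, rθ, red_vOp hp0]
    ring
  have rθφ : red 2 (thetaOp (vOp p phiZ)) = Dp := by
    rw [thetaOp_vOp hp0, map_mul, red_vOp hp0, rθ, rP, one_mul]
  have rd : red 2 d = x + y := by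
    rw [hdφ, map_sub, map_mul, rP, hy, ← hx]
    linear_combination -y * t0
  have rF : red 2 (PowerSeries.C (2 * e + 1) + 24 * h) = 1 := by
    rw [map_add, red_C, map_mul, map_ofNat, t24, zero_mul, add_zero]
    have : ((2 * e + 1 : ℤ) : ZMod 2) = 1 := by
      push_cast
      have h2 : (2 : ZMod 2) = 0 := rfl
      rw [h2]; ring
    rw [this, map_one]
  have rF' : red 2 (-(PowerSeries.C (2 * e + 1) + 24 * h₁)) = 1 := by
    rw [map_neg, map_add, red_C, map_mul, map_ofNat, t24, zero_mul, add_zero]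
    have : ((2 * e + 1 : ℤ) : ZMod 2) = 1 := by
      push_cast
      have h2 : (2 : ZMod 2) = 0 := rfl
      rw [h2]; ring
    rw [this, map_one]
    linear_combination -t0
  have rf : red 2 (d - 2 * h) = x + y := by
    rw [map_sub, red_two_mul, sub_zero, rd]
  have rf' : red 2 (-(d - 2 * h₁)) = x + y := by
    rw [map_neg, map_sub, red_two_mul, sub_zero, rd]
    linear_combination (-x - y) * t0
  have rδ' : red 2 (PowerSeries.C ((p : ℤ) ^ 6) * vOp p deltaZ) = Dp := by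
    rw [map_pow, map_mul, map_pow, ← hPp, rP, hDp]
    ring
  set aa := red 2 (PowerSeries.C a) with haa
  have haa2 : aa ^ 2 = aa := by
    rw [haa, red_C, ← map_pow]
    congr 1
    exact zmod2_sq _
  have rXi : red 2 (χ + thetaOp phiZ + PowerSeries.C a + phiZ + 2 * W₆) =
      k + D ^ 2 + D + x * y + y ^ 2 + (kp + (y ^ 2 + y) ^ 2 + (y ^ 2 + y)) + y + D + aa + x := by
    rw [map_add, red_two_mul, map_add, map_add, map_add, rχ, rθ, ← hx, ← haa, kDp]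
    linear_combination (-D ^ 2 - D - x * y - kp) * t0
  have rXi' : red 2 (χ + thetaOp d + thetaOp (vOp p phiZ) + vOp p phiZ + 2 * W₇) =
      kp + Dp ^ 2 + Dp + y * x + x ^ 2 + (k + (x ^ 2 + x) ^ 2 + (x ^ 2 + x)) + x + Dp + 0 + y := by
    rw [map_add, red_two_mul, map_add, map_add, map_add, rχ, rθd, rθφ, hy, kDp, kD]
    linear_combination (-1*x^4 - 2*x^3 - 2*x^2 - 1*x*y - 1*kp - 1*x) * t0
  have I1 := mod_two_identity t0 hkk hkpk haa2 rfl kD rXi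
  have I2 := mod_two_identity t0 hkpk hkk (by ring : (0 : PowerSeries (ZMod 2)) ^ 2 = 0)
    (add_comm x y) kDp rXi'
  refine Y.valence (ℓ := 2) (by rintro rfl; omega) (by norm_num) (o := 2 * p) (t := 2) ?_ ?_
    (by omega)
  · rw [red_Y (red 2) _ _ _ _ rF' rf' rδ', I2, PowerSeries.order_pow, hDpd,
      PowerSeries.order_expand, hDd, order_red_deltaZ]
    simp
  · rw [red_Y (red 2) _ _ _ _ rF rf hDd.symm, I1, PowerSeries.order_pow, hDd, order_red_deltaZ]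
    simp

end Fermat.Agent.Eis
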