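import Fermat.Agent.S16.Pair4

/-!
# The valence inequality mod `ℓ ≠ p`
-/

set_option autoImplicit false
set_option linter.unusedSimpArgs false
set_option linter.unusedVariables false

noncomputable section

namespace Fermat.Agent.Eis

variable {p ℓ : ℕ}

/-- reduction mod `ℓ` -/
def red (ℓ : ℕ) : PowerSeries ℤ →+* PowerSeries (ZMod ℓ) := PowerSeries.map (Int.castRingHom _)

@[simp] theorem coeff_red (A : PowerSeries ℤ) (n : ℕ) :
    (red ℓ A).coeff n = ((A.coeff n : ℤ) : ZMod ℓ) := by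
  simp [red]

theorem dvd_coeff_iff (A : PowerSeries ℤ) (n : ℕ) :
    (ℓ : ℤ) ∣ A.coeff n ↔ (red ℓ A).coeff n = 0 := by
  rw [coeff_red, ZMod.intCast_zmod_eq_zero_iff_dvd]

theorem red_eq_zero_iff (A : PowerSeries ℤ) : red ℓ A = 0 ↔ ∃ B, A = PowerSeries.C (ℓ : ℤ) * B := by
  constructor
  · intro h
    have h1 : ∀ n, (ℓ : ℤ) ∣ A.coeff n := fun n => by
      rw [dvd_coeff_iff, h]; simp
    choose b hb using h1
    refine ⟨PowerSeries.mk b, ?_⟩
    ext n
    rw [PowerSeries.coeff_C_mul, PowerSeries.coeff_mk, hb]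
  · rintro ⟨B, rfl⟩
    ext n
    rw [coeff_red, PowerSeries.coeff_C_mul]
    simp

theorem red_C (c : ℤ) : red ℓ (PowerSeries.C c) = PowerSeries.C (c : ZMod ℓ) := by
  simp [red]

theorem order_eq_zero_of_coeff {F : Type*} [Field F] {P : PowerSeries F} (h : P.coeff 0 ≠ 0) :
    P.order = 0 := by
  by_contra h1
  exact h (by
    rw [PowerSeries.coeff_zero_eq_constantCoeff]
    exact PowerSeries.order_ne_zero_iff_constCoeff_eq_zero.mp h1)

theorem order_red_phiB [Fact p.Prime] [Fact ℓ.Prime] (hℓ : ℓ ≠ p) :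
    (red ℓ (phiB p)).order = ((p * p - 1 : ℕ) : ℕ∞) := by
  have hp0 : p ≠ 0 := (Fact.out : p.Prime).ne_zero
  have hpl : ((p : ℤ) : ZMod ℓ) ≠ 0 := by
    intro h
    rw [ZMod.intCast_zmod_eq_zero_iff_dvd] at h
    have : ℓ ∣ p := by exact_mod_cast h
    exact hℓ ((Nat.prime_dvd_prime_iff_eq Fact.out Fact.out).mp this)
  rw [phiB, map_mul (red ℓ), map_mul (red ℓ), map_mul (red ℓ), map_pow (red ℓ) PowerSeries.X,
    map_pow (red ℓ) (vOp p _), red_C, PowerSeries.order_mul,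
    PowerSeries.order_mul, PowerSeries.order_mul, PowerSeries.order_pow, PowerSeries.order_pow]
  have h1 : (red ℓ PowerSeries.X : PowerSeries (ZMod ℓ)) = PowerSeries.X := by simp [red]
  have h2 : (PowerSeries.C ((((p : ℤ) ^ (6 * (p + 1)) : ℤ)) : ZMod ℓ) :
      PowerSeries (ZMod ℓ)).order = 0 := by
    apply order_eq_zero_of_coeff
    rw [PowerSeries.coeff_zero_C, Int.cast_pow]
    exact pow_ne_zero _ hpl
  have h3 : (red ℓ (vOp p ModularCurve.dedekindEtaUnit)).order = 0 := by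
    apply order_eq_zero_of_coeff
    rw [coeff_red, vOp_eq_expand hp0, PowerSeries.coeff_zero_eq_constantCoeff,
      PowerSeries.constantCoeff_expand, ModularCurve.constantCoeff_dedekindEtaUnit]
    simp
  have h4 : (red ℓ ModularCurve.dedekindEtaUnitInv).order = 0 := by
    apply order_eq_zero_of_coeff
    rw [coeff_red, PowerSeries.coeff_zero_eq_constantCoeff,
      ModularCurve.constantCoeff_dedekindEtaUnitInv]
    simp
  rw [h1, h2, h3, h4, PowerSeries.order_X]
  simp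

theorem IsPair.valence_aux [Fact p.Prime] [Fact ℓ.Prime] (hℓ : ℓ ≠ p) {j : ℕ} (hj : 0 < j)
    {A B : PowerSeries ℤ} (h : IsPair p j A B) {o t : ℕ} (hB : (red ℓ B).order = o)
    (hA : (t : ℕ∞) ≤ (red ℓ A).order) (hto : 2 * j * (p + 1) < 12 * (t + o)) (hot : o ≤ t) :
    False := by
  have hp2 : 2 ≤ p := (Fact.out : p.Prime).two_le
  set y₁ : ℕ := if 12 * o ≤ 2 * p * j then 2 * (2 * p * j - 12 * o) + 1 else 0 with hy₁
  obtain ⟨q, rfl⟩ : ∃ q, p = q + 1 := ⟨p - 1, by omega⟩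
  set M₁ : ℕ := 24 * q with hM₁
  set N : ℕ := M₁ * o + y₁ * ((q + 1) * (q + 1) - 1) with hN
  have hq1 : 1 ≤ q := by omega
  have hsq : (q + 1) * (q + 1) - 1 = q * (q + 2) := by
    have : (q + 1) * (q + 1) = q * (q + 2) + 1 := by ring
    omega
  rw [hsq] at hN
  have hJ : 0 < (q + 1) * M₁ * j + (q + 1) * y₁ * (6 * (q + 1 - 1)) := by positivity
  obtain ⟨J, hJ'⟩ : ∃ J, (q + 1) * M₁ * j + (q + 1) * y₁ * (6 * (q + 1 - 1)) = J + 1 :=
    ⟨_, (Nat.succ_pred_eq_of_pos hJ).symm⟩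
  have h1 := (((h.pow ((q + 1) * M₁)).mul (isPair_phi.pow ((q + 1) * y₁))).cast hJ').trace
  have e1 : q + 1 - 1 = q := by omega
  rw [e1] at hJ'
  -- numerical facts
  have hnum1 : 2 * (J + 1) < 12 * N := by
    rw [← hJ', hN, hM₁]
    by_cases hc : 12 * o ≤ 2 * (q + 1) * j
    · rw [if_pos hc] at hy₁
      obtain ⟨d, hd⟩ := Nat.exists_eq_add_of_le hc
      have hd' : 2 * (q + 1) * j - 12 * o = d := by omega
      rw [hd'] at hy₁
      rw [hy₁]
      nlinarith [hd, hq1]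
    · rw [if_neg hc] at hy₁
      rw [hy₁]
      push Not at hc
      nlinarith [hc, hq1]
  have hnum2 : N < (q + 1) * M₁ * t := by
    rw [hN, hM₁]
    by_cases hc : 12 * o ≤ 2 * (q + 1) * j
    · rw [if_pos hc] at hy₁
      obtain ⟨d, hd⟩ := Nat.exists_eq_add_of_le hc
      have hd' : 2 * (q + 1) * j - 12 * o = d := by omega
      rw [hd'] at hy₁
      rw [hy₁]
      have hto' : 2 * j * (q + 2) + 1 ≤ 12 * (t + o) := hto
      have k1 := Nat.mul_le_mul_left (2 * (q + 1)) hto'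
      have k2 : 2 * (q + 1) * (2 * j * (q + 2) + 1) = 2 * (q + 2) * (12 * o + d) + 2 * (q + 1) := by
        rw [← hd]; ring
      rw [k2] at k1
      have k3 : 24 * o + (2 * d + 1) * (q + 2) < 24 * (q + 1) * t := by nlinarith [k1, hq1]
      have k4 := Nat.mul_lt_mul_of_pos_left k3 (by omega : 0 < q)
      calc _ = q * (24 * o + (2 * d + 1) * (q + 2)) := by ring
        _ < q * (24 * (q + 1) * t) := k4
        _ = _ := by ring
    · rw [if_neg hc] at hy₁
      rw [hy₁]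
      push Not at hc
      have ht : 0 < t := by
        rcases Nat.eq_zero_or_pos t with h0 | h0
        · exfalso
          have : o = 0 := by omega
          subst this
          simp at hc
        · exact h0
      have k3 : o < (q + 1) * t := by nlinarith [ht, hot, hq1]
      have k4 := Nat.mul_lt_mul_of_pos_left k3 (by omega : 0 < 24 * q)
      calc _ = 24 * q * o := by ring
        _ < 24 * q * ((q + 1) * t) := k4
        _ = _ := by ring
  -- orders
  set P₁ := A ^ ((q + 1) * M₁) * phiA (q + 1) ^ ((q + 1) * y₁) with hP₁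
  set P₂ := B ^ ((q + 1) * M₁) * phiB (q + 1) ^ ((q + 1) * y₁) with hP₂
  have ho1 : ((N + 1 : ℕ) : ℕ∞) ≤ (red ℓ P₁).order := by
    rw [hP₁, map_mul, map_pow, PowerSeries.order_mul, PowerSeries.order_pow]
    have k1 : (((q + 1) * M₁ * t : ℕ) : ℕ∞) ≤ ((q + 1) * M₁) • (red ℓ A).order := by
      rw [nsmul_eq_mul]
      push_cast
      gcongr
    calc ((N + 1 : ℕ) : ℕ∞) ≤ (((q + 1) * M₁ * t : ℕ) : ℕ∞) := by exact_mod_cast hnum2
      _ ≤ _ := k1
      _ ≤ _ := le_self_add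
  have ho2 : (red ℓ P₂).order = ((N * (q + 1) : ℕ) : ℕ∞) := by
    rw [hP₂, map_mul, map_pow, map_pow, PowerSeries.order_mul, PowerSeries.order_pow,
      PowerSeries.order_pow, hB, order_red_phiB hℓ, hsq, hN]
    rw [nsmul_eq_mul, nsmul_eq_mul]
    norm_cast
    ring
  have hc2 := PowerSeries.order_eq_nat.mp ho2
  have hZ : ∀ n, ((PowerSeries.C (((q + 1 : ℕ) : ℤ) ^ J) * P₁ + uOp (q + 1) P₂).coeff n : ZMod ℓ) =
      ((((q + 1 : ℕ) : ℤ) ^ J : ℤ) : ZMod ℓ) * (red ℓ P₁).coeff n +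
        (red ℓ P₂).coeff (n * (q + 1)) := by
    intro n
    rw [map_add, PowerSeries.coeff_C_mul, uOp, PowerSeries.coeff_mk, coeff_red, coeff_red]
    push_cast
    ring
  have hcast : (2 * ((J + 1 : ℕ) : ℤ)) = ((2 * (J + 1) : ℕ) : ℤ) := by push_cast; ring
  have h2 := (h1.cast hcast).sturm (ℓ := (ℓ : ℤ)) (fun n hn => by
    rw [← ZMod.intCast_zmod_eq_zero_iff_dvd, hZ n]
    have hnN : n < N := by omega
    rw [PowerSeries.coeff_of_lt_order n (lt_of_lt_of_le (by exact_mod_cast Nat.lt_succ_of_lt hnN)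
      ho1), hc2.2 (n * (q + 1)) (by exact Nat.mul_lt_mul_of_pos_right hnN (by omega))]
    simp) N
  rw [← ZMod.intCast_zmod_eq_zero_iff_dvd, hZ N,
    PowerSeries.coeff_of_lt_order N (lt_of_lt_of_le (by exact_mod_cast Nat.lt_succ_self N) ho1),
    mul_zero, zero_add] at h2
  exact hc2.1 h2

/-- **The valence inequality mod `ℓ`.** -/
theorem IsPair.valence [Fact p.Prime] [Fact ℓ.Prime] (hℓ : ℓ ≠ p) {j : ℕ} (hj : 0 < j)
    {A B : PowerSeries ℤ} (h : IsPair p j A B) {o t : ℕ} (hB : (red ℓ B).order = o)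
    (hA : (t : ℕ∞) ≤ (red ℓ A).order) (hto : 2 * j * (p + 1) < 12 * (t + o)) : False := by
  by_cases hA0 : red ℓ A = 0
  · refine h.valence_aux hℓ hj hB (t := max t o) ?_ ?_ (le_max_right _ _)
    · rw [hA0, PowerSeries.order_zero]
      exact le_top
    · have := le_max_left t o
      omega
  · obtain ⟨t', ht'⟩ : ∃ t' : ℕ, (red ℓ A).order = t' :=
      ⟨_, (PowerSeries.coe_toNat_order hA0).symm⟩
    rw [ht'] at hA
    have htt : t ≤ t' := by exact_mod_cast hA
    rcases le_total o t' with h1 | h1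
    · exact h.valence_aux hℓ hj hB ht'.ge (by nlinarith) h1
    · exact h.swap.valence_aux hℓ hj ht' hB.ge (by nlinarith) h1

end Fermat.Agent.Eis
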